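import Mathlib
import Fermat.Agent.LT.Base.Residue
import Fermat.Agent.LT.Galois.Quaternion
import Fermat.Agent.LT.Descent.Geom.Galois0

set_option autoImplicit false

/-!
# The Galois group of `F/K`
-/

noncomputable section

open NumberField IsDedekindDomain

namespace FermatAgent.LT

local notation "Qb" => AlgebraicClosure ℚ
local notation "GQ" => AlgebraicClosure ℚ ≃ₐ[ℚ] AlgebraicClosure ℚ

attribute [local instance] FermatAgent.RT.isGalois_algClosureRat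

set_option synthInstance.maxSize 1024 in
theorem GL2F3.tsl2_gen : ∀ g : GL2F3.Tup, GL2F3.tdet g = 1 → ¬ GL2F3.TQ8 g →
    ∀ h : GL2F3.Tup, GL2F3.tdet h = 1 →
      ∃ k : Fin 3, GL2F3.TQ8 (GL2F3.tmul (GL2F3.tpow g k.1) h) := by
  decide +kernel

variable {S : Setup} {σ : S.F ≃+* S.F}

/-- A lift of `σ` to the algebraic closure. -/
theorem Setup.IsGalGen.exists_lift_ne (hσ : S.IsGalGen σ) :
    ∃ g : GQ, g ∈ S.K.fixingSubgroup ∧ (∀ x : S.F, g x = σ x) ∧ S.ρ g ∉ quaternionSubgroup := by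
  let σ' : S.F ≃ₐ[ℚ] S.F := AlgEquiv.ofRingEquiv (f := σ) fun r => map_ratCast σ r
  have hg : ∀ x : S.F, σ'.liftNormal Qb (x : Qb) = σ x := fun x =>
    σ'.liftNormal_commutes Qb x
  refine ⟨σ'.liftNormal Qb, ?_, hg, fun hq => hσ.1 (RingEquiv.ext fun x => Subtype.ext ?_)⟩
  · rintro ⟨y, hy⟩
    show σ'.liftNormal Qb y = y
    exact (hg (S.inclKF ⟨y, hy⟩)).trans (congrArg Subtype.val (hσ.2 ⟨y, hy⟩))
  · exact (hg x).symm.trans (S.apply_eq_self_of_q8 hq x.2)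

/-- The fixed field of a generator is `K`. -/
theorem Setup.IsGalGen.exists_of_fixed (hσ : S.IsGalGen σ) {x : S.F} (hx : σ x = x) :
    ∃ y, S.inclKF y = x := by
  obtain ⟨g, hgK, hg, hgq⟩ := hσ.exists_lift_ne
  have hgx : g (x : Qb) = x := by rw [hg, hx]
  suffices hK : (x : Qb) ∈ S.K from ⟨⟨x, hK⟩, Subtype.ext rfl⟩
  rintro ⟨h, hh⟩
  show h (x : Qb) = x
  rw [Subgroup.mem_comap, MonoidHom.mem_ker] at hh
  have hdet : ∀ a : GL (Fin 2) (ZMod 3), Matrix.GeneralLinearGroup.det a = 1 →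
      GL2F3.tdet (GL2F3.toTup (a : Matrix (Fin 2) (Fin 2) (ZMod 3))) = 1 := fun a ha => by
    rw [GL2F3.tdet_toTup, ← Matrix.GeneralLinearGroup.val_det_apply, ha, Units.val_one]
  obtain ⟨k, hk⟩ := GL2F3.tsl2_gen _ (hdet _ (Units.ext (S.det_eq_one_of_fix hgK)))
    (fun hq => hgq ((GL2F3.tq8_toTup _).mp hq)) _ (hdet _ hh)
  rw [← GL2F3.toTup_pow, ← GL2F3.toTup_mul, GL2F3.tq8_toTup, ← Units.val_pow_eq_pow_val,
    ← Units.val_mul, ← map_pow, ← map_mul] at hk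
  have hpow : ∀ n : ℕ, (g ^ n) (x : Qb) = x := by
    intro n
    induction n with
    | zero => rfl
    | succ n ih => rw [pow_succ]; show (g ^ n) (g x) = x; rw [hgx, ih]
  have := S.apply_eq_self_of_q8 hk x.2
  change (g ^ (k : ℕ)) (h x) = x at this
  exact (g ^ (k : ℕ)).injective (this.trans (hpow k).symm)

end FermatAgent.LT
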