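import Mathlib
import Fermat.Agent.ExtVanish.InertiaLift
import Fermat.Agent.LT.Descent.Geom.LocalSetup
import Fermat.Agent.LT.Descent.Local.Inert.Main

set_option autoImplicit false

/-!
# The completion of `F` at an unramified place fixed by the Galois group of `F/K`

The automorphism of the completion induced by `σ` has order three and moves the residue field; its
fixed field is the completion of `K`, embedded isometrically.
-/

noncomputable section

open NumberField IsDedekindDomain WithZero Filter Topology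
open scoped MatrixGroups

namespace FermatAgent.LT

open FermatAgent.RT (mem_centre_iff intCast_mem_centre_iff)
open FermatAgent.Duality.Global (toZB Over exists_place)

local notation "Qb" => AlgebraicClosure ℚ
local notation "GQ" => AlgebraicClosure ℚ ≃ₐ[ℚ] AlgebraicClosure ℚ

/-! ### Generalities on completions -/

section Completion

variable {L : Type*} [Field L] [NumberField L] (v : HeightOneSpectrum (𝓞 L))

theorem valued_piLoc : Valued.v ((piLoc v : (v.adicCompletion L)ˣ) : v.adicCompletion L) =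
    exp (-1 : ℤ) :=
  valued_uniformizer v

theorem valued_loc_int (x : 𝓞 L) : Valued.v (loc v (x : L)) = v.intValuation x := by
  rw [valued_loc]
  exact v.valuation_of_algebraMap x

/-- The uniformizer of the completion. -/
def piInt : v.adicCompletionIntegers L :=
  ⟨((piLoc v : (v.adicCompletion L)ˣ) : v.adicCompletion L), by
    rw [HeightOneSpectrum.mem_adicCompletionIntegers, valued_piLoc, ← exp_zero, exp_le_exp]
    norm_num⟩

theorem exists_eq_piLoc_zpow {x : v.adicCompletion L} (hx : x ≠ 0) :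
    ∃ k : ℤ, Valued.v x = Valued.v (((piLoc v : (v.adicCompletion L)ˣ) : v.adicCompletion L) ^ k) := by
  refine ⟨-log (Valued.v x), ?_⟩
  rw [map_zpow₀, valued_piLoc, ← exp_zsmul, smul_eq_mul, neg_mul_neg, mul_one,
    exp_log ((Valuation.ne_zero_iff _).mpr hx)]

theorem exists_unit_mul_piLoc_zpow {x : v.adicCompletion L} (hx : x ≠ 0) :
    ∃ (k : ℤ) (u : (v.adicCompletionIntegers L)ˣ),
      x = ((u : v.adicCompletionIntegers L) : v.adicCompletion L) *
        ((piLoc v : (v.adicCompletion L)ˣ) : v.adicCompletion L) ^ k := by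
  obtain ⟨k, hk⟩ := exists_eq_piLoc_zpow v hx
  have hp := zpow_ne_zero k (piLoc v).ne_zero
  have h1 : Valued.v (x / ((piLoc v : (v.adicCompletion L)ˣ) : v.adicCompletion L) ^ k) = 1 := by
    rw [map_div₀, hk, div_self ((Valuation.ne_zero_iff _).mpr hp)]
  have hu : IsUnit (⟨_, h1.le⟩ : v.adicCompletionIntegers L) :=
    HeightOneSpectrum.adicCompletionIntegers.isUnit_iff_valued_eq_one.mpr h1
  exact ⟨k, hu.unit, by simp [div_mul_cancel₀ _ hp]⟩

theorem mem_maximalIdeal_iff_valued {x : v.adicCompletionIntegers L} :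
    x ∈ IsLocalRing.maximalIdeal (v.adicCompletionIntegers L) ↔
      Valued.v (x : v.adicCompletion L) < 1 := by
  rw [IsLocalRing.mem_maximalIdeal, mem_nonunits_iff,
    HeightOneSpectrum.adicCompletionIntegers.isUnit_iff_valued_eq_one]
  exact ⟨fun h => lt_of_le_of_ne x.2 h, fun h => h.ne⟩

theorem irreducible_piInt : Irreducible (piInt v) := by
  obtain ⟨ϖ, hϖ⟩ := IsDiscreteValuationRing.exists_irreducible (v.adicCompletionIntegers L)
  have hϖ1 : Valued.v (ϖ : v.adicCompletion L) ≤ exp (-1 : ℤ) := by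
    have h := (mem_maximalIdeal_iff_valued v).mp (hϖ.maximalIdeal_eq ▸ Ideal.mem_span_singleton_self ϖ)
    rcases eq_or_ne (Valued.v (ϖ : v.adicCompletion L)) 0 with h0 | h0
    · rw [h0]; exact bot_le
    rw [← exp_log h0, ← exp_zero, exp_lt_exp] at h
    rw [← exp_log h0, exp_le_exp]
    omega
  obtain ⟨c, hc⟩ : ϖ ∣ piInt v := by
    rw [← Ideal.mem_span_singleton, ← hϖ.maximalIdeal_eq, mem_maximalIdeal_iff_valued]
    show Valued.v ((piLoc v : (v.adicCompletion L)ˣ) : v.adicCompletion L) < 1
    rw [valued_piLoc, ← exp_zero, exp_lt_exp]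
    norm_num
  have hcu : IsUnit c := by
    rw [HeightOneSpectrum.adicCompletionIntegers.isUnit_iff_valued_eq_one]
    refine le_antisymm c.2 ?_
    have h1 := congrArg (fun y : v.adicCompletionIntegers L => Valued.v (y : v.adicCompletion L)) hc
    rw [show Valued.v ((piInt v : v.adicCompletionIntegers L) : v.adicCompletion L) = exp (-1 : ℤ)
      from valued_piLoc v, MulMemClass.coe_mul, map_mul] at h1
    by_contra hlt
    rw [not_le] at hlt
    have h2 : Valued.v (ϖ : v.adicCompletion L) * Valued.v (c : v.adicCompletion L) < exp (-1 : ℤ) := by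
      refine lt_of_le_of_lt (mul_le_mul' hϖ1 le_rfl) ?_
      calc exp (-1 : ℤ) * Valued.v (c : v.adicCompletion L) < exp (-1 : ℤ) * 1 :=
            mul_lt_mul_of_pos_left hlt exp_pos
        _ = _ := mul_one _
    exact absurd h1.symm h2.ne
  rw [hc]
  exact (irreducible_mul_isUnit hcu).mpr hϖ

theorem residue_resLift_bijective :
    Function.Bijective fun b : 𝓞 L ⧸ v.asIdeal =>
      IsLocalRing.residue (v.adicCompletionIntegers L)
        ⟨resLift v b, by
          rw [resLift, HeightOneSpectrum.mem_adicCompletionIntegers, valued_loc_int]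
          exact v.intValuation_le_one _⟩ := by
  set r := Function.surjInv (Ideal.Quotient.mk_surjective (I := v.asIdeal))
  have hr : ∀ b, Ideal.Quotient.mk v.asIdeal (r b) = b :=
    Function.surjInv_eq Ideal.Quotient.mk_surjective
  constructor
  · intro a b hab
    rw [← sub_eq_zero, ← map_sub, IsLocalRing.residue_eq_zero_iff,
      mem_maximalIdeal_iff_valued] at hab
    change Valued.v (loc v (r a : L) - loc v (r b : L)) < 1 at hab
    rw [← map_sub, show ((r a : 𝓞 L) : L) - (r b : L) = ((r a - r b : 𝓞 L) : L) by simp,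
      valued_loc_int, v.intValuation_lt_one_iff_mem] at hab
    rw [← hr a, ← hr b]
    exact Ideal.Quotient.eq.mpr hab
  · intro z
    obtain ⟨⟨a, ha⟩, rfl⟩ := IsLocalRing.residue_surjective z
    obtain ⟨x, hx⟩ := exists_int_close v ha 1
    refine ⟨Ideal.Quotient.mk _ x, ?_⟩
    show IsLocalRing.residue (v.adicCompletionIntegers L) _ = IsLocalRing.residue _ _
    rw [← sub_eq_zero, ← map_sub, IsLocalRing.residue_eq_zero_iff, mem_maximalIdeal_iff_valued]
    show Valued.v (loc v (r (Ideal.Quotient.mk _ x) : L) - a) < 1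
    have h1 : exp (-(1 : ℤ)) < 1 := by rw [← exp_zero, exp_lt_exp]; norm_num
    rw [show loc v (r (Ideal.Quotient.mk _ x) : L) - a =
      loc v ((r (Ideal.Quotient.mk _ x) - x : 𝓞 L) : L) - (a - loc v (x : L)) by
        rw [show ((r (Ideal.Quotient.mk _ x) - x : 𝓞 L) : L) =
            (r (Ideal.Quotient.mk _ x) : L) - (x : L) by simp, map_sub]
        ring]
    refine (Valuation.map_sub _ _ _).trans_lt (max_lt ?_ (lt_of_le_of_lt (by simpa using hx) h1))
    rw [valued_loc_int, v.intValuation_lt_one_iff_mem]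
    exact Ideal.Quotient.eq.mp (hr _)

instance finite_residue_adic : Finite (IsLocalRing.ResidueField (v.adicCompletionIntegers L)) :=
  Finite.of_surjective _ (residue_resLift_bijective v).2

theorem natCard_residue_adic :
    Nat.card (IsLocalRing.ResidueField (v.adicCompletionIntegers L)) = Ideal.absNorm v.asIdeal := by
  rw [← Nat.card_congr (Equiv.ofBijective _ (residue_resLift_bijective v)),
    CFT.natCard_quotient_eq_absNorm]

end Completion

theorem continuous_placeCast {L : Type*} [Field L] [NumberField L]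
    {v v' : HeightOneSpectrum (𝓞 L)} (h : v = v') : Continuous (placeCast h) := by
  subst h; exact continuous_id

theorem placeCast_loc {L : Type*} [Field L] [NumberField L]
    {v v' : HeightOneSpectrum (𝓞 L)} (h : v = v') (x : L) :
    placeCast h (loc v x) = loc v' x := by
  subst h; rfl

theorem valued_placeCast {L : Type*} [Field L] [NumberField L]
    {v v' : HeightOneSpectrum (𝓞 L)} (h : v = v') (x : v.adicCompletion L) :
    Valued.v (placeCast h x) = Valued.v x := by
  subst h; rfl

/-- Continuous maps which preserve the valuation of global elements preserve the valuation. -/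
theorem valued_eq_of_dense {L L' : Type*} [Field L] [NumberField L] [Field L'] [NumberField L']
    {v : HeightOneSpectrum (𝓞 L)} {v' : HeightOneSpectrum (𝓞 L')}
    (f : v.adicCompletion L →+* v'.adicCompletion L') (hf : Continuous f)
    (hloc : ∀ x : L, Valued.v (f (loc v x)) = Valued.v (loc v x)) (x : v.adicCompletion L) :
    Valued.v (f x) = Valued.v x := by
  rcases eq_or_ne x 0 with rfl | hx
  · simp
  have h1 : {y | Valued.v y = Valued.v x} ∈ 𝓝 x :=
    Valued.locally_const ((Valuation.ne_zero_iff _).mpr hx)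
  have h2 : f ⁻¹' {y | Valued.v y = Valued.v (f x)} ∈ 𝓝 x :=
    hf.continuousAt (Valued.locally_const ((Valuation.ne_zero_iff _).mpr ((map_ne_zero f).mpr hx)))
  obtain ⟨_, ⟨hy1, hy2⟩, k, rfl⟩ := mem_closure_iff_nhds.mp
    (HeightOneSpectrum.denseRange_algebraMap (K := L) v x) _ (inter_mem h1 h2)
  exact hy2.symm.trans ((hloc k).trans hy1)

theorem Setup.continuous_inclLoc (S : Setup) (w : HeightOneSpectrum (𝓞 S.F)) :
    Continuous (S.inclLoc w) := by
  refine (HeightOneSpectrum.adicCompletion.isUniformInducing_toCompletion S.F w).isInducing.continuous_iff.mpr ?_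
  exact UniformSpace.Completion.continuous_map.comp
    (HeightOneSpectrum.adicCompletion.isUniformInducing_toCompletion S.K _).isInducing.continuous

/-! ### The place -/

variable {S : Setup} {σ : S.F ≃+* S.F} (hσ : S.IsGalGen σ) {w : HeightOneSpectrum (𝓞 S.F)}
  (hfix : galPlace σ w = w)

include hfix in
theorem gal_mem_iff (x : 𝓞 S.F) : galInt σ x ∈ w.asIdeal ↔ x ∈ w.asIdeal := by
  conv_rhs => rw [← hfix, galPlace_asIdeal, Ideal.mem_comap]

include hσ in
/-- At a place not dividing `3m`, `σ` is not in the inertia group. -/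
theorem exists_gal_moves (hw : ((3 * S.m : ℕ) : 𝓞 S.F) ∉ w.asIdeal) :
    ∃ x : 𝓞 S.F, galInt σ x - x ∉ w.asIdeal := by
  by_contra! hall
  obtain ⟨A, hA⟩ := exists_place w
  obtain ⟨q, hq, hqA⟩ := hA.1
  have hqm : ¬q ∣ 3 * S.m := fun hd => hw (by
    rw [← hA.2, Ideal.mem_comap, map_natCast, ← Int.cast_natCast,
      intCast_mem_centre_iff hq hqA, Int.natCast_dvd_natCast]
    exact hd)
  obtain ⟨τ, hτ, hτσ⟩ := ExtVanish.exists_inertia_lift_at S.F.val hq hqA w.asIdeal
    (fun x => (hA.mem_iff x).trans A.mem_nonunits_iff.symm)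
    (AlgEquiv.ofRingEquiv (f := σ) fun r => map_ratCast σ r) fun x => by
      show _ ∈ w.asIdeal
      convert hall x using 2
      exact RingOfIntegers.ext rfl
  refine hσ.1 (RingEquiv.ext fun x => Subtype.ext ?_)
  have h1 : τ (x : Qb) = x :=
    S.apply_eq_self_of_q8 (by rw [S.unramified q hq hqm A hqA τ hτ]; exact one_mem _) x.2
  exact (hτσ x).symm.trans h1

variable (hσ3 : ∀ x, σ (σ (σ x)) = x) (hKfix : ∀ x, σ x = x → ∃ y, S.inclKF y = x)

include hσ hfix hσ3 hKfix in
/-- A uniformizer at an unramified fixed place can be chosen in `K`. -/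
theorem exists_fixed_val_one (hw : ((3 * S.m : ℕ) : 𝓞 S.F) ∉ w.asIdeal) :
    ∃ y : 𝓞 S.K, w.intValuation (S.inclInt y) = exp (-1 : ℤ) := by
  obtain ⟨x, hx⟩ := exists_gal_moves hσ hw
  obtain ⟨p, hp⟩ := w.intValuation_exists_uniformizer
  have hmem : ∀ z : 𝓞 S.F, w.intValuation z ≤ exp (-((2 : ℕ) : ℤ)) ↔ z ∈ w.asIdeal ^ 2 :=
    fun z => w.intValuation_le_pow_iff_mem z 2
  have hval : ∀ z : 𝓞 S.F, w.intValuation (galInt σ z) = w.intValuation z := fun z => by
    rw [intValuation_galInt, hfix]
  have hσ3' : ∀ z : 𝓞 S.F, galInt σ (galInt σ (galInt σ z)) = z :=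
    fun z => RingOfIntegers.ext (hσ3 z)
  set T : 𝓞 S.F → 𝓞 S.F := fun z => z + galInt σ z + galInt σ (galInt σ z)
  have hTmem : ∀ θ, T (θ * p) ∈ w.asIdeal := by
    intro θ
    have h1 : θ * p ∈ w.asIdeal := Ideal.mul_mem_left _ _ (by
      rw [← w.intValuation_lt_one_iff_mem, hp, ← exp_zero, exp_lt_exp]; norm_num)
    exact add_mem (add_mem h1 ((gal_mem_iff hfix _).mpr h1))
      ((gal_mem_iff hfix _).mpr ((gal_mem_iff hfix _).mpr h1))
  obtain ⟨θ, hθ⟩ : ∃ θ, T (θ * p) ∉ w.asIdeal ^ 2 := by
    by_contra! hcon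
    set a := galInt σ x
    set b := galInt σ (galInt σ x)
    have h1 : (a - x) * (a - b) * galInt σ p ∈ w.asIdeal ^ 2 := by
      have e : (a - x) * (a - b) * galInt σ p =
          T (x ^ 2 * p) - (x + b) * T (x * p) + x * b * T (1 * p) := by
        simp only [T, map_mul, map_pow, one_mul, a, b]
        ring
      rw [e]
      exact add_mem (sub_mem (hcon _) (Ideal.mul_mem_left _ _ (hcon _)))
        (Ideal.mul_mem_left _ _ (hcon _))
    have h2 : ∀ z, z ∉ w.asIdeal → w.intValuation z = 1 := fun z hz =>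
      HeightOneSpectrum.intValuation_eq_one_iff.mpr hz
    have h3 : a - b ∉ w.asIdeal := by
      rw [← gal_mem_iff hfix, map_sub, show galInt σ b = x from hσ3' x, ← gal_mem_iff hfix, map_sub,
        show galInt σ (galInt σ a) = x from hσ3' x]
      simpa [a] using fun h => hx (by simpa using neg_mem h)
    rw [← hmem, map_mul, map_mul, h2 _ hx, h2 _ h3, one_mul, one_mul, hval, hp, exp_le_exp] at h1
    norm_num at h1
  obtain ⟨y, hy⟩ := hKfix (T (θ * p) : 𝓞 S.F) (by
    rw [← galInt_coe]
    congr 1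
    simp only [T, map_add, hσ3']
    ring)
  have hyint : IsIntegral ℤ y := (isIntegral_algHom_iff (S.inclKF.restrictScalars ℤ)
    S.inclKF.injective).mp (by
      show IsIntegral ℤ (S.inclKF y)
      rw [hy]; exact RingOfIntegers.isIntegral_coe _)
  refine ⟨⟨y, hyint⟩, ?_⟩
  rw [show S.inclInt ⟨y, hyint⟩ = T (θ * p) from RingOfIntegers.ext hy]
  have h1 := (w.intValuation_lt_one_iff_mem _).mpr (hTmem θ)
  have h2 : ¬w.intValuation (T (θ * p)) ≤ exp (-((2 : ℕ) : ℤ)) := fun h => hθ ((hmem _).mp h)
  have h0 : w.intValuation (T (θ * p)) ≠ 0 := fun h => h2 (h ▸ bot_le)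
  rw [← exp_log h0, ← exp_zero, exp_lt_exp] at h1
  rw [← exp_log h0, exp_le_exp] at h2
  rw [← exp_log h0, exp_inj]
  push_cast at h2
  omega

include hσ hfix hσ3 hKfix in
/-- The place is unramified over `K`. -/
theorem valuation_inclKF (hw : ((3 * S.m : ℕ) : 𝓞 S.F) ∉ w.asIdeal) (x : S.K) :
    w.valuation S.F (S.inclKF x) = (S.underK w).valuation S.K x := by
  let _ : Algebra S.K S.F := S.inclKF.toRingHom.toAlgebra
  let _ : Algebra (𝓞 S.K) (𝓞 S.F) := S.inclInt.toAlgebra
  have : IsScalarTower (𝓞 S.K) S.K S.F := IsScalarTower.of_algebraMap_eq fun _ => rfl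
  have : IsScalarTower (𝓞 S.K) (𝓞 S.F) S.F := IsScalarTower.of_algebraMap_eq fun _ => rfl
  have : Module.IsTorsionFree (𝓞 S.K) (𝓞 S.F) :=
    Module.isTorsionFree_iff_algebraMap_injective.mpr fun a b h => RingOfIntegers.coe_injective
      (S.inclKF.injective (congrArg (fun z : 𝓞 S.F => (z : S.F)) h))
  have : w.asIdeal.LiesOver (S.underK w).asIdeal := ⟨rfl⟩
  have key : ∀ z : S.K, (S.underK w).valuation S.K z ^
      (S.underK w).asIdeal.ramificationIdx' w.asIdeal = w.valuation S.F (S.inclKF z) := fun z =>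
    HeightOneSpectrum.valuation_liesOver S.F (S.underK w) w z
  obtain ⟨y, hy⟩ := exists_fixed_val_one hσ hfix hσ3 hKfix hw
  set e := (S.underK w).asIdeal.ramificationIdx' w.asIdeal
  have he : e = 1 := by
    have h1 := key (algebraMap (𝓞 S.K) S.K y)
    rw [show S.inclKF (algebraMap (𝓞 S.K) S.K y) = algebraMap (𝓞 S.F) S.F (S.inclInt y) from rfl,
      HeightOneSpectrum.valuation_of_algebraMap, HeightOneSpectrum.valuation_of_algebraMap, hy] at h1
    have h0 : (S.underK w).intValuation y ≠ 0 := fun h0 => by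
      rw [h0] at h1
      rcases e with _ | e <;> simp [zero_pow] at h1
      exact exp_ne_zero (a := (1 : ℤ)) h1.symm
    rw [← exp_log h0, ← exp_nsmul, exp_inj, nsmul_eq_mul] at h1
    have h2 : (e : ℤ) ∣ 1 := ⟨-log ((S.underK w).intValuation y), by linarith⟩
    exact Nat.dvd_one.mp (Int.natCast_dvd_natCast.mp (by exact_mod_cast h2))
  rw [← key x, he, pow_one]

include hσ hfix hσ3 hKfix in
theorem valued_inclLoc (hw : ((3 * S.m : ℕ) : 𝓞 S.F) ∉ w.asIdeal)
    (x : (S.underK w).adicCompletion S.K) : Valued.v (S.inclLoc w x) = Valued.v x :=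
  valued_eq_of_dense _ (S.continuous_inclLoc w) (fun z => by
    rw [S.inclLoc_loc, valued_loc, valued_loc, valuation_inclKF hσ hfix hσ3 hKfix hw]) x

include hσ hfix hσ3 hKfix in
theorem valued_inclOver {v : HeightOneSpectrum (𝓞 S.K)} (hv : S.underK w = v)
    (hw : ((3 * S.m : ℕ) : 𝓞 S.F) ∉ w.asIdeal) (x : v.adicCompletion S.K) :
    Valued.v (S.inclOver ⟨w, hv⟩ x) = Valued.v x := by
  rw [Setup.inclOver, RingHom.comp_apply, valued_inclLoc hσ hfix hσ3 hKfix hw, valued_placeCast]

theorem Setup.inclOver_loc (S : Setup) {v : HeightOneSpectrum (𝓞 S.K)} (w : S.OverK v) (x : S.K) :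
    S.inclOver w (loc v x) = loc w.1 (S.inclKF x) := by
  rw [Setup.inclOver, RingHom.comp_apply, placeCast_loc, S.inclLoc_loc]

theorem Setup.continuous_inclOver (S : Setup) {v : HeightOneSpectrum (𝓞 S.K)} (w : S.OverK v) :
    Continuous (S.inclOver w) :=
  (S.continuous_inclLoc _).comp (continuous_placeCast _)

/-! ### The automorphism of the completion -/

/-- The endomorphism of the completion induced by `σ` at a fixed place. -/
def fixLocHom : w.adicCompletion S.F →+* w.adicCompletion S.F :=
  (galLoc σ w).comp (placeCast hfix.symm)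

theorem fixLocHom_loc (x : S.F) : fixLocHom hfix (loc w x) = loc w (σ x) := by
  rw [fixLocHom, RingHom.comp_apply, placeCast_loc, galLoc_coe]

theorem continuous_fixLocHom : Continuous (fixLocHom hfix) :=
  (continuous_galLoc σ w).comp (continuous_placeCast _)

theorem valued_fixLocHom (x : w.adicCompletion S.F) :
    Valued.v (fixLocHom hfix x) = Valued.v x :=
  valued_eq_of_dense _ (continuous_fixLocHom hfix) (fun z => by
    rw [fixLocHom_loc, valued_loc, valued_loc, valuation_gal, hfix]) x

include hσ3 in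
theorem fixLocHom_cube (x : w.adicCompletion S.F) :
    fixLocHom hfix (fixLocHom hfix (fixLocHom hfix x)) = x := by
  have h : (fun y => fixLocHom hfix (fixLocHom hfix (fixLocHom hfix y))) = id := by
    refine DenseRange.equalizer (HeightOneSpectrum.denseRange_algebraMap (K := S.F) w)
      (((continuous_fixLocHom hfix).comp (continuous_fixLocHom hfix)).comp
        (continuous_fixLocHom hfix)) continuous_id (funext fun z => ?_)
    show fixLocHom hfix (fixLocHom hfix (fixLocHom hfix (loc w z))) = loc w z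
    rw [fixLocHom_loc, fixLocHom_loc, fixLocHom_loc, hσ3]
  exact congrFun h x

/-- The automorphism of the completion. -/
def fixLoc : w.adicCompletion S.F ≃+* w.adicCompletion S.F :=
  RingEquiv.ofRingHom (fixLocHom hfix) ((fixLocHom hfix).comp (fixLocHom hfix))
    (RingHom.ext (fixLocHom_cube hfix hσ3)) (RingHom.ext (fixLocHom_cube hfix hσ3))

theorem fixLoc_apply (x : w.adicCompletion S.F) : fixLoc hfix hσ3 x = fixLocHom hfix x := rfl

/-- The automorphism of the integers of the completion. -/
def fixInt : w.adicCompletionIntegers S.F ≃+* w.adicCompletionIntegers S.F where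
  toFun x := ⟨fixLoc hfix hσ3 x, (valued_fixLocHom hfix _).trans_le x.2⟩
  invFun x := ⟨(fixLoc hfix hσ3).symm x, by
    show Valued.v _ ≤ (1 : ℤᵐ⁰)
    refine le_of_eq_of_le ?_ (show Valued.v (x : w.adicCompletion S.F) ≤ 1 from x.2)
    rw [← valued_fixLocHom hfix, ← fixLoc_apply hfix hσ3, RingEquiv.apply_symm_apply]⟩
  left_inv x := Subtype.ext ((fixLoc hfix hσ3).symm_apply_apply _)
  right_inv x := Subtype.ext ((fixLoc hfix hσ3).apply_symm_apply _)
  map_mul' _ _ := Subtype.ext (map_mul _ _ _)
  map_add' _ _ := Subtype.ext (map_add _ _ _)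

theorem fixLoc_algebraMap (x : w.adicCompletionIntegers S.F) :
    fixLoc hfix hσ3 (algebraMap _ (w.adicCompletion S.F) x) =
      algebraMap _ (w.adicCompletion S.F) (fixInt hfix hσ3 x) := rfl

include hσ in
theorem isCubic_fixInt (hw : ((3 * S.m : ℕ) : 𝓞 S.F) ∉ w.asIdeal) :
    Inert.IsCubic (fixInt hfix hσ3) := by
  refine ⟨fun x => Subtype.ext (fixLocHom_cube hfix hσ3 _), ?_⟩
  obtain ⟨x, hx⟩ := exists_gal_moves hσ hw
  refine ⟨⟨loc w (x : S.F), by
    rw [HeightOneSpectrum.mem_adicCompletionIntegers, valued_loc_int]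
    exact w.intValuation_le_one x⟩, ?_⟩
  rw [HeightOneSpectrum.adicCompletionIntegers.isUnit_iff_valued_eq_one]
  show Valued.v (fixLocHom hfix (loc w (x : S.F)) - loc w (x : S.F)) = 1
  rw [fixLocHom_loc, ← map_sub, ← galInt_coe, RingOfIntegers.coe_eq_algebraMap, ← map_sub,
    ← RingOfIntegers.coe_eq_algebraMap, valued_loc_int]
  exact HeightOneSpectrum.intValuation_eq_one_iff.mpr hx

include hσ in
theorem fixLoc_inclOver {v : HeightOneSpectrum (𝓞 S.K)} (hv : S.underK w = v)
    (x : v.adicCompletion S.K) :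
    fixLoc hfix hσ3 (S.inclOver ⟨w, hv⟩ x) = S.inclOver ⟨w, hv⟩ x := by
  have h : (fun y => fixLocHom hfix (S.inclOver ⟨w, hv⟩ y)) = fun y => S.inclOver ⟨w, hv⟩ y := by
    refine DenseRange.equalizer (HeightOneSpectrum.denseRange_algebraMap (K := S.K) v)
      ((continuous_fixLocHom hfix).comp (S.continuous_inclOver _)) (S.continuous_inclOver _)
      (funext fun z => ?_)
    show fixLocHom hfix (S.inclOver ⟨w, hv⟩ (loc v z)) = S.inclOver ⟨w, hv⟩ (loc v z)
    rw [S.inclOver_loc, fixLocHom_loc, hσ.2]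
  exact congrFun h x

include hσ hσ3 hKfix in
/-- The fixed elements come from the completion of `K`. -/
theorem exists_inclOver_eq {v : HeightOneSpectrum (𝓞 S.K)} (hv : S.underK w = v)
    (hw : ((3 * S.m : ℕ) : 𝓞 S.F) ∉ w.asIdeal) {x : w.adicCompletion S.F}
    (hx : fixLoc hfix hσ3 x = x) : ∃ y, S.inclOver ⟨w, hv⟩ y = x := by
  set f : v.adicCompletion S.K →+* w.adicCompletion S.F := S.inclOver ⟨w, hv⟩
  have hv' : ∀ y, Valued.v (f y) = Valued.v y := valued_inclOver hσ hfix hσ3 hKfix hv hw
  -- the range is closed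
  have hclosed : IsClosed (Set.range f) := by
    have hcomap : Filter.comap f (𝓝 0) = 𝓝 0 := by
      refine le_antisymm ?_ ((map_zero f ▸ (S.continuous_inclOver _).tendsto 0).le_comap)
      intro s hs
      rw [Valued.mem_nhds_zero] at hs
      obtain ⟨γ, hγ⟩ := hs
      obtain ⟨a, b, ha, hb, hab⟩ := Valuation.restrict_exists_div_eq
        (Valued.v (R := v.adicCompletion S.K)) γ
      have hne : Valued.v.restrict (f (a / b)) ≠ 0 := by
        rw [ne_eq, Valuation.restrict_eq_zero_iff, hv', map_div₀]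
        exact div_ne_zero ha.ne' hb.ne'
      refine mem_comap.mpr ⟨_, Valued.mem_nhds_zero.mpr ⟨Units.mk0 _ hne, subset_rfl⟩,
        fun y hy => hγ ?_⟩
      simp only [Set.mem_preimage, Set.mem_ofPred_eq, Units.val_mk0, Valuation.restrict_lt_iff,
        hv'] at hy
      rw [Set.mem_ofPred_eq, ← hab, ← map_div₀, Valuation.restrict_lt_iff]
      exact hy
    have hind : IsUniformInducing f := ⟨by
      rw [uniformity_eq_comap_nhds_zero (v.adicCompletion S.K),
        uniformity_eq_comap_nhds_zero (w.adicCompletion S.F), ← hcomap, comap_comap, comap_comap]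
      congr 1
      funext p
      simp [Function.comp_apply]⟩
    exact hind.isComplete_range.isClosed
  -- averaging
  let g : w.adicCompletion S.F → w.adicCompletion S.F := fun y =>
    (y + fixLocHom hfix y + fixLocHom hfix (fixLocHom hfix y)) / 3
  have hgc : Continuous g :=
    ((continuous_id.add (continuous_fixLocHom hfix)).add
      ((continuous_fixLocHom hfix).comp (continuous_fixLocHom hfix))).div_const _
  have hrange : Set.range (loc w : S.F → w.adicCompletion S.F) ⊆ g ⁻¹' Set.range f := by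
    rintro _ ⟨z, rfl⟩
    obtain ⟨y, hy⟩ := hKfix ((z + σ z + σ (σ z)) / 3) (by
      rw [map_div₀, map_add, map_add, map_ofNat, hσ3]; ring)
    refine ⟨loc v y, ?_⟩
    show f (loc v y) = g (loc w z)
    rw [show f (loc v y) = loc w (S.inclKF y) from S.inclOver_loc _ y, hy]
    simp only [g, fixLocHom_loc, map_div₀, map_add, map_ofNat]
  have hmem : x ∈ g ⁻¹' Set.range f :=
    (closure_minimal hrange (hclosed.preimage hgc))
      (HeightOneSpectrum.denseRange_algebraMap (K := S.F) w x)
  have h3 : (3 : w.adicCompletion S.F) ≠ 0 := by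
    rw [← map_ofNat (loc w) 3]; simp
  have hgx : g x = x := by
    rw [fixLoc_apply] at hx
    simp only [g, hx]
    field_simp
    ring
  obtain ⟨y, hy⟩ := hmem
  exact ⟨y, hy.trans hgx⟩

include hσ hσ3 hKfix in
/-- The fixed residue classes are those of `K`. -/
theorem natCard_resFixed {v : HeightOneSpectrum (𝓞 S.K)} (hv : S.underK w = v)
    (hw : ((3 * S.m : ℕ) : 𝓞 S.F) ∉ w.asIdeal) :
    Nat.card (Inert.resFixed (fixInt hfix hσ3)) = Ideal.absNorm v.asIdeal := by
  set O := w.adicCompletionIntegers S.F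
  set f : v.adicCompletion S.K →+* w.adicCompletion S.F := S.inclOver ⟨w, hv⟩
  have hv' : ∀ y, Valued.v (f y) = Valued.v y := valued_inclOver hσ hfix hσ3 hKfix hv hw
  let ι : v.adicCompletionIntegers S.K →+* O :=
    (f.comp (v.adicCompletionIntegers S.K).subtype).codRestrict O.toSubring
      fun x => (hv' _).trans_le x.2
  have hloc : IsLocalHom ι := ⟨fun a ha => by
    rw [HeightOneSpectrum.adicCompletionIntegers.isUnit_iff_valued_eq_one] at ha ⊢
    exact (hv' _).symm.trans ha⟩
  let φ := IsLocalRing.ResidueField.map ι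
  have hφ : ∀ z, Inert.resAut (fixInt hfix hσ3) (φ z) = φ z := by
    intro z
    obtain ⟨a, rfl⟩ := IsLocalRing.residue_surjective z
    show Inert.resAut _ (IsLocalRing.residue O (ι a)) = IsLocalRing.residue O (ι a)
    rw [Inert.resAut_residue]
    exact congrArg _ (Subtype.ext (fixLoc_inclOver hσ hfix hσ3 hv a))
  rw [← natCard_residue_adic v]
  refine (Nat.card_eq_of_bijective (fun z => (⟨φ z, hφ z⟩ : Inert.resFixed (fixInt hfix hσ3)))
    ⟨fun a b h => φ.injective (congrArg Subtype.val h), ?_⟩).symm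
  rintro ⟨z, hz⟩
  obtain ⟨a, rfl⟩ := IsLocalRing.residue_surjective z
  have hcub := isCubic_fixInt hσ hfix hσ3 hw
  obtain ⟨b, hb, hab⟩ := Inert.exists_fixed_sub_mem hcub
    (J := IsLocalRing.maximalIdeal O) (fun y hy => by
      rw [mem_maximalIdeal_iff_valued] at hy ⊢
      exact (valued_fixLocHom hfix _).trans_lt hy) (by
      rw [← IsLocalRing.residue_eq_zero_iff, map_sub, ← Inert.resAut_residue, sub_eq_zero]
      exact hz)
  obtain ⟨y, hy⟩ := exists_inclOver_eq hσ hfix hσ3 hKfix hv hw (congrArg Subtype.val hb)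
  refine ⟨IsLocalRing.residue _ ⟨y, (hv' y).symm.trans_le (hy ▸ b.2)⟩, Subtype.ext ?_⟩
  show IsLocalRing.residue O _ = IsLocalRing.residue O a
  rw [← sub_eq_zero, ← map_sub, IsLocalRing.residue_eq_zero_iff]
  convert hab using 1
  exact congrArg (· - a) (Subtype.ext hy)

end FermatAgent.LT
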