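import Mathlib
import Fermat.Agent.LT.Descent.Geom.Coords
import Fermat.Agent.LT.Descent.Geom.Local.InertField
import Fermat.Agent.LT.Descent.Local.Inert.Neighbours

set_option autoImplicit false

/-!
# The kernels of Hecke polynomials at a good place as functions of the distance
-/

noncomputable section

open NumberField IsDedekindDomain WithZero
open scoped MatrixGroups

namespace FermatAgent.LT

open Inert (depth sphSub intMat heckeStep bcStep unitFun)

variable {L : Type*} [Field L] [NumberField L] {𝔫 : Ideal (𝓞 L)} {v : HeightOneSpectrum (𝓞 L)}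
  (hv : ¬ 𝔫 ≤ v.asIdeal)

local notation "Ov" => HeightOneSpectrum.adicCompletionIntegers L v
local notation "Lv" => HeightOneSpectrum.adicCompletion L v

include hv in
theorem locLevel_eq_sphSub : locLevel 𝔫 v = sphSub Ov Lv := by
  rw [locLevel, locCongr_eq_int hv]
  apply le_antisymm
  · refine sup_le ?_ fun z hz => ?_
    · rintro _ ⟨k, rfl⟩
      exact ⟨1, one_ne_zero, k, by rw [one_smul]; rfl⟩
    · rw [Matrix.GeneralLinearGroup.center_eq_range_scalar] at hz
      obtain ⟨u, rfl⟩ := hz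
      refine ⟨(u : Lv), u.ne_zero, 1, ?_⟩
      ext i j
      fin_cases i <;> fin_cases j <;> simp [Matrix.GeneralLinearGroup.scalar]
  · rintro g ⟨c, hc, k, hk⟩
    have h1 : Matrix.GeneralLinearGroup.scalar (Fin 2) (Units.mk0 c hc) ∈
        Subgroup.center (GLv v) := by
      rw [Matrix.GeneralLinearGroup.center_eq_range_scalar]
      exact ⟨_, rfl⟩
    have h2 : Matrix.GeneralLinearGroup.map (v.adicCompletionIntegers L).toSubring.subtype k ∈
        locInt v := ⟨k, rfl⟩
    have e : g = Matrix.GeneralLinearGroup.map (v.adicCompletionIntegers L).toSubring.subtype k *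
        Matrix.GeneralLinearGroup.scalar (Fin 2) (Units.mk0 c hc) := by
      refine Units.ext ?_
      rw [hk, Units.val_mul]
      ext i j
      fin_cases i <;> fin_cases j <;>
        simp [Matrix.GeneralLinearGroup.scalar, Matrix.mul_apply, Fin.sum_univ_two, mul_comm]
    rw [e]
    exact Subgroup.mul_mem_sup h2 h1

/-- The distance between two cosets. -/
def cosDist (a b : LCos 𝔫 v) : ℕ := depth Ov (a.out⁻¹ * b.out : GLv v)

include hv in
theorem cosDist_mk (g h : GLv v) :
    cosDist (g : LCos 𝔫 v) (h : LCos 𝔫 v) = depth Ov (g⁻¹ * h) := by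
  obtain ⟨⟨x, hx⟩, e1⟩ := QuotientGroup.mk_out_eq_mul (locLevel 𝔫 v) g
  obtain ⟨⟨y, hy⟩, e2⟩ := QuotientGroup.mk_out_eq_mul (locLevel 𝔫 v) h
  rw [locLevel_eq_sphSub hv] at hx hy
  rw [cosDist, e1, e2, show (g * x)⁻¹ * (h * y) = x⁻¹ * (g⁻¹ * h) * y by group]
  exact Inert.depth_mul_mul (irreducible_piInt v) (inv_mem hx) hy

theorem depth_eq_zero_iff (g : GLv v) : depth Ov g = 0 ↔ g ∈ sphSub Ov Lv := by
  have hπ := irreducible_piInt v
  constructor
  · intro h
    obtain ⟨d, hd⟩ := Inert.exists_hasDepth (O := Ov) hπ g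
    rw [Inert.depth_eq hd] at h
    subst h
    obtain ⟨c, hc, A, -, hcA, hdA⟩ := hd
    rw [Nat.cast_zero, IsDiscreteValuationRing.addVal_eq_zero_iff] at hdA
    refine ⟨c⁻¹, inv_ne_zero hc, ((Matrix.isUnit_iff_isUnit_det _).mpr hdA).unit, ?_⟩
    rw [IsUnit.unit_spec, ← hcA, smul_smul, inv_mul_cancel₀ hc, one_smul]
  · intro h
    rw [show g = g * 1 * 1 by simp, Inert.depth_mul_mul hπ h (one_mem _)]
    exact Inert.depth_eq ⟨1, one_ne_zero, 1, ⟨0, 0, by simp⟩, by simp, by simp⟩

include hv in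
open Classical in
theorem single_eq_dist (b : LCos 𝔫 v) :
    (Pi.single b 1 : LCos 𝔫 v → ℂ) = fun a => unitFun (cosDist a b) := by
  funext a
  obtain ⟨g, rfl⟩ := QuotientGroup.mk_surjective a
  obtain ⟨h, rfl⟩ := QuotientGroup.mk_surjective b
  rw [cosDist_mk hv, Pi.single_apply, unitFun]
  refine if_congr ?_ rfl rfl
  rw [depth_eq_zero_iff, ← locLevel_eq_sphSub hv, QuotientGroup.eq]

include hv in
theorem locHecke_dist (f : ℕ → ℂ) (b : LCos 𝔫 v) :
    locHecke 𝔫 v (fun a => f (cosDist a b)) =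
      fun a => heckeStep (Ideal.absNorm v.asIdeal : ℂ) f (cosDist a b) := by
  funext a
  have hq : Nat.card (𝓞 L ⧸ v.asIdeal) = Ideal.absNorm v.asIdeal :=
    CFT.natCard_quotient_eq_absNorm _
  have key : ∀ k : GLv v, cosDist (((a.out * k : GLv v)) : LCos 𝔫 v) b =
      depth Ov (k⁻¹ * (a.out⁻¹ * b.out)) := by
    intro k
    conv_lhs => rw [← QuotientGroup.out_eq' b]
    rw [cosDist_mk hv]
    congr 1
    group
  show (locHecke 𝔫 v fun a => f (cosDist a b)) a = _
  simp only [locHecke, locSum, LinearMap.add_apply, LinearMap.coe_mk, AddHom.coe_mk, Pi.add_apply,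
    one_mul, key, finsum_unique]
  rw [Inert.sum_neighbours (irreducible_piInt v)
    (fun b => ⟨resLift v b, by
      rw [resLift, HeightOneSpectrum.mem_adicCompletionIntegers, valued_loc_int]
      exact v.intValuation_le_one _⟩)
    (residue_resLift_bijective v) _ _ (fun i => rfl) rfl f (a.out⁻¹ * b.out), hq]
  rfl

include hv in
theorem locHecke_pow_dist (n : ℕ) (f : ℕ → ℂ) (b : LCos 𝔫 v) :
    (locHecke 𝔫 v ^ n) (fun a => f (cosDist a b)) =
      fun a => (heckeStep (Ideal.absNorm v.asIdeal : ℂ))^[n] f (cosDist a b) := by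
  induction n with
  | zero => rfl
  | succ n ih =>
    rw [pow_succ', Module.End.mul_apply, ih, locHecke_dist hv, Function.iterate_succ_apply']

include hv in
/-- The kernel of a power of the Hecke operator. -/
theorem lKer_locHecke_pow (n : ℕ) (a b : LCos 𝔫 v) :
    lKer (locHecke 𝔫 v ^ n) a b =
      (heckeStep (Ideal.absNorm v.asIdeal : ℂ))^[n] unitFun (cosDist a b) := by
  classical
  rw [lKer, single_eq_dist hv, locHecke_pow_dist hv]

include hv in
/-- The kernel of a power of `T³ - 3qT`. -/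
theorem lKer_bc_pow (n : ℕ) (a b : LCos 𝔫 v) :
    lKer ((locHecke 𝔫 v ^ 3 - (3 * Ideal.absNorm v.asIdeal : ℂ) • locHecke 𝔫 v) ^ n) a b =
      (bcStep (Ideal.absNorm v.asIdeal : ℂ))^[n] unitFun (cosDist a b) := by
  classical
  set A := locHecke 𝔫 v ^ 3 - (3 * Ideal.absNorm v.asIdeal : ℂ) • locHecke 𝔫 v
  have hone : ∀ f : ℕ → ℂ, A (fun a => f (cosDist a b)) =
      fun a => bcStep (Ideal.absNorm v.asIdeal : ℂ) f (cosDist a b) := by
    intro f
    rw [LinearMap.sub_apply, LinearMap.smul_apply, locHecke_pow_dist hv, locHecke_dist hv]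
    rfl
  have hall : ∀ n, (A ^ n) (fun a => unitFun (cosDist a b)) =
      fun a => (bcStep (Ideal.absNorm v.asIdeal : ℂ))^[n] unitFun (cosDist a b) := by
    intro n
    induction n with
    | zero => rfl
    | succ n ih => rw [pow_succ', Module.End.mul_apply, ih, hone, Function.iterate_succ_apply']
  rw [lKer, single_eq_dist hv, hall]

end FermatAgent.LT
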