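import Mathlib
import Fermat.Agent.LT.Descent.Geom.Factor
import Fermat.Agent.LT.Descent.Geom.Local.Spherical
import Fermat.Agent.LT.Descent.Local.Inert.Pole

set_option autoImplicit false

/-!
# The orbital sums at a good place of `K` with one place of `F` over it
-/

noncomputable section

open NumberField IsDedekindDomain WithZero
open scoped MatrixGroups

namespace FermatAgent.LT

open Inert (IsFundSet depth sphSub Vtx gAut moveDist fixedVtx centFix centUnits centUnitSet
  heckeStep bcStep bcFun unitFun)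

/-- Fundamental sets are carried along injective equivariant maps. -/
theorem Inert.IsFundSet.map {G G' α α' : Type*} [Group G] [Group G'] [MulAction G α]
    [MulAction G' α'] {T U : Subgroup G} {P Ω : Set α} (φ : G →* G') {e : α → α'}
    (he : Function.Injective e) (heq : ∀ (g : G) (x : α), e (g • x) = φ g • e x)
    (h : IsFundSet T U P Ω) : IsFundSet (T.map φ) (U.map φ) (e '' P) (e '' Ω) where
  subset := Set.image_mono h.subset
  stable := by
    rintro _ ⟨u, hu, rfl⟩ _ ⟨x, hx, rfl⟩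
    exact ⟨_, h.stable u hu x hx, heq u x⟩
  cover := by
    rintro _ ⟨x, hx, rfl⟩
    obtain ⟨t, ht, htx⟩ := h.cover x hx
    exact ⟨φ t, ⟨t, ht, rfl⟩, _, htx, heq t x⟩
  unique := by
    rintro _ ⟨x, hx, rfl⟩ _ ⟨t, ht, rfl⟩ ⟨y, hy, e'⟩
    rw [← heq] at e'
    obtain rfl := he e'
    obtain ⟨u, hu, hux⟩ := h.unique x hx t ht hy
    exact ⟨φ u, ⟨u, hu, rfl⟩, by rw [← heq, hux, heq]⟩

variable {S : Setup}

theorem Setup.not_mem_badPlaces {L : IntermediateField ℚ (AlgebraicClosure ℚ)} [NumberField L]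
    {v : HeightOneSpectrum (𝓞 L)} (hv : ((3 * S.m : ℕ) : 𝓞 L) ∉ v.asIdeal) :
    v ∉ S.badPlaces L := by
  intro h
  rw [Setup.badPlaces, Set.Finite.mem_toFinset] at h
  exact hv (Ideal.dvd_iff_le.mp h (Ideal.mem_span_singleton_self _))

theorem Setup.good_over {v : HeightOneSpectrum (𝓞 S.K)}
    (hv : ((3 * S.m : ℕ) : 𝓞 S.K) ∉ v.asIdeal) (w : S.OverK v) :
    ((3 * S.m : ℕ) : 𝓞 S.F) ∉ w.1.asIdeal := fun h => hv (by
  rw [← w.2]
  show S.inclInt _ ∈ w.1.asIdeal
  rwa [map_natCast])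

theorem Setup.exists_overK (v : HeightOneSpectrum (𝓞 S.K)) : Nonempty (S.OverK v) := by
  let _ : Algebra S.K S.F := S.inclKF.toRingHom.toAlgebra
  have : IsScalarTower ℚ S.K S.F := IsScalarTower.of_algebraMap_eq fun q => (S.inclKF.commutes q).symm
  obtain ⟨Q, hQ⟩ := CFT.exists_underPrime_eq (L := S.F) v
  exact ⟨⟨Q, hQ⟩⟩

theorem Setup.bK_eq (Ψ : S.PsiData) (l : List (HeightOneSpectrum (𝓞 S.F)))
    (t : GL (Fin 2) S.K) (v : HeightOneSpectrum (𝓞 S.K)) (g : GLv v) :
    S.bK Ψ l t v (g : LCos (S.levelIdeal S.K) v) =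
      lKer (S.opK Ψ l v) (g : LCos (S.levelIdeal S.K) v)
        ((locMat v t * g : GLv v) : LCos (S.levelIdeal S.K) v) := rfl

section Place

variable {σ : S.F ≃+* S.F} (hσ : S.IsGalGen σ) (hσ3 : ∀ x, σ (σ (σ x)) = x)
  (hKfix : ∀ x, σ x = x → ∃ y, S.inclKF y = x)
  {v : HeightOneSpectrum (𝓞 S.K)} (hv : ((3 * S.m : ℕ) : 𝓞 S.K) ∉ v.asIdeal)
  (hin : ∀ w : S.OverK v, galPlace σ w.1 = w.1)

include hσ3 hKfix hin in
theorem subsingleton_overK : Subsingleton (S.OverK v) := by
  refine ⟨fun w w' => ?_⟩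
  by_contra hne
  obtain ⟨x, hx, hx'⟩ := SetLike.not_le_iff_exists.mp fun hle : w.1.asIdeal ≤ w'.1.asIdeal =>
    hne (Subtype.ext (HeightOneSpectrum.ext (w.1.isMaximal.eq_of_le w'.1.isPrime.ne_top hle)))
  set z := x * galInt σ x * galInt σ (galInt σ x)
  obtain ⟨y, hy⟩ := hKfix (z : 𝓞 S.F) (by
    rw [← galInt_coe]
    congr 1
    simp only [z, map_mul, show galInt σ (galInt σ (galInt σ x)) = x from
      RingOfIntegers.ext (hσ3 x)]
    ring)
  have hyint : IsIntegral ℤ y := (isIntegral_algHom_iff (S.inclKF.restrictScalars ℤ)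
    S.inclKF.injective).mp (by
      show IsIntegral ℤ (S.inclKF y)
      rw [hy]; exact RingOfIntegers.isIntegral_coe _)
  have hz : S.inclInt ⟨y, hyint⟩ = z := RingOfIntegers.ext hy
  have h1 : S.inclInt ⟨y, hyint⟩ ∈ w.1.asIdeal := by
    rw [hz]; exact Ideal.mul_mem_right _ _ (Ideal.mul_mem_right _ _ hx)
  have h2 : S.inclInt ⟨y, hyint⟩ ∈ w'.1.asIdeal := by
    have : (⟨y, hyint⟩ : 𝓞 S.K) ∈ v.asIdeal := by rw [← w.2]; exact h1
    rw [← w'.2] at this
    exact this
  rw [hz] at h2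
  rcases w'.1.isPrime.mem_or_mem h2 with h | h
  · rcases w'.1.isPrime.mem_or_mem h with h | h
    · exact hx' h
    · exact hx' ((gal_mem_iff (hin w') _).mp h)
  · exact hx' ((gal_mem_iff (hin w') _).mp ((gal_mem_iff (hin w') _).mp h))

variable (w : S.OverK v)

set_option quotPrecheck false
local notation "Ow" => HeightOneSpectrum.adicCompletionIntegers (↥(Setup.F S)) (Subtype.val w)
local notation "Fw" => HeightOneSpectrum.adicCompletion (↥(Setup.F S)) (Subtype.val w)
local notation "Ok" => HeightOneSpectrum.adicCompletionIntegers (↥(Setup.K S)) v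
local notation "Kv" => HeightOneSpectrum.adicCompletion (↥(Setup.K S)) v

include hσ hσ3 hKfix hv hin in
theorem valued_over (x : Kv) : Valued.v (S.inclOver w x) = Valued.v x :=
  valued_inclOver hσ (hin w) hσ3 hKfix w.2 (S.good_over hv w) x

/-- The integers of `K_v` in those of `F_w`. -/
def inclInts : Ok →+* Ow :=
  ((S.inclOver w).comp (v.adicCompletionIntegers S.K).subtype).codRestrict
    (w.1.adicCompletionIntegers S.F).toSubring fun x =>
      (valued_over hσ hσ3 hKfix hv hin w x).trans_le x.2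

theorem inclInts_coe (x : Ok) :
    ((inclInts hσ hσ3 hKfix hv hin w x : Ow) : Fw) = S.inclOver w x := rfl

theorem isUnit_inclInts {x : Ok} : IsUnit (inclInts hσ hσ3 hKfix hv hin w x) ↔ IsUnit x := by
  rw [HeightOneSpectrum.adicCompletionIntegers.isUnit_iff_valued_eq_one,
    HeightOneSpectrum.adicCompletionIntegers.isUnit_iff_valued_eq_one, inclInts_coe,
    valued_over hσ hσ3 hKfix hv hin w]

/-- The uniformizer of `K_v` in `F_w`. -/
def piUp : Ow := inclInts hσ hσ3 hKfix hv hin w (piInt v)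

theorem irreducible_piUp : Irreducible (piUp hσ hσ3 hKfix hv hin w) := by
  obtain ⟨k, u, hu⟩ := exists_unit_mul_piLoc_zpow w.1
    (x := ((piUp hσ hσ3 hKfix hv hin w : Ow) : Fw))
    (show S.inclOver w ((piLoc v : Kvˣ) : Kv) ≠ 0 from (map_ne_zero _).mpr (piLoc v).ne_zero)
  have hval := congrArg Valued.v hu
  rw [piUp, inclInts_coe, valued_over hσ hσ3 hKfix hv hin w, map_mul, map_zpow₀, valued_piLoc,
    show Valued.v ((u : Ow) : Fw) = 1 from
      HeightOneSpectrum.adicCompletionIntegers.isUnit_iff_valued_eq_one.mp u.isUnit, one_mul,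
    show Valued.v ((piInt v : Ok) : Kv) = exp (-1 : ℤ) from valued_piLoc v, ← exp_zsmul,
    exp_inj] at hval
  obtain rfl : k = 1 := by simpa using hval.symm
  have e : piUp hσ hσ3 hKfix hv hin w = (u : Ow) * piInt w.1 := Subtype.ext (by
    rw [hu, zpow_one]; rfl)
  rw [e]
  exact (irreducible_isUnit_mul u.isUnit).mpr (irreducible_piInt _)

theorem fixInt_inclInts (x : Ok) :
    fixInt (hin w) hσ3 (inclInts hσ hσ3 hKfix hv hin w x) = inclInts hσ hσ3 hKfix hv hin w x :=
  Subtype.ext (fixLoc_inclOver hσ (hin w) hσ3 w.2 _)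

/-- The inclusion of the local groups. -/
def inclGL : GLv v →* GLv w.1 := Matrix.GeneralLinearGroup.map (S.inclOver w)

theorem inclGL_injective : Function.Injective (inclGL w) := fun _ _ e =>
  Matrix.GeneralLinearGroup.ext fun i j => (S.inclOver w).injective
    (congrArg (fun M : GLv w.1 => (M : Matrix (Fin 2) (Fin 2) Fw) i j) e)

include hσ in
theorem gAut_inclGL (g : GLv v) :
    gAut (fixLoc (hin w) hσ3) (inclGL w g) = inclGL w g :=
  Matrix.GeneralLinearGroup.ext fun _ _ => fixLoc_inclOver hσ (hin w) hσ3 w.2 _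

include hσ hKfix hv in
theorem exists_inclGL_eq {g : GLv w.1} (hg : gAut (fixLoc (hin w) hσ3) g = g) :
    ∃ g₀, inclGL w g₀ = g := by
  choose A hA using fun i j => exists_inclOver_eq hσ (hin w) hσ3 hKfix w.2 (S.good_over hv w)
    (x := (g : Matrix (Fin 2) (Fin 2) Fw) i j) (congrArg (fun M : GLv w.1 => (M : Matrix (Fin 2) (Fin 2) Fw) i j) hg)
  have e : (Matrix.of A).map (S.inclOver w) = (g : Matrix (Fin 2) (Fin 2) Fw) :=
    Matrix.ext fun i j => hA i j
  have hdet : (Matrix.of A).det ≠ 0 := fun h0 => g.det_ne_zero (by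
    rw [← e, ← RingHom.mapMatrix_apply, ← RingHom.map_det, h0, map_zero])
  exact ⟨Matrix.GeneralLinearGroup.mkOfDetNeZero _ hdet,
    Matrix.GeneralLinearGroup.ext fun i j => hA i j⟩

include hσ hσ3 hKfix hv hin in
theorem depth_inclGL (g : GLv v) : depth Ow (inclGL w g) = depth Ok g := by
  obtain ⟨d, hd⟩ := Inert.exists_hasDepth (O := Ok) (irreducible_piInt v) g
  rw [Inert.depth_eq hd]
  obtain ⟨c, hc, A, ⟨i, j, hij⟩, hcA, hdA⟩ := hd
  set ι := inclInts hσ hσ3 hKfix hv hin w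
  refine Inert.depth_eq ⟨S.inclOver w c, (map_ne_zero _).mpr hc, A.map ι,
    ⟨i, j, (isUnit_inclInts hσ hσ3 hKfix hv hin w).mpr hij⟩, ?_, ?_⟩
  · refine Matrix.ext fun a b => ?_
    have h := congrArg (S.inclOver w) (congrFun (congrFun hcA a) b)
    simp only [Matrix.smul_apply, smul_eq_mul, map_mul, Inert.intMat_apply] at h
    exact h
  · rw [← RingHom.mapMatrix_apply, ← RingHom.map_det]
    have hA0 : A.det ≠ 0 := fun h0 => by
      rw [h0, IsDiscreteValuationRing.addVal_zero] at hdA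
      exact ENat.natCast_ne_top d hdA.symm
    obtain ⟨k, u, hu⟩ :=
      IsDiscreteValuationRing.eq_unit_mul_pow_irreducible hA0 (irreducible_piInt v)
    rw [hu, IsDiscreteValuationRing.addVal_mul, IsDiscreteValuationRing.addVal_pow,
      IsDiscreteValuationRing.addVal_uniformizer (irreducible_piInt v),
      IsDiscreteValuationRing.addVal_eq_zero_iff.mpr u.isUnit] at hdA
    rw [hu, map_mul, map_pow, show ι (piInt v) = piUp hσ hσ3 hKfix hv hin w from rfl,
      IsDiscreteValuationRing.addVal_mul,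
      IsDiscreteValuationRing.addVal_pow,
      IsDiscreteValuationRing.addVal_uniformizer (irreducible_piUp hσ hσ3 hKfix hv hin w),
      IsDiscreteValuationRing.addVal_eq_zero_iff.mpr (u.isUnit.map ι)]
    exact hdA

/-- The cosets of `K` as vertices of the tree of `F_w`. -/
def vtxK (y : LCos (S.levelIdeal S.K) v) : Vtx Ow Fw := (inclGL w y.out : Vtx Ow Fw)

include hσ hσ3 hKfix hv hin in
theorem vtxK_mk (g : GLv v) :
    vtxK w (g : LCos (S.levelIdeal S.K) v) = (inclGL w g : Vtx Ow Fw) := by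
  obtain ⟨⟨x, hx⟩, e⟩ := QuotientGroup.mk_out_eq_mul (locLevel (S.levelIdeal S.K) v) g
  rw [vtxK, e, QuotientGroup.eq, map_mul, mul_inv_rev, mul_assoc, inv_mul_cancel, mul_one]
  rw [locLevel_eq_sphSub (S.not_levelIdeal_le hv), ← depth_eq_zero_iff,
    ← depth_inclGL hσ hσ3 hKfix hv hin w, depth_eq_zero_iff] at hx
  exact inv_mem hx

include hσ hσ3 hKfix hv hin in
theorem vtxK_smul (g : GLv v) (y : LCos (S.levelIdeal S.K) v) :
    vtxK w (g • y) = inclGL w g • vtxK w y := by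
  obtain ⟨a, rfl⟩ := QuotientGroup.mk_surjective y
  rw [MulAction.Quotient.smul_coe, smul_eq_mul, vtxK_mk hσ hσ3 hKfix hv hin,
    vtxK_mk hσ hσ3 hKfix hv hin, map_mul]
  rfl

include hσ hσ3 hKfix hv hin in
theorem vtxK_injective :
    Function.Injective (vtxK w : LCos (S.levelIdeal S.K) v → Vtx Ow Fw) := by
  intro a b e
  obtain ⟨g, rfl⟩ := QuotientGroup.mk_surjective a
  obtain ⟨h, rfl⟩ := QuotientGroup.mk_surjective b
  rw [vtxK_mk hσ hσ3 hKfix hv hin, vtxK_mk hσ hσ3 hKfix hv hin, QuotientGroup.eq, ← map_inv,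
    ← map_mul, ← depth_eq_zero_iff, depth_inclGL hσ hσ3 hKfix hv hin w, depth_eq_zero_iff] at e
  rw [QuotientGroup.eq, locLevel_eq_sphSub (S.not_levelIdeal_le hv)]
  exact e

include hσ hσ3 hKfix hv hin in
theorem range_vtxK :
    vtxK w '' (Set.univ : Set (LCos (S.levelIdeal S.K) v)) =
      fixedVtx Ow Fw (fixLoc_algebraMap (hin w) hσ3) := by
  ext x
  constructor
  · rintro ⟨y, -, rfl⟩
    show Inert.vAut _ _ = _
    rw [vtxK, Inert.vAut_mk, gAut_inclGL hσ hσ3 hin]
  · intro hx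
    obtain ⟨g, hg, rfl⟩ := Inert.exists_fixed_vertex_rep (fixLoc_algebraMap (hin w) hσ3)
      (irreducible_piUp hσ hσ3 hKfix hv hin w) (fixInt_inclInts hσ hσ3 hKfix hv hin w (piInt v))
      (isCubic_fixInt hσ (hin w) hσ3 (S.good_over hv w)) hx
    obtain ⟨g₀, rfl⟩ := exists_inclGL_eq hσ hσ3 hKfix hv hin w hg
    exact ⟨(g₀ : LCos (S.levelIdeal S.K) v), trivial, vtxK_mk hσ hσ3 hKfix hv hin w g₀⟩

/-- The cosets of `F` over `v` as vertices of the tree of `F_w`. -/
def vtxF (x : S.XF v) : Vtx Ow Fw := ((x w).out : Vtx Ow Fw)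

theorem vtxF_of_mk {x : S.XF v} {g : GLv w.1} (hw : ((3 * S.m : ℕ) : 𝓞 S.F) ∉ w.1.asIdeal)
    (h : x w = (g : LCos (S.levelIdeal S.F) w.1)) : vtxF w x = (g : Vtx Ow Fw) := by
  rw [vtxF, h, QuotientGroup.eq]
  obtain ⟨⟨z, hz⟩, e⟩ := QuotientGroup.mk_out_eq_mul (locLevel (S.levelIdeal S.F) w.1) g
  rw [e, mul_inv_rev, mul_assoc, inv_mul_cancel, mul_one]
  rw [locLevel_eq_sphSub (S.not_levelIdeal_le hw)] at hz
  exact inv_mem hz

set_option synthInstance.maxHeartbeats 100000 in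
include hv in
theorem vtxF_smul (g : GLv v) (x : S.XF v) : vtxF w (g • x) = inclGL w g • vtxF w x := by
  obtain ⟨a, ha⟩ := QuotientGroup.mk_surjective (x w)
  rw [vtxF_of_mk w (g := inclGL w g * a) (S.good_over hv w) (by
    show inclGL w g • x w = _
    rw [← ha]; rfl), vtxF_of_mk w (S.good_over hv w) ha.symm]
  rfl

include hσ3 hKfix hv hin in
theorem vtxF_bijective : Function.Bijective (vtxF w : S.XF v → Vtx Ow Fw) := by
  have := subsingleton_overK hσ3 hKfix hin
  refine ⟨fun x y e => funext fun w' => ?_, fun z => ?_⟩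
  · obtain rfl := Subsingleton.elim w w'
    rw [← QuotientGroup.out_eq' (x w), ← QuotientGroup.out_eq' (y w), QuotientGroup.eq]
    exact (SetLike.ext_iff.mp (locLevel_eq_sphSub (S.not_levelIdeal_le (S.good_over hv w))) _).mpr
      (QuotientGroup.eq.mp e)
  · obtain ⟨g, rfl⟩ := QuotientGroup.mk_surjective z
    have key : ∀ w' : S.OverK v, ∃ q : LCos (S.levelIdeal S.F) w'.1, ∀ h : w' = w,
        h ▸ q = (g : LCos (S.levelIdeal S.F) w.1) := by
      intro w'
      obtain rfl := Subsingleton.elim w' w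
      exact ⟨g, fun h => rfl⟩
    choose x hx using key
    exact ⟨x, vtxF_of_mk w (S.good_over hv w) (hx w rfl)⟩

include hσ hKfix hv in
theorem map_torusAt (t : GL (Fin 2) S.K) :
    (torusAt v t).map (inclGL w) =
      centFix (fixLoc (hin w) hσ3) (inclGL w (locMat v t)) := by
  ext g
  constructor
  · rintro ⟨h, hh, rfl⟩
    refine ⟨gAut_inclGL hσ hσ3 hin w h, ?_⟩
    show inclGL w h ∈ Subgroup.centralizer _
    rw [Subgroup.mem_centralizer_singleton_iff, ← map_mul, ← map_mul,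
      Subgroup.mem_centralizer_singleton_iff.mp hh]
  · rintro ⟨h1, h2⟩
    obtain ⟨h, rfl⟩ := exists_inclGL_eq hσ hσ3 hKfix hv hin w h1
    replace h2 : inclGL w h ∈ Subgroup.centralizer {inclGL w (locMat v t)} := h2
    rw [Subgroup.mem_centralizer_singleton_iff, ← map_mul, ← map_mul] at h2
    exact ⟨h, Subgroup.mem_centralizer_singleton_iff.mpr (inclGL_injective w h2), rfl⟩

include hσ hKfix hv in
theorem map_torusU (t : GL (Fin 2) S.K) :
    (torusU v t).map (inclGL w) =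
      centUnits Ow (fixLoc (hin w) hσ3) (inclGL w (locMat v t)) := by
  rw [torusU, MonoidHom.map_closure, centUnits]
  congr 1
  have htr : ∀ g : GLv v, ((inclGL w g : GLv w.1) : Matrix (Fin 2) (Fin 2) Fw).trace =
      S.inclOver w (g : Matrix (Fin 2) (Fin 2) Kv).trace := fun g => by
    simp [inclGL, Matrix.trace_fin_two]
  have hdet : ∀ g : GLv v, ((inclGL w g : GLv w.1) : Matrix (Fin 2) (Fin 2) Fw).det =
      S.inclOver w (g : Matrix (Fin 2) (Fin 2) Kv).det := fun g => by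
    rw [RingHom.map_det]; rfl
  have hval := valued_over hσ hσ3 hKfix hv hin w
  ext g
  constructor
  · rintro ⟨h, ⟨hh, c, hc1, hc2⟩, rfl⟩
    refine ⟨by rw [← map_torusAt hσ hσ3 hKfix hv hin w]; exact ⟨h, hh, rfl⟩, S.inclOver w c,
      ⟨S.inclOver w (c * (h : Matrix (Fin 2) (Fin 2) Kv).trace),
        (hval _).trans_le hc2⟩, (?_ : IsUnit (⟨S.inclOver w
          (c ^ 2 * (h : Matrix (Fin 2) (Fin 2) Kv).det), ((hval _).trans hc1).le⟩ : Ow)).unit,
      ?_, ?_⟩
    · rw [HeightOneSpectrum.adicCompletionIntegers.isUnit_iff_valued_eq_one]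
      exact (hval _).trans hc1
    · rw [htr, ← map_mul]; rfl
    · rw [IsUnit.unit_spec, hdet, ← map_pow, ← map_mul]; rfl
  · rintro ⟨hg, c, a, b, hca, hcb⟩
    rw [← map_torusAt hσ hσ3 hKfix hv hin w] at hg
    obtain ⟨h, hh, rfl⟩ := hg
    have hb1 : Valued.v ((b : Ow) : Fw) = 1 :=
      HeightOneSpectrum.adicCompletionIntegers.isUnit_iff_valued_eq_one.mp b.isUnit
    have hc0 : c ≠ 0 := by
      rintro rfl
      rw [show (0 : Fw) ^ 2 * _ = 0 by ring] at hcb
      have h0 := congrArg Valued.v hcb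
      rw [map_zero, show algebraMap Ow Fw (b : Ow) = ((b : Ow) : Fw) from rfl, hb1] at h0
      exact one_ne_zero h0.symm
    -- a scalar of `K_v` of the same absolute value
    have hc' : ((piLoc v : Kvˣ) : Kv) ^ (-log (Valued.v c)) ≠ 0 :=
      zpow_ne_zero _ (piLoc v).ne_zero
    have hcv : Valued.v (((piLoc v : Kvˣ) : Kv) ^ (-log (Valued.v c))) = Valued.v c := by
      rw [map_zpow₀, valued_piLoc, ← exp_zsmul, smul_eq_mul, neg_mul_neg, mul_one,
        exp_log ((Valuation.ne_zero_iff _).mpr hc0)]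
    refine ⟨h, ⟨hh, ((piLoc v : Kvˣ) : Kv) ^ (-log (Valued.v c)), ?_, ?_⟩, rfl⟩
    · rw [map_mul, map_pow, hcv, ← hval, ← hdet, ← map_pow, ← map_mul, hcb]
      exact hb1
    · rw [map_mul, hcv, ← hval, ← htr, ← map_mul, hca]
      exact a.2

end Place

end FermatAgent.LT
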