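import Mathlib
import Fermat.Agent.LT.Descent.Geom.Local.InertBridge
import Fermat.Agent.LT.Descent.Geom.Local.GalFacts

set_option autoImplicit false

/-!
# Matching and vanishing at the good places with one place of `F` over them
-/

noncomputable section

open NumberField IsDedekindDomain WithZero
open scoped MatrixGroups

namespace FermatAgent.LT

open Inert (IsFundSet depth moveDist gAut heckeStep bcStep bcFun unitFun)

variable {S : Setup}

section Place

variable {σ : S.F ≃+* S.F} (hσ : S.IsGalGen σ) (hσ3 : ∀ x, σ (σ (σ x)) = x)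
  (hKfix : ∀ x, σ x = x → ∃ y, S.inclKF y = x)
  {v : HeightOneSpectrum (𝓞 S.K)} (hv : ((3 * S.m : ℕ) : 𝓞 S.K) ∉ v.asIdeal)
  (hin : ∀ w : S.OverK v, galPlace σ w.1 = w.1) (w : S.OverK v)

theorem inclGL_locMat (g : GL (Fin 2) S.K) :
    inclGL w (locMat v g) =
      locMat w.1 (Matrix.GeneralLinearGroup.map S.inclKF.toRingHom g) :=
  Matrix.GeneralLinearGroup.ext fun _ _ => S.inclOver_loc w _

theorem gAut_locMat (g : GL (Fin 2) S.F) :
    gAut (fixLoc (hin w) hσ3) (locMat w.1 g) =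
      locMat w.1 (Matrix.GeneralLinearGroup.map σ.toRingHom g) :=
  Matrix.GeneralLinearGroup.ext fun _ _ => fixLocHom_loc (hin w) _

include hσ hσ3 in
theorem Setup.IsNormPair.commute {t : GL (Fin 2) S.K} {δ : GL (Fin 2) S.F}
    (h : S.IsNormPair σ t δ) :
    δ * Matrix.GeneralLinearGroup.map S.inclKF.toRingHom t =
      Matrix.GeneralLinearGroup.map S.inclKF.toRingHom t * δ := by
  set G := Matrix.GeneralLinearGroup.map (n := Fin 2) σ.toRingHom
  set T := Matrix.GeneralLinearGroup.map S.inclKF.toRingHom t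
  have h3 : G (G (G δ)) = δ := Matrix.GeneralLinearGroup.ext fun _ _ => hσ3 _
  have hT : G T = T := Matrix.GeneralLinearGroup.ext fun _ _ => hσ.2 _
  have h1 : G δ * G (G δ) * δ = T := by
    have := congrArg G h.norm
    rwa [map_mul, map_mul, h3, hT] at this
  calc δ * T = δ * (G δ * G (G δ) * δ) := by rw [h1]
    _ = (δ * G δ * G (G δ)) * δ := by group
    _ = T * δ := by rw [h.norm]

include hσ hσ3 hKfix hv hin in
theorem absNorm_over :
    Ideal.absNorm w.1.asIdeal = Ideal.absNorm v.asIdeal ^ 3 := by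
  rw [← natCard_residue_adic w.1, ← natCard_resFixed hσ (hin w) hσ3 hKfix w.2 (S.good_over hv w)]
  exact Inert.card_residue (isCubic_fixInt hσ (hin w) hσ3 (S.good_over hv w))

variable (Ψ : S.PsiData) (l : List (HeightOneSpectrum (𝓞 S.F)))

include hv in
open Classical in
theorem opF_inert : S.opF Ψ l w.1 = locHecke _ w.1 ^ l.count w.1 := by
  rw [Setup.opF, locLevelOp, if_neg (S.not_mem_badPlaces (S.good_over hv w)), one_mul]

include hσ hσ3 hKfix hv hin in
open Classical in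
theorem opK_inert : S.opK Ψ l v =
    (locHecke _ v ^ 3 - (3 * Ideal.absNorm v.asIdeal : ℂ) • locHecke _ v) ^ l.count w.1 := by
  have hsub := subsingleton_overK hσ3 hKfix hin
  have hiff : ∀ u, S.underK u = v ↔ u = w.1 :=
    fun u => ⟨fun h => congrArg Subtype.val (Subsingleton.elim (⟨u, h⟩ : S.OverK v) w),
      fun h => h ▸ w.2⟩
  have hbc : S.locBC v w.1 =
      locHecke _ v ^ 3 - (3 * Ideal.absNorm v.asIdeal : ℂ) • locHecke _ v := by
    rw [Setup.locBC, if_neg]
    rw [absNorm_over hσ hσ3 hKfix hv hin w]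
    have h2 := NumberField.HeightOneSpectrum.one_lt_absNorm v
    exact (lt_self_pow₀ h2 (by norm_num)).ne'
  rw [Setup.opK, locLevelOp, if_neg (S.not_mem_badPlaces hv), one_mul, ← hbc]
  induction l with
  | nil => rfl
  | cons u l ih =>
    by_cases hu : u = w.1
    · subst hu
      rw [List.filter_cons_of_pos (by simpa using w.2), List.map_cons, List.prod_cons, ih,
        List.count_cons_self, pow_succ']
    · rw [List.filter_cons_of_neg (by simpa using fun h => hu ((hiff u).mp h)), ih,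
        List.count_cons_of_ne hu]

theorem out_cast (x : S.XF v) {w w' : S.OverK v} (e : w' = w) :
    Matrix.GeneralLinearGroup.map (placeCast (congrArg Subtype.val e).symm) (x w).out =
      (x w').out := by
  subst e
  exact Matrix.GeneralLinearGroup.ext fun _ _ => rfl

include hKfix hv in
open Classical in
theorem bF_inert (δ : GL (Fin 2) S.F) {π : w.1.adicCompletionIntegers S.F} (hπ : Irreducible π)
    (x : S.XF v) :
    S.bF Ψ l hσ δ v x = (heckeStep (Ideal.absNorm w.1.asIdeal : ℂ))^[l.count w.1] unitFun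
      (moveDist (fixLoc_algebraMap (hin w) hσ3) hπ (locMat w.1 δ) (vtxF w x)) := by
  have hsub := subsingleton_overK hσ3 (fun x hx => hKfix x hx) hin
  rw [Setup.bF, finprod_eq_single _ w (fun w' hw' => absurd (Subsingleton.elim w' w) hw'),
    opF_inert hv w Ψ l, lKer_locHecke_pow (S.not_levelIdeal_le (S.good_over hv w))]
  have e : galLCos σ w.1 (x (S.nextOver v hσ w)) =
      ((gAut (fixLoc (hin w) hσ3) (x w).out : GLv w.1) : LCos (S.levelIdeal S.F) w.1) := by
    show ((Matrix.GeneralLinearGroup.map (galLoc σ w.1) (x (S.nextOver v hσ w)).out : GLv w.1) :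
      LCos (S.levelIdeal S.F) w.1) = _
    rw [← out_cast x (Subsingleton.elim (S.nextOver v hσ w) w)]
    rfl
  rw [e, MulAction.Quotient.smul_coe, smul_eq_mul]
  have e2 := cosDist_mk (S.not_levelIdeal_le (S.good_over hv w)) (x w).out
    (locMat w.1 δ * gAut (fixLoc (hin w) hσ3) (x w).out)
  rw [QuotientGroup.out_eq'] at e2
  rw [e2, vtxF, Inert.moveDist_mk, mul_assoc]

include hσ hσ3 hKfix hv hin in
open Classical in
theorem bK_inert (t : GL (Fin 2) S.K) (y : LCos (S.levelIdeal S.K) v) :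
    S.bK Ψ l t v y = (bcStep (Ideal.absNorm v.asIdeal : ℂ))^[l.count w.1] unitFun
      (moveDist (fixLoc_algebraMap (hin w) hσ3) (irreducible_piUp hσ hσ3 hKfix hv hin w)
        (inclGL w (locMat v t)) (vtxK w y)) := by
  obtain ⟨a, rfl⟩ := QuotientGroup.mk_surjective y
  rw [Setup.bK_eq, opK_inert hσ hσ3 hKfix hv hin w Ψ l, lKer_bc_pow (S.not_levelIdeal_le hv),
    cosDist_mk (S.not_levelIdeal_le hv), vtxK_mk hσ hσ3 hKfix hv hin, Inert.moveDist_mk,
    gAut_inclGL hσ hσ3 hin, ← map_inv, ← map_mul, ← map_mul,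
    depth_inclGL hσ hσ3 hKfix hv hin w, mul_assoc]

theorem regular_inclGL {t : GL (Fin 2) S.K}
    (ht : (t : Matrix (Fin 2) (Fin 2) S.K).trace ^ 2 ≠ 4 * (t : Matrix (Fin 2) (Fin 2) S.K).det) :
    ((inclGL w (locMat v t) : GLv w.1) : Matrix (Fin 2) (Fin 2) (w.1.adicCompletion S.F)).trace ^ 2 ≠
      4 * ((inclGL w (locMat v t) : GLv w.1) : Matrix (Fin 2) (Fin 2) (w.1.adicCompletion S.F)).det := by
  set f := (S.inclOver w).comp (loc v)
  have e : ((inclGL w (locMat v t) : GLv w.1) : Matrix (Fin 2) (Fin 2) (w.1.adicCompletion S.F)) =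
      f.mapMatrix (t : Matrix (Fin 2) (Fin 2) S.K) := rfl
  intro h0
  apply ht
  apply f.injective
  rw [map_pow, map_mul, map_ofNat, RingHom.map_det, ← e, ← h0, e]
  simp [Matrix.trace_fin_two]

include hσ hσ3 hKfix hv hin in
open Classical in
/-- The orbital sums of `F` and of `K` agree at a good place with one place over it. -/
theorem local_matching_inert_of_gal {t : GL (Fin 2) S.K} {δ : GL (Fin 2) S.F}
    (h : S.IsNormPair σ t δ) {ΩF : Set (S.XF v)} {ΩK : Set (LCos (S.levelIdeal S.K) v)}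
    (hF : IsFundSet (torusAt v t) (torusU v t) Set.univ ΩF)
    (hK : IsFundSet (torusAt v t) (torusU v t) Set.univ ΩK) :
    (ΩF ∩ Function.support (S.bF Ψ l hσ δ v)).Finite ∧
      ∑ᶠ x ∈ ΩF, S.bF Ψ l hσ δ v x = ∑ᶠ y ∈ ΩK, S.bK Ψ l t v y := by
  obtain ⟨w⟩ := S.exists_overK v
  have hw := S.good_over hv w
  set s := fixLoc (hin w) hσ3
  have hs := fixLoc_algebraMap (hin w) hσ3
  have hπ := irreducible_piUp hσ hσ3 hKfix hv hin w
  have hbijF := vtxF_bijective hσ3 hKfix hv hin w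
  have hinjK := vtxK_injective hσ hσ3 hKfix hv hin w
  have hFF := hF.map (inclGL w) hbijF.1 (vtxF_smul hv w)
  rw [Set.image_univ, hbijF.2.range_eq, map_torusAt hσ hσ3 hKfix hv hin w,
    map_torusU hσ hσ3 hKfix hv hin w] at hFF
  have hKK := hK.map (inclGL w) hinjK (vtxK_smul hσ hσ3 hKfix hv hin w)
  rw [range_vtxK hσ hσ3 hKfix hv hin w, map_torusAt hσ hσ3 hKfix hv hin w,
    map_torusU hσ hσ3 hKfix hv hin w] at hKK
  set T := Matrix.GeneralLinearGroup.map S.inclKF.toRingHom t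
  have hγ : inclGL w (locMat v t) = locMat w.1 T := inclGL_locMat w t
  set n := l.count w.1
  set q : ℂ := (Ideal.absNorm v.asIdeal : ℂ)
  have hQ : (Ideal.absNorm w.1.asIdeal : ℂ) = q ^ 3 := by
    rw [absNorm_over hσ hσ3 hKfix hv hin w]; exact Nat.cast_pow _ _
  obtain ⟨hfin, -, heq⟩ := Inert.inert_matching hs hπ
    (fixInt_inclInts hσ hσ3 hKfix hv hin w (piInt v)) (isCubic_fixInt hσ (hin w) hσ3 hw)
    (γ := inclGL w (locMat v t)) (δ := locMat w.1 δ)
    (gAut_inclGL hσ hσ3 hin w _) (regular_inclGL w h.regular)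
    (by rw [hγ, ← map_mul, ← map_mul, h.commute hσ hσ3])
    ⟨1, by rw [one_smul, hγ, gAut_locMat, gAut_locMat, ← map_mul, ← map_mul, h.norm]⟩
    (f := (heckeStep (q ^ 3))^[n] unitFun) (M := n + 1)
    (fun k hk => Inert.heckeStep_iterate_eq_zero n hk) hFF hKK
  rw [natCard_resFixed hσ (hin w) hσ3 hKfix w.2 hw, Inert.bcFun_pow] at heq
  have hvalF : ∀ x, S.bF Ψ l hσ δ v x =
      (heckeStep (q ^ 3))^[n] unitFun (moveDist hs hπ (locMat w.1 δ) (vtxF w x)) := fun x => by
    rw [bF_inert hσ hσ3 hKfix hv hin w Ψ l δ hπ, hQ]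
  refine ⟨?_, ?_⟩
  · refine Set.Finite.of_finite_image (hfin.subset ?_) hbijF.1.injOn
    rintro _ ⟨x, ⟨hx, hx'⟩, rfl⟩
    rw [Function.mem_support, hvalF] at hx'
    exact ⟨⟨x, hx, rfl⟩, hx'⟩
  · rw [finsum_mem_congr rfl fun x _ => hvalF x,
      finsum_mem_congr rfl fun y _ => bK_inert hσ hσ3 hKfix hv hin w Ψ l t y,
      ← finsum_mem_image
        (f := fun z => (heckeStep (q ^ 3))^[n] unitFun (moveDist hs hπ (locMat w.1 δ) z))
        hbijF.1.injOn,
      ← finsum_mem_image (f := fun z => (bcStep q)^[n] unitFun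
        (moveDist hs hπ (inclGL w (locMat v t)) z)) hinjK.injOn]
    exact heq

include hσ hσ3 hKfix hv hin in
open Classical in
/-- The orbital sums vanish when the eigenvalue ratio has valuation prime to three. -/
theorem sum_bK_eq_zero_inert_of_gal {t : GL (Fin 2) S.K}
    (ht : (t : Matrix (Fin 2) (Fin 2) S.K).trace ^ 2 ≠ 4 * (t : Matrix (Fin 2) (Fin 2) S.K).det)
    {k : ℤ} (hk : ¬ (3 : ℤ) ∣ k) (hk0 : 0 < k)
    (hr : v.valuation S.K ((t : Matrix (Fin 2) (Fin 2) S.K).trace ^ 2 /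
        (t : Matrix (Fin 2) (Fin 2) S.K).det) = exp k)
    {ΩK : Set (LCos (S.levelIdeal S.K) v)}
    (hK : IsFundSet (torusAt v t) (torusU v t) Set.univ ΩK) :
    (ΩK ∩ Function.support (S.bK Ψ l t v)).Finite ∧ ∑ᶠ y ∈ ΩK, S.bK Ψ l t v y = 0 := by
  obtain ⟨w⟩ := S.exists_overK v
  have hw := S.good_over hv w
  have hs := fixLoc_algebraMap (hin w) hσ3
  have hπ := irreducible_piUp hσ hσ3 hKfix hv hin w
  have hinjK := vtxK_injective hσ hσ3 hKfix hv hin w
  have hKK := hK.map (inclGL w) hinjK (vtxK_smul hσ hσ3 hKfix hv hin w)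
  rw [range_vtxK hσ hσ3 hKfix hv hin w, map_torusAt hσ hσ3 hKfix hv hin w,
    map_torusU hσ hσ3 hKfix hv hin w] at hKK
  obtain ⟨j, rfl⟩ := Int.eq_ofNat_of_zero_le hk0.le
  set p : v.adicCompletion S.K := ((piLoc v : (v.adicCompletion S.K)ˣ) : v.adicCompletion S.K)
  set tr := (t : Matrix (Fin 2) (Fin 2) S.K).trace
  set dt := (t : Matrix (Fin 2) (Fin 2) S.K).det
  have hval : Valued.v (p ^ j * loc v (tr ^ 2 / dt)) = 1 := by
    rw [map_mul, map_pow, valued_piLoc, valued_loc, hr, ← exp_nsmul, ← exp_add, ← exp_zero]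
    simp
  set e : v.adicCompletionIntegers S.K := ⟨_, hval.le⟩
  have he : IsUnit (inclInts hσ hσ3 hKfix hv hin w e) :=
    (isUnit_inclInts hσ hσ3 hKfix hv hin w).mpr
      (HeightOneSpectrum.adicCompletionIntegers.isUnit_iff_valued_eq_one.mpr hval)
  have hdt : dt ≠ 0 := t.det_ne_zero
  set n := l.count w.1
  set q : ℂ := (Ideal.absNorm v.asIdeal : ℂ)
  obtain ⟨hfin, heq⟩ := Inert.inert_vanishing_pole hs hπ
    (fixInt_inclInts hσ hσ3 hKfix hv hin w (piInt v)) (isCubic_fixInt hσ (hin w) hσ3 hw)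
    (γ := inclGL w (locMat v t)) (gAut_inclGL hσ hσ3 hin w _)
    (regular_inclGL w ht) (k := j)
    (fun h => hk (Int.natCast_dvd_natCast.mpr h)) (ε := he.unit) (by
      set f := (S.inclOver w).comp (loc v)
      have e1 : ((inclGL w (locMat v t) : GLv w.1) : Matrix (Fin 2) (Fin 2) (w.1.adicCompletion S.F)) =
          f.mapMatrix (t : Matrix (Fin 2) (Fin 2) S.K) := rfl
      rw [e1, ← RingHom.map_det]
      show S.inclOver w p ^ j * (f.mapMatrix (t : Matrix (Fin 2) (Fin 2) S.K)).trace ^ 2 =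
        S.inclOver w (p ^ j * loc v (tr ^ 2 / dt)) * f dt
      rw [show (f.mapMatrix (t : Matrix (Fin 2) (Fin 2) S.K)).trace = f tr by
          simp [tr, Matrix.trace_fin_two],
        map_mul, map_pow, show S.inclOver w (loc v (tr ^ 2 / dt)) = f (tr ^ 2 / dt) from rfl,
        mul_assoc, ← map_mul, div_mul_cancel₀ _ hdt, map_pow])
    (f := (heckeStep (q ^ 3))^[n] unitFun) (M := n + 1)
    (fun i hi => Inert.heckeStep_iterate_eq_zero n hi) hKK
  rw [natCard_resFixed hσ (hin w) hσ3 hKfix w.2 hw, Inert.bcFun_pow] at heq hfin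
  refine ⟨?_, ?_⟩
  · refine Set.Finite.of_finite_image (hfin.subset ?_) hinjK.injOn
    rintro _ ⟨y, ⟨hy, hy'⟩, rfl⟩
    rw [Function.mem_support, bK_inert hσ hσ3 hKfix hv hin w] at hy'
    exact ⟨⟨y, hy, rfl⟩, hy'⟩
  · rw [finsum_mem_congr rfl fun y _ => bK_inert hσ hσ3 hKfix hv hin w Ψ l t y,
      ← finsum_mem_image (f := fun z => (bcStep q)^[n] unitFun
        (moveDist hs hπ (inclGL w (locMat v t)) z)) hinjK.injOn]
    exact heq

end Place

variable {σ : S.F ≃+* S.F} (hσ : S.IsGalGen σ) (Ψ : S.PsiData)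
  (l : List (HeightOneSpectrum (𝓞 S.F))) {t : GL (Fin 2) S.K} {v : HeightOneSpectrum (𝓞 S.K)}
  (hv : ((3 * S.m : ℕ) : 𝓞 S.K) ∉ v.asIdeal) (hin : ∀ w : S.OverK v, galPlace σ w.1 = w.1)

include hσ hv hin

/-- The orbital sums of `F` and of `K` agree at a good inert place. -/
theorem local_matching_inert {δ : GL (Fin 2) S.F} (h : S.IsNormPair σ t δ) {ΩF : Set (S.XF v)}
    {ΩK : Set (LCos (S.levelIdeal S.K) v)}
    (hF : IsFundSet (torusAt v t) (torusU v t) Set.univ ΩF)
    (hK : IsFundSet (torusAt v t) (torusU v t) Set.univ ΩK) :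
    (ΩF ∩ Function.support (S.bF Ψ l hσ δ v)).Finite ∧
      ∑ᶠ x ∈ ΩF, S.bF Ψ l hσ δ v x = ∑ᶠ y ∈ ΩK, S.bK Ψ l t v y :=
  local_matching_inert_of_gal hσ hσ.cube (fun _ hx => hσ.exists_of_fixed hx) hv hin Ψ l h hF hK

/-- At good inert places the eigenvalue ratio must have valuation divisible by three. -/
theorem sum_bK_eq_zero_good_inert
    (ht : (t : Matrix (Fin 2) (Fin 2) S.K).trace ^ 2 ≠ 4 * (t : Matrix (Fin 2) (Fin 2) S.K).det)
    {k : ℤ} (hk : ¬ (3 : ℤ) ∣ k) (hk0 : 0 < k)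
    (hr : v.valuation S.K ((t : Matrix (Fin 2) (Fin 2) S.K).trace ^ 2 /
        (t : Matrix (Fin 2) (Fin 2) S.K).det) = exp k)
    {ΩK : Set (LCos (S.levelIdeal S.K) v)}
    (hK : IsFundSet (torusAt v t) (torusU v t) Set.univ ΩK) :
    (ΩK ∩ Function.support (S.bK Ψ l t v)).Finite ∧ ∑ᶠ y ∈ ΩK, S.bK Ψ l t v y = 0 :=
  sum_bK_eq_zero_inert_of_gal hσ hσ.cube (fun _ hx => hσ.exists_of_fixed hx) hv hin Ψ l ht hk hk0
    hr hK

end FermatAgent.LT
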