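import Mathlib
import Fermat.Agent.LT.Descent.Geom.LocalDefs

set_option autoImplicit false

/-!
# Bounded sets of matrices at a place and their images in the cosets
-/

noncomputable section

open NumberField IsDedekindDomain WithZero
open scoped MatrixGroups

namespace FermatAgent.LT

variable {L : Type*} [Field L] [NumberField L] {v : HeightOneSpectrum (𝓞 L)}

/-- Entries of size at most `exp N`, determinant of size at least `exp (-N)`. -/
def BddAt (N : ℤ) (g : GLv v) : Prop :=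
  (∀ i j, Valued.v ((g : Matrix (Fin 2) (Fin 2) (v.adicCompletion L)) i j) ≤ exp N) ∧
    exp (-N) ≤ Valued.v (g : Matrix (Fin 2) (Fin 2) (v.adicCompletion L)).det

/-- Boundedness up to scalars. -/
def BddMod (N : ℤ) (g : GLv v) : Prop :=
  ∃ z ∈ Subgroup.center (GLv v), BddAt N (z * g)

theorem BddAt.mono {N N' : ℤ} (h : N ≤ N') {g : GLv v} (hg : BddAt N g) : BddAt N' g :=
  ⟨fun i j => (hg.1 i j).trans (exp_le_exp.mpr h), (exp_le_exp.mpr (by omega)).trans hg.2⟩

theorem bddAt_one : BddAt 0 (1 : GLv v) := by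
  refine ⟨fun i j => ?_, by simp⟩
  rw [Units.val_one, Matrix.one_apply]
  split_ifs <;> simp

theorem BddAt.mul {N N' : ℤ} {g g' : GLv v} (hg : BddAt N g) (hg' : BddAt N' g') :
    BddAt (N + N') (g * g') := by
  refine ⟨fun i j => ?_, ?_⟩
  · rw [Units.val_mul, Matrix.mul_apply, Fin.sum_univ_two]
    refine (Valuation.map_add _ _ _).trans (max_le ?_ ?_) <;>
      · rw [map_mul, exp_add]
        exact mul_le_mul' (hg.1 _ _) (hg'.1 _ _)
  · rw [Units.val_mul, Matrix.det_mul, map_mul, neg_add, exp_add]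
    exact mul_le_mul' hg.2 hg'.2

theorem BddAt.det_le {N : ℤ} {g : GLv v} (hg : BddAt N g) :
    Valued.v (g : Matrix (Fin 2) (Fin 2) (v.adicCompletion L)).det ≤ exp (2 * N) := by
  rw [Matrix.det_fin_two, two_mul]
  refine (Valuation.map_sub _ _ _).trans (max_le ?_ ?_) <;>
    · rw [map_mul, exp_add]
      exact mul_le_mul' (hg.1 _ _) (hg.1 _ _)

theorem BddAt.inv {N : ℤ} {g : GLv v} (hg : BddAt N g) : BddAt (2 * N) g⁻¹ := by
  set G := (g : Matrix (Fin 2) (Fin 2) (v.adicCompletion L))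
  have hd0 : Valued.v G.det ≠ 0 := (Valuation.ne_zero_iff _).mpr g.det_ne_zero
  refine ⟨fun i j => ?_, ?_⟩
  · rw [Matrix.coe_units_inv, Matrix.inv_def, Matrix.smul_apply, smul_eq_mul, map_mul,
      Ring.inverse_eq_inv, map_inv₀, inv_mul_le_iff₀ (zero_lt_iff.mpr hd0)]
    refine le_trans ?_ (mul_le_mul' hg.2 le_rfl)
    rw [← exp_add, show -N + 2 * N = N by ring, Matrix.adjugate_fin_two]
    fin_cases i <;> fin_cases j <;> simp [hg.1]
  · rw [Matrix.coe_units_inv, Matrix.det_nonsing_inv, Ring.inverse_eq_inv, map_inv₀,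
      WithZero.exp_neg]
    gcongr
    · exact zero_lt_iff.mpr hd0
    · exact hg.det_le

theorem bddAt_of_mem_locCongr {𝔫 : Ideal (𝓞 L)} {k : GLv v} (hk : k ∈ locCongr 𝔫 v) :
    BddAt 0 k := by
  obtain ⟨k', -, rfl⟩ := hk
  refine ⟨fun i j => by rw [exp_zero]; exact (k'.val i j).2, ?_⟩
  rw [neg_zero, exp_zero]
  set f := Matrix.GeneralLinearGroup.map (n := Fin 2) (v.adicCompletionIntegers L).toSubring.subtype
  have hle : Valued.v ((f k'⁻¹ : GLv v) : Matrix (Fin 2) (Fin 2) (v.adicCompletion L)).det ≤ 1 := by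
    rw [Matrix.det_fin_two]
    refine (Valuation.map_sub _ _ _).trans (max_le ?_ ?_) <;>
      · rw [map_mul]
        exact mul_le_one' ((k'⁻¹).val _ _).2 ((k'⁻¹).val _ _).2
  calc (1 : WithZero (Multiplicative ℤ))
      = Valued.v ((f k' * f k'⁻¹ : GLv v) : Matrix (Fin 2) (Fin 2) (v.adicCompletion L)).det := by
        rw [← map_mul, mul_inv_cancel, map_one, Units.val_one, Matrix.det_one, map_one]
    _ ≤ _ := by
        rw [Units.val_mul, Matrix.det_mul, map_mul]
        exact mul_le_of_le_one_right' hle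

theorem BddMod.mono {N N' : ℤ} (h : N ≤ N') {g : GLv v} (hg : BddMod N g) : BddMod N' g :=
  let ⟨z, hz, hb⟩ := hg
  ⟨z, hz, hb.mono h⟩

theorem BddMod.mul {N N' : ℤ} {g g' : GLv v} (hg : BddMod N g) (hg' : BddMod N' g') :
    BddMod (N + N') (g * g') := by
  obtain ⟨z, hz, h⟩ := hg
  obtain ⟨z', hz', h'⟩ := hg'
  refine ⟨z * z', mul_mem hz hz', ?_⟩
  have : g * z' = z' * g := Subgroup.mem_center_iff.mp hz' g
  rw [show z * z' * (g * g') = z * g * (z' * g') by
    rw [mul_assoc z g, ← mul_assoc g, this, mul_assoc z, mul_assoc z' g]]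
  exact h.mul h'

theorem BddMod.inv {N : ℤ} {g : GLv v} (hg : BddMod N g) : BddMod (2 * N) g⁻¹ := by
  obtain ⟨z, hz, h⟩ := hg
  refine ⟨z⁻¹, inv_mem hz, ?_⟩
  rw [← Subgroup.mem_center_iff.mp (inv_mem hz) g⁻¹, ← _root_.mul_inv_rev]
  exact h.inv

theorem bddMod_of_mem_locLevel {𝔫 : Ideal (𝓞 L)} {k : GLv v} (hk : k ∈ locLevel 𝔫 v) :
    BddMod 0 k := by
  obtain ⟨a, ha, z, hz, rfl⟩ := Subgroup.mem_sup_of_normal_right.mp hk
  refine ⟨z⁻¹, inv_mem hz, ?_⟩
  rw [← Subgroup.mem_center_iff.mp (inv_mem hz) (a * z), mul_inv_cancel_right]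
  exact bddAt_of_mem_locCongr ha

theorem exists_bddAt (g : GLv v) : ∃ N, BddAt N g := by
  let a : Fin 2 × Fin 2 → ℤ := fun p => log (Valued.v ((g : Matrix (Fin 2) (Fin 2) (v.adicCompletion L)) p.1 p.2))
  have hd0 : Valued.v (g : Matrix (Fin 2) (Fin 2) (v.adicCompletion L)).det ≠ 0 :=
    (Valuation.ne_zero_iff _).mpr g.det_ne_zero
  set b := log (Valued.v (g : Matrix (Fin 2) (Fin 2) (v.adicCompletion L)).det)
  refine ⟨max (Finset.univ.sup' Finset.univ_nonempty a) (-b), fun i j => ?_, ?_⟩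
  · rcases eq_or_ne (Valued.v ((g : Matrix (Fin 2) (Fin 2) (v.adicCompletion L)) i j)) 0 with h | h
    · rw [h]; exact zero_le
    · rw [← exp_log h]
      exact exp_le_exp.mpr (le_max_of_le_left (Finset.le_sup' a (Finset.mem_univ (i, j))))
  · rw [← exp_log hd0]
    exact exp_le_exp.mpr (by omega)

/-- Congruence of high order puts a matrix in the congruence subgroup. -/
theorem exists_congr_depth {𝔫 : Ideal (𝓞 L)} (h𝔫 : 𝔫 ≠ ⊥) (v : HeightOneSpectrum (𝓞 L)) :
    ∃ n : ℕ, 0 < n ∧ ∀ g : GLv v, (∀ i j,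
      Valued.v ((g : Matrix (Fin 2) (Fin 2) (v.adicCompletion L)) i j -
        (1 : Matrix (Fin 2) (Fin 2) (v.adicCompletion L)) i j) ≤ exp (-(n : ℤ))) →
      g ∈ locCongr 𝔫 v := by
  obtain ⟨a, ha, ha0⟩ := Submodule.exists_mem_ne_zero_of_ne_bot h𝔫
  set J := 𝔫.map (algebraMap (𝓞 L) (v.adicCompletionIntegers L))
  set A := algebraMap (𝓞 L) (v.adicCompletionIntegers L) a
  have hA : A ∈ J := Ideal.mem_map_of_mem _ ha
  have hAv : Valued.v (A : v.adicCompletion L) = exp (-ordAt v (Ideal.span {a})) :=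
    valued_int v ha0
  have hAne : (A : v.adicCompletion L) ≠ 0 := fun h => exp_ne_zero
    (hAv.symm.trans (by rw [h, map_zero]))
  refine ⟨(ordAt v (Ideal.span {a})).toNat + 1, Nat.succ_pos _, fun g hg => ?_⟩
  have hint : ∀ i j, Valued.v ((g : Matrix (Fin 2) (Fin 2) (v.adicCompletion L)) i j) ≤ 1 := by
    intro i j
    have h := (Valuation.map_add Valued.v _ _).trans (max_le
      ((hg i j).trans (exp_le_exp.mpr (by omega : _ ≤ (0 : ℤ))))
      (show Valued.v ((1 : Matrix (Fin 2) (Fin 2) (v.adicCompletion L)) i j) ≤ exp (0 : ℤ) by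
        rw [Matrix.one_apply]; split_ifs <;> simp))
    rwa [sub_add_cancel, exp_zero] at h
  let k : Matrix (Fin 2) (Fin 2) (v.adicCompletionIntegers L) :=
    Matrix.of fun i j => ⟨_, hint i j⟩
  have hk : ∀ i j, k i j - (1 : Matrix (Fin 2) (Fin 2) _) i j ∈ Ideal.span {A} := by
    intro i j
    have hq : ((g : Matrix (Fin 2) (Fin 2) (v.adicCompletion L)) i j -
        (1 : Matrix (Fin 2) (Fin 2) (v.adicCompletion L)) i j) / A ∈ v.adicCompletionIntegers L := by
      rw [HeightOneSpectrum.mem_adicCompletionIntegers, map_div₀, hAv,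
        div_le_one₀ (zero_lt_iff.mpr exp_ne_zero)]
      exact (hg i j).trans (exp_le_exp.mpr (by omega))
    refine Ideal.mem_span_singleton.mpr ⟨⟨_, hq⟩, Subtype.ext ?_⟩
    push_cast [k, Matrix.of_apply]
    rw [mul_div_cancel₀ _ hAne]
    congr 1
    simp only [Matrix.one_apply]
    split_ifs <;> rfl
  have hkm : k.map (Ideal.Quotient.mk J) = 1 := by
    ext i j
    have h : Ideal.Quotient.mk J (k i j) = Ideal.Quotient.mk J ((1 : Matrix (Fin 2) (Fin 2) _) i j) :=
      Ideal.Quotient.eq.mpr ((Ideal.span_singleton_le_iff_mem _).mpr hA (hk i j))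
    rw [Matrix.map_apply, h, Matrix.one_apply, Matrix.one_apply]
    split_ifs <;> simp
  have hdv : Valued.v ((k.det : v.adicCompletionIntegers L) : v.adicCompletion L) = 1 := by
    have e : ((k.det : v.adicCompletionIntegers L) : v.adicCompletion L) =
        (g : Matrix (Fin 2) (Fin 2) (v.adicCompletion L)).det :=
      (v.adicCompletionIntegers L).subtype.map_det k
    rw [e, Matrix.det_fin_two]
    have h00 := hg 0 0; have h11 := hg 1 1; have h01 := hg 0 1; have h10 := hg 1 0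
    simp only [Matrix.one_apply, if_true, show (0 : Fin 2) ≠ 1 by decide,
      show (1 : Fin 2) ≠ 0 by decide, if_false, sub_zero] at h00 h11 h01 h10
    refine Valuation.map_eq_of_sub_lt _ ?_ |>.trans (map_one Valued.v)
    rw [map_one]
    set p := (g : Matrix (Fin 2) (Fin 2) (v.adicCompletion L)) 0 0
    set s := (g : Matrix (Fin 2) (Fin 2) (v.adicCompletion L)) 1 1
    rw [show p * s - (g : Matrix (Fin 2) (Fin 2) (v.adicCompletion L)) 0 1 *
      (g : Matrix (Fin 2) (Fin 2) (v.adicCompletion L)) 1 0 - 1 = (p - 1) * s + ((s - 1) -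
      (g : Matrix (Fin 2) (Fin 2) (v.adicCompletion L)) 0 1 *
      (g : Matrix (Fin 2) (Fin 2) (v.adicCompletion L)) 1 0) by ring]
    have hlt : exp (-(((ordAt v (Ideal.span {a})).toNat + 1 : ℕ) : ℤ)) < 1 := by
      rw [← exp_zero, exp_lt_exp]; omega
    refine ((Valuation.map_add _ _ _).trans (max_le ?_ ?_)).trans_lt hlt
    · rw [map_mul]; exact (mul_le_mul' h00 (hint 1 1)).trans_eq (mul_one _)
    · refine (Valuation.map_sub _ _ _).trans (max_le h11 ?_)
      rw [map_mul]; exact (mul_le_mul' h01 (hint 1 0)).trans_eq (mul_one _)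
  have hu : IsUnit k.det :=
    (Valuation.Integers.isUnit_iff_valuation_eq_one (Valuation.valuationSubring.integers _)).mpr hdv
  refine ⟨Matrix.nonsingInvUnit k hu, MonoidHom.mem_ker.mpr (Units.ext ?_), Units.ext ?_⟩
  · exact hkm
  · ext i j; rfl

/-- Approximation of the elements of bounded size by finitely many. -/
theorem exists_finite_approx (N M : ℕ) (v : HeightOneSpectrum (𝓞 L)) :
    ∃ R : Set (v.adicCompletion L), R.Finite ∧ ∀ a : v.adicCompletion L,
      Valued.v a ≤ exp (N : ℤ) → ∃ r ∈ R, Valued.v (a - r) ≤ exp (-(M : ℤ)) := by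
  set p := loc v (pi v : L)
  have hp : Valued.v p = exp (-1 : ℤ) := valued_uniformizer v
  have hpN : Valued.v (p ^ N) = exp (-(N : ℤ)) := by
    rw [map_pow, hp, ← WithZero.exp_nsmul]; simp
  have hp0 : p ^ N ≠ 0 := fun h => exp_ne_zero (hpN.symm.trans (by rw [h, map_zero]))
  have : Finite (𝓞 L ⧸ v.asIdeal ^ (M + N)) :=
    Ideal.finiteQuotientOfFreeOfNeBot _ (pow_ne_zero _ v.ne_bot)
  refine ⟨Set.range fun c : 𝓞 L ⧸ v.asIdeal ^ (M + N) =>
    loc v ((Quotient.out c : 𝓞 L) : L) / p ^ N, Set.finite_range _, fun a ha => ?_⟩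
  obtain ⟨x, hx⟩ := exists_int_close v (a := p ^ N * a) (by
    rw [map_mul, hpN, WithZero.exp_neg, inv_mul_le_iff₀ (zero_lt_iff.mpr exp_ne_zero), mul_one]
    exact ha) (M + N)
  refine ⟨_, ⟨Ideal.Quotient.mk _ x, rfl⟩, ?_⟩
  set y : 𝓞 L := Quotient.out (Ideal.Quotient.mk (v.asIdeal ^ (M + N)) x)
  have hy : Valued.v (loc v (x : L) - loc v (y : L)) ≤ exp (-((M + N : ℕ) : ℤ)) := by
    rw [← map_sub, valued_loc, show (x : L) - (y : L) = algebraMap (𝓞 L) L (x - y) from
      (map_sub _ _ _).symm, HeightOneSpectrum.valuation_of_algebraMap]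
    exact (v.intValuation_le_pow_iff_mem _ _).mpr (Ideal.Quotient.eq.mp (Quotient.out_eq _).symm)
  rw [show a - loc v (y : L) / p ^ N =
      ((p ^ N * a - loc v (x : L)) + (loc v (x : L) - loc v (y : L))) / p ^ N by
    field_simp; ring, map_div₀, hpN, div_le_iff₀ (zero_lt_iff.mpr exp_ne_zero), ← exp_add]
  refine ((Valuation.map_add _ _ _).trans (max_le hx hy)).trans_eq ?_
  congr 1
  push_cast
  ring

/-- A bounded set meets finitely many cosets. -/
theorem finite_bddMod_image {𝔫 : Ideal (𝓞 L)} (h𝔫 : 𝔫 ≠ ⊥) (N : ℤ) (y : GLv v) :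
    {q : LCos 𝔫 v | ∃ g, BddMod N g ∧ ((y * g : GLv v) : LCos 𝔫 v) = q}.Finite := by
  obtain ⟨n, -, hn⟩ := exists_congr_depth h𝔫 v
  obtain ⟨R, hR, hR'⟩ := exists_finite_approx N.toNat (n + 2 * N.toNat) v
  have : Finite R := hR.to_subtype
  choose r hr hr' using hR'
  let key : GLv v → (Fin 2 → Fin 2 → R) → Prop := fun g f => BddAt N g ∧ ∀ i j,
    Valued.v ((g : Matrix (Fin 2) (Fin 2) (v.adicCompletion L)) i j - f i j) ≤ exp (-((n + 2 * N.toNat : ℕ) : ℤ))
  have huniq : ∀ g g' f, key g f → key g' f →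
      ((y * g : GLv v) : LCos 𝔫 v) = ((y * g' : GLv v) : LCos 𝔫 v) := by
    rintro g g' f ⟨hg, hgf⟩ ⟨hg', hgf'⟩
    refine QuotientGroup.eq.mpr (Subgroup.mem_sup_left (hn _ fun i j => ?_))
    have hi := hg.inv
    rw [show (y * g)⁻¹ * (y * g') = g⁻¹ * g' by group, ← Units.inv_mul g, Units.val_mul,
      ← Matrix.sub_apply, ← Matrix.mul_sub, Matrix.mul_apply, Fin.sum_univ_two]
    have hd : ∀ i j, Valued.v (((g' : Matrix (Fin 2) (Fin 2) (v.adicCompletion L)) -
        (g : Matrix (Fin 2) (Fin 2) (v.adicCompletion L))) i j) ≤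
          exp (-((n + 2 * N.toNat : ℕ) : ℤ)) := fun i j => by
      rw [Matrix.sub_apply, show (g' : Matrix (Fin 2) (Fin 2) (v.adicCompletion L)) i j - (g : Matrix (Fin 2) (Fin 2) (v.adicCompletion L)) i j
        = ((g' : Matrix (Fin 2) (Fin 2) (v.adicCompletion L)) i j - f i j) - ((g : Matrix (Fin 2) (Fin 2) (v.adicCompletion L)) i j - f i j)
        by ring]
      exact (Valuation.map_sub _ _ _).trans (max_le (hgf' i j) (hgf i j))
    have hN : 2 * N ≤ 2 * (N.toNat : ℤ) := by omega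
    refine (Valuation.map_add _ _ _).trans (max_le ?_ ?_) <;>
      · rw [map_mul]
        refine (mul_le_mul' ((hi.1 _ _).trans (exp_le_exp.mpr hN)) (hd _ _)).trans ?_
        rw [← exp_add, exp_le_exp]
        omega
  classical
  refine (Set.finite_range fun f : Fin 2 → Fin 2 → R =>
    if h : ∃ g, key g f then ((y * h.choose : GLv v) : LCos 𝔫 v) else (y : LCos 𝔫 v)).subset ?_
  rintro q ⟨g, ⟨z, hz, hb⟩, rfl⟩
  have hle : ∀ i j, Valued.v (((z * g : GLv v) : Matrix (Fin 2) (Fin 2) (v.adicCompletion L)) i j) ≤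
      exp (N.toNat : ℤ) := fun i j => (hb.1 i j).trans (exp_le_exp.mpr (by omega))
  let f : Fin 2 → Fin 2 → R := fun i j => ⟨r _ (hle i j), hr _ (hle i j)⟩
  have hk : key (z * g) f := ⟨hb, fun i j => hr' _ (hle i j)⟩
  refine ⟨f, ?_⟩
  have hex : ∃ g, key g f := ⟨_, hk⟩
  dsimp only
  rw [dif_pos hex, huniq _ _ f hex.choose_spec hk,
    ← Subgroup.mem_center_iff.mp hz g, ← mul_assoc]
  exact QuotientGroup.eq.mpr (Subgroup.mem_sup_right (by
    rw [show (y * g * z)⁻¹ * (y * g) = z⁻¹ by group]; exact inv_mem hz))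

end FermatAgent.LT
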