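import Mathlib

set_option autoImplicit false

/-!
# Two by two matrices commuting with a regular one, and cyclic vectors
-/

noncomputable section

open scoped MatrixGroups

namespace FermatAgent.LT

variable {k : Type*} [Field k]

local notation "M₂" => Matrix (Fin 2) (Fin 2) k

/-- A matrix commuting with a regular one is a polynomial in it. -/
theorem exists_eq_add_smul_of_commute {T g : M₂} (hT : T.trace ^ 2 ≠ 4 * T.det)
    (h : g * T = T * g) : ∃ a b : k, g = a • (1 : M₂) + b • T := by
  have h00 := congrFun (congrFun h 0) 0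
  have h01 := congrFun (congrFun h 0) 1
  have h10 := congrFun (congrFun h 1) 0
  simp only [Matrix.mul_apply, Fin.sum_univ_two] at h00 h01 h10
  suffices ∃ b : k, g 0 1 = b * T 0 1 ∧ g 1 0 = b * T 1 0 ∧
      g 1 1 - g 0 0 = b * (T 1 1 - T 0 0) by
    obtain ⟨b, e1, e2, e3⟩ := this
    refine ⟨g 0 0 - b * T 0 0, b, ?_⟩
    ext i j
    fin_cases i <;> fin_cases j <;>
      simp only [Matrix.add_apply, Matrix.smul_apply, Matrix.one_apply, Fin.zero_eta,
        Fin.mk_one, Fin.isValue, smul_eq_mul, zero_ne_one, one_ne_zero, if_true, if_false,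
        mul_one, mul_zero, zero_add]
    · ring
    · exact e1
    · exact e2
    · linear_combination e3
  by_cases hq : T 0 1 = 0
  · by_cases hr : T 1 0 = 0
    · have hd : T 1 1 - T 0 0 ≠ 0 := fun hd => hT (by
        rw [Matrix.trace_fin_two, Matrix.det_fin_two, hq, hr, sub_eq_zero.mp hd]; ring)
      refine ⟨(g 1 1 - g 0 0) / (T 1 1 - T 0 0), ?_, ?_, (div_mul_cancel₀ _ hd).symm⟩
      · rw [hq, mul_zero]
        rw [hq] at h01
        refine (mul_eq_zero.mp (show g 0 1 * (T 1 1 - T 0 0) = 0 by linear_combination h01)).resolve_right hd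
      · rw [hr, mul_zero]
        rw [hr] at h10
        refine (mul_eq_zero.mp (show g 1 0 * (T 1 1 - T 0 0) = 0 by linear_combination -h10)).resolve_right hd
    · refine ⟨g 1 0 / T 1 0, ?_, (div_mul_cancel₀ _ hr).symm, ?_⟩
      · rw [hq, mul_zero]
        rw [hq] at h00
        refine (mul_eq_zero.mp (show g 0 1 * T 1 0 = 0 by linear_combination h00)).resolve_right hr
      · field_simp
        linear_combination h10
  · refine ⟨g 0 1 / T 0 1, (div_mul_cancel₀ _ hq).symm, ?_, ?_⟩
    · field_simp
      linear_combination -h00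
    · field_simp
      linear_combination -h01

/-- The traces and determinants of two polynomials in the same matrix and of their product. -/
theorem trace_mul_quad (T : M₂) (a b a' b' : k) :
    ((a • (1 : M₂) + b • T) * (a' • (1 : M₂) + b' • T)).trace ^ 2 +
      (a • (1 : M₂) + b • T).trace ^ 2 * (a' • (1 : M₂) + b' • T).det +
      (a' • (1 : M₂) + b' • T).trace ^ 2 * (a • (1 : M₂) + b • T).det =
    (a • (1 : M₂) + b • T).trace * (a' • (1 : M₂) + b' • T).trace *
        ((a • (1 : M₂) + b • T) * (a' • (1 : M₂) + b' • T)).trace +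
      4 * ((a • (1 : M₂) + b • T).det * (a' • (1 : M₂) + b' • T).det) := by
  simp only [Matrix.trace_fin_two, Matrix.det_fin_two, Matrix.mul_apply, Fin.sum_univ_two,
    Matrix.add_apply, Matrix.smul_apply, Matrix.one_apply_eq, smul_eq_mul,
    Matrix.one_apply_ne (zero_ne_one : (0 : Fin 2) ≠ 1),
    Matrix.one_apply_ne (one_ne_zero : (1 : Fin 2) ≠ 0)]
  ring

/-- The matrix with columns `e` and `M e`. -/
def cycMat (M : M₂) (e : Fin 2 → k) : M₂ :=
  !![e 0, M 0 0 * e 0 + M 0 1 * e 1; e 1, M 1 0 * e 0 + M 1 1 * e 1]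

theorem mul_cycMat (T : M₂) (e : Fin 2 → k) :
    T * cycMat T e = cycMat T e * !![0, -T.det; 1, T.trace] := by
  ext i j
  fin_cases i <;> fin_cases j <;>
    simp [cycMat, Matrix.mul_apply, Fin.sum_univ_two, Matrix.trace_fin_two, Matrix.det_fin_two] <;>
    ring

theorem cycMat_of_intertwine {T M X : M₂} (h : T * X = X * M) (e : Fin 2 → k) :
    cycMat T (X.mulVec e) = X * cycMat M e := by
  have h00 := congrFun (congrFun h 0) 0
  have h01 := congrFun (congrFun h 0) 1
  have h10 := congrFun (congrFun h 1) 0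
  have h11 := congrFun (congrFun h 1) 1
  simp only [Matrix.mul_apply, Fin.sum_univ_two] at h00 h01 h10 h11
  ext i j
  fin_cases i <;> fin_cases j <;>
    simp [cycMat, Matrix.mul_apply, Fin.sum_univ_two, Matrix.mulVec, dotProduct]
  · linear_combination e 0 * h00 + e 1 * h01
  · linear_combination e 0 * h10 + e 1 * h11

/-- Two conjugating matrices differ by the centraliser, up to the cyclic bases. -/
theorem exists_centralizer_mul_cyc {T M x V W : GL (Fin 2) k} {e e₀ : Fin 2 → k}
    (hM : x⁻¹ * T * x = M) (hV : (V : M₂) = cycMat (T : M₂) e₀)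
    (hW : (W : M₂) = cycMat (M : M₂) e) :
    ∃ τ : GL (Fin 2) k, τ * T = T * τ ∧ x = τ * V * W⁻¹ := by
  refine ⟨x * W * V⁻¹, ?_, by group⟩
  have hxM : (T : M₂) * x = x * M := by
    rw [← Units.val_mul, ← Units.val_mul, ← hM]
    congr 1
    group
  let C : GL (Fin 2) k := Matrix.GeneralLinearGroup.mkOfDetNeZero
    !![0, -(T : M₂).det; 1, (T : M₂).trace] (by simpa [Matrix.det_fin_two] using T.det_ne_zero)
  have h1 : T * (x * W) = x * W * C := by
    refine Units.ext ?_
    rw [Units.val_mul, Units.val_mul (a := x * W), Units.val_mul, hW,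
      ← cycMat_of_intertwine hxM, mul_cycMat]
    rfl
  have h2 : T * V = V * C := by
    refine Units.ext ?_
    rw [Units.val_mul, Units.val_mul, hV, mul_cycMat]
    rfl
  calc x * W * V⁻¹ * T = x * W * V⁻¹ * (T * V) * V⁻¹ := by group
    _ = x * W * C * V⁻¹ := by rw [h2]; group
    _ = T * (x * W * V⁻¹) := by rw [← h1]; group

/-- Some cyclic vector is as good as the discriminant allows. -/
theorem exists_cyclic_vector {Γ : Type*} [LinearOrderedCommGroupWithZero Γ] (w : Valuation k Γ)
    (M : M₂) : ∃ e : Fin 2 → k, (∀ i, w (e i) ≤ 1) ∧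
      w (M.trace ^ 2 - 4 * M.det) ≤ w (cycMat M e).det * w (cycMat M e).det := by
  by_contra hne
  push Not at hne
  have h2 : ∀ n : ℕ, w (n : k) ≤ 1 := fun n => by
    induction n with
    | zero => simp
    | succ n ih => push_cast; exact (Valuation.map_add _ _ _).trans (max_le ih (le_of_eq (map_one w)))
  have a := hne ![1, 0] (by intro i; fin_cases i <;> simp)
  have b := hne ![0, 1] (by intro i; fin_cases i <;> simp)
  have c := hne ![1, 1] (by intro i; fin_cases i <;> simp)
  simp only [cycMat, Matrix.det_fin_two_of, Matrix.cons_val_zero, Matrix.cons_val_one,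
    mul_one, one_mul, mul_zero, zero_mul, add_zero, zero_add, sub_zero, zero_sub,
    Valuation.map_neg] at a b c
  set D := max (max (w (M 1 0)) (w (M 0 1))) (w (M 1 0 + M 1 1 - (M 0 0 + M 0 1))) with hD
  have hps : w (M 0 0 - M 1 1) ≤ D := by
    rw [show M 0 0 - M 1 1 = M 1 0 - M 0 1 - (M 1 0 + M 1 1 - (M 0 0 + M 0 1)) by ring]
    exact (Valuation.map_sub _ _ _).trans (max_le ((Valuation.map_sub _ _ _).trans
      (le_max_left _ _)) (le_max_right _ _))
  have hle : w (M.trace ^ 2 - 4 * M.det) ≤ D * D := by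
    rw [Matrix.trace_fin_two, Matrix.det_fin_two, show (M 0 0 + M 1 1) ^ 2 -
      4 * (M 0 0 * M 1 1 - M 0 1 * M 1 0) = (M 0 0 - M 1 1) * (M 0 0 - M 1 1) +
        4 * (M 0 1 * M 1 0) by ring]
    refine (Valuation.map_add _ _ _).trans (max_le ?_ ?_) <;> simp only [map_mul]
    · exact mul_le_mul' hps hps
    · refine (mul_le_of_le_one_left' (by exact_mod_cast h2 4)).trans ?_
      exact mul_le_mul' (le_max_of_le_left (le_max_right _ _))
        (le_max_of_le_left (le_max_left _ _))
  rcases max_choice (max (w (M 1 0)) (w (M 0 1))) (w (M 1 0 + M 1 1 - (M 0 0 + M 0 1))) with h | h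
  · rcases max_choice (w (M 1 0)) (w (M 0 1)) with h' | h'
    · rw [hD, h, h'] at hle; exact absurd hle (not_le.mpr a)
    · rw [hD, h, h'] at hle; exact absurd hle (not_le.mpr b)
  · rw [hD, h] at hle; exact absurd hle (not_le.mpr c)

end FermatAgent.LT
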