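import Mathlib
import Fermat.Agent.LT.Descent.Geom.LocalSetup
import Fermat.Agent.LT.Descent.Geom.Local.Bounded
import Fermat.Agent.LT.Descent.Geom.Local.Cyclic

set_option autoImplicit false

/-!
# The centraliser of a regular element at a place, its bounded part and its orbits
-/

noncomputable section

open NumberField IsDedekindDomain WithZero Filter
open scoped MatrixGroups

namespace FermatAgent.LT

variable {L : Type*} [Field L] [NumberField L] {v : HeightOneSpectrum (𝓞 L)}

local notation "M₂v" => Matrix (Fin 2) (Fin 2) (v.adicCompletion L)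

/-- The discriminant of the characteristic polynomial. -/
def discAt (T : GLv v) : v.adicCompletion L := (T : M₂v).trace ^ 2 - 4 * (T : M₂v).det

theorem exists_scalar_of_mem_center {z : GLv v} (hz : z ∈ Subgroup.center (GLv v)) :
    ∃ c : v.adicCompletion L, c ≠ 0 ∧ (z : M₂v) = c • 1 := by
  obtain ⟨c, hc⟩ := Matrix.GeneralLinearGroup.mem_center_iff_val_mem_range_scalar.mp hz
  refine ⟨c, fun h => z.det_ne_zero ?_, by rw [← hc, Matrix.smul_one_eq_diagonal]; rfl⟩
  rw [← hc, h]
  simp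

theorem exists_smul_of_bddMod {N : ℤ} {g : GLv v} (hg : BddMod N g) :
    ∃ c : v.adicCompletion L, c ≠ 0 ∧ (∀ i j, Valued.v (c * (g : M₂v) i j) ≤ exp N) ∧
      exp (-N) ≤ Valued.v (c ^ 2 * (g : M₂v).det) := by
  obtain ⟨z, hz, h1, h2⟩ := hg
  obtain ⟨c, hc, hzc⟩ := exists_scalar_of_mem_center hz
  refine ⟨c, hc, fun i j => ?_, ?_⟩
  · simpa [Units.val_mul, hzc] using h1 i j
  · simpa [Units.val_mul, hzc] using h2

theorem bddMod_of_smul {N : ℤ} {g : GLv v} {c : v.adicCompletion L}
    (h1 : ∀ i j, Valued.v (c * (g : M₂v) i j) ≤ exp N)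
    (h2 : exp (-N) ≤ Valued.v (c ^ 2 * (g : M₂v).det)) : BddMod N g := by
  have hc : c ≠ 0 := fun h => by
    rw [h, zero_pow two_ne_zero, zero_mul, map_zero, le_zero_iff] at h2
    exact exp_ne_zero h2
  refine ⟨Matrix.GeneralLinearGroup.mkOfDetNeZero (c • 1) (by simp [hc]),
    Matrix.GeneralLinearGroup.mem_center_iff_val_mem_range_scalar.mpr
      ⟨c, by rw [Matrix.GeneralLinearGroup.mkOfDetNeZero]; simp [Matrix.smul_one_eq_diagonal]⟩,
    fun i j => ?_, ?_⟩
  · simpa [Units.val_mul, Matrix.GeneralLinearGroup.mkOfDetNeZero] using h1 i j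
  · simpa [Units.val_mul, Matrix.GeneralLinearGroup.mkOfDetNeZero] using h2

theorem bddAt_conj_of_bddMod (T : GLv v) (N : ℤ) :
    ∃ N', ∀ x : GLv v, BddMod N (x⁻¹ * T * x) → BddAt N' (x⁻¹ * T * x) := by
  set d := log (Valued.v (T : M₂v).det)
  have hd : Valued.v (T : M₂v).det = exp d :=
    (exp_log ((Valuation.ne_zero_iff _).mpr T.det_ne_zero)).symm
  refine ⟨2 * |N| + |d|, fun x hx => ?_⟩
  have hdet : ((x⁻¹ * T * x : GLv v) : M₂v).det = (T : M₂v).det := by
    rw [Units.val_mul, Units.val_mul]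
    exact Matrix.det_units_conj' x _
  obtain ⟨c, hc, h1, h2⟩ := exists_smul_of_bddMod hx
  rw [hdet, map_mul, map_pow, hd] at h2
  have hc' : Valued.v c = exp (log (Valued.v c)) :=
    (exp_log ((Valuation.ne_zero_iff _).mpr hc)).symm
  set e := log (Valued.v c)
  rw [hc', ← WithZero.exp_nsmul, ← exp_add, exp_le_exp, nsmul_eq_mul, Nat.cast_ofNat] at h2
  refine ⟨fun i j => ?_, by rw [hdet, hd, exp_le_exp]; linarith [neg_abs_le d, abs_nonneg N]⟩
  have h := h1 i j
  rw [map_mul, hc', mul_comm, ← le_div_iff₀ (zero_lt_iff.mpr exp_ne_zero), ← exp_sub] at h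
  exact h.trans (exp_le_exp.mpr (by linarith [neg_abs_le d, le_abs_self d, le_abs_self N, abs_nonneg d, abs_nonneg N]))

/-- An element conjugating `T` to a bounded element is bounded modulo the centraliser. -/
theorem exists_centralizer_mul_bdd {T : GLv v} {N D : ℤ} (hN : 0 ≤ N) (hD : 0 ≤ D)
    (hT : BddAt N T) (hdisc : exp (-D) ≤ Valued.v (discAt T)) (x : GLv v)
    (hx : BddAt N (x⁻¹ * T * x)) :
    ∃ τ : GLv v, τ * T = T * τ ∧ BddAt (3 * (N + D)) (τ⁻¹ * x) := by
  have key : ∀ M : GLv v, BddAt N M → exp (-D) ≤ Valued.v (discAt M) →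
      ∃ (W : GLv v) (e : Fin 2 → v.adicCompletion L),
        (W : M₂v) = cycMat (M : M₂v) e ∧ BddAt (N + D) W := by
    intro M hM hdM
    obtain ⟨e, he, hde⟩ := exists_cyclic_vector Valued.v (M : M₂v)
    have hb : exp (-D) ≤ Valued.v (cycMat (M : M₂v) e).det := by
      by_contra h
      push Not at h
      have h1 : exp (-D) ≤ (1 : WithZero (Multiplicative ℤ)) := by
        rw [← exp_zero, exp_le_exp]; omega
      exact absurd (hdM.trans (hde.trans (mul_le_of_le_one_right' (h.le.trans h1)))) (not_le.mpr h)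
    refine ⟨Matrix.GeneralLinearGroup.mkOfDetNeZero (cycMat (M : M₂v) e) (fun h0 => exp_ne_zero
      (le_zero_iff.mp (hb.trans_eq (by rw [h0, map_zero])))), e, rfl,
      fun i j => ?_, (exp_le_exp.mpr (by omega)).trans hb⟩
    have h1 : ∀ i, Valued.v (e i) ≤ exp (N + D) := fun i => (he i).trans (by
      rw [← exp_zero, exp_le_exp]; omega)
    have h2 : ∀ i, Valued.v ((M : M₂v) i 0 * e 0 + (M : M₂v) i 1 * e 1) ≤ exp (N + D) := by
      intro i
      refine ((Valuation.map_add _ _ _).trans (max_le ?_ ?_)).trans (exp_le_exp.mpr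
        (by omega : N ≤ N + D)) <;>
        · rw [map_mul]; exact (mul_le_mul' (hM.1 _ _) (he _)).trans_eq (mul_one _)
    show Valued.v (cycMat (M : M₂v) e i j) ≤ _
    have h1' := fun i => (h1 i).trans_eq (exp_add N D)
    have h2' := fun i => (h2 i).trans_eq (exp_add N D)
    fin_cases i <;> fin_cases j <;> simp [cycMat, h1', h2']
  obtain ⟨V, e₀, hV, hVb⟩ := key T hT hdisc
  obtain ⟨W, e, hW, hWb⟩ := key _ hx (by
    have e : discAt (x⁻¹ * T * x) = discAt T := by
      rw [discAt, discAt, Units.val_mul, Units.val_mul, Matrix.det_units_conj',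
        Matrix.trace_units_conj']
    rwa [e])
  obtain ⟨τ, hτ, hxe⟩ := exists_centralizer_mul_cyc rfl hV hW
  refine ⟨τ, hτ, ?_⟩
  rw [hxe, mul_assoc, inv_mul_cancel_left]
  exact (hVb.mul hWb.inv).mono (by omega)

/-- A unit of the centraliser is bounded up to scalars. -/
theorem bddMod_of_commute_unit {T g : GLv v} {N D : ℤ} (hN : 0 ≤ N) (hD : 0 ≤ D) (hT : BddAt N T)
    (hdisc : exp (-D) ≤ Valued.v (discAt T)) (hg : g * T = T * g) {c : v.adicCompletion L}
    (hcd : Valued.v (c ^ 2 * (g : M₂v).det) = 1) (hct : Valued.v (c * (g : M₂v).trace) ≤ 1) :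
    BddMod (N + D) g := by
  have hdne : discAt T ≠ 0 := fun h => exp_ne_zero
    (le_zero_iff.mp (hdisc.trans_eq (by rw [h, map_zero])))
  obtain ⟨a₀, b₀, hab⟩ := exists_eq_add_smul_of_commute (sub_ne_zero.mp hdne)
    (show (g : M₂v) * T = T * g by rw [← Units.val_mul, ← Units.val_mul, hg])
  set a := c * a₀
  set b := c * b₀
  set tT := (T : M₂v).trace
  set dT := (T : M₂v).det
  have hh : c • (g : M₂v) = a • 1 + b • (T : M₂v) := by rw [hab, smul_add, smul_smul, smul_smul]
  have htr : Valued.v (2 * a + b * tT) ≤ 1 := by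
    refine (le_of_eq ?_).trans hct
    congr 1
    have h := congrArg Matrix.trace hh
    simp only [Matrix.trace_smul, Matrix.trace_add, Matrix.trace_one, Fintype.card_fin,
      smul_eq_mul, Nat.cast_ofNat] at h
    simp only [h, tT]; ring
  have hde : Valued.v (a * (a + b * tT) + b ^ 2 * dT) = 1 := by
    refine (congrArg Valued.v ?_).trans hcd
    rw [show c ^ 2 * (g : M₂v).det = (c • (g : M₂v)).det by simp, hh]
    simp [tT, dT, Matrix.det_fin_two, Matrix.trace_fin_two]
    ring
  have h4 : Valued.v (4 : v.adicCompletion L) ≤ 1 := natCast_mem (v.adicCompletionIntegers L) 4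
  have hb : Valued.v b ≤ exp D := by
    have h : Valued.v (b * b * discAt T) ≤ 1 := by
      rw [discAt, show b * b * (tT ^ 2 - 4 * dT) =
        (2 * a + b * tT) * (2 * a + b * tT) - 4 * (a * (a + b * tT) + b ^ 2 * dT) by ring]
      refine (Valuation.map_sub _ _ _).trans (max_le ?_ ?_)
      · rw [map_mul]; exact mul_le_one' htr htr
      · rw [map_mul]; exact mul_le_one' h4 hde.le
    rw [map_mul, map_mul] at h
    have h2 : Valued.v b * Valued.v b * exp (-D) ≤ 1 := (mul_le_mul' le_rfl hdisc).trans h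
    by_contra hlt
    push Not at hlt
    have h3 : 1 ≤ Valued.v b := le_trans (by rw [← exp_zero, exp_le_exp]; exact hD) hlt.le
    refine absurd h2 (not_le.mpr ?_)
    refine lt_of_lt_of_le ?_ (mul_le_mul' (le_mul_of_one_le_right' h3) le_rfl)
    refine lt_of_eq_of_lt (by rw [← exp_add, add_neg_cancel, exp_zero]) (mul_lt_mul_of_pos_right hlt
      (zero_lt_iff.mpr exp_ne_zero))
  have htT : Valued.v tT ≤ exp N := by
    simp only [tT, Matrix.trace_fin_two]
    exact (Valuation.map_add _ _ _).trans (max_le (hT.1 _ _) (hT.1 _ _))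
  have ha : Valued.v a ≤ exp (N + D) := by
    by_contra hlt
    push Not at hlt
    have h1 : Valued.v (b * tT) < Valued.v a := lt_of_le_of_lt (by
      rw [map_mul, add_comm, exp_add]; exact mul_le_mul' hb htT) hlt
    have h2 : Valued.v (a * (a + b * tT)) ≤ exp (N + D) * exp (N + D) := by
      rw [show a * (a + b * tT) = (a * (a + b * tT) + b ^ 2 * dT) - b ^ 2 * dT by ring]
      refine (Valuation.map_sub _ _ _).trans (max_le (hde.trans_le ?_) ?_)
      · rw [← exp_add, ← exp_zero, exp_le_exp]; omega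
      · rw [map_mul, map_pow, sq]
        refine (mul_le_mul' (mul_le_mul' hb hb) hT.det_le).trans_eq ?_
        rw [← exp_add, ← exp_add, ← exp_add]
        congr 1
        ring
    rw [map_mul, Valuation.map_add_eq_of_lt_left _ h1] at h2
    exact absurd h2 (not_le.mpr (mul_lt_mul'' hlt hlt zero_le zero_le))
  refine bddMod_of_smul (fun i j => ?_) ((exp_le_exp.mpr (by omega : -(N + D) ≤ 0)).trans_eq (by
    rw [exp_zero, hcd]))
  rw [← smul_eq_mul, ← Matrix.smul_apply, hh, Matrix.add_apply]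
  refine (Valuation.map_add _ _ _).trans (max_le ?_ ?_) <;>
    rw [Matrix.smul_apply, smul_eq_mul, map_mul]
  · refine le_trans (mul_le_of_le_one_right' ?_) ha
    rw [Matrix.one_apply]
    split_ifs <;> simp
  · rw [add_comm, exp_add]
    exact mul_le_mul' hb (hT.1 i j)

/-! ### The setup -/

variable {S : Setup} {t : GL (Fin 2) S.K} {u : HeightOneSpectrum (𝓞 S.K)}

local notation "M₂u" => Matrix (Fin 2) (Fin 2) (HeightOneSpectrum.adicCompletion S.K u)

theorem locMat_trace (g : GL (Fin 2) S.K) :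
    (locMat u g : M₂u).trace = loc u (g : Matrix (Fin 2) (Fin 2) S.K).trace :=
  (AddMonoidHom.map_trace (loc u).toAddMonoidHom _).symm

theorem locMat_det (g : GL (Fin 2) S.K) :
    (locMat u g : M₂u).det = loc u (g : Matrix (Fin 2) (Fin 2) S.K).det :=
  ((loc u).map_det _).symm

theorem mem_torusAt {g : GLv u} : g ∈ torusAt u t ↔ g * locMat u t = locMat u t * g :=
  Subgroup.mem_centralizer_singleton_iff

theorem discAt_locMat :
    discAt (locMat u t) = loc u ((t : Matrix (Fin 2) (Fin 2) S.K).trace ^ 2 -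
      4 * (t : Matrix (Fin 2) (Fin 2) S.K).det) := by
  rw [discAt, locMat_trace, locMat_det, map_sub, map_pow, map_mul, map_ofNat]

variable (ht : (t : Matrix (Fin 2) (Fin 2) S.K).trace ^ 2 ≠
  4 * (t : Matrix (Fin 2) (Fin 2) S.K).det)
include ht

theorem discAt_ne_zero : discAt (locMat u t) ≠ 0 := by
  rw [discAt_locMat, map_ne_zero]
  exact sub_ne_zero.mpr ht

theorem exists_bound_locMat : ∃ N D : ℤ, 0 ≤ N ∧ 0 ≤ D ∧ BddAt N (locMat u t) ∧
    exp (-D) ≤ Valued.v (discAt (locMat u t)) := by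
  obtain ⟨N, hN⟩ := exists_bddAt (locMat u t)
  set d := log (Valued.v (discAt (locMat u t)))
  have hd : Valued.v (discAt (locMat u t)) = exp d :=
    (exp_log ((Valuation.ne_zero_iff _).mpr (discAt_ne_zero ht))).symm
  exact ⟨max N 0, max (-d) 0, le_max_right _ _, le_max_right _ _, hN.mono (le_max_left _ _),
    by rw [hd, exp_le_exp]; omega⟩

theorem exists_eq_of_mem_torusAt {g : GLv u} (hg : g ∈ torusAt u t) :
    ∃ a b : u.adicCompletion S.K, (g : M₂u) = a • 1 + b • (locMat u t : M₂u) :=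
  exists_eq_add_smul_of_commute (sub_ne_zero.mp (discAt_ne_zero ht))
    (congrArg Units.val (mem_torusAt.mp hg))

theorem torusAt_comm' : ∀ a ∈ torusAt u t, ∀ b ∈ torusAt u t, a * b = b * a := by
  intro a ha b hb
  obtain ⟨p, q, hp⟩ := exists_eq_of_mem_torusAt ht ha
  obtain ⟨p', q', hp'⟩ := exists_eq_of_mem_torusAt ht hb
  refine Units.ext ?_
  rw [Units.val_mul, Units.val_mul, hp, hp']
  simp only [add_mul, mul_add, Matrix.smul_mul, Matrix.mul_smul, one_mul, mul_one, smul_smul,
    mul_comm q' q, mul_comm p' p, mul_comm p' q, mul_comm q' p]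
  abel

theorem torusU_le' : torusU u t ≤ torusAt u t ∧ ∀ g ∈ torusU u t, IsUnitElt u g := by
  refine ⟨(Subgroup.closure_le _).mpr fun g hg => hg.1, fun g hg => ?_⟩
  suffices g ∈ torusAt u t ∧ IsUnitElt u g from this.2
  induction hg using Subgroup.closure_induction with
  | mem x hx => exact hx
  | one =>
    refine ⟨one_mem _, 1, by simp, ?_⟩
    rw [Units.val_one, Matrix.trace_one, one_mul]
    exact natCast_mem (u.adicCompletionIntegers S.K) 2
  | mul x y _ _ hx hy =>
    refine ⟨mul_mem hx.1 hy.1, ?_⟩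
    obtain ⟨c, hcd, hct⟩ := hx.2
    obtain ⟨c', hcd', hct'⟩ := hy.2
    obtain ⟨a, b, hx'⟩ := exists_eq_of_mem_torusAt ht hx.1
    obtain ⟨a', b', hy'⟩ := exists_eq_of_mem_torusAt ht hy.1
    have hid := trace_mul_quad (locMat u t : M₂u) a b a' b'
    rw [← hx', ← hy', ← Units.val_mul] at hid
    refine ⟨c * c', ?_, ?_⟩
    · rw [Units.val_mul, Matrix.det_mul, show (c * c') ^ 2 * ((x : M₂u).det * (y : M₂u).det) =
        c ^ 2 * (x : M₂u).det * (c' ^ 2 * (y : M₂u).det) by ring, map_mul, hcd, hcd', mul_one]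
    · set z := c * c' * ((x * y : GLv u) : M₂u).trace
      set T₁ := c * (x : M₂u).trace
      set T₂ := c' * (y : M₂u).trace
      set D₁ := c ^ 2 * (x : M₂u).det
      set D₂ := c' ^ 2 * (y : M₂u).det
      have e : z * z = z * (T₁ * T₂) - (T₁ * T₁ * D₂ + T₂ * T₂ * D₁ - 4 * (D₁ * D₂)) := by
        simp only [z, T₁, T₂, D₁, D₂]
        linear_combination (c * c') ^ 2 * hid
      have h12 : Valued.v (T₁ * T₂) ≤ 1 := by rw [map_mul]; exact mul_le_one' hct hct'
      have h3 : Valued.v (T₁ * T₁ * D₂ + T₂ * T₂ * D₁ - 4 * (D₁ * D₂)) ≤ 1 := by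
        refine (Valuation.map_sub _ _ _).trans (max_le ((Valuation.map_add _ _ _).trans
          (max_le ?_ ?_)) ?_)
        · rw [map_mul, map_mul]; exact mul_le_one' (mul_le_one' hct hct) hcd'.le
        · rw [map_mul, map_mul]; exact mul_le_one' (mul_le_one' hct' hct') hcd.le
        · rw [map_mul, map_mul]
          exact mul_le_one' (natCast_mem (u.adicCompletionIntegers S.K) 4)
            (mul_le_one' hcd.le hcd'.le)
      by_contra hlt
      push Not at hlt
      have h4 : Valued.v (z * z) ≤ Valued.v z := by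
        rw [e]
        refine (Valuation.map_sub _ _ _).trans (max_le ?_ (h3.trans hlt.le))
        rw [map_mul]; exact mul_le_of_le_one_right' h12
      rw [map_mul] at h4
      exact absurd h4 (not_le.mpr (lt_mul_of_one_lt_right (zero_lt_one.trans hlt) hlt))
  | inv x _ hx =>
    refine ⟨inv_mem hx.1, ?_⟩
    obtain ⟨c, hcd, hct⟩ := hx.2
    have hd0 : (x : M₂u).det ≠ 0 := x.det_ne_zero
    refine ⟨c * (x : M₂u).det, ?_, ?_⟩
    · rw [Matrix.coe_units_inv, Matrix.det_nonsing_inv, Ring.inverse_eq_inv,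
        show (c * (x : M₂u).det) ^ 2 * ((x : M₂u).det)⁻¹ = c ^ 2 * (x : M₂u).det by
          field_simp, hcd]
    · rw [Matrix.coe_units_inv, Matrix.inv_def, Matrix.trace_smul, Matrix.adjugate_fin_two,
        Matrix.trace_fin_two_of, smul_eq_mul, Ring.inverse_eq_inv,
        show c * (x : M₂u).det * (((x : M₂u).det)⁻¹ * ((x : M₂u) 1 1 + (x : M₂u) 0 0)) =
          c * (x : M₂u).trace by rw [Matrix.trace_fin_two]; field_simp; ring]
      exact hct

theorem exists_bddMod_torusU : ∃ N, ∀ g ∈ torusU u t, BddMod N g := by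
  obtain ⟨N, D, hN, hD, hT, hd⟩ := exists_bound_locMat (u := u) ht
  refine ⟨N + D, fun g hg => ?_⟩
  obtain ⟨c, hcd, hct⟩ := (torusU_le' ht).2 g hg
  exact bddMod_of_commute_unit hN hD hT hd (mem_torusAt.mp ((torusU_le' ht).1 hg)) hcd hct

omit ht

theorem isUnitElt_of_conj_level {g y : GLv u} (h : y⁻¹ * g * y ∈ locLevel (S.levelIdeal S.K) u) :
    IsUnitElt u g := by
  obtain ⟨c, -, h1, h2⟩ := exists_smul_of_bddMod (bddMod_of_mem_locLevel h)
  rw [neg_zero, exp_zero] at h2
  rw [exp_zero] at h1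
  have hd : ((y⁻¹ * g * y : GLv u) : M₂u).det = (g : M₂u).det := by
    rw [Units.val_mul, Units.val_mul]; exact Matrix.det_units_conj' y _
  have htr : ((y⁻¹ * g * y : GLv u) : M₂u).trace = (g : M₂u).trace := by
    rw [Units.val_mul, Units.val_mul]; exact Matrix.trace_units_conj' y _
  refine ⟨c, le_antisymm ?_ (hd ▸ h2), ?_⟩
  · rw [← hd]
    generalize hP : ((y⁻¹ * g * y : GLv u) : M₂u) = P at h1
    rw [show c ^ 2 * P.det = (c * P 0 0) * (c * P 1 1) - (c * P 0 1) * (c * P 1 0)
      from by rw [Matrix.det_fin_two]; ring]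
    refine (Valuation.map_sub _ _ _).trans (max_le ?_ ?_) <;>
      · rw [map_mul]; exact mul_le_one' (h1 _ _) (h1 _ _)
  · rw [← htr, Matrix.trace_fin_two, mul_add]
    exact (Valuation.map_add _ _ _).trans (max_le (h1 _ _) (h1 _ _))

/-- Moving a coset into the bounded set: the stabiliser of a coset consists of units. -/
theorem mem_torusU_of_smul_eq {g : GLv u} (hg : g ∈ torusAt u t)
    {y : LCos (S.levelIdeal S.K) u} (h : g • y = y) : g ∈ torusU u t := by
  obtain ⟨x, rfl⟩ := QuotientGroup.mk_surjective y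
  refine Subgroup.subset_closure ⟨hg, isUnitElt_of_conj_level (y := x) ?_⟩
  rw [MulAction.Quotient.smul_coe, smul_eq_mul] at h
  rw [mul_assoc]
  exact QuotientGroup.eq.mp h.symm

include ht

theorem finite_torusU_orbit' (y : LCos (S.levelIdeal S.K) u) :
    ((fun g => g • y) '' (torusU u t : Set (GLv u))).Finite := by
  obtain ⟨N, hN⟩ := exists_bddMod_torusU (u := u) ht
  obtain ⟨x, rfl⟩ := QuotientGroup.mk_surjective y
  obtain ⟨M, hM⟩ := exists_bddAt x
  have hM' : BddMod M x := ⟨1, one_mem _, by rwa [one_mul]⟩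
  refine (finite_bddMod_image (S.levelIdeal_ne_bot _) (N + M) (1 : GLv u)).subset ?_
  rintro q ⟨g, hg, rfl⟩
  exact ⟨g * x, (hN g hg).mul hM', by rw [one_mul]; rfl⟩

/-- Cosets at which `t` acts boundedly form finitely many orbits of the centraliser. -/
theorem exists_finite_orbit_reps (N : ℤ) : ∃ R : Set (LCos (S.levelIdeal S.K) u), R.Finite ∧
    ∀ x : GLv u, BddMod N (x⁻¹ * locMat u t * x) →
      ∃ τ ∈ torusAt u t, ∃ r ∈ R, ((x : GLv u) : LCos (S.levelIdeal S.K) u) = τ • r := by
  obtain ⟨N₁, hN₁⟩ := bddAt_conj_of_bddMod (locMat u t) N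
  obtain ⟨N₀, D, hN₀, hD, hT, hd⟩ := exists_bound_locMat (u := u) ht
  set N₂ := max N₁ N₀
  refine ⟨_, finite_bddMod_image (S.levelIdeal_ne_bot _) (3 * (N₂ + D)) (1 : GLv u), fun x hx => ?_⟩
  obtain ⟨τ, hτ, hb⟩ := exists_centralizer_mul_bdd (le_max_of_le_right hN₀) hD
    (hT.mono (le_max_right _ _)) hd x ((hN₁ x hx).mono (le_max_left _ _))
  refine ⟨τ, mem_torusAt.mpr hτ, _, ⟨_, ⟨1, one_mem _, by rwa [one_mul]⟩, rfl⟩, ?_⟩
  rw [one_mul, MulAction.Quotient.smul_coe, smul_eq_mul, mul_inv_cancel_left]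

end FermatAgent.LT
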