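import Mathlib
import Fermat.Agent.LT.Descent.Geom.Local.Torus

set_option autoImplicit false

/-!
# Almost all places see a single orbit point
-/

noncomputable section

open NumberField IsDedekindDomain WithZero Filter
open scoped MatrixGroups

namespace FermatAgent.LT

theorem eventually_valuation_le_one {L : Type*} [Field L] [NumberField L] (k : L) :
    ∀ᶠ v : HeightOneSpectrum (𝓞 L) in cofinite, v.valuation L k ≤ 1 := by
  refine eventually_cofinite.mpr ((HeightOneSpectrum.Support.finite (𝓞 L) k).subset fun v hv => ?_)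
  exact not_le.mp hv

/-- Where the level is trivial a matrix bounded by one lies in the level subgroup. -/
theorem mem_locCongr_of_bddAt_zero {L : Type*} [Field L] [NumberField L]
    {v : HeightOneSpectrum (𝓞 L)} {𝔫 : Ideal (𝓞 L)} (h𝔫 : ¬ 𝔫 ≤ v.asIdeal) {g : GLv v}
    (hg : BddAt 0 g) : g ∈ locCongr 𝔫 v := by
  obtain ⟨a, ha, hav⟩ := SetLike.not_le_iff_exists.mp h𝔫
  set J := 𝔫.map (algebraMap (𝓞 L) (v.adicCompletionIntegers L))
  have hJ : J = ⊤ := by
    refine Ideal.eq_top_of_isUnit_mem _ (Ideal.mem_map_of_mem _ ha) ?_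
    refine (Valuation.Integers.isUnit_iff_valuation_eq_one
      (Valuation.valuationSubring.integers _)).mpr ?_
    show Valued.v (loc v (a : L)) = 1
    rw [valued_loc, HeightOneSpectrum.valuation_of_algebraMap]
    exact v.intValuation_eq_one_iff_mem_primeCompl a |>.mpr hav
  have h0 := hg.det_le
  obtain ⟨h1, h2⟩ := hg
  rw [neg_zero, exp_zero] at h2
  rw [mul_zero, exp_zero] at h0
  let k : Matrix (Fin 2) (Fin 2) (v.adicCompletionIntegers L) :=
    Matrix.of fun i j => ⟨_, (h1 i j).trans_eq exp_zero⟩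
  have hu : IsUnit k.det := by
    refine (Valuation.Integers.isUnit_iff_valuation_eq_one
      (Valuation.valuationSubring.integers _)).mpr ?_
    show Valued.v (k.det : v.adicCompletion L) = 1
    rw [show (k.det : v.adicCompletion L) = (g : Matrix (Fin 2) (Fin 2) (v.adicCompletion L)).det from
      RingHom.map_det (v.adicCompletionIntegers L).subtype k]
    exact le_antisymm h0 h2
  refine ⟨Matrix.nonsingInvUnit k hu, MonoidHom.mem_ker.mpr (Units.ext ?_), Units.ext ?_⟩
  · ext i j
    exact (@Subsingleton.elim _ (Ideal.Quotient.subsingleton_iff.mpr hJ) _ _)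
  · ext i j; rfl

variable {S : Setup} {t : GL (Fin 2) S.K}

/-- Almost all places see a single orbit point. -/
theorem eventually_single_orbit' (ht : (t : Matrix (Fin 2) (Fin 2) S.K).trace ^ 2 ≠
    4 * (t : Matrix (Fin 2) (Fin 2) S.K).det) :
    ∀ᶠ v in cofinite, (∀ g ∈ torusU v t, g ∈ locLevel (S.levelIdeal S.K) v) ∧
      ∀ y : LCos (S.levelIdeal S.K) v, locMat v t • y = y → ∃ g ∈ torusAt v t,
        g • ((1 : GLv v) : LCos (S.levelIdeal S.K) v) = y := by
  set T := (t : Matrix (Fin 2) (Fin 2) S.K)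
  filter_upwards [eventually_all.mpr fun i => eventually_all.mpr fun j =>
      eventually_valuation_le_one (T i j),
    eventually_valuation_le_one T.det⁻¹, eventually_valuation_le_one (T.trace ^ 2 - 4 * T.det)⁻¹,
    (Ideal.finite_factors (S.levelIdeal_ne_bot S.K)).compl_mem_cofinite]
    with v hent hdet hdisc hlev
  have hn : ¬ S.levelIdeal S.K ≤ v.asIdeal := fun h => hlev (Ideal.dvd_iff_le.mpr h)
  have hentry : ∀ i j, Valued.v ((locMat v t : Matrix (Fin 2) (Fin 2) (v.adicCompletion S.K)) i j) ≤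
      exp (0 : ℤ) := fun i j => by
    rw [exp_zero]
    exact (valued_loc v (T i j)).trans_le (hent i j)
  have hd1 : (1 : WithZero (Multiplicative ℤ)) ≤ v.valuation S.K T.det := by
    rw [map_inv₀] at hdet
    exact (inv_le_one₀ (zero_lt_iff.mpr ((Valuation.ne_zero_iff _).mpr t.det_ne_zero))).mp hdet
  have hT : BddAt 0 (locMat v t) := ⟨hentry, by
    rw [neg_zero, exp_zero, locMat_det, valued_loc]; exact hd1⟩
  have hdd : exp (-(0 : ℤ)) ≤ Valued.v (discAt (locMat v t)) := by
    rw [neg_zero, exp_zero, discAt_locMat, valued_loc]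
    rw [map_inv₀] at hdisc
    exact (inv_le_one₀ (zero_lt_iff.mpr ((Valuation.ne_zero_iff _).mpr (sub_ne_zero.mpr ht)))).mp
      hdisc
  have hmem : ∀ g : GLv v, BddMod 0 g → g ∈ locLevel (S.levelIdeal S.K) v := by
    rintro g ⟨z, hz, hb⟩
    rw [← inv_mul_cancel_left z g]
    exact mul_mem (Subgroup.mem_sup_right (inv_mem hz))
      (Subgroup.mem_sup_left (mem_locCongr_of_bddAt_zero hn hb))
  refine ⟨fun g hg => ?_, fun y hy => ?_⟩
  · obtain ⟨c, hcd, hct⟩ := (torusU_le' ht).2 g hg
    exact hmem g ((bddMod_of_commute_unit le_rfl le_rfl hT hdd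
      (mem_torusAt.mp ((torusU_le' ht).1 hg)) hcd hct).mono (by norm_num))
  · obtain ⟨x, rfl⟩ := QuotientGroup.mk_surjective y
    have hx : x⁻¹ * locMat v t * x ∈ locLevel (S.levelIdeal S.K) v := by
      rw [MulAction.Quotient.smul_coe, smul_eq_mul] at hy
      rw [mul_assoc]
      exact QuotientGroup.eq.mp hy.symm
    obtain ⟨c, -, h1, h2⟩ := exists_smul_of_bddMod (bddMod_of_mem_locLevel hx)
    -- the scalar is a unit
    have hdet' : ((x⁻¹ * locMat v t * x : GLv v) :
        Matrix (Fin 2) (Fin 2) (v.adicCompletion S.K)).det =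
        (locMat v t : Matrix (Fin 2) (Fin 2) (v.adicCompletion S.K)).det := by
      rw [Units.val_mul, Units.val_mul]; exact Matrix.det_units_conj' x _
    have hdle := hT.det_le
    rw [hdet', map_mul, map_pow, neg_zero, exp_zero] at h2
    rw [mul_zero, exp_zero] at hdle
    have hc : 1 ≤ Valued.v c := by
      by_contra hlt
      push Not at hlt
      have h3 : Valued.v c ^ 2 *
          Valued.v (locMat v t : Matrix (Fin 2) (Fin 2) (v.adicCompletion S.K)).det < 1 :=
        lt_of_le_of_lt (mul_le_of_le_one_right' hdle) (pow_lt_one₀ zero_le hlt two_ne_zero)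
      exact absurd h2 (not_le.mpr h3)
    have hb : BddAt 0 (x⁻¹ * locMat v t * x) := ⟨fun i j => by
      have h := h1 i j
      rw [map_mul, exp_zero] at h
      rw [exp_zero]
      exact (le_mul_of_one_le_left' hc).trans h, by rw [hdet']; exact hT.2⟩
    obtain ⟨τ, hτ, hτb⟩ := exists_centralizer_mul_bdd le_rfl le_rfl hT hdd x hb
    refine ⟨τ, mem_torusAt.mpr hτ, ?_⟩
    rw [MulAction.Quotient.smul_coe, smul_eq_mul, mul_one]
    exact QuotientGroup.eq.mpr (hmem _ ⟨1, one_mem _, by rw [one_mul]; simpa using hτb⟩)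

end FermatAgent.LT
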