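import Mathlib
import Fermat.Agent.LT.Descent.Geom.Local.InertField
import Fermat.Agent.LT.Descent.Geom.Local.GalFacts
import Fermat.Agent.LT.Descent.Facts.Places

set_option autoImplicit false

/-!
# The places of `F` over a place of `K`

They form one orbit of the Galois group.  A moved place has ramification index one and the residue
field of `K`; a fixed one has ramification index dividing three.
-/

noncomputable section

open NumberField IsDedekindDomain WithZero Filter Topology

namespace FermatAgent.LT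

variable {S : Setup} {σ : S.F ≃+* S.F} (hσ : S.IsGalGen σ)

include hσ in
theorem galInt_cube (x : 𝓞 S.F) : galInt σ (galInt σ (galInt σ x)) = x :=
  RingOfIntegers.ext (hσ.cube x)

include hσ in
theorem galPlace_cube (w : HeightOneSpectrum (𝓞 S.F)) :
    galPlace σ (galPlace σ (galPlace σ w)) = w := by
  refine HeightOneSpectrum.ext (Ideal.ext fun x => ?_)
  simp only [galPlace_asIdeal, Ideal.mem_comap, galInt_cube hσ]

include hσ in
/-- The norm of an integer of `F` comes from `K`. -/
theorem exists_inclInt_norm (x : 𝓞 S.F) :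
    ∃ y : 𝓞 S.K, S.inclInt y = x * galInt σ x * galInt σ (galInt σ x) := by
  set z := x * galInt σ x * galInt σ (galInt σ x)
  obtain ⟨y, hy⟩ := hσ.exists_of_fixed (x := (z : S.F)) (by
    rw [← galInt_coe]
    congr 1
    simp only [z, map_mul, galInt_cube hσ]
    ring)
  have hyint : IsIntegral ℤ y := (isIntegral_algHom_iff (S.inclKF.restrictScalars ℤ)
    S.inclKF.injective).mp (by
      show IsIntegral ℤ (S.inclKF y)
      rw [hy]; exact RingOfIntegers.isIntegral_coe _)
  exact ⟨⟨y, hyint⟩, RingOfIntegers.ext hy⟩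

/-- A congruence class at one place which is trivial at others. -/
theorem exists_congr_away {L : Type*} [Field L] [NumberField L] (w : HeightOneSpectrum (𝓞 L))
    (s : Finset (HeightOneSpectrum (𝓞 L))) (hs : w ∉ s) (n : ℕ) (o : 𝓞 L) :
    ∃ x : 𝓞 L, x - o ∈ w.asIdeal ^ n ∧ ∀ u ∈ s, x - 1 ∈ u.asIdeal := by
  classical
  obtain ⟨x, hx⟩ := IsDedekindDomain.exists_forall_sub_mem_ideal (s := insert w s)
    (fun u => u.asIdeal) (fun u => if u = w then n else 1) (fun u _ => u.prime)
    (fun u _ u' _ h h' => h (HeightOneSpectrum.ext h')) (fun u => if (u : _) = w then o else 1)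
  refine ⟨x, by simpa using hx w (Finset.mem_insert_self _ _), fun u hu => ?_⟩
  have hne : u ≠ w := fun h => hs (h ▸ hu)
  simpa [hne] using hx u (Finset.mem_insert_of_mem hu)

include hσ in
/-- The places over a place of `K` form one orbit. -/
theorem galPlace_orbit {w w' : HeightOneSpectrum (𝓞 S.F)} (h : S.underK w' = S.underK w) :
    w' = w ∨ w' = galPlace σ w ∨ w' = galPlace σ (galPlace σ w) := by
  classical
  by_contra hne
  push Not at hne
  obtain ⟨x, hx, hx1⟩ := exists_congr_away w' {w, galPlace σ w, galPlace σ (galPlace σ w)}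
    (by simp [hne.1, hne.2.1, hne.2.2]) 1 0
  rw [pow_one, sub_zero] at hx
  have hnot : ∀ u ∈ ({w, galPlace σ w, galPlace σ (galPlace σ w)} :
      Finset (HeightOneSpectrum (𝓞 S.F))), x ∉ u.asIdeal := fun u hu hxu => by
    refine u.isPrime.ne_top ((Ideal.eq_top_iff_one _).mpr ?_)
    simpa using sub_mem hxu (hx1 u hu)
  obtain ⟨y, hy⟩ := exists_inclInt_norm hσ x
  have hyv : y ∈ (S.underK w').asIdeal := by
    show S.inclInt y ∈ w'.asIdeal
    rw [hy]
    exact Ideal.mul_mem_right _ _ (Ideal.mul_mem_right _ _ hx)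
  rw [h] at hyv
  change S.inclInt y ∈ w.asIdeal at hyv
  rw [hy] at hyv
  rcases w.isPrime.mem_or_mem hyv with h1 | h1
  · rcases w.isPrime.mem_or_mem h1 with h2 | h2
    · exact hnot w (by simp) h2
    · exact hnot (galPlace σ w) (by simp) h2
  · exact hnot (galPlace σ (galPlace σ w)) (by simp) h1

include hσ in
/-- If one place over a place of `K` is fixed, it is the only one. -/
theorem eq_of_galPlace_fixed {w w' : HeightOneSpectrum (𝓞 S.F)} (hfix : galPlace σ w = w)
    (h : S.underK w' = S.underK w) : w' = w := by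
  rcases galPlace_orbit hσ h with h' | h' | h'
  · exact h'
  · exact h'.trans hfix
  · rw [h', hfix, hfix]

include hσ in
theorem galPlace_moved {w : HeightOneSpectrum (𝓞 S.F)} (hne : galPlace σ w ≠ w) :
    galPlace σ (galPlace σ w) ≠ w ∧ galPlace σ (galPlace σ w) ≠ galPlace σ w := by
  refine ⟨fun h => hne ?_, fun h => hne (galPlace_injective σ h)⟩
  have := galPlace_cube hσ w
  rwa [h] at this

/-! ### Ramification -/

variable (S) in
/-- The ramification index over `K`. -/
def Setup.ramAt (w : HeightOneSpectrum (𝓞 S.F)) : ℕ :=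
  letI : Algebra (𝓞 S.K) (𝓞 S.F) := S.inclInt.toAlgebra
  (S.underK w).asIdeal.ramificationIdx' w.asIdeal

theorem valuation_pow_ramAt (w : HeightOneSpectrum (𝓞 S.F)) (z : S.K) :
    w.valuation S.F (S.inclKF z) = (S.underK w).valuation S.K z ^ S.ramAt w := by
  let _ : Algebra S.K S.F := S.inclKF.toRingHom.toAlgebra
  let _ : Algebra (𝓞 S.K) (𝓞 S.F) := S.inclInt.toAlgebra
  have : IsScalarTower (𝓞 S.K) S.K S.F := IsScalarTower.of_algebraMap_eq fun _ => rfl
  have : IsScalarTower (𝓞 S.K) (𝓞 S.F) S.F := IsScalarTower.of_algebraMap_eq fun _ => rfl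
  have : Module.IsTorsionFree (𝓞 S.K) (𝓞 S.F) :=
    Module.isTorsionFree_iff_algebraMap_injective.mpr fun a b h => RingOfIntegers.coe_injective
      (S.inclKF.injective (congrArg (fun z : 𝓞 S.F => (z : S.F)) h))
  have : w.asIdeal.LiesOver (S.underK w).asIdeal := ⟨rfl⟩
  exact (HeightOneSpectrum.valuation_liesOver S.F (S.underK w) w z).symm

theorem ramAt_dvd_of_val {w : HeightOneSpectrum (𝓞 S.F)} {y : 𝓞 S.K} {k : ℕ}
    (hk : 0 < k) (hy : w.intValuation (S.inclInt y) = exp (-(k : ℤ))) : S.ramAt w ∣ k := by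
  have h1 := valuation_pow_ramAt w (y : S.K)
  rw [show S.inclKF (y : S.K) = algebraMap (𝓞 S.F) S.F (S.inclInt y) from rfl,
    HeightOneSpectrum.valuation_of_algebraMap, hy,
    show (y : S.K) = algebraMap (𝓞 S.K) S.K y from rfl,
    HeightOneSpectrum.valuation_of_algebraMap] at h1
  have h0 : (S.underK w).intValuation y ≠ 0 := fun h0 => by
    rw [h0] at h1
    rcases hh : S.ramAt w with _ | e <;> rw [hh] at h1 <;> simp at h1
    omega
  rw [← exp_log h0, ← WithZero.exp_nsmul, exp_inj, nsmul_eq_mul] at h1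
  have h2 : (S.ramAt w : ℤ) ∣ (k : ℤ) :=
    ⟨-log ((S.underK w).intValuation y), by linarith⟩
  exact Int.natCast_dvd_natCast.mp h2

include hσ in
theorem ramAt_dvd_three {w : HeightOneSpectrum (𝓞 S.F)} (hfix : galPlace σ w = w) :
    S.ramAt w ∣ 3 := by
  obtain ⟨p, hp⟩ := w.intValuation_exists_uniformizer
  obtain ⟨y, hy⟩ := exists_inclInt_norm hσ p
  refine ramAt_dvd_of_val (y := y) three_pos ?_
  rw [hy, map_mul, map_mul, intValuation_galInt, hfix, intValuation_galInt, hfix,
    intValuation_galInt, hfix, hp, ← exp_add, ← exp_add]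
  norm_num

include hσ in
theorem ramAt_eq_one {w : HeightOneSpectrum (𝓞 S.F)} (hne : galPlace σ w ≠ w) :
    S.ramAt w = 1 := by
  classical
  obtain ⟨h2, h3⟩ := galPlace_moved hσ hne
  obtain ⟨p, hp⟩ := w.intValuation_exists_uniformizer
  obtain ⟨x, hx, hx1⟩ := exists_congr_away w {galPlace σ w, galPlace σ (galPlace σ w)}
    (by simp [hne.symm, h2.symm]) 2 p
  obtain ⟨y, hy⟩ := exists_inclInt_norm hσ x
  have hu : ∀ u ∈ ({galPlace σ w, galPlace σ (galPlace σ w)} :
      Finset (HeightOneSpectrum (𝓞 S.F))), u.intValuation x = 1 := fun u hu => by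
    refine HeightOneSpectrum.intValuation_eq_one_iff.mpr fun hxu => ?_
    refine u.isPrime.ne_top ((Ideal.eq_top_iff_one _).mpr ?_)
    simpa using sub_mem hxu (hx1 u hu)
  have hxv : w.intValuation x = exp (-1 : ℤ) := by
    have h4 : w.intValuation (x - p) < w.intValuation p := by
      rw [hp]
      exact ((w.intValuation_le_pow_iff_mem _ 2).mpr hx).trans_lt (exp_lt_exp.mpr (by norm_num))
    rw [← hp, ← Valuation.map_eq_of_sub_lt _ h4]
  refine Nat.dvd_one.mp (ramAt_dvd_of_val (y := y) one_pos ?_)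
  rw [hy, map_mul, map_mul, hxv, intValuation_galInt, hu _ (by simp), intValuation_galInt,
    intValuation_galInt, hu _ (by simp), mul_one, mul_one]
  norm_num

include hσ in
theorem ramAt_odd (w : HeightOneSpectrum (𝓞 S.F)) : Odd (S.ramAt w) := by
  by_cases hfix : galPlace σ w = w
  · rcases (Nat.dvd_prime Nat.prime_three).mp (ramAt_dvd_three hσ hfix) with h | h <;>
      rw [h] <;> decide
  · rw [ramAt_eq_one hσ hfix]; decide

include hσ in
/-- The residue field at a moved place is that of `K`. -/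
theorem surjective_residue_moved {w : HeightOneSpectrum (𝓞 S.F)} (hne : galPlace σ w ≠ w)
    (o : 𝓞 S.F) : ∃ b : 𝓞 S.K, o - S.inclInt b ∈ w.asIdeal := by
  classical
  obtain ⟨h2, h3⟩ := galPlace_moved hσ hne
  obtain ⟨x, hx, hx1⟩ := exists_congr_away w {galPlace σ w, galPlace σ (galPlace σ w)}
    (by simp [hne.symm, h2.symm]) 1 o
  rw [pow_one] at hx
  obtain ⟨b, hb⟩ := exists_inclInt_norm hσ x
  refine ⟨b, ?_⟩
  have e1 : galInt σ x - 1 ∈ w.asIdeal := by
    have h := hx1 (galPlace σ w) (by simp)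
    rwa [galPlace_asIdeal, Ideal.mem_comap, map_sub, map_one] at h
  have e2 : galInt σ (galInt σ x) - 1 ∈ w.asIdeal := by
    have h := hx1 (galPlace σ (galPlace σ w)) (by simp)
    rwa [galPlace_asIdeal, Ideal.mem_comap, galPlace_asIdeal, Ideal.mem_comap, map_sub, map_one,
      map_sub, map_one] at h
  rw [hb, show o - x * galInt σ x * galInt σ (galInt σ x) = -((x - o) +
    x * (galInt σ x - 1) + x * galInt σ x * (galInt σ (galInt σ x) - 1)) by ring]
  exact neg_mem (add_mem (add_mem hx (Ideal.mul_mem_left _ _ e1)) (Ideal.mul_mem_left _ _ e2))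

/-! ### The completions -/

theorem valued_inclOver_pow {v : HeightOneSpectrum (𝓞 S.K)} (w : S.OverK v)
    (x : v.adicCompletion S.K) :
    Valued.v (S.inclOver w x) = Valued.v x ^ S.ramAt w.1 := by
  rcases eq_or_ne x 0 with rfl | hx
  · rw [map_zero, map_zero, map_zero]
    refine (zero_pow fun h => ?_).symm
    obtain ⟨y, hy⟩ := (S.underK w.1).intValuation_exists_uniformizer
    have h1 := valuation_pow_ramAt w.1 (y : S.K)
    rw [h, pow_zero] at h1
    have hmem : S.inclInt y ∈ w.1.asIdeal := by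
      show y ∈ (S.underK w.1).asIdeal
      rw [← (S.underK w.1).intValuation_lt_one_iff_mem, hy, ← exp_zero, exp_lt_exp]; norm_num
    rw [show S.inclKF (y : S.K) = algebraMap (𝓞 S.F) S.F (S.inclInt y) from rfl,
      HeightOneSpectrum.valuation_of_algebraMap] at h1
    exact ((w.1.intValuation_lt_one_iff_mem _).mpr hmem).ne h1
  have h1 : {y | Valued.v y = Valued.v x} ∈ 𝓝 x :=
    Valued.locally_const ((Valuation.ne_zero_iff _).mpr hx)
  have h2 : S.inclOver w ⁻¹' {y | Valued.v y = Valued.v (S.inclOver w x)} ∈ 𝓝 x :=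
    (S.continuous_inclOver w).continuousAt (Valued.locally_const
      ((Valuation.ne_zero_iff _).mpr ((map_ne_zero _).mpr hx)))
  obtain ⟨_, ⟨hy1, hy2⟩, k, rfl⟩ := mem_closure_iff_nhds.mp
    (HeightOneSpectrum.denseRange_algebraMap (K := S.K) v x) _ (inter_mem h1 h2)
  rw [← hy2.out, ← hy1.out]
  show Valued.v (S.inclOver w (loc v k)) = Valued.v (loc v k) ^ _
  obtain ⟨w, rfl⟩ := w
  rw [S.inclOver_loc, valued_loc, valued_loc, valuation_pow_ramAt]

/-- Without ramification and residual extension the completions coincide. -/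
theorem inclOver_surjective {v : HeightOneSpectrum (𝓞 S.K)} (w : S.OverK v)
    (he : S.ramAt w.1 = 1) (hres : ∀ o : 𝓞 S.F, ∃ b : 𝓞 S.K, o - S.inclInt b ∈ w.1.asIdeal) :
    Function.Surjective (S.inclOver w) := by
  set f := S.inclOver w
  have hv' : ∀ y, Valued.v (f y) = Valued.v y := fun y => by
    rw [valued_inclOver_pow, he, pow_one]
  have hclosed : IsClosed (Set.range f) := by
    have hcomap : Filter.comap f (𝓝 0) = 𝓝 0 := by
      refine le_antisymm ?_ ((map_zero f ▸ (S.continuous_inclOver _).tendsto 0).le_comap)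
      intro s hs
      rw [Valued.mem_nhds_zero] at hs
      obtain ⟨γ, hγ⟩ := hs
      obtain ⟨a, b, ha, hb, hab⟩ := Valuation.restrict_exists_div_eq
        (Valued.v (R := v.adicCompletion S.K)) γ
      have hne : Valued.v.restrict (f (a / b)) ≠ 0 := by
        rw [ne_eq, Valuation.restrict_eq_zero_iff, hv', map_div₀]
        exact div_ne_zero ha.ne' hb.ne'
      refine mem_comap.mpr ⟨_, Valued.mem_nhds_zero.mpr ⟨Units.mk0 _ hne, subset_rfl⟩,
        fun y hy => hγ ?_⟩
      simp only [Set.mem_preimage, Set.mem_ofPred_eq, Units.val_mk0, Valuation.restrict_lt_iff,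
        hv'] at hy
      rw [Set.mem_ofPred_eq, ← hab, ← map_div₀, Valuation.restrict_lt_iff]
      exact hy
    have hind : IsUniformInducing f := ⟨by
      rw [uniformity_eq_comap_nhds_zero (v.adicCompletion S.K),
        uniformity_eq_comap_nhds_zero (w.1.adicCompletion S.F), ← hcomap, comap_comap, comap_comap]
      congr 1
      funext p
      simp [Function.comp_apply]⟩
    exact hind.isComplete_range.isClosed
  set π := f (loc v (pi v : S.K))
  have hπ : Valued.v π = exp (-1 : ℤ) := by rw [hv', valued_uniformizer]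
  have hπ0 : π ≠ 0 := fun h => exp_ne_zero (hπ.symm.trans (by rw [h, map_zero]))
  have happ : ∀ (n : ℕ) (a : w.1.adicCompletion S.F), Valued.v a ≤ 1 →
      ∃ b, Valued.v (a - f b) ≤ exp (-(n : ℤ)) := by
    intro n
    induction n with
    | zero => exact fun a ha => ⟨0, by simpa using ha⟩
    | succ n ih =>
      intro a ha
      obtain ⟨o, ho⟩ := exists_int_close w.1 ha 1
      obtain ⟨b, hb⟩ := hres o
      have h1 : Valued.v (a - f (loc v (b : S.K))) ≤ exp (-1 : ℤ) := by
        rw [show f (loc v (b : S.K)) = loc w.1 (S.inclKF (b : S.K)) from S.inclOver_loc w _,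
          show a - loc w.1 (S.inclKF (b : S.K)) = (a - loc w.1 (o : S.F)) +
            (loc w.1 (o : S.F) - loc w.1 ((S.inclInt b : 𝓞 S.F) : S.F)) by
              rw [S.inclInt_apply]; ring]
        refine (Valuation.map_add _ _ _).trans (max_le (by exact_mod_cast ho) ?_)
        rw [← map_sub, valued_loc, ← map_sub]
        rw [show (1 : ℤ) = ((1 : ℕ) : ℤ) from rfl, HeightOneSpectrum.valuation_of_algebraMap]
        exact (w.1.intValuation_le_pow_iff_mem _ 1).mpr (by rwa [pow_one])
      obtain ⟨c, hc⟩ := ih ((a - f (loc v (b : S.K))) / π) (by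
        rw [map_div₀, hπ, div_le_one₀ (zero_lt_iff.mpr exp_ne_zero)]; exact h1)
      refine ⟨loc v (b : S.K) + loc v (pi v : S.K) * c, ?_⟩
      rw [map_add, map_mul, show a - (f (loc v (b : S.K)) + π * f c) =
        π * ((a - f (loc v (b : S.K))) / π - f c) by field_simp; ring, map_mul, hπ]
      refine (mul_le_mul' le_rfl hc).trans_eq ?_
      rw [← exp_add]
      congr 1
      push_cast
      ring
  intro a
  have hint : ∀ a : w.1.adicCompletion S.F, Valued.v a ≤ 1 → a ∈ Set.range f := by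
    intro a ha
    rw [← hclosed.closure_eq]
    refine mem_closure_iff_nhds.mpr fun s hs => ?_
    obtain ⟨γ, hγ⟩ := Valued.mem_nhds.mp hs
    obtain ⟨p, q, hp, hq, hpq⟩ := Valuation.restrict_exists_div_eq
      (Valued.v (R := w.1.adicCompletion S.F)) γ
    have hne : Valued.v (p / q) ≠ 0 := by rw [map_div₀]; exact div_ne_zero hp.ne' hq.ne'
    obtain ⟨b, hb⟩ := happ (1 - log (Valued.v (p / q))).toNat a ha
    refine ⟨f b, hγ ?_, b, rfl⟩
    rw [Set.mem_ofPred_eq, ← hpq, ← map_div₀, Valuation.restrict_lt_iff, Valuation.map_sub_swap]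
    refine hb.trans_lt ?_
    rw [← exp_log hne, exp_lt_exp, log_exp]
    omega
  rcases le_total (Valued.v a) 1 with h | h
  · exact hint a h
  · obtain ⟨b, hb⟩ := hint a⁻¹ (by rw [map_inv₀]; exact inv_le_one_of_one_le₀ h)
    exact ⟨b⁻¹, by rw [map_inv₀, hb, inv_inv]⟩

/-- An element of an inertia group keeps the place. -/
theorem galPlace_gRes_inertia {A : ValuationSubring (AlgebraicClosure ℚ)}
    {w : HeightOneSpectrum (𝓞 S.F)} (hA : Duality.Global.Over S.F A w)
    {τ : AlgebraicClosure ℚ ≃ₐ[ℚ] AlgebraicClosure ℚ} (hτ : τ ∈ A.inertiaSubgroupIn ℚ) :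
    galPlace (S.gRes τ) w = w := by
  refine HeightOneSpectrum.ext (Ideal.ext fun x => ?_)
  have key : galInt (S.gRes τ) x - x ∈ w.asIdeal := by
    rw [← hA.2, Ideal.mem_comap, map_sub, RT.mem_centre_iff]
    have h := Local.inertia_val_sub_lt_one hτ
      (RT.mem_of_isIntegral_int A (Duality.Global.toZB S.F x).2)
    rw [show ((Duality.Global.toZB S.F (galInt (S.gRes τ) x) - Duality.Global.toZB S.F x :
        integralClosure ℤ (AlgebraicClosure ℚ)) : AlgebraicClosure ℚ) =
      τ ((x : S.F) : AlgebraicClosure ℚ) - ((x : S.F) : AlgebraicClosure ℚ) from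
        congrArg (· - ((x : S.F) : AlgebraicClosure ℚ)) (S.coe_gRes τ (x : S.F))]
    exact h
  rw [galPlace_asIdeal, Ideal.mem_comap]
  exact ⟨fun h => by simpa using sub_mem h key, fun h => by simpa using add_mem key h⟩

include hσ in
/-- The places over `3` are moved. -/
theorem galPlace_ne_of_three {w : HeightOneSpectrum (𝓞 S.F)} (h3 : (3 : 𝓞 S.F) ∈ w.asIdeal) :
    galPlace σ w ≠ w := by
  intro hfix
  have hw : ((3 * S.m : ℕ) : 𝓞 S.F) ∈ w.asIdeal := by
    push_cast; exact Ideal.mul_mem_right _ _ h3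
  obtain ⟨A, hA⟩ := Duality.Global.exists_place w
  have hA3 : A.LiesOverPrime 3 := by
    obtain ⟨q, hq, hqA⟩ := hA.1
    have h3' : ((3 : ℕ) : 𝓞 S.F) ∈ w.asIdeal := by exact_mod_cast h3
    rw [← hA.2, Ideal.mem_comap, map_natCast, ← Int.cast_natCast,
      RT.intCast_mem_centre_iff hq hqA, Int.natCast_dvd_natCast] at h3'
    rwa [← (Nat.prime_dvd_prime_iff_eq hq Nat.prime_three).mp h3']
  obtain ⟨τ, hτ, hτσ⟩ := ExtVanish.exists_inertia_lift_at S.F.val Nat.prime_three hA3 w.asIdeal
    (fun x => (hA.mem_iff x).trans A.mem_nonunits_iff.symm)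
    (AlgEquiv.ofRingEquiv (f := σ) fun r => map_ratCast σ r) fun x => by
      show _ ∈ w.asIdeal
      obtain ⟨b, hb⟩ := S.surjective_residue w hw x
      change x - S.inclInt b ∈ w.asIdeal at hb
      have e : galInt σ x - x = galInt σ (x - S.inclInt b) - (x - S.inclInt b) := by
        rw [map_sub, S.galInt_inclInt hσ]; ring
      have hm : galInt σ x - x ∈ w.asIdeal := by
        rw [e]
        exact sub_mem ((gal_mem_iff hfix _).mpr hb) hb
      convert hm using 2
      exact RingOfIntegers.ext rfl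
  have hres : ∀ x : S.F, S.gRes τ x = σ x := fun x =>
    Subtype.ext ((S.coe_gRes τ x).trans (hτσ x))
  have hK : τ ∈ S.K.fixingSubgroup :=
    (S.gRes_fixes_iff τ).mp fun y => (hres _).trans (hσ.2 y)
  refine hσ.1 (RingEquiv.ext fun x => ?_)
  obtain ⟨θ, -, hoct, h8, hgen⟩ := S.exists_oct_generator hA3
  obtain ⟨k, hk⟩ := Subgroup.mem_zpowers_iff.1 (hgen τ hτ)
  have hq8 : S.ρ τ ∈ quaternionSubgroup := by
    rw [mem_quaternionSubgroup, ← GL2F3.tq8_toTup]
    refine GL2F3.tnormaliser_oct _ hoct _ (by rw [GL2F3.tdet_toTup, S.det_eq_one_of_fix hK])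
      ⟨1, ?_⟩
    rw [Setup.toTup_pow_eq, ← GL2F3.toTup_mul, ← GL2F3.toTup_mul, ← Units.val_mul,
      ← Units.val_mul, Fin.val_one, pow_one, ← hk, ← zpow_add_one, ← zpow_one_add, add_comm]
  rw [← hres x]
  exact RingEquiv.congr_fun ((S.gRes_eq_refl_iff τ).mpr hq8) x

include hσ in
/-- The places dividing `m` are fixed and totally ramified. -/
theorem galPlace_eq_of_tame {w : HeightOneSpectrum (𝓞 S.F)} (hm : (S.m : 𝓞 S.F) ∈ w.asIdeal) :
    galPlace σ w = w ∧ S.ramAt w = 3 := by
  obtain ⟨A, hA⟩ := Duality.Global.exists_place w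
  obtain ⟨q, hq, hqA⟩ := hA.1
  have hqm : q ∣ S.m := by
    rw [← hA.2, Ideal.mem_comap, map_natCast, ← Int.cast_natCast,
      RT.intCast_mem_centre_iff hq hqA, Int.natCast_dvd_natCast] at hm
    exact hm
  obtain ⟨τ, hτ, hne⟩ := S.ramified q hq hqm A hqA
  have h3 := S.unipotent q hq hqm A hqA τ hτ
  have hK : τ ∈ S.K.fixingSubgroup := by
    rw [S.mem_fixing_K_iff]
    have h := congrArg (fun g : GL (Fin 2) (ZMod 3) => (g : Matrix (Fin 2) (Fin 2) (ZMod 3)).det) h3
    simp only [Units.val_pow_eq_pow_val, Matrix.det_pow, Units.val_one, Matrix.det_one] at h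
    revert h
    generalize (S.ρ τ : Matrix (Fin 2) (Fin 2) (ZMod 3)).det = d
    revert d
    decide
  have hnq : S.ρ τ ∉ quaternionSubgroup := fun h => hne (eq_one_of_q8_three h h3)
  have hfixes : ∀ y : S.K, S.gRes τ (S.inclKF y) = S.inclKF y := (S.gRes_fixes_iff τ).mpr hK
  have hτw := galPlace_gRes_inertia hA hτ
  have hfix : galPlace σ w = w := by
    rcases Setup.IsGalGen.cases S hσ hfixes with h | h | h
    · exact absurd ((S.gRes_eq_refl_iff τ).mp h) hnq
    · rwa [h] at hτw
    · have e : galPlace (σ.trans σ) w = galPlace σ (galPlace σ w) :=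
        HeightOneSpectrum.ext (Ideal.ext fun x => Iff.rfl)
      rw [h, e] at hτw
      have h' := galPlace_cube hσ w
      rwa [hτw] at h'
  refine ⟨hfix, ?_⟩
  rcases (Nat.dvd_prime Nat.prime_three).mp (ramAt_dvd_three hσ hfix) with he | he
  swap; · exact he
  exfalso
  have hw : ((3 * S.m : ℕ) : 𝓞 S.F) ∈ w.asIdeal := by
    push_cast; exact Ideal.mul_mem_left _ _ hm
  have hsurj := inclOver_surjective (v := S.underK w) ⟨w, rfl⟩ he (S.surjective_residue w hw)
  refine hσ.1 (RingEquiv.ext fun x => (loc w).injective ?_)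
  rw [← fixLocHom_loc hfix]
  show fixLocHom hfix (loc w x) = loc w x
  obtain ⟨y, hy⟩ := hsurj (loc w x)
  rw [← hy]
  have h : (fun z => fixLocHom hfix (S.inclOver ⟨w, rfl⟩ z)) = fun z => S.inclOver ⟨w, rfl⟩ z := by
    refine DenseRange.equalizer (HeightOneSpectrum.denseRange_algebraMap (K := S.K) (S.underK w))
      ((continuous_fixLocHom hfix).comp (S.continuous_inclOver _)) (S.continuous_inclOver _)
      (funext fun z => ?_)
    show fixLocHom hfix (S.inclOver ⟨w, rfl⟩ (loc (S.underK w) z)) =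
      S.inclOver ⟨w, rfl⟩ (loc (S.underK w) z)
    rw [S.inclOver_loc, fixLocHom_loc, hσ.2]
  exact congrFun h y

include hσ in
/-- A place of `K` either has three places over it or a single fixed one. -/
theorem moved_or_fixed (v : HeightOneSpectrum (𝓞 S.K)) :
    (∀ w : S.OverK v, galPlace σ w.1 ≠ w.1) ∨
      ((∀ w : S.OverK v, galPlace σ w.1 = w.1) ∧ Subsingleton (S.OverK v)) := by
  by_cases h : ∀ w : S.OverK v, galPlace σ w.1 ≠ w.1
  · exact Or.inl h
  push Not at h
  obtain ⟨w, hw⟩ := h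
  have he : ∀ w' : S.OverK v, w' = w := fun w' =>
    Subtype.ext (eq_of_galPlace_fixed hσ hw (w'.2.trans w.2.symm))
  exact Or.inr ⟨fun w' => by rw [he w']; exact hw, ⟨fun a b => (he a).trans (he b).symm⟩⟩

include hσ in
theorem bijective_inclOver {v : HeightOneSpectrum (𝓞 S.K)} (w : S.OverK v)
    (hne : galPlace σ w.1 ≠ w.1) : Function.Bijective (S.inclOver w) :=
  ⟨(S.inclOver w).injective,
    inclOver_surjective w (ramAt_eq_one hσ hne) (surjective_residue_moved hσ hne)⟩

end FermatAgent.LT
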