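import Mathlib
import Fermat.Agent.LT.Descent.Geom.Local.Torus
import Fermat.Agent.LT.Descent.Geom.Local.Places

set_option autoImplicit false
set_option synthInstance.maxHeartbeats 100000

/-!
# Stabilisers and orbits of the bounded part of the torus on the cosets of `F`
-/

noncomputable section

open NumberField IsDedekindDomain WithZero
open scoped MatrixGroups

namespace FermatAgent.LT

variable {S : Setup} {v : HeightOneSpectrum (𝓞 S.K)}

local notation "M₂v" => Matrix (Fin 2) (Fin 2) (HeightOneSpectrum.adicCompletion S.K v)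

theorem XF_smul_apply (g : GLv v) (x : S.XF v) (w : S.OverK v) :
    (g • x) w = (Matrix.GeneralLinearGroup.map (S.inclOver w) g : GLv w.1) • x w := rfl

/-- Boundedness passes to the places above. -/
theorem BddMod.incl {N : ℤ} {g : GLv v} (hg : BddMod N g) (w : S.OverK v) :
    BddMod (S.ramAt w.1 * N) (Matrix.GeneralLinearGroup.map (S.inclOver w) g : GLv w.1) := by
  obtain ⟨z, hz, h1, h2⟩ := hg
  refine ⟨Matrix.GeneralLinearGroup.map (S.inclOver w) z,
    Matrix.GeneralLinearGroup.map_center_le _ hz, ?_⟩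
  rw [← map_mul]
  refine ⟨fun i j => ?_, ?_⟩
  · rw [Matrix.GeneralLinearGroup.map_apply, valued_inclOver_pow, ← nsmul_eq_mul,
      WithZero.exp_nsmul]
    exact pow_le_pow_left₀ zero_le (h1 i j) _
  · have e : ((Matrix.GeneralLinearGroup.map (S.inclOver w) (z * g) : GLv w.1) :
        Matrix (Fin 2) (Fin 2) (w.1.adicCompletion S.F)).det =
        S.inclOver w ((z * g : GLv v) : M₂v).det := ((S.inclOver w).map_det _).symm
    rw [e, valued_inclOver_pow, ← mul_neg, ← nsmul_eq_mul, WithZero.exp_nsmul]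
    exact pow_le_pow_left₀ zero_le h2 _

variable {σ : S.F ≃+* S.F} (hσ : S.IsGalGen σ) {t : GL (Fin 2) S.K}
  (ht : (t : Matrix (Fin 2) (Fin 2) S.K).trace ^ 2 ≠ 4 * (t : Matrix (Fin 2) (Fin 2) S.K).det)

theorem exists_overK_place (S : Setup) (v : HeightOneSpectrum (𝓞 S.K)) : Nonempty (S.OverK v) :=
  let ⟨w, hw⟩ := S.exists_place_over v
  ⟨⟨w, hw⟩⟩

include hσ in
theorem mem_torusU_of_smul_eq_F {g : GLv v} (hg : g ∈ torusAt v t) {x : S.XF v}
    (h : g • x = x) : g ∈ torusU v t := by
  obtain ⟨w⟩ := exists_overK_place S v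
  have hw := congrFun h w
  rw [XF_smul_apply] at hw
  set G := (Matrix.GeneralLinearGroup.map (S.inclOver w) g : GLv w.1)
  obtain ⟨y, hy⟩ := QuotientGroup.mk_surjective (x w)
  rw [← hy, MulAction.Quotient.smul_coe, smul_eq_mul] at hw
  have hmem : y⁻¹ * G * y ∈ locLevel (S.levelIdeal S.F) w.1 := by
    rw [mul_assoc]; exact QuotientGroup.eq.mp hw.symm
  obtain ⟨c, hc, h1, h2⟩ := exists_smul_of_bddMod (bddMod_of_mem_locLevel hmem)
  generalize hP : ((y⁻¹ * G * y : GLv w.1) : Matrix (Fin 2) (Fin 2) (w.1.adicCompletion S.F)) = P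
    at h1 h2
  have hd : P.det = S.inclOver w (g : M₂v).det := by
    rw [← hP, Units.val_mul, Units.val_mul, RingHom.map_det]
    exact Matrix.det_units_conj' y _
  have htr : P.trace = S.inclOver w (g : M₂v).trace := by
    rw [← hP, Units.val_mul, Units.val_mul, Matrix.trace_units_conj']
    exact (AddMonoidHom.map_trace (S.inclOver w).toAddMonoidHom _).symm
  rw [neg_zero, exp_zero] at h2
  rw [exp_zero] at h1
  have h3 : Valued.v (c ^ 2 * P.det) = 1 := by
    refine le_antisymm ?_ h2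
    rw [show c ^ 2 * P.det = (c * P 0 0) * (c * P 1 1) - (c * P 0 1) * (c * P 1 0)
      from by rw [Matrix.det_fin_two]; ring]
    refine (Valuation.map_sub _ _ _).trans (max_le ?_ ?_) <;>
      · rw [map_mul]; exact mul_le_one' (h1 _ _) (h1 _ _)
  have h4 : Valued.v (c * P.trace) ≤ 1 := by
    rw [Matrix.trace_fin_two, mul_add]
    exact (Valuation.map_add _ _ _).trans (max_le (h1 _ _) (h1 _ _))
  rw [hd, map_mul, map_pow, valued_inclOver_pow] at h3
  rw [htr, map_mul, valued_inclOver_pow] at h4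
  set e := S.ramAt w.1
  have hd0 : Valued.v (g : M₂v).det ≠ 0 := (Valuation.ne_zero_iff _).mpr g.det_ne_zero
  set d := log (Valued.v (g : M₂v).det)
  have hdd : Valued.v (g : M₂v).det = exp d := (exp_log hd0).symm
  set k := log (Valued.v c)
  have hck : Valued.v c = exp k := (exp_log ((Valuation.ne_zero_iff _).mpr hc)).symm
  rw [hdd, hck, ← WithZero.exp_nsmul, ← WithZero.exp_nsmul, ← exp_add, ← exp_zero, exp_inj,
    nsmul_eq_mul, nsmul_eq_mul, Nat.cast_ofNat] at h3
  obtain ⟨j, hj⟩ : ∃ j : ℤ, d = 2 * j := by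
    obtain ⟨i, hi⟩ := ramAt_odd hσ w.1
    refine ⟨-k - (i : ℤ) * d, ?_⟩
    have : ((2 * i + 1 : ℕ) : ℤ) = 2 * (i : ℤ) + 1 := by push_cast; ring
    rw [show (e : ℤ) = 2 * (i : ℤ) + 1 from (by rw [show e = 2 * i + 1 from hi]; exact this)] at h3
    linarith
  have hp : Valued.v (loc v (pi v : S.K) ^ j) = exp (-j) := by
    rw [map_zpow₀, valued_uniformizer, ← WithZero.exp_zsmul]; simp
  refine Subgroup.subset_closure ⟨hg, loc v (pi v : S.K) ^ j, ?_, ?_⟩
  · rw [map_mul, map_pow, hp, hdd, ← WithZero.exp_nsmul, ← exp_add, ← exp_zero, hj]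
    congr 1
    simp only [nsmul_eq_mul, Nat.cast_ofNat]
    ring
  · have hk : Valued.v c = Valued.v (loc v (pi v : S.K) ^ j) ^ e := by
      rw [hp, hck, ← WithZero.exp_nsmul, nsmul_eq_mul]
      congr 1
      rw [hj] at h3
      linarith
    rw [hk, ← mul_pow, ← map_mul] at h4
    exact (pow_le_one_iff_of_nonneg zero_le (Odd.pos (ramAt_odd hσ w.1)).ne').mp h4

theorem finite_overK (S : Setup) (v : HeightOneSpectrum (𝓞 S.K)) : Finite (S.OverK v) := by
  classical
  obtain ⟨σ, hσ⟩ := S.exists_isGalGen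
  obtain ⟨w⟩ := exists_overK_place S v
  let s : Finset (HeightOneSpectrum (𝓞 S.F)) :=
    {w.1, galPlace σ w.1, galPlace σ (galPlace σ w.1)}
  refine Finite.of_injective (fun w' : S.OverK v => (⟨w'.1, ?_⟩ : s)) fun a b h => ?_
  · simpa [s] using galPlace_orbit hσ (w'.2.trans w.2.symm)
  · exact Subtype.ext (congrArg (fun z : s => z.1) h)

include ht in
theorem finite_torusU_orbit_F (x : S.XF v) :
    ((fun g => g • x) '' (torusU v t : Set (GLv v))).Finite := by
  classical
  obtain ⟨N, hN⟩ := exists_bddMod_torusU (u := v) ht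
  have := finite_overK S v
  choose y hy using fun w : S.OverK v => QuotientGroup.mk_surjective (x w)
  choose M hM using fun w : S.OverK v => exists_bddAt (y w)
  refine (Set.Finite.pi (t := fun w : S.OverK v => _) fun w : S.OverK v => finite_bddMod_image (S.levelIdeal_ne_bot S.F)
    ((S.ramAt w.1 : ℤ) * N + M w) (1 : GLv w.1)).subset ?_
  rintro q ⟨g, hg, rfl⟩
  rw [Set.mem_univ_pi]
  intro w
  refine ⟨Matrix.GeneralLinearGroup.map (S.inclOver w) g * y w,
    ((hN g hg).incl w).mul ⟨1, one_mem _, by rw [one_mul]; exact hM w⟩, ?_⟩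
  show _ = (g • x) w
  rw [one_mul, XF_smul_apply, ← hy w]
  rfl

end FermatAgent.LT
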