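import Mathlib
import Fermat.Agent.LT.Descent.Geom.Local.Torus

set_option autoImplicit false
set_option synthInstance.maxHeartbeats 100000

/-!
# Operators of bounded propagation and finiteness of the supports of the local kernels
-/

noncomputable section

open NumberField IsDedekindDomain WithZero
open scoped MatrixGroups

namespace FermatAgent.LT

open Inert (IsFundSet)

variable {L : Type*} [Field L] [NumberField L] {𝔫 : Ideal (𝓞 L)} {v : HeightOneSpectrum (𝓞 L)}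

/-- The value of the operator at a coset only sees a bounded neighbourhood of it. -/
def IsBddOp (A : Module.End ℂ (LCos 𝔫 v → ℂ)) : Prop :=
  ∃ N : ℤ, ∀ (a : LCos 𝔫 v) (f : LCos 𝔫 v → ℂ),
    (∀ g : GLv v, BddMod N g → f ((a.out * g : GLv v) : LCos 𝔫 v) = 0) → A f a = 0

theorem isBddOp_one : IsBddOp (1 : Module.End ℂ (LCos 𝔫 v → ℂ)) := by
  refine ⟨0, fun a f hf => ?_⟩
  have h := hf 1 ⟨1, one_mem _, by rw [one_mul]; exact bddAt_one⟩
  rwa [mul_one, QuotientGroup.out_eq'] at h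

theorem IsBddOp.mul {A B : Module.End ℂ (LCos 𝔫 v → ℂ)} (hA : IsBddOp A) (hB : IsBddOp B) :
    IsBddOp (A * B) := by
  obtain ⟨N, hN⟩ := hA
  obtain ⟨M, hM⟩ := hB
  refine ⟨N + 0 + M, fun a f hf => hN a _ fun g hg => hM _ _ fun g' hg' => ?_⟩
  obtain ⟨⟨k, hk⟩, he⟩ := QuotientGroup.mk_out_eq_mul (locLevel 𝔫 v) (a.out * g)
  rw [he, show a.out * g * k * g' = a.out * (g * k * g') by group]
  exact hf _ ((hg.mul (bddMod_of_mem_locLevel hk)).mul hg')

theorem IsBddOp.add {A B : Module.End ℂ (LCos 𝔫 v → ℂ)} (hA : IsBddOp A) (hB : IsBddOp B) :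
    IsBddOp (A + B) := by
  obtain ⟨N, hN⟩ := hA
  obtain ⟨M, hM⟩ := hB
  refine ⟨max N M, fun a f hf => ?_⟩
  rw [LinearMap.add_apply, Pi.add_apply, hN a f fun g hg => hf g (hg.mono (le_max_left _ _)),
    hM a f fun g hg => hf g (hg.mono (le_max_right _ _)), add_zero]

theorem IsBddOp.smul {A : Module.End ℂ (LCos 𝔫 v → ℂ)} (hA : IsBddOp A) (c : ℂ) :
    IsBddOp (c • A) := by
  obtain ⟨N, hN⟩ := hA
  refine ⟨N, fun a f hf => ?_⟩
  rw [LinearMap.smul_apply, Pi.smul_apply, hN a f hf, smul_zero]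

theorem IsBddOp.sub {A B : Module.End ℂ (LCos 𝔫 v → ℂ)} (hA : IsBddOp A) (hB : IsBddOp B) :
    IsBddOp (A - B) := by
  rw [sub_eq_add_neg, ← neg_one_smul ℂ B]
  exact hA.add (hB.smul _)

theorem IsBddOp.pow {A : Module.End ℂ (LCos 𝔫 v → ℂ)} (hA : IsBddOp A) :
    ∀ n : ℕ, IsBddOp (A ^ n)
  | 0 => by rw [pow_zero]; exact isBddOp_one
  | n + 1 => by rw [pow_succ]; exact (IsBddOp.pow hA n).mul hA

theorem isBddOp_locSum {ι : Type*} [Finite ι] (c : ι → ℂ) (k : ι → GLv v) :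
    IsBddOp (locSum 𝔫 v c k) := by
  classical
  have := Fintype.ofFinite ι
  choose N hN using fun i => exists_bddAt (k i)
  refine ⟨Finset.univ.fold max 0 N, fun a f hf => ?_⟩
  refine finsum_eq_zero_of_forall_eq_zero fun i => ?_
  rw [hf (k i) ⟨1, one_mem _, by
    rw [one_mul]
    exact (hN i).mono ((Finset.le_fold_max _).mpr (Or.inr ⟨i, Finset.mem_univ _, le_rfl⟩))⟩,
    mul_zero]

theorem isBddOp_locHecke : IsBddOp (locHecke 𝔫 v) :=
  (isBddOp_locSum _ _).add (isBddOp_locSum _ _)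

theorem isBddOp_locLevelOp (s : Finset (HeightOneSpectrum (𝓞 L)))
    (ψ : ∀ v : HeightOneSpectrum (𝓞 L), AddChar (𝓞 L ⧸ v.asIdeal) ℂ) :
    IsBddOp (locLevelOp 𝔫 v s ψ) := by
  unfold locLevelOp
  split_ifs
  · exact (isBddOp_locSum _ _).mul (isBddOp_locSum _ _)
  · exact isBddOp_locSum _ _
  · exact isBddOp_one

theorem IsBddOp.exists_of_lKer_ne_zero {A : Module.End ℂ (LCos 𝔫 v → ℂ)} (hA : IsBddOp A) :
    ∃ N : ℤ, ∀ a b : LCos 𝔫 v, lKer A a b ≠ 0 →
      ∃ g : GLv v, BddMod N g ∧ b = ((a.out * g : GLv v) : LCos 𝔫 v) := by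
  classical
  obtain ⟨N, hN⟩ := hA
  refine ⟨N, fun a b h => ?_⟩
  by_contra! hne
  exact h (hN a _ fun g hg => Pi.single_eq_of_ne (hne g hg).symm 1)

/-! ### The supports -/

variable {S : Setup} {u : HeightOneSpectrum (𝓞 S.K)}

theorem isBddOp_opK (Ψ : S.PsiData) (l : List (HeightOneSpectrum (𝓞 S.F))) :
    IsBddOp (S.opK Ψ l u) := by
  classical
  refine (isBddOp_locLevelOp _ _).mul ?_
  generalize l.filter (fun w => decide (S.underK w = u)) = l'
  induction l' with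
  | nil => exact isBddOp_one
  | cons w l' ih =>
    rw [List.map_cons, List.prod_cons]
    refine IsBddOp.mul ?_ ih
    unfold Setup.locBC
    split_ifs
    · exact isBddOp_locHecke
    · exact (isBddOp_locHecke.pow 3).sub (isBddOp_locHecke.smul _)

/-- A fundamental set meets finitely many orbits in a finite set. -/
theorem finite_inter_orbits {G α : Type*} [Group G] [MulAction G α] {T U : Subgroup G}
    {P Ω : Set α} (h : IsFundSet T U P Ω) (hU : ∀ x : α, ((fun g => g • x) '' (U : Set G)).Finite)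
    {R : Set α} (hR : R.Finite) :
    {x ∈ Ω | ∃ τ ∈ T, ∃ r ∈ R, x = τ • r}.Finite := by
  refine Set.Finite.subset (hR.biUnion (t := fun r => {x ∈ Ω | ∃ τ ∈ T, x = τ • r}) fun r _ => ?_)
    fun x hx => ?_
  · rcases Set.eq_empty_or_nonempty {x ∈ Ω | ∃ τ ∈ T, x = τ • r} with he | ⟨y, hy, τ, hτ, rfl⟩
    · rw [he]; exact Set.finite_empty
    · refine (hU (τ • r)).subset ?_
      rintro _ ⟨hx, τ', hτ', rfl⟩
      obtain ⟨g, hg, e⟩ := h.unique _ hy (τ' * τ⁻¹) (T.mul_mem hτ' (T.inv_mem hτ))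
        (by rwa [mul_smul, inv_smul_smul])
      rw [mul_smul, inv_smul_smul] at e
      exact ⟨g, hg, e.symm⟩
  · obtain ⟨hx, τ, hτ, r, hr, e⟩ := hx
    exact Set.mem_biUnion hr ⟨hx, τ, hτ, e⟩

theorem finite_supp_bK' {t : GL (Fin 2) S.K}
    (ht : (t : Matrix (Fin 2) (Fin 2) S.K).trace ^ 2 ≠ 4 * (t : Matrix (Fin 2) (Fin 2) S.K).det)
    (Ψ : S.PsiData) (l : List (HeightOneSpectrum (𝓞 S.F)))
    {ΩK : Set (LCos (S.levelIdeal S.K) u)}
    (hK : IsFundSet (torusAt u t) (torusU u t) Set.univ ΩK) :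
    (ΩK ∩ Function.support (S.bK Ψ l t u)).Finite := by
  obtain ⟨N, hN⟩ := (isBddOp_opK (u := u) Ψ l).exists_of_lKer_ne_zero
  obtain ⟨R, hR, hR'⟩ := exists_finite_orbit_reps (u := u) ht (N + 0)
  refine (finite_inter_orbits hK (finite_torusU_orbit' ht) hR).subset ?_
  rintro y ⟨hy, hy'⟩
  obtain ⟨g, hg, e⟩ := hN _ _ hy'
  refine ⟨hy, ?_⟩
  rw [← QuotientGroup.out_eq' y, MulAction.Quotient.smul_coe, smul_eq_mul,
    QuotientGroup.out_eq'] at e
  have hmem := QuotientGroup.eq.mp e.symm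
  obtain ⟨τ, hτ, r, hr, er⟩ := hR' y.out (by
    rw [show y.out⁻¹ * locMat u t * y.out = g * ((y.out * g)⁻¹ * (locMat u t * y.out)) by group]
    exact hg.mul (bddMod_of_mem_locLevel hmem))
  exact ⟨τ, hτ, r, hr, (QuotientGroup.out_eq' y).symm.trans er⟩

end FermatAgent.LT
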