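import Mathlib
import Fermat.Agent.LT.Descent.Geom.Local.OpBdd

set_option autoImplicit false

/-!
# The kernels of operators of bounded propagation
-/

noncomputable section

open NumberField IsDedekindDomain

namespace FermatAgent.LT

variable {L : Type*} [Field L] [NumberField L] {𝔫 : Ideal (𝓞 L)} {v : HeightOneSpectrum (𝓞 L)}
  {A : Module.End ℂ (LCos 𝔫 v → ℂ)}

open Classical in
theorem IsBddOp.exists_expand (hA : IsBddOp A) (h𝔫 : 𝔫 ≠ ⊥) (a : LCos 𝔫 v) :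
    ∃ Q : Finset (LCos 𝔫 v), (∀ b, b ∉ Q → lKer A a b = 0) ∧
      ∀ f : LCos 𝔫 v → ℂ, A f a = ∑ q ∈ Q, lKer A a q * f q := by
  obtain ⟨N, hN⟩ := hA
  set Q := (finite_bddMod_image h𝔫 N a.out).toFinset
  have hQ : ∀ g, BddMod N g → ((a.out * g : GLv v) : LCos 𝔫 v) ∈ Q := fun g hg =>
    (Set.Finite.mem_toFinset _).mpr ⟨g, hg, rfl⟩
  refine ⟨Q, fun b hb => ?_, fun f => ?_⟩
  · exact hN a _ fun g hg => Pi.single_eq_of_ne (fun e => hb (by rw [← e]; exact hQ g hg)) 1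
  · have h := hN a (f - ∑ q ∈ Q, f q • Pi.single q 1) fun g hg => by
      rw [Pi.sub_apply, Finset.sum_apply,
        Finset.sum_eq_single ((a.out * g : GLv v) : LCos 𝔫 v)]
      · simp
      · intro q _ hne
        rw [Pi.smul_apply, Pi.single_eq_of_ne (Ne.symm hne), smul_zero]
      · exact fun h => absurd (hQ g hg) h
    rw [map_sub, Pi.sub_apply, map_sum, Finset.sum_apply, sub_eq_zero] at h
    rw [h]
    refine Finset.sum_congr rfl fun q _ => ?_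
    rw [map_smul, Pi.smul_apply, smul_eq_mul, mul_comm, lKer]

theorem IsBddOp.finite_row (hA : IsBddOp A) (h𝔫 : 𝔫 ≠ ⊥) (a : LCos 𝔫 v) :
    (Function.support (lKer A a)).Finite := by
  obtain ⟨Q, hQ, -⟩ := hA.exists_expand h𝔫 a
  exact Q.finite_toSet.subset fun b hb => by_contra fun h => hb (hQ b h)

theorem IsBddOp.apply_eq_finsum (hA : IsBddOp A) (h𝔫 : 𝔫 ≠ ⊥) (f : LCos 𝔫 v → ℂ)
    (a : LCos 𝔫 v) : A f a = ∑ᶠ b, lKer A a b * f b := by
  obtain ⟨Q, hQ, hf⟩ := hA.exists_expand h𝔫 a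
  rw [hf, finsum_eq_sum_of_support_subset _ fun b hb => ?_]
  exact Finset.mem_coe.mpr (by_contra fun h => hb (by show _ * _ = (0 : ℂ); rw [hQ b h, zero_mul]))

theorem IsBddOp.lKer_mul (hA : IsBddOp A) (h𝔫 : 𝔫 ≠ ⊥) (B : Module.End ℂ (LCos 𝔫 v → ℂ))
    (a c : LCos 𝔫 v) : lKer (A * B) a c = ∑ᶠ b, lKer A a b * lKer B b c :=
  hA.apply_eq_finsum h𝔫 _ a

/-- The composite kernel of three operators. -/
theorem IsBddOp.lKer_mul₃ {B : Module.End ℂ (LCos 𝔫 v → ℂ)} (hA : IsBddOp A) (hB : IsBddOp B)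
    (h𝔫 : 𝔫 ≠ ⊥) (C : Module.End ℂ (LCos 𝔫 v → ℂ)) (a c : LCos 𝔫 v) :
    lKer (A * B * C) a c = ∑ᶠ x, lKer A a x * ∑ᶠ y, lKer B x y * lKer C y c := by
  rw [mul_assoc, hA.lKer_mul h𝔫]
  exact finsum_congr fun x => by rw [hB.lKer_mul h𝔫]

end FermatAgent.LT
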