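import Mathlib
import Fermat.Agent.LT.Descent.Geom.Lift
import Fermat.Agent.LT.Descent.Geom.Factor
import Fermat.Agent.LT.Descent.Kernel.CosetOp

set_option autoImplicit false

/-!
# The level operators at a place dividing the level exactly once
-/

noncomputable section

open NumberField IsDedekindDomain WithZero
open scoped MatrixGroups

namespace FermatAgent.LT

variable {L : Type*} [Field L] [NumberField L] {𝔫 : Ideal (𝓞 L)} {v : HeightOneSpectrum (𝓞 L)}

/-- The translation by an integer. -/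
def transLoc (v : HeightOneSpectrum (𝓞 L)) (o : 𝓞 L) : GLv v := upperTri 1 (loc v (o : L)) 1

theorem transLoc_mem_locInt (o : 𝓞 L) : transLoc v o ∈ locInt v := upperTri_mem_locInt v o

theorem upperTri_one_mul (a b : v.adicCompletion L) :
    upperTri (1 : (v.adicCompletion L)ˣ) a 1 * upperTri 1 b 1 = upperTri 1 (a + b) 1 := by
  refine Units.ext (Matrix.ext fun i j => ?_)
  fin_cases i <;> fin_cases j <;>
    simp [upperTri, Matrix.mul_apply, Fin.sum_univ_two, add_comm]

theorem upperTri_one_inv (a : v.adicCompletion L) :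
    (upperTri (1 : (v.adicCompletion L)ˣ) a 1)⁻¹ = upperTri 1 (-a) 1 := by
  rw [inv_eq_iff_mul_eq_one, upperTri_one_mul, add_neg_cancel]
  refine Units.ext (Matrix.ext fun i j => ?_)
  fin_cases i <;> fin_cases j <;> simp [upperTri]

/-- Translation by an integral matrix does not see the representative. -/
theorem mk_mul_of_locInt {k : GLv v} (hk : k ∈ locInt v) {g g' : GLv v}
    (h : (g : LCos 𝔫 v) = (g' : LCos 𝔫 v)) :
    ((g * k : GLv v) : LCos 𝔫 v) = ((g' * k : GLv v) : LCos 𝔫 v) := by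
  rw [QuotientGroup.eq, show (g * k)⁻¹ * (g' * k) = k⁻¹ * (g⁻¹ * g') * k by group]
  exact conj_mem_locLevel hk (QuotientGroup.eq.mp h)

theorem locSum_mk {ι : Type*} [Finite ι] (c : ι → ℂ) {k : ι → GLv v} (hk : ∀ i, k i ∈ locInt v)
    (f : LCos 𝔫 v → ℂ) (g : GLv v) :
    locSum 𝔫 v c k f (g : LCos 𝔫 v) = ∑ᶠ i, c i * f ((g * k i : GLv v) : LCos 𝔫 v) := by
  refine finsum_congr fun i => ?_
  rw [mk_mul_of_locInt (hk i) (QuotientGroup.out_eq' (g : LCos 𝔫 v))]

theorem resLift_eq_transLoc (b : 𝓞 L ⧸ v.asIdeal) :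
    upperTri (1 : (v.adicCompletion L)ˣ) (resLift v b) 1 =
      transLoc v (Function.surjInv (Ideal.Quotient.mk_surjective (I := v.asIdeal)) b) := rfl

/-- The residual projection on any representative. -/
theorem locPsi_mk (ψ : AddChar (𝓞 L ⧸ v.asIdeal) ℂ) (f : LCos 𝔫 v → ℂ) (g : GLv v) :
    locPsi 𝔫 v ψ f (g : LCos 𝔫 v) = ∑ᶠ b : 𝓞 L ⧸ v.asIdeal,
      (Nat.card (𝓞 L ⧸ v.asIdeal) : ℂ)⁻¹ * (ψ b)⁻¹ *
        f ((g * upperTri 1 (resLift v b) 1 : GLv v) : LCos 𝔫 v) :=
  locSum_mk _ (fun b => (resLift_eq_transLoc b).symm ▸ transLoc_mem_locInt _) f g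

theorem liftAt_injective (v : HeightOneSpectrum (𝓞 L)) :
    Function.Injective (liftAt (𝔫 := 𝔫) v) := by
  intro A B h
  refine LinearMap.ext fun φ => funext fun x => ?_
  obtain ⟨g, rfl⟩ := QuotientGroup.mk_surjective x
  have h1 := congrFun (LinearMap.congr_fun h fun c => φ (coordAt v c))
    ((atPlace v g : GAf L) : Cosets 𝔫)
  rw [liftAt_apply, liftAt_apply] at h1
  simp only [coordAt_updC_self] at h1
  rwa [coordAt_mk, compAt_atPlace_self] at h1

/-- The level operator at a place of the level is a projection. -/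
theorem locLevelOp_idem (h𝔫 : 𝔫 ≠ ⊥) {s : Finset (HeightOneSpectrum (𝓞 L))}
    (ψ : ∀ v : HeightOneSpectrum (𝓞 L), AddChar (𝓞 L ⧸ v.asIdeal) ℂ)
    (hs : ∀ u ∈ s, 𝔫 ≤ u.asIdeal ∧ ¬ 𝔫 ≤ u.asIdeal ^ 2)
    (h3 : ∀ u ∈ s, (3 : 𝓞 L) ∈ u.asIdeal → Nat.card (𝓞 L ⧸ u.asIdeal) = 3) :
    locLevelOp 𝔫 v s ψ * locLevelOp 𝔫 v s ψ = locLevelOp 𝔫 v s ψ := by
  classical
  by_cases hv : v ∈ s
  swap
  · rw [locLevelOp, if_neg hv, mul_one]
  have e : locLevelOp 𝔫 v s ψ = locLevelOp 𝔫 v {v} ψ := by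
    rw [locLevelOp, locLevelOp, if_pos hv, if_pos (Finset.mem_singleton_self v)]
  have hsub : ∀ u ∈ ({v} : Finset (HeightOneSpectrum (𝓞 L))), u ∈ s := by simp [hv]
  have h := levelOp_idem h𝔫 (s := {v}) (ψ := ψ) (fun u hu => hs u (hsub u hu))
    fun u hu => h3 u (hsub u hu)
  rw [levelOp_eq_liftProd _ _ h𝔫, levelList, Finset.toList_singleton, List.map_singleton,
    liftProd, List.map_singleton, List.prod_singleton, ← liftAt_mul h𝔫] at h
  rw [e]
  exact liftAt_injective v h

variable (h1 : 𝔫 ≤ v.asIdeal) (h2 : ¬ 𝔫 ≤ v.asIdeal ^ 2)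
include h1 h2

/-- The congruence subgroup at such a place. -/
theorem mem_locCongr_iff {g : GLv v} : g ∈ locCongr 𝔫 v ↔ ∀ i j,
    Valued.v ((g : Matrix (Fin 2) (Fin 2) (v.adicCompletion L)) i j -
      (1 : Matrix (Fin 2) (Fin 2) (v.adicCompletion L)) i j) ≤ exp (-1 : ℤ) := by
  set J := 𝔫.map (algebraMap (𝓞 L) (v.adicCompletionIntegers L))
  obtain ⟨a, ha, ha2⟩ := SetLike.not_le_iff_exists.mp h2
  set A := algebraMap (𝓞 L) (v.adicCompletionIntegers L) a
  have hJA : A ∈ J := Ideal.mem_map_of_mem _ ha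
  have hA : Valued.v (A : v.adicCompletion L) = exp (-1 : ℤ) := by
    show Valued.v (loc v (a : L)) = _
    rw [valued_loc, HeightOneSpectrum.valuation_of_algebraMap]
    have hle := (v.intValuation_le_pow_iff_mem a 1).mpr (by rw [pow_one]; exact h1 ha)
    have hgt : ¬ v.intValuation a ≤ exp (-((2 : ℕ) : ℤ)) := fun h =>
      ha2 ((v.intValuation_le_pow_iff_mem a 2).mp h)
    have h0 : v.intValuation a ≠ 0 := fun h => hgt (h ▸ bot_le)
    rw [← exp_log h0, exp_le_exp] at hle hgt
    rw [← exp_log h0, exp_inj]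
    push_cast at hle hgt
    omega
  have hAne : (A : v.adicCompletion L) ≠ 0 := fun h =>
    exp_ne_zero (hA.symm.trans (by rw [h, map_zero]))
  have hJ : ∀ x : v.adicCompletionIntegers L,
      x ∈ J ↔ Valued.v (x : v.adicCompletion L) ≤ exp (-1 : ℤ) := by
    refine fun x => ⟨fun hx => ?_, fun hx => ?_⟩
    · let I : Ideal (v.adicCompletionIntegers L) :=
        { carrier := {y | Valued.v (y : v.adicCompletion L) ≤ exp (-1 : ℤ)}
          zero_mem' := by simp
          add_mem' := fun {y z} hy hz => by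
            show Valued.v ((y : v.adicCompletion L) + (z : v.adicCompletion L)) ≤ _
            exact (Valuation.map_add _ _ _).trans (max_le hy hz)
          smul_mem' := fun c y hy => by
            show Valued.v ((c : v.adicCompletion L) * (y : v.adicCompletion L)) ≤ _
            rw [map_mul]
            exact (mul_le_mul' c.2 hy).trans_eq (one_mul _) }
      refine (Ideal.map_le_iff_le_comap.mpr fun b hb => ?_ : J ≤ I) hx
      show Valued.v (loc v (b : L)) ≤ _
      rw [valued_loc, HeightOneSpectrum.valuation_of_algebraMap]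
      exact (v.intValuation_le_pow_iff_mem b 1).mpr (by rw [pow_one]; exact h1 hb)
    · have hq : (x : v.adicCompletion L) / A ∈ v.adicCompletionIntegers L := by
        rw [HeightOneSpectrum.mem_adicCompletionIntegers, map_div₀, hA,
          div_le_one₀ (zero_lt_iff.mpr exp_ne_zero)]
        exact hx
      rw [show x = A * ⟨_, hq⟩ from Subtype.ext (mul_div_cancel₀ _ hAne).symm]
      exact Ideal.mul_mem_right _ _ hJA
  constructor
  · intro hg i j
    obtain ⟨k, hk, rfl⟩ := Subgroup.mem_map.mp hg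
    have h := (hJ _).mp (mem_ker_mk_iff.mp hk i j)
    rw [Matrix.one_apply]
    split_ifs with hij <;> simpa [hij] using h
  · intro hg
    have hint : ∀ i j, Valued.v ((g : Matrix (Fin 2) (Fin 2) (v.adicCompletion L)) i j) ≤ 1 := by
      intro i j
      have h := (Valuation.map_add Valued.v _ _).trans (max_le
        ((hg i j).trans ((exp_le_exp.mpr (by norm_num : (-1 : ℤ) ≤ 0)).trans_eq exp_zero))
        (show Valued.v ((1 : Matrix (Fin 2) (Fin 2) (v.adicCompletion L)) i j) ≤ 1 by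
          rw [Matrix.one_apply]; split_ifs <;> simp))
      rwa [sub_add_cancel] at h
    have hdet : Valued.v (g : Matrix (Fin 2) (Fin 2) (v.adicCompletion L)).det = 1 := by
      have h00 := hg 0 0; have h11 := hg 1 1; have h01 := hg 0 1; have h10 := hg 1 0
      simp only [Matrix.one_apply, if_true, show (0 : Fin 2) ≠ 1 by decide,
        show (1 : Fin 2) ≠ 0 by decide, if_false, sub_zero] at h00 h11 h01 h10
      rw [Matrix.det_fin_two]
      refine Valuation.map_eq_of_sub_lt _ ?_ |>.trans (map_one Valued.v)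
      rw [map_one]
      set p := (g : Matrix (Fin 2) (Fin 2) (v.adicCompletion L)) 0 0
      set q := (g : Matrix (Fin 2) (Fin 2) (v.adicCompletion L)) 0 1
      set r := (g : Matrix (Fin 2) (Fin 2) (v.adicCompletion L)) 1 0
      set s := (g : Matrix (Fin 2) (Fin 2) (v.adicCompletion L)) 1 1
      rw [show p * s - q * r - 1 = (p - 1) * s + ((s - 1) - q * r) by ring]
      refine ((Valuation.map_add _ _ _).trans (max_le ?_ ?_)).trans_lt
        (show exp (-1 : ℤ) < 1 by rw [← exp_zero, exp_lt_exp]; norm_num)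
      · rw [map_mul]; exact (mul_le_mul' h00 (hint 1 1)).trans_eq (mul_one _)
      · refine (Valuation.map_sub _ _ _).trans (max_le h11 ?_)
        rw [map_mul]; exact (mul_le_mul' h01 (hint 1 0)).trans_eq (mul_one _)
    obtain ⟨k, hk⟩ := mem_locInt_of_entries g hint hdet
    refine Subgroup.mem_map.mpr ⟨k, mem_ker_mk_iff.mpr fun i j => (hJ _).mpr ?_, hk⟩
    have h := hg i j
    rw [← hk, Matrix.one_apply] at h
    split_ifs with hij <;> simpa [hij] using h

theorem upperTri_mem_locCongr {a : v.adicCompletion L} (ha : Valued.v a ≤ exp (-1 : ℤ)) :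
    upperTri (1 : (v.adicCompletion L)ˣ) a 1 ∈ locCongr 𝔫 v := by
  rw [mem_locCongr_iff h1 h2]
  intro i j
  fin_cases i <;> fin_cases j <;> simp [upperTri]
  simpa using ha

/-- A translation in the level is trivial on the residue field. -/
theorem valued_le_of_upperTri_mem {a : v.adicCompletion L}
    (h : upperTri (1 : (v.adicCompletion L)ˣ) a 1 ∈ locLevel 𝔫 v) :
    Valued.v a ≤ exp (-1 : ℤ) := by
  obtain ⟨k, hk, z, hz, e⟩ := Subgroup.mem_sup_of_normal_right.mp h
  obtain ⟨c, hc⟩ := Matrix.GeneralLinearGroup.mem_center_iff_val_mem_range_scalar.mp hz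
  rw [mem_locCongr_iff h1 h2] at hk
  have e' := congrArg (fun x : GLv v => (x : Matrix (Fin 2) (Fin 2) (v.adicCompletion L))) e
  simp only [Units.val_mul, ← hc] at e'
  set k00 := (k : Matrix (Fin 2) (Fin 2) (v.adicCompletion L)) 0 0
  set k01 := (k : Matrix (Fin 2) (Fin 2) (v.adicCompletion L)) 0 1
  have e00 : k00 * c = 1 := by simpa [upperTri] using congrFun (congrFun e' 0) 0
  have e01 : k01 * c = a := by simpa [upperTri] using congrFun (congrFun e' 0) 1
  have hk01 : Valued.v k01 ≤ exp (-1 : ℤ) := by simpa using hk 0 1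
  have hk00 : Valued.v k00 = 1 := by
    refine (Valuation.map_eq_of_sub_lt _ ?_).trans (map_one Valued.v)
    rw [map_one]
    exact lt_of_le_of_lt (by simpa using hk 0 0)
      (show exp (-1 : ℤ) < 1 by rw [← exp_zero, exp_lt_exp]; norm_num)
  have hc1 : Valued.v c = 1 := by
    have h := congrArg Valued.v e00
    rwa [map_mul, hk00, one_mul, map_one] at h
  rw [← e01, map_mul, hc1, mul_one]
  exact hk01

/-- The value of the residual kernel on a translation. -/
theorem lKer_locPsi_of_mem (ψ : AddChar (𝓞 L ⧸ v.asIdeal) ℂ) {g h : GLv v} {o : 𝓞 L}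
    (hgh : (transLoc v o)⁻¹ * (g⁻¹ * h) ∈ locLevel 𝔫 v) :
    lKer (locPsi 𝔫 v ψ) (g : LCos 𝔫 v) (h : LCos 𝔫 v) =
      (Nat.card (𝓞 L ⧸ v.asIdeal) : ℂ)⁻¹ * (ψ (Ideal.Quotient.mk v.asIdeal o))⁻¹ := by
  classical
  set r := Function.surjInv (Ideal.Quotient.mk_surjective (I := v.asIdeal))
  have hr : ∀ b, Ideal.Quotient.mk v.asIdeal (r b) = b :=
    Function.surjInv_eq Ideal.Quotient.mk_surjective
  have key : ∀ b, ((g * upperTri 1 (resLift v b) 1 : GLv v) : LCos 𝔫 v) = (h : LCos 𝔫 v) ↔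
      b = Ideal.Quotient.mk v.asIdeal o := by
    intro b
    rw [QuotientGroup.eq, mul_inv_rev, mul_assoc, resLift_eq_transLoc,
      show (transLoc v (r b))⁻¹ * (g⁻¹ * h) =
        ((transLoc v (r b))⁻¹ * transLoc v o) * ((transLoc v o)⁻¹ * (g⁻¹ * h)) by group,
      Subgroup.mul_mem_cancel_right _ hgh, transLoc, transLoc, upperTri_one_inv, upperTri_one_mul]
    have hdiff : Valued.v (-loc v (r b : L) + loc v (o : L)) ≤ exp (-1 : ℤ) ↔
        o - r b ∈ v.asIdeal := by
      rw [neg_add_eq_sub, ← map_sub, valued_loc, ← map_sub, HeightOneSpectrum.valuation_of_algebraMap]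
      conv_rhs => rw [← pow_one v.asIdeal, ← v.intValuation_le_pow_iff_mem]
      simp
    constructor
    · intro hm
      rw [← hr b]
      exact (Ideal.Quotient.eq.mpr (hdiff.mp (valued_le_of_upperTri_mem h1 h2 hm))).symm
    · rintro rfl
      exact Subgroup.mem_sup_left (upperTri_mem_locCongr h1 h2 (hdiff.mpr
        (Ideal.Quotient.eq.mp (hr _).symm)))
  rw [lKer, locPsi_mk, finsum_eq_single _ (Ideal.Quotient.mk v.asIdeal o)
    (fun b hb => by rw [Pi.single_eq_of_ne ((key b).not.mpr hb), mul_zero]),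
    (key _).mpr rfl, Pi.single_eq_same, mul_one]

omit h1 h2 in
/-- Outside the translations the residual kernel vanishes. -/
theorem lKer_locPsi_eq_zero (ψ : AddChar (𝓞 L ⧸ v.asIdeal) ℂ) {g h : GLv v}
    (hgh : ∀ o : 𝓞 L, (transLoc v o)⁻¹ * (g⁻¹ * h) ∉ locLevel 𝔫 v) :
    lKer (locPsi 𝔫 v ψ) (g : LCos 𝔫 v) (h : LCos 𝔫 v) = 0 := by
  classical
  rw [lKer, locPsi_mk]
  refine finsum_eq_zero_of_forall_eq_zero fun b => ?_
  rw [Pi.single_eq_of_ne, mul_zero]
  intro e
  rw [QuotientGroup.eq, mul_inv_rev, mul_assoc, resLift_eq_transLoc] at e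
  exact hgh _ e

end FermatAgent.LT
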