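import Mathlib
import Fermat.Agent.LT.Descent.Geom.Local.LevelKer
import Fermat.Agent.LT.Descent.Geom.Local.KernelRows
import Fermat.Agent.LT.Descent.Geom.Local.Generalities
import Fermat.Agent.LT.Descent.Geom.Local.InertBridge
import Fermat.Agent.LT.Descent.Facts.Chars

set_option autoImplicit false
set_option synthInstance.maxHeartbeats 100000

/-!
# The local operators at the places of `F` over a split place of `K`
-/

noncomputable section

open NumberField IsDedekindDomain WithZero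
open scoped MatrixGroups

namespace FermatAgent.LT

open Inert (depth)

/-! ### Operators by translations, compared along a map of the representatives -/

section Compare

variable {L L' : Type*} [Field L] [NumberField L] [Field L'] [NumberField L'] {𝔫 : Ideal (𝓞 L)}
  {𝔫' : Ideal (𝓞 L')} {v : HeightOneSpectrum (𝓞 L)} {u : HeightOneSpectrum (𝓞 L')}

/-- Translation operators intertwine along a map of cosets respecting the translations. -/
theorem locSum_comp {ι ι' : Type*} [Finite ι] [Finite ι'] (r : ι ≃ ι') {c : ι → ℂ} {c' : ι' → ℂ}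
    (hc : ∀ i, c' (r i) = c i) {k : ι → GLv v} (hk : ∀ i, k i ∈ locInt v) {k' : ι' → GLv u}
    (hk' : ∀ i, k' i ∈ locInt u) (θ : GLv v → GLv u) {e : LCos 𝔫 v → LCos 𝔫' u}
    (he : ∀ g : GLv v, e (g : LCos 𝔫 v) = (θ g : LCos 𝔫' u))
    (hθ : ∀ g i, ((θ (g * k i) : GLv u) : LCos 𝔫' u) = ((θ g * k' (r i) : GLv u) : LCos 𝔫' u))
    (f : LCos 𝔫' u → ℂ) (x : LCos 𝔫 v) :
    locSum 𝔫' u c' k' f (e x) = locSum 𝔫 v c k (fun y => f (e y)) x := by
  obtain ⟨g, rfl⟩ := QuotientGroup.mk_surjective x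
  rw [he, locSum_mk c' hk', locSum_mk c hk, ← finsum_comp_equiv r]
  exact finsum_congr fun i => by rw [hc, he, hθ]

theorem valued_two_of_three (h3 : (3 : 𝓞 L) ∈ v.asIdeal) :
    Valued.v (2 : v.adicCompletion L) = 1 := by
  rw [show (2 : v.adicCompletion L) = loc v ((2 : 𝓞 L) : L) by simp [map_ofNat], valued_loc,
    HeightOneSpectrum.valuation_of_algebraMap, HeightOneSpectrum.intValuation_eq_one_iff]
  intro h
  refine v.isPrime.ne_top ((Ideal.eq_top_iff_one _).mpr ?_)
  have := sub_mem h3 h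
  norm_num at this
  exact this

theorem v4_mem_locInt (h3 : (3 : 𝓞 L) ∈ v.asIdeal) :
    ∀ i : Fin 4, (![1, Matrix.GeneralLinearGroup.mkOfDetNeZero _ (det_v4_i v),
      Matrix.GeneralLinearGroup.mkOfDetNeZero _ (det_v4_j v),
      Matrix.GeneralLinearGroup.mkOfDetNeZero _ (det_v4_k v)] : Fin 4 → GLv v) i ∈ locInt v := by
  intro i
  fin_cases i
  · exact one_mem _
  all_goals
    refine mem_locInt_of_entries _ (fun a b => ?_) ?_
    · fin_cases a <;> fin_cases b <;> simp
    · simp [Matrix.det_fin_two]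
      try rw [show (-1 - 1 : v.adicCompletion L) = -2 by norm_num, Valuation.map_neg,
        valued_two_of_three h3]

theorem resLift_mem_locInt (b : 𝓞 L ⧸ v.asIdeal) :
    upperTri (1 : (v.adicCompletion L)ˣ) (resLift v b) 1 ∈ locInt v := by
  rw [resLift_eq_transLoc]; exact transLoc_mem_locInt _

theorem cosDist_smul (hv : ¬ 𝔫 ≤ v.asIdeal) (g : GLv v) (a b : LCos 𝔫 v) :
    cosDist (g • a) (g • b) = cosDist a b := by
  obtain ⟨x, rfl⟩ := QuotientGroup.mk_surjective a
  obtain ⟨y, rfl⟩ := QuotientGroup.mk_surjective b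
  rw [MulAction.Quotient.smul_coe, MulAction.Quotient.smul_coe, cosDist_mk hv, cosDist_mk hv,
    smul_eq_mul, smul_eq_mul, show (g * x)⁻¹ * (g * y) = x⁻¹ * y by group]

variable (ψ : AddChar (𝓞 L ⧸ v.asIdeal) ℂ)

theorem lKer_v4Psi_smul (h3 : (3 : 𝓞 L) ∈ v.asIdeal) (g : GLv v) (a b : LCos 𝔫 v) :
    lKer (locV4 𝔫 v * locPsi 𝔫 v ψ) (g • a) (g • b) = lKer (locV4 𝔫 v * locPsi 𝔫 v ψ) a b := by
  classical
  have e : (fun y => (Pi.single (g • b) (1 : ℂ) : LCos 𝔫 v → ℂ) (g • y)) = Pi.single b 1 := by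
    funext y
    simp only [Pi.single_apply, (MulAction.injective g).eq_iff]
  have he : ∀ x : GLv v, g • (x : LCos 𝔫 v) = ((g * x : GLv v) : LCos 𝔫 v) := fun x => by
    rw [MulAction.Quotient.smul_coe, smul_eq_mul]
  rw [lKer, lKer, Module.End.mul_apply, Module.End.mul_apply]
  unfold locV4 locPsi
  rw [locSum_comp (𝔫 := 𝔫) (Equiv.refl _) (fun _ => rfl) (v4_mem_locInt h3) (v4_mem_locInt h3)
    (g * ·) (e := (g • ·)) he fun x i => by rw [mul_assoc]; rfl]
  refine congrFun (congrArg _ (funext fun y => ?_)) _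
  rw [locSum_comp (𝔫 := 𝔫) (Equiv.refl _) (fun _ => rfl) resLift_mem_locInt resLift_mem_locInt
    (g * ·) (e := (g • ·)) he fun x i => by rw [mul_assoc]; rfl, e]
  rfl

end Compare

/-! ### The moved places -/

variable {S : Setup} {σ : S.F ≃+* S.F} (hσ : S.IsGalGen σ) {v : HeightOneSpectrum (𝓞 S.K)}
  (w : S.OverK v) (hne : galPlace σ w.1 ≠ w.1)

local notation "M₂" => Matrix (Fin 2) (Fin 2)

theorem bad_over_iff : ((3 * S.m : ℕ) : 𝓞 S.F) ∈ w.1.asIdeal ↔
    ((3 * S.m : ℕ) : 𝓞 S.K) ∈ v.asIdeal := by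
  obtain ⟨u, rfl⟩ := w
  exact (S.natCast_mem_underK u _).symm

include hσ hne

theorem three_mem_of_bad (hv : ((3 * S.m : ℕ) : 𝓞 S.K) ∈ v.asIdeal) :
    (3 : 𝓞 S.F) ∈ w.1.asIdeal ∧ (3 : 𝓞 S.K) ∈ v.asIdeal := by
  have h := (bad_over_iff w).mpr hv
  push_cast at h
  have h3 : (3 : 𝓞 S.F) ∈ w.1.asIdeal :=
    (w.1.isPrime.mem_or_mem h).resolve_right fun hm => hne (galPlace_eq_of_tame hσ hm).1
  refine ⟨h3, ?_⟩
  obtain ⟨u, rfl⟩ := w
  exact_mod_cast (S.natCast_mem_underK u 3).mpr (by exact_mod_cast h3)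

theorem valued_incl_moved (x : v.adicCompletion S.K) :
    Valued.v (S.inclOver w x) = Valued.v x := by
  rw [valued_inclOver_pow, ramAt_eq_one hσ hne, pow_one]

theorem inclGL_surjective : Function.Surjective (inclGL w) := fun g => by
  let e := RingEquiv.ofBijective (S.inclOver w) (bijective_inclOver hσ w hne)
  refine ⟨Matrix.GeneralLinearGroup.map e.symm.toRingHom g,
    Matrix.GeneralLinearGroup.ext fun i j => ?_⟩
  exact e.apply_symm_apply _

theorem mem_locCongr_incl (g : GLv v) :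
    inclGL w g ∈ locCongr (S.levelIdeal S.F) w.1 ↔ g ∈ locCongr (S.levelIdeal S.K) v := by
  have hval := valued_incl_moved hσ w hne
  by_cases hv : ((3 * S.m : ℕ) : 𝓞 S.K) ∈ v.asIdeal
  · obtain ⟨hF1, hF2⟩ := S.badPlaces_level S.F w.1
      ((S.mem_badPlaces_iff _ _).mpr ((bad_over_iff w).mpr hv))
    obtain ⟨hK1, hK2⟩ := S.badPlaces_level S.K v ((S.mem_badPlaces_iff _ _).mpr hv)
    rw [mem_locCongr_iff hF1 hF2, mem_locCongr_iff hK1 hK2]
    refine forall_congr' fun i => forall_congr' fun j => ?_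
    rw [← hval ((g : M₂ (v.adicCompletion S.K)) i j - _), map_sub (S.inclOver w), Matrix.one_apply,
      Matrix.one_apply, apply_ite (S.inclOver w), map_one, map_zero]
    rfl
  · rw [locCongr_eq_int (S.not_levelIdeal_le (S.good_over hv w)),
      locCongr_eq_int (S.not_levelIdeal_le hv)]
    have key : ∀ {L : Type} [Field L] [NumberField L] {u : HeightOneSpectrum (𝓞 L)} (x : GLv u),
        x ∈ locInt u ↔ (∀ i j, Valued.v ((x : M₂ (u.adicCompletion L)) i j) ≤ 1) ∧
          Valued.v (x : M₂ (u.adicCompletion L)).det = 1 := by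
      intro L _ _ u x
      refine ⟨?_, fun h => mem_locInt_of_entries x h.1 h.2⟩
      rintro ⟨k, rfl⟩
      refine ⟨fun i j => (k.val i j).2, ?_⟩
      have h : ((Matrix.GeneralLinearGroup.map (u.adicCompletionIntegers L).toSubring.subtype k :
          GLv u) : M₂ (u.adicCompletion L)).det =
          (u.adicCompletionIntegers L).toSubring.subtype k.val.det :=
        (RingHom.map_det (u.adicCompletionIntegers L).toSubring.subtype k.val).symm
      rw [h]
      exact HeightOneSpectrum.adicCompletionIntegers.isUnit_iff_valued_eq_one.mp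
        (Matrix.GeneralLinearGroup.det k).isUnit
    rw [key, key]
    have hd : ((inclGL w g : GLv w.1) : M₂ (w.1.adicCompletion S.F)).det =
        S.inclOver w (g : M₂ (v.adicCompletion S.K)).det :=
      (RingHom.map_det (S.inclOver w) _).symm
    rw [hd, hval]
    refine and_congr (forall_congr' fun i => forall_congr' fun j => ?_) Iff.rfl
    rw [← hval ((g : M₂ (v.adicCompletion S.K)) i j)]
    rfl

theorem map_locLevel : (locLevel (S.levelIdeal S.K) v).map (inclGL w) =
    locLevel (S.levelIdeal S.F) w.1 := by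
  rw [locLevel, locLevel, Subgroup.map_sup]
  congr 1
  · refine le_antisymm ?_ fun x hx => ?_
    · rintro _ ⟨g, hg, rfl⟩
      exact (mem_locCongr_incl hσ w hne g).mpr hg
    · obtain ⟨g, rfl⟩ := inclGL_surjective hσ w hne x
      exact ⟨g, (mem_locCongr_incl hσ w hne g).mp hx, rfl⟩
  · refine le_antisymm ?_ fun x hx => ?_
    · rintro _ ⟨g, hg, rfl⟩
      rw [Subgroup.mem_center_iff]
      intro y
      obtain ⟨h, rfl⟩ := inclGL_surjective hσ w hne y
      rw [← map_mul, ← map_mul, Subgroup.mem_center_iff.mp hg]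
    · obtain ⟨g, rfl⟩ := inclGL_surjective hσ w hne x
      refine ⟨g, Subgroup.mem_center_iff.mpr fun y => inclGL_injective w ?_, rfl⟩
      rw [map_mul, map_mul, Subgroup.mem_center_iff.mp hx]

theorem inclLCos_mk (g : GLv v) :
    S.inclLCos w (g : LCos (S.levelIdeal S.K) v) =
      ((inclGL w g : GLv w.1) : LCos (S.levelIdeal S.F) w.1) := by
  obtain ⟨⟨k, hk⟩, e⟩ := QuotientGroup.mk_out_eq_mul (locLevel (S.levelIdeal S.K) v) g
  show ((inclGL w (g : LCos (S.levelIdeal S.K) v).out : GLv w.1) : LCos (S.levelIdeal S.F) w.1) = _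
  rw [e, map_mul]
  refine QuotientGroup.eq.mpr ?_
  rw [mul_inv_rev, inv_mul_cancel_right, ← map_locLevel hσ w hne]
  exact inv_mem ⟨k, hk, rfl⟩

theorem inclLCos_bijective : Function.Bijective (S.inclLCos w) := by
  refine ⟨fun a b h => ?_, fun c => ?_⟩
  · obtain ⟨x, rfl⟩ := QuotientGroup.mk_surjective a
    obtain ⟨y, rfl⟩ := QuotientGroup.mk_surjective b
    rw [inclLCos_mk hσ w hne, inclLCos_mk hσ w hne, QuotientGroup.eq, ← map_inv, ← map_mul,
      ← map_locLevel hσ w hne] at h
    obtain ⟨k, hk, hk'⟩ := h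
    rw [QuotientGroup.eq, ← inclGL_injective w hk']
    exact hk
  · obtain ⟨x, rfl⟩ := QuotientGroup.mk_surjective c
    obtain ⟨g, rfl⟩ := inclGL_surjective hσ w hne x
    exact ⟨(g : LCos (S.levelIdeal S.K) v), inclLCos_mk hσ w hne g⟩

theorem inclLCos_smul (g : GLv v) (a : LCos (S.levelIdeal S.K) v) :
    S.inclLCos w (g • a) = inclGL w g • S.inclLCos w a := by
  obtain ⟨x, rfl⟩ := QuotientGroup.mk_surjective a
  rw [MulAction.Quotient.smul_coe, smul_eq_mul, inclLCos_mk hσ w hne, inclLCos_mk hσ w hne,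
    map_mul, MulAction.Quotient.smul_coe, smul_eq_mul]

theorem depth_inclGL_moved (g : GLv v) :
    depth (w.1.adicCompletionIntegers S.F) (inclGL w g) =
      depth (v.adicCompletionIntegers S.K) g := by
  have hval := valued_incl_moved hσ w hne
  let ι : v.adicCompletionIntegers S.K →+* w.1.adicCompletionIntegers S.F :=
    ((S.inclOver w).comp (v.adicCompletionIntegers S.K).toSubring.subtype).codRestrict
      (w.1.adicCompletionIntegers S.F).toSubring fun x => (hval _).trans_le x.2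
  have hu : ∀ x : v.adicCompletionIntegers S.K, IsUnit (ι x) ↔ IsUnit x := fun x => by
    rw [HeightOneSpectrum.adicCompletionIntegers.isUnit_iff_valued_eq_one,
      HeightOneSpectrum.adicCompletionIntegers.isUnit_iff_valued_eq_one]
    exact iff_of_eq (congrArg (· = 1) (hval x))
  have hπ := irreducible_piInt v
  have hπ' : Irreducible (ι (piInt v)) := by
    refine (IsDiscreteValuationRing.irreducible_iff_uniformizer _).mpr ?_
    have h0 := (IsDiscreteValuationRing.irreducible_iff_uniformizer _).mp (irreducible_piInt w.1)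
    rw [h0, Ideal.span_singleton_eq_span_singleton]
    have hv1 : Valued.v ((ι (piInt v) : w.1.adicCompletionIntegers S.F) : w.1.adicCompletion S.F) =
        exp (-1 : ℤ) := (hval _).trans (valued_piLoc v)
    have hd : ((ι (piInt v) : w.1.adicCompletionIntegers S.F) : w.1.adicCompletion S.F) /
        (piInt w.1 : w.1.adicCompletion S.F) ∈ w.1.adicCompletionIntegers S.F := by
      rw [HeightOneSpectrum.mem_adicCompletionIntegers, map_div₀, hv1]
      exact le_of_eq (by rw [show Valued.v (piInt w.1 : w.1.adicCompletion S.F) = exp (-1 : ℤ) from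
        valued_piLoc w.1, div_self exp_ne_zero])
    have hp0 : (piInt w.1 : w.1.adicCompletion S.F) ≠ 0 := (piLoc w.1).ne_zero
    have hunit : IsUnit (⟨_, hd⟩ : w.1.adicCompletionIntegers S.F) := by
      rw [HeightOneSpectrum.adicCompletionIntegers.isUnit_iff_valued_eq_one]
      show Valued.v (_ / _) = 1
      rw [map_div₀, hv1, show Valued.v (piInt w.1 : w.1.adicCompletion S.F) = exp (-1 : ℤ) from
        valued_piLoc w.1, div_self exp_ne_zero]
    exact ⟨hunit.unit, Subtype.ext (by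
      show (piInt w.1 : w.1.adicCompletion S.F) * (_ / _) = _
      rw [mul_div_cancel₀ _ hp0])⟩
  obtain ⟨d, hd⟩ := Inert.exists_hasDepth (O := v.adicCompletionIntegers S.K) hπ g
  rw [Inert.depth_eq hd]
  obtain ⟨c, hc, A, ⟨i, j, hij⟩, hcA, hdA⟩ := hd
  refine Inert.depth_eq ⟨S.inclOver w c, (map_ne_zero _).mpr hc, A.map ι,
    ⟨i, j, (hu _).mpr hij⟩, ?_, ?_⟩
  · refine Matrix.ext fun a b => ?_
    have h := congrArg (S.inclOver w) (congrFun (congrFun hcA a) b)
    simp only [Matrix.smul_apply, smul_eq_mul, map_mul, Inert.intMat_apply] at h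
    exact h
  · rw [← RingHom.mapMatrix_apply, ← RingHom.map_det]
    have hA0 : A.det ≠ 0 := fun h0 => by
      rw [h0, IsDiscreteValuationRing.addVal_zero] at hdA
      exact ENat.natCast_ne_top d hdA.symm
    obtain ⟨k, u, hk⟩ := IsDiscreteValuationRing.eq_unit_mul_pow_irreducible hA0 hπ
    rw [hk, IsDiscreteValuationRing.addVal_mul, IsDiscreteValuationRing.addVal_pow,
      IsDiscreteValuationRing.addVal_uniformizer hπ,
      IsDiscreteValuationRing.addVal_eq_zero_iff.mpr u.isUnit] at hdA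
    rw [hk, map_mul, map_pow, IsDiscreteValuationRing.addVal_mul,
      IsDiscreteValuationRing.addVal_pow, IsDiscreteValuationRing.addVal_uniformizer hπ',
      IsDiscreteValuationRing.addVal_eq_zero_iff.mpr ((hu _).mpr u.isUnit)]
    exact hdA

theorem cosDist_inclLCos (hv : ((3 * S.m : ℕ) : 𝓞 S.K) ∉ v.asIdeal)
    (a b : LCos (S.levelIdeal S.K) v) :
    cosDist (S.inclLCos w a) (S.inclLCos w b) = cosDist a b := by
  obtain ⟨x, rfl⟩ := QuotientGroup.mk_surjective a
  obtain ⟨y, rfl⟩ := QuotientGroup.mk_surjective b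
  rw [inclLCos_mk hσ w hne, inclLCos_mk hσ w hne,
    cosDist_mk (S.not_levelIdeal_le (S.good_over hv w)), cosDist_mk (S.not_levelIdeal_le hv),
    ← map_inv, ← map_mul, depth_inclGL_moved hσ w hne]

theorem natCard_residue_moved :
    Ideal.absNorm w.1.asIdeal = Ideal.absNorm v.asIdeal := by
  obtain ⟨u, rfl⟩ := w
  rw [← CFT.natCard_quotient_eq_absNorm, ← CFT.natCard_quotient_eq_absNorm]
  refine (Nat.card_eq_of_bijective (Ideal.quotientMap u.asIdeal S.inclInt le_rfl)
    ⟨Ideal.quotientMap_injective' (H := le_rfl) le_rfl, fun o => ?_⟩).symm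
  obtain ⟨o, rfl⟩ := Ideal.Quotient.mk_surjective o
  obtain ⟨b, hb⟩ := surjective_residue_moved hσ hne o
  exact ⟨Ideal.Quotient.mk _ b, (Ideal.Quotient.eq.mpr hb).symm⟩

open Classical in
/-- The level operator at a place over `3` is that of the place below. -/
theorem lKer_level_incl (Ψ : S.PsiData) (hv : ((3 * S.m : ℕ) : 𝓞 S.K) ∈ v.asIdeal)
    (a b : LCos (S.levelIdeal S.K) v) :
    lKer (locLevelOp (S.levelIdeal S.F) w.1 (S.badPlaces S.F) (S.psiF Ψ))
        (S.inclLCos w a) (S.inclLCos w b) =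
      lKer (locLevelOp (S.levelIdeal S.K) v (S.badPlaces S.K) Ψ) a b := by
  obtain ⟨hw3, hv3⟩ := three_mem_of_bad hσ w hne hv
  have hwb := (bad_over_iff w).mpr hv
  rw [locLevelOp, locLevelOp, if_pos ((S.mem_badPlaces_iff _ _).mpr hwb), if_pos hw3,
    if_pos ((S.mem_badPlaces_iff _ _).mpr hv), if_pos hv3]
  obtain ⟨hF1, hF2⟩ := S.badPlaces_level S.F w.1 ((S.mem_badPlaces_iff _ _).mpr hwb)
  have e : (fun y => (Pi.single (S.inclLCos w b) (1 : ℂ) : LCos (S.levelIdeal S.F) w.1 → ℂ)
      (S.inclLCos w y)) = Pi.single b 1 := by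
    funext y
    simp only [Pi.single_apply, (inclLCos_bijective hσ w hne).1.eq_iff]
  have hcomap : ∀ x : 𝓞 S.K, x ∈ v.asIdeal ↔ S.inclInt x ∈ w.1.asIdeal := fun x => by
    obtain ⟨u, rfl⟩ := w; rfl
  let r : (𝓞 S.K ⧸ v.asIdeal) ≃ (𝓞 S.F ⧸ w.1.asIdeal) := Equiv.ofBijective
    (Ideal.quotientMap w.1.asIdeal S.inclInt fun x hx => (hcomap x).mp hx)
    ⟨Ideal.quotientMap_injective' (H := fun x hx => (hcomap x).mp hx)
      fun x hx => (hcomap x).mpr hx, fun o => by
      obtain ⟨o, rfl⟩ := Ideal.Quotient.mk_surjective o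
      obtain ⟨x, hx⟩ := surjective_residue_moved hσ hne o
      exact ⟨Ideal.Quotient.mk _ x, (Ideal.Quotient.eq.mpr hx).symm⟩⟩
  rw [lKer, lKer, Module.End.mul_apply, Module.End.mul_apply]
  unfold locV4 locPsi
  rw [locSum_comp (Equiv.refl (Fin 4)) (fun _ => rfl) (v4_mem_locInt hv3) (v4_mem_locInt hw3)
    (inclGL w) (inclLCos_mk hσ w hne) fun g i => by
      rw [map_mul]
      congr 2
      refine Units.ext (Matrix.ext fun a b => ?_)
      show S.inclOver w _ = _
      fin_cases i <;> fin_cases a <;> fin_cases b <;> simp]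
  refine congrFun (congrArg _ (funext fun y => ?_)) _
  rw [locSum_comp r (fun i => ?_) resLift_mem_locInt resLift_mem_locInt
    (inclGL w) (inclLCos_mk hσ w hne) (fun g i => ?_), e]
  · obtain ⟨x, rfl⟩ := Ideal.Quotient.mk_surjective i
    rw [show r (Ideal.Quotient.mk _ x) = Ideal.Quotient.mk w.1.asIdeal (S.inclInt x) from rfl,
      ← Nat.card_congr r, S.psiF_mk Ψ hwb, psi_congr (S.psiTriple Ψ) w.2]
    unfold Setup.psiTriple
    rw [if_pos hv3]
  · rw [map_mul]
    refine QuotientGroup.eq.mpr (Subgroup.mem_sup_left ?_)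
    rw [mul_inv_rev, mul_assoc, inv_mul_cancel_left]
    have eU : inclGL w (upperTri (1 : (v.adicCompletion S.K)ˣ) (resLift v i) 1) =
        upperTri 1 (S.inclOver w (resLift v i)) 1 :=
      Units.ext (Matrix.ext fun a b => by
        show S.inclOver w _ = _
        fin_cases a <;> fin_cases b <;> simp [upperTri])
    rw [eU, upperTri_one_inv, upperTri_one_mul]
    refine upperTri_mem_locCongr hF1 hF2 ?_
    set x := Function.surjInv (Ideal.Quotient.mk_surjective (I := v.asIdeal)) i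
    set o := Function.surjInv (Ideal.Quotient.mk_surjective (I := w.1.asIdeal)) (r i)
    have ho : Ideal.Quotient.mk w.1.asIdeal o = Ideal.Quotient.mk _ (S.inclInt x) := by
      rw [show Ideal.Quotient.mk w.1.asIdeal (S.inclInt x) = r (Ideal.Quotient.mk _ x) from rfl,
        Function.surjInv_eq Ideal.Quotient.mk_surjective,
        Function.surjInv_eq Ideal.Quotient.mk_surjective]
    show Valued.v (-S.inclOver w (loc v (x : S.K)) + loc w.1 (o : S.F)) ≤ _
    rw [S.inclOver_loc, neg_add_eq_sub, ← map_sub, valued_loc, ← S.inclInt_apply, ← map_sub,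
      HeightOneSpectrum.valuation_of_algebraMap,
      show (-1 : ℤ) = -((1 : ℕ) : ℤ) from rfl, w.1.intValuation_le_pow_iff_mem, pow_one]
    exact Ideal.Quotient.eq.mp ho

end FermatAgent.LT
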