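import Mathlib
import Fermat.Agent.LT.Descent.Local.Inert.Fund

set_option autoImplicit false

/-!
# Cyclic chains of three invariant kernels over a fundamental set
-/

noncomputable section

namespace FermatAgent.LT

open Inert (IsFundSet)

/-- The orbital sum of a cyclic chain of three kernels is that of their composition. -/
theorem orbital_chain {G X : Type*} [Group G] [MulAction G X] {T U : Subgroup G} (hUT : U ≤ T)
    (hcomm : ∀ a ∈ T, ∀ b ∈ T, a * b = b * a) (hstab : ∀ g ∈ T, ∀ y : X, g • y = y → g ∈ U)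
    {k₀ k₁ k₂ : X → X → ℂ} (h₀ : ∀ (g : G) a b, k₀ (g • a) (g • b) = k₀ a b)
    (h₁ : ∀ (g : G) a b, k₁ (g • a) (g • b) = k₁ a b)
    (h₂ : ∀ (g : G) a b, k₂ (g • a) (g • b) = k₂ a b)
    (r₀ : ∀ a, (Function.support (k₀ a)).Finite) (r₁ : ∀ a, (Function.support (k₁ a)).Finite)
    {d₀ d₁ d₂ : G} (e₀ : ∀ τ ∈ T, d₀ * τ = τ * d₀) (e₁ : ∀ τ ∈ T, d₁ * τ = τ * d₁)
    (e₂ : ∀ τ ∈ T, d₂ * τ = τ * d₂) {c : G} (hc : d₀ * d₁ * d₂ = c)
    {f : X → ℂ} (hf : ∀ τ ∈ T, ∀ a, f (τ • a) = f a)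
    {ΩK : Set X} (hK : IsFundSet T U Set.univ ΩK) {ΩF : Set (X × X × X)}
    (hF : IsFundSet T U Set.univ ΩF)
    (hfin : {y ∈ ΩK | ∃ a b, k₀ y a ≠ 0 ∧ k₁ a b ≠ 0 ∧ k₂ b (c • y) ≠ 0}.Finite) :
    (ΩF ∩ Function.support fun x : X × X × X =>
        k₀ x.1 (d₀ • x.2.1) * k₁ x.2.1 (d₁ • x.2.2) * k₂ x.2.2 (d₂ • x.1) * f x.1).Finite ∧
      ∑ᶠ x ∈ ΩF, k₀ x.1 (d₀ • x.2.1) * k₁ x.2.1 (d₁ • x.2.2) * k₂ x.2.2 (d₂ • x.1) * f x.1 =
        ∑ᶠ y ∈ ΩK, (∑ᶠ a, k₀ y a * ∑ᶠ b, k₁ a b * k₂ b (c • y)) * f y := by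
  classical
  set Φ : X × X × X → ℂ := fun x =>
    k₀ x.1 (d₀ • x.2.1) * k₁ x.2.1 (d₁ • x.2.2) * k₂ x.2.2 (d₂ • x.1) * f x.1
  set Ω : Set (X × X × X) := {x | x.1 ∈ ΩK} with hΩdef
  have hΩ : IsFundSet T U Set.univ Ω :=
    { subset := Set.subset_univ _
      stable := fun u hu x hx => hK.stable u hu x.1 hx
      cover := fun x _ => hK.cover x.1 trivial
      unique := fun x hx t ht htx => by
        obtain ⟨u, hu, he⟩ := hK.unique x.1 hx t ht htx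
        change t • x.1 = u • x.1 at he
        refine ⟨t, ?_, rfl⟩
        have hmem := hstab (u⁻¹ * t) (T.mul_mem (T.inv_mem (hUT hu)) ht) x.1
          (by rw [mul_smul, he, inv_smul_smul])
        have := U.mul_mem hu hmem
        rwa [mul_inv_cancel_left] at this }
  have hΦ : ∀ t ∈ T, ∀ x ∈ (Set.univ : Set (X × X × X)), Φ (t • x) = Φ x := by
    intro t ht x _
    show k₀ (t • x.1) (d₀ • t • x.2.1) * k₁ (t • x.2.1) (d₁ • t • x.2.2) *
      k₂ (t • x.2.2) (d₂ • t • x.1) * f (t • x.1) = _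
    rw [← mul_smul d₀, e₀ t ht, mul_smul, h₀, ← mul_smul d₁, e₁ t ht, mul_smul, h₁,
      ← mul_smul d₂, e₂ t ht, mul_smul, h₂, hf t ht]
  -- the change of variables
  let ψ : X × X × X ≃ X × X × X :=
    { toFun := fun x => (x.1, d₀⁻¹ • x.2.1, (d₀ * d₁)⁻¹ • x.2.2)
      invFun := fun x => (x.1, d₀ • x.2.1, (d₀ * d₁) • x.2.2)
      left_inv := fun x => by simp only [smul_inv_smul]
      right_inv := fun x => by simp only [inv_smul_smul] }
  set Ψ : X × X × X → ℂ := fun x =>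
    k₀ x.1 x.2.1 * k₁ x.2.1 x.2.2 * k₂ x.2.2 (c • x.1) * f x.1
  have hψ : ∀ x, Φ (ψ x) = Ψ x := by
    rintro ⟨y, a, b⟩
    show k₀ y (d₀ • d₀⁻¹ • a) * k₁ (d₀⁻¹ • a) (d₁ • (d₀ * d₁)⁻¹ • b) *
      k₂ ((d₀ * d₁)⁻¹ • b) (d₂ • y) * f y = _
    rw [smul_inv_smul, ← h₁ d₀, smul_inv_smul, ← mul_smul d₀, smul_inv_smul,
      ← h₂ (d₀ * d₁) ((d₀ * d₁)⁻¹ • b), smul_inv_smul, ← mul_smul, hc]
  set Y := {y ∈ ΩK | ∃ a b, k₀ y a ≠ 0 ∧ k₁ a b ≠ 0 ∧ k₂ b (c • y) ≠ 0}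
  have hsupp : (Function.support (Ω.indicator Ψ)).Finite := by
    have hA : (⋃ y ∈ Y, Function.support (k₀ y)).Finite := hfin.biUnion fun y _ => r₀ y
    refine ((hfin.prod (hA.prod (hA.biUnion fun a _ => r₁ a)))).subset ?_
    rintro ⟨y, a, b⟩ hx
    rw [Function.mem_support, Set.indicator_apply] at hx
    split_ifs at hx with hy
    · simp only [Ψ, ne_eq, mul_eq_zero, not_or] at hx
      obtain ⟨⟨⟨ha, hb⟩, hcy⟩, -⟩ := hx
      have hyY : y ∈ Y := ⟨hy, a, b, ha, hb, hcy⟩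
      have haA : a ∈ ⋃ y ∈ Y, Function.support (k₀ y) := Set.mem_biUnion hyY ha
      exact ⟨hyY, haA, Set.mem_biUnion haA hb⟩
    · exact absurd rfl hx
  have hind : ∀ x, Ω.indicator Φ (ψ x) = Ω.indicator Ψ x := fun x => by
    rw [Set.indicator_apply, Set.indicator_apply, ← hψ x]
    rfl
  have hΦfin : (Ω ∩ Function.support Φ).Finite := by
    refine (hsupp.image ψ).subset ?_
    rintro x ⟨hx, hx'⟩
    refine ⟨ψ.symm x, ?_, ψ.apply_symm_apply x⟩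
    rw [Function.mem_support, ← hind, ψ.apply_symm_apply, Set.indicator_of_mem hx]
    exact hx'
  refine ⟨(hΩ.finsum_eq hUT hcomm hF hΦ).1 hΦfin, ?_⟩
  rw [← (hΩ.finsum_eq hUT hcomm hF hΦ).2, finsum_mem_def, ← finsum_comp_equiv ψ,
    finsum_congr hind, finsum_curry _ hsupp, finsum_mem_def]
  refine finsum_congr fun y => ?_
  by_cases hy : y ∈ ΩK
  · have hs : (Function.support fun p : X × X => Ω.indicator Ψ (y, p)).Finite :=
      hsupp.preimage (f := fun p : X × X => (y, p)) fun p _ q _ h => (Prod.mk.inj h).2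
    rw [Set.indicator_of_mem hy, finsum_curry _ hs, finsum_mul]
    refine finsum_congr fun a => ?_
    rw [mul_finsum, finsum_mul]
    refine finsum_congr fun b => ?_
    rw [Set.indicator_of_mem (show (y, a, b) ∈ Ω from hy)]
    simp only [Ψ]
    ring
  · rw [Set.indicator_of_notMem hy, finsum_eq_zero_of_forall_eq_zero]
    exact fun p => Set.indicator_of_notMem (show (y, p) ∉ Ω from hy) _

end FermatAgent.LT
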