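import Mathlib
import Fermat.Agent.LT.Descent.Classes.Matrix2

set_option autoImplicit false

/-!
# Tori of fixed regular matrices under an automorphism of order three

The vanishing of the first cohomology of the projective torus, and fixed projective classes.
-/

noncomputable section

open scoped Matrix MatrixGroups

namespace FermatAgent.LT.Cyc

variable {M : Type*} [Field M] (s : M ≃+* M) (hs3 : ∀ x, s (s (s x)) = x) (hne : ∃ x, s x ≠ x)

local notation "M₂" => Matrix (Fin 2) (Fin 2)

include hs3 hne in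
/-- Independence of `1`, `s`, `s²`. -/
theorem eq_zero_of_forall {Ω : Type*} [Field Ω] (ι : M →+* Ω) {a b c : Ω}
    (h : ∀ θ, a * ι θ + b * ι (s θ) + c * ι (s (s θ)) = 0) : a = 0 ∧ b = 0 ∧ c = 0 := by
  obtain ⟨x, hx⟩ := hne
  have hx2 : s (s x) ≠ x := fun h' => hx (by conv_lhs => rw [← h', hs3])
  have h12 : s x ≠ s (s x) := fun h' => hx (s.injective h').symm
  let χ : Fin 3 → (M →* Ω) :=
    ![ι.toMonoidHom, (ι.comp s.toRingHom).toMonoidHom,
      (ι.comp (s.toRingHom.comp s.toRingHom)).toMonoidHom]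
  have hχ : Function.Injective χ := by
    intro i j hij
    have e := DFunLike.congr_fun hij x
    fin_cases i <;> fin_cases j <;>
      first
      | rfl
      | (exfalso
         simp [χ] at e
         have e' := ι.injective e
         first | exact hx e' | exact hx e'.symm | exact hx2 e' | exact hx2 e'.symm
               | exact h12 e' | exact h12 e'.symm)
  have hli := Fintype.linearIndependent_iff.mp
    ((linearIndependent_monoidHom M Ω).comp χ hχ) ![a, b, c] (funext fun θ => by
      simpa [χ, Fin.sum_univ_three, add_assoc] using h θ)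
  exact ⟨hli 0, hli 1, hli 2⟩

include hs3 hne in
theorem exists_apply_ne_zero {Ω : Type*} [Field Ω] (ι : M →+* Ω) (b c b' c' : Ω) :
    ∃ θ, ι θ + b * ι (s θ) + c * ι (s (s θ)) ≠ 0 ∧
      ι θ + b' * ι (s θ) + c' * ι (s (s θ)) ≠ 0 := by
  have key : ∀ b c : Ω, ∃ θ, ι θ + b * ι (s θ) + c * ι (s (s θ)) ≠ 0 := by
    intro b c
    by_contra! h
    exact one_ne_zero
      (eq_zero_of_forall s hs3 hne ι (a := 1) (fun θ => by rw [one_mul]; exact h θ)).1
  by_contra! h
  obtain ⟨p, hp⟩ := key b c
  obtain ⟨q, hq⟩ := key b' c'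
  have hp' := h p hp
  have hq' : ι q + b * ι (s q) + c * ι (s (s q)) = 0 := by
    by_contra h0
    exact hq (h q h0)
  have hsum : ι (p + q) + b * ι (s (p + q)) + c * ι (s (s (p + q))) ≠ 0 := by
    simp only [map_add]
    intro h0
    exact hp (by linear_combination h0 - hq')
  have := h (p + q) hsum
  simp only [map_add] at this
  exact hq (by linear_combination this - hp')

include hs3 hne in
/-- Hilbert 90. -/
theorem exists_eq_div {μ : M} (h : μ * s μ * s (s μ) = 1) : ∃ ν : M, ν ≠ 0 ∧ μ * s ν = ν := by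
  obtain ⟨θ, hθ, -⟩ := exists_apply_ne_zero s hs3 hne (RingHom.id M) μ (μ * s μ) 0 0
  refine ⟨θ + μ * s θ + μ * s μ * s (s θ), hθ, ?_⟩
  rw [map_add, map_add, map_mul, map_mul, map_mul, hs3 θ]
  linear_combination θ * h

include hs3 hne in
/-- An invariant of norm one in the commutant is `Z / s Z`. -/
theorem exists_commutant_h90 {T : M₂ M} (hT : Classes.NonScalar T)
    (hfix : s.toRingHom.mapMatrix T = T) {A : M₂ M} (hA : A * T = T * A)
    (hN : A * s.toRingHom.mapMatrix A * s.toRingHom.mapMatrix (s.toRingHom.mapMatrix A) = 1) :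
    ∃ Z : M₂ M, Z.det ≠ 0 ∧ Z * T = T * Z ∧ A * s.toRingHom.mapMatrix Z = Z := by
  set Φ := s.toRingHom.mapMatrix (m := Fin 2) with hΦ
  have hΦA : Φ A * T = T * Φ A := by rw [← hfix, ← map_mul, hA, map_mul]
  have hB : A * Φ A * T = T * (A * Φ A) := by
    rw [Matrix.mul_assoc, hΦA, ← Matrix.mul_assoc, hA, Matrix.mul_assoc]
  obtain ⟨a, b, hab⟩ := Classes.exists_eq_of_commute hT hA
  obtain ⟨a', b', hab'⟩ := Classes.exists_eq_of_commute hT hB
  set ι := algebraMap M (AlgebraicClosure M)
  obtain ⟨l, hl⟩ := IsAlgClosed.exists_root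
    (Polynomial.X ^ 2 - Polynomial.C (ι T.trace) * Polynomial.X +
      Polynomial.C (ι T.det) : Polynomial (AlgebraicClosure M)) (by
    intro h
    have := congrArg (fun p : Polynomial (AlgebraicClosure M) => p.coeff 2)
      (Polynomial.eq_C_of_degree_eq_zero h)
    simp [Polynomial.coeff_C] at this)
  simp only [Polynomial.IsRoot.def, Polynomial.eval_add, Polynomial.eval_sub, Polynomial.eval_mul,
    Polynomial.eval_pow, Polynomial.eval_X, Polynomial.eval_C] at hl
  obtain ⟨θ, h1, h2⟩ := exists_apply_ne_zero s hs3 hne ι (ι a + ι b * l)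
    (ι a' + ι b' * l) (ι a + ι b * (ι T.trace - l)) (ι a' + ι b' * (ι T.trace - l))
  set Z : M₂ M := θ • (1 : M₂ M) + s θ • A + s (s θ) • (A * Φ A) with hZ
  have hZ' : Z = (θ + s θ * a + s (s θ) * a') • (1 : M₂ M) +
      (s θ * b + s (s θ) * b') • T := by
    rw [hZ, hab', hab]
    module
  refine ⟨Z, ?_, ?_, ?_⟩
  · rw [hZ', Classes.det_poly]
    intro h0
    have e := congrArg ι h0
    simp only [map_add, map_mul, map_zero, map_pow] at e
    rcases mul_eq_zero.mp (show (ι θ + (ι a + ι b * l) * ι (s θ) +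
          (ι a' + ι b' * l) * ι (s (s θ))) *
        (ι θ + (ι a + ι b * (ι T.trace - l)) * ι (s θ) +
          (ι a' + ι b' * (ι T.trace - l)) * ι (s (s θ))) = 0 by
      linear_combination e - (ι (s θ) * ι b + ι (s (s θ)) * ι b') ^ 2 * hl) with h | h
    · exact h1 h
    · exact h2 h
  · rw [hZ]
    simp only [Matrix.add_mul, Matrix.mul_add, Matrix.smul_mul, Matrix.mul_smul, Matrix.one_mul,
      Matrix.mul_one, hA, hB]
  · have hsm : ∀ (c : M) (N : M₂ M), Φ (c • N) = s c • Φ N := fun c N =>
      Matrix.ext fun i j => map_mul s c (N i j)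
    rw [hZ, map_add, map_add, hsm, hsm, hsm, map_one, map_mul, hs3 θ]
    simp only [Matrix.mul_add, Matrix.mul_smul, Matrix.mul_one, ← Matrix.mul_assoc]
    rw [hN]
    abel

variable {g : GL (Fin 2) M} (hg : Classes.IsReg (Matrix.ProjGenLinGroup.mk g))
  (hgfix : Matrix.GeneralLinearGroup.map s.toRingHom g = g)

include hs3 hne hg hgfix in
/-- The projective torus of a fixed regular matrix has the torus properties. -/
theorem isTorus_of_fixed (h2 : (2 : M) ≠ 0) :
    TF.IsTorus (Classes.pGal s) (Classes.torus (Matrix.ProjGenLinGroup.mk g)) := by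
  have hns : Classes.NonScalar (g : M₂ M) := Classes.nonScalar_of_isReg hg
  set G := Matrix.GeneralLinearGroup.map (n := Fin 2) s.toRingHom
  have hG : ∀ a : GL (Fin 2) M, (G a : M₂ M) = s.toRingHom.mapMatrix (a : M₂ M) := fun a => rfl
  have hgf : s.toRingHom.mapMatrix (g : M₂ M) = g := congrArg Units.val hgfix
  refine ⟨fun a ha b hb => Classes.torus_comm hg ha hb, fun a ha => ?_, fun a ha hn => ?_⟩
  · obtain ⟨A, hA, rfl⟩ := Classes.mem_torus_mk.mp ha
    refine Classes.mem_torus_mk.mpr ⟨G A, ?_, rfl⟩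
    have h := congrArg (fun N : M₂ M => s.toRingHom.mapMatrix N) hA
    simp only [map_mul, hgf] at h
    exact h
  · obtain ⟨A, hA, rfl⟩ := Classes.mem_torus_mk.mp ha
    rw [TF.nm, Classes.pGal_mk, Classes.pGal_mk, ← map_mul, ← map_mul,
      ← map_one Matrix.ProjGenLinGroup.mk, Classes.mk_eq_mk_iff_smul] at hn
    obtain ⟨c, hc⟩ := hn
    rw [Units.val_mul, Units.val_mul, Units.val_one] at hc
    set N : M₂ M := (A : M₂ M) * (G A : M₂ M) * (G (G A) : M₂ M)
    set d := (A : M₂ M).det with hd_def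
    have hGd : ∀ a : GL (Fin 2) M, (G a : M₂ M).det = s (a : M₂ M).det := fun a => by
      rw [hG, ← RingHom.map_det]; rfl
    have hdet : c ^ 2 * (d * s d * s (s d)) = 1 := by
      have := congrArg Matrix.det hc
      rwa [Matrix.det_smul, Fintype.card_fin, Matrix.det_mul, Matrix.det_mul, hGd, hGd, hGd,
        Matrix.det_one] at this
    have hcs : s c = c := by
      have hd0 : d * s d * s (s d) ≠ 0 := fun h => by rw [h, mul_zero] at hdet; exact zero_ne_one hdet
      have hsq : s c ^ 2 = c ^ 2 := by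
        have h2' := congrArg s hdet
        rw [map_mul, map_mul, map_mul, map_pow, map_one, hs3 d] at h2'
        apply mul_right_cancel₀ hd0
        linear_combination h2' - hdet
      rcases sq_eq_sq_iff_eq_or_eq_neg.mp hsq with h1 | h1
      · exact h1
      · have h3 := hs3 c
        rw [h1, map_neg, h1, neg_neg, h1] at h3
        have h0 : (2 : M) * c = 0 := by linear_combination -h3
        rw [(mul_eq_zero.mp h0).resolve_left h2, map_zero]
    set e := d * c with he
    have hNe : (e • (A : M₂ M)) * s.toRingHom.mapMatrix (e • (A : M₂ M)) *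
        s.toRingHom.mapMatrix (s.toRingHom.mapMatrix (e • (A : M₂ M))) = 1 := by
      have hsm : ∀ (x : M) (N : M₂ M),
          s.toRingHom.mapMatrix (x • N) = s x • s.toRingHom.mapMatrix N := fun x N =>
        Matrix.ext fun i j => map_mul s x (N i j)
      rw [hsm, hsm, ← hG, ← hG]
      simp only [Matrix.smul_mul, Matrix.mul_smul, smul_smul]
      refine Eq.trans (congrArg (fun x : M => x • N) ?_) hc
      simp only [he, map_mul, hcs]
      linear_combination c * hdet
    obtain ⟨Z, hZ0, hZT, hZ⟩ := exists_commutant_h90 s hs3 hne hns hgf (A := e • (A : M₂ M)) (by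
      rw [Matrix.smul_mul, Matrix.mul_smul, hA]) hNe
    refine ⟨Matrix.ProjGenLinGroup.mk (Matrix.GeneralLinearGroup.mkOfDetNeZero Z hZ0),
      Classes.mem_torus_mk.mpr ⟨_, hZT, rfl⟩, eq_mul_inv_iff_mul_eq.mpr ?_⟩
    rw [Classes.pGal_mk, ← map_mul, Classes.mk_eq_mk_iff_smul]
    refine ⟨e, ?_⟩
    rw [Units.val_mul, ← Matrix.smul_mul]
    exact hZ

include hs3 hne in
/-- A fixed projective class has a fixed representative. -/
theorem exists_fixed_lift {x : PGL(2, M)} (hx : Classes.pGal s x = x) :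
    ∃ B : GL (Fin 2) M, Matrix.GeneralLinearGroup.map s.toRingHom B = B ∧
      Matrix.ProjGenLinGroup.mk B = x := by
  induction x using Matrix.ProjGenLinGroup.induction_on with | mk A => ?_
  rw [Classes.pGal_mk, Classes.mk_eq_mk_iff_smul] at hx
  obtain ⟨μ, hμ⟩ := hx
  have e : ∀ i j, μ * s ((A : M₂ M) i j) = (A : M₂ M) i j := fun i j =>
    congrFun (congrFun hμ i) j
  have h3 : μ * s μ * s (s μ) = 1 := by
    by_contra h
    refine A.ne_zero (Matrix.ext fun i j => ?_)
    have h0 : (1 - μ * s μ * s (s μ)) * (A : M₂ M) i j = 0 := by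
      have h4 : (A : M₂ M) i j = μ * s μ * s (s μ) * (A : M₂ M) i j := by
        conv_lhs => rw [← e, ← e, map_mul, ← e, map_mul, map_mul, hs3]
        ring
      linear_combination h4
    exact ((mul_eq_zero.mp h0).resolve_left (sub_ne_zero.mpr fun h' => h h'.symm)).trans
      (Matrix.zero_apply i j).symm
  obtain ⟨ν, hν0, hν⟩ := exists_eq_div s hs3 hne h3
  have hdet : ((ν⁻¹) • (A : M₂ M)).det ≠ 0 := by
    rw [Matrix.det_smul]
    exact mul_ne_zero (pow_ne_zero _ (inv_ne_zero hν0)) A.det_ne_zero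
  refine ⟨Matrix.GeneralLinearGroup.mkOfDetNeZero _ hdet,
    Matrix.GeneralLinearGroup.ext fun i j => ?_, ?_⟩
  · show s (ν⁻¹ * (A : M₂ M) i j) = ν⁻¹ * (A : M₂ M) i j
    have hsν : s ν ≠ 0 := fun h => hν0 (s.injective (h.trans (map_zero s).symm))
    rw [map_mul, map_inv₀]
    field_simp
    linear_combination (s ν) * e i j - s ((A : M₂ M) i j) * hν
  · rw [Classes.mk_eq_mk_iff_smul]
    exact ⟨ν, by
      show ν • (ν⁻¹ • (A : M₂ M)) = _
      rw [smul_smul, mul_inv_cancel₀ hν0, one_smul]⟩

end FermatAgent.LT.Cyc
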