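import Mathlib
import Fermat.Agent.LT.Descent.Kernel.CosetOp.Local
import Fermat.Agent.LT.Descent.Geom.LocalDefs

set_option autoImplicit false

/-!
# Cube roots in the congruence group of upper unitriangular residual matrices

At a place of residue characteristic `q ≠ 3` every element has exactly one cube root: the limit of
its powers.
-/

noncomputable section

open NumberField IsDedekindDomain WithZero Filter Topology
open scoped Matrix MatrixGroups

namespace FermatAgent.LT

variable {L : Type*} [Field L] [NumberField L] {v : HeightOneSpectrum (𝓞 L)}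

local notation "M₂v" => Matrix (Fin 2) (Fin 2) (v.adicCompletion L)

/-- Integral matrices congruent to `(1 *; 0 1)`. -/
def upperOne (v : HeightOneSpectrum (𝓞 L)) : Subgroup (GLv v) where
  carrier := {g | CO.SmallM v 0 g.val ∧ Valued.v (g.val 0 0 - 1) ≤ exp (-1 : ℤ) ∧
    Valued.v (g.val 1 1 - 1) ≤ exp (-1 : ℤ) ∧ Valued.v (g.val 1 0) ≤ exp (-1 : ℤ)}
  one_mem' := ⟨by rw [Units.val_one]; exact CO.smallM_one, by simp, by simp, by simp⟩
  mul_mem' := by
    rintro a b ⟨ha, ha0, ha1, ha2⟩ ⟨hb, hb0, hb1, hb2⟩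
    have h := fun i j => ha.le_one i j
    have h' := fun i j => hb.le_one i j
    refine ⟨by simpa using ha.mul hb, ?_, ?_, ?_⟩
    · rw [Units.val_mul, Matrix.mul_apply, Fin.sum_univ_two,
        show a.val 0 0 * b.val 0 0 + a.val 0 1 * b.val 1 0 - 1 = (a.val 0 0 - 1) * b.val 0 0 +
          ((b.val 0 0 - 1) + a.val 0 1 * b.val 1 0) by ring]
      refine (Valuation.map_add _ _ _).trans (max_le ?_ ((Valuation.map_add _ _ _).trans
        (max_le hb0 ?_))) <;> rw [map_mul]
      · exact (mul_le_mul' ha0 (h' 0 0)).trans_eq (mul_one _)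
      · exact (mul_le_mul' (h 0 1) hb2).trans_eq (one_mul _)
    · rw [Units.val_mul, Matrix.mul_apply, Fin.sum_univ_two,
        show a.val 1 0 * b.val 0 1 + a.val 1 1 * b.val 1 1 - 1 = (a.val 1 1 - 1) * b.val 1 1 +
          ((b.val 1 1 - 1) + a.val 1 0 * b.val 0 1) by ring]
      refine (Valuation.map_add _ _ _).trans (max_le ?_ ((Valuation.map_add _ _ _).trans
        (max_le hb1 ?_))) <;> rw [map_mul]
      · exact (mul_le_mul' ha1 (h' 1 1)).trans_eq (mul_one _)
      · exact (mul_le_mul' ha2 (h' 0 1)).trans_eq (mul_one _)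
    · rw [Units.val_mul, Matrix.mul_apply, Fin.sum_univ_two]
      refine (Valuation.map_add _ _ _).trans (max_le ?_ ?_) <;> rw [map_mul]
      · exact (mul_le_mul' ha2 (h' 0 0)).trans_eq (mul_one _)
      · exact (mul_le_mul' (h 1 1) hb2).trans_eq (one_mul _)
  inv_mem' := by
    rintro a ⟨ha, ha0, ha1, ha2⟩
    have h := fun i j => ha.le_one i j
    have hd : Valued.v (a.val.det - 1) ≤ exp (-1 : ℤ) := by
      rw [Matrix.det_fin_two, show a.val 0 0 * a.val 1 1 - a.val 0 1 * a.val 1 0 - 1 =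
        (a.val 0 0 - 1) * a.val 1 1 + ((a.val 1 1 - 1) - a.val 0 1 * a.val 1 0) by ring]
      refine (Valuation.map_add _ _ _).trans (max_le ?_ ((Valuation.map_sub _ _ _).trans
        (max_le ha1 ?_))) <;> rw [map_mul]
      · exact (mul_le_mul' ha0 (h 1 1)).trans_eq (mul_one _)
      · exact (mul_le_mul' (h 0 1) ha2).trans_eq (one_mul _)
    have hd1 : Valued.v a.val.det = 1 := by
      refine (Valuation.map_eq_of_sub_lt _ ?_).trans (map_one Valued.v)
      rw [map_one]
      exact hd.trans_lt (by rw [← exp_zero, exp_lt_exp]; norm_num)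
    have hd0 : a.val.det ≠ 0 := a.det_ne_zero
    have key : ∀ x : v.adicCompletion L, Valued.v (x - 1) ≤ exp (-1 : ℤ) →
        Valued.v (a.val.det⁻¹ * x - 1) ≤ exp (-1 : ℤ) := fun x hx => by
      rw [show a.val.det⁻¹ * x - 1 = a.val.det⁻¹ * ((x - 1) - (a.val.det - 1)) by
        field_simp; ring, map_mul, map_inv₀, hd1, inv_one, one_mul]
      exact (Valuation.map_sub _ _ _).trans (max_le hx hd)
    refine ⟨CO.smallM_of_le_one fun i j => ?_, ?_, ?_, ?_⟩ <;>
      rw [CO.inv_val_fin_two, Matrix.smul_apply, smul_eq_mul]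
    · rw [map_mul, map_inv₀, hd1, inv_one, one_mul]
      fin_cases i <;> fin_cases j <;> simp [h]
    · simpa using key _ ha1
    · simpa using key _ ha0
    · rw [map_mul, map_inv₀, hd1, inv_one, one_mul]
      simpa using ha2

theorem smallM_of_mem_upperOne {g : GLv v} (hg : g ∈ upperOne v) : CO.SmallM v 0 g.val := hg.1

theorem mem_locCongr_zero_of_upperOne {g : GLv v} (hg : g ∈ upperOne v) :
    g ∈ CO.locCongr v 0 :=
  CO.mem_locCongr_zero.mpr ⟨hg.1, ((upperOne v).inv_mem hg).1⟩

theorem valued_sub_of_congr {n : ℕ} {k a : GLv v} (hk : k ∈ CO.locCongr v n)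
    (ha : CO.SmallM v 0 a.val) (i j : Fin 2) :
    Valued.v ((a * k).val i j - a.val i j) ≤ exp (-(n : ℤ)) := by
  rw [← Matrix.sub_apply, show (a * k).val - a.val = a.val * (k.val - 1) by
    rw [mul_sub, mul_one, Units.val_mul]]
  simpa using (ha.mul hk.1) i j

/-- Limits of sequences with shrinking steps. -/
theorem exists_limit_of_steps {a : ℕ → v.adicCompletion L}
    (h : ∀ n, Valued.v (a (n + 1) - a n) ≤ exp (-(n : ℤ))) :
    ∃ l, ∀ n, Valued.v (l - a n) ≤ exp (-(n : ℤ)) := by
  have hle : ∀ n p, n ≤ p → Valued.v (a p - a n) ≤ exp (-(n : ℤ)) := by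
    intro n p hp
    induction p, hp using Nat.le_induction with
    | base => simp
    | succ p hp ih =>
      rw [show a (p + 1) - a n = (a (p + 1) - a p) + (a p - a n) by ring]
      exact (Valuation.map_add _ _ _).trans
        (max_le ((h p).trans (exp_le_exp.mpr (by omega))) ih)
  set p := loc v (pi v : L)
  have hp : ∀ n : ℕ, Valued.v (p ^ n) = exp (-(n : ℤ)) := fun n => by
    rw [map_pow, valued_uniformizer, ← WithZero.exp_nsmul]
    simp
  have hcauchy : CauchySeq a := by
    refine Valued.cauchy_iff.mpr ⟨inferInstance, fun γ => ?_⟩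
    obtain ⟨x, y, hx, hy, hxy⟩ := Valuation.restrict_exists_div_eq
      (Valued.v (R := v.adicCompletion L)) γ
    have hne : Valued.v (x / y) ≠ 0 := by rw [map_div₀]; exact div_ne_zero hx.ne' hy.ne'
    set n := (1 - log (Valued.v (x / y))).toNat
    refine ⟨a '' Set.Ici n, image_mem_map (Ici_mem_atTop n), ?_⟩
    rintro _ ⟨i, hi, rfl⟩ _ ⟨j, hj, rfl⟩
    rw [← hxy, ← map_div₀, Valuation.restrict_lt_iff]
    have h' : Valued.v (a j - a i) ≤ exp (-(n : ℤ)) := by
      rw [show a j - a i = (a j - a n) - (a i - a n) by ring]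
      exact (Valuation.map_sub _ _ _).trans (max_le (hle n j hj) (hle n i hi))
    refine h'.trans_lt ?_
    rw [← exp_log hne, exp_lt_exp]
    omega
  obtain ⟨l, hl⟩ := cauchySeq_tendsto_of_complete hcauchy
  refine ⟨l, fun n => ?_⟩
  have hne : Valued.v.restrict (p ^ n) ≠ 0 := by
    rw [ne_eq, Valuation.restrict_eq_zero_iff, hp]; exact exp_ne_zero
  have hmem : {y : v.adicCompletion L | Valued.v (y - l) < exp (-(n : ℤ))} ∈ 𝓝 l := by
    rw [Valued.mem_nhds]
    refine ⟨Units.mk0 _ hne, fun y hy => ?_⟩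
    have h1 := Valued.v.restrict_lt_iff.mp hy
    rwa [hp] at h1
  have hev : ∀ᶠ i in atTop, a i ∈ {y : v.adicCompletion L | Valued.v (y - l) < exp (-(n : ℤ))} :=
    hl hmem
  obtain ⟨i, hi, hi'⟩ := (hev.and (eventually_ge_atTop n)).exists
  rw [show l - a n = (a i - a n) - (a i - l) by ring]
  exact (Valuation.map_sub _ _ _).trans (max_le (hle n i hi') hi.le)

theorem eq_of_small {x y : v.adicCompletion L}
    (h : ∀ n : ℕ, Valued.v (x - y) ≤ exp (-(n : ℤ))) : x = y := by
  by_contra hne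
  have h0 : Valued.v (x - y) ≠ 0 := (Valuation.ne_zero_iff _).mpr (sub_ne_zero.mpr hne)
  have := h ((-log (Valued.v (x - y))).toNat + 1)
  rw [← exp_log h0, exp_le_exp, log_exp] at this
  omega

variable {q : ℕ} (hq : Valued.v (q : v.adicCompletion L) ≤ exp (-1 : ℤ))
include hq

theorem pow_mem_congr_one {g : GLv v} (hg : g ∈ upperOne v) : g ^ q ∈ CO.locCongr v 1 := by
  have key : ∀ j : ℕ, Valued.v ((g ^ j).val 0 1 - j * g.val 0 1) ≤ exp (-1 : ℤ) := by
    intro j
    induction j with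
    | zero => simp
    | succ j ih =>
      obtain ⟨hj, hj0, -, -⟩ := (upperOne v).pow_mem hg j
      obtain ⟨hs, -, hg1, -⟩ := hg
      rw [pow_succ, Units.val_mul, Matrix.mul_apply, Fin.sum_univ_two,
        show (g ^ j).val 0 0 * g.val 0 1 + (g ^ j).val 0 1 * g.val 1 1 -
          ((j + 1 : ℕ) : v.adicCompletion L) * g.val 0 1 = ((g ^ j).val 0 0 - 1) * g.val 0 1 +
            ((g ^ j).val 0 1 * (g.val 1 1 - 1) + ((g ^ j).val 0 1 - j * g.val 0 1)) by
          push_cast; ring]
      refine (Valuation.map_add _ _ _).trans (max_le ?_ ((Valuation.map_add _ _ _).trans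
        (max_le ?_ ih))) <;> rw [map_mul]
      · exact (mul_le_mul' hj0 (hs.le_one 0 1)).trans_eq (mul_one _)
      · exact (mul_le_mul' (hj.le_one 0 1) hg1).trans_eq (one_mul _)
  obtain ⟨hs, h0, h1, h2⟩ := (upperOne v).pow_mem hg q
  refine CO.mem_locCongr_of (mem_locCongr_zero_of_upperOne ((upperOne v).pow_mem hg q)) ?_
  have h01 : Valued.v ((g ^ q).val 0 1) ≤ exp (-1 : ℤ) := by
    rw [show (g ^ q).val 0 1 = ((g ^ q).val 0 1 - q * g.val 0 1) + q * g.val 0 1 by ring]
    refine (Valuation.map_add _ _ _).trans (max_le (key q) ?_)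
    rw [map_mul]
    exact (mul_le_mul' hq ((smallM_of_mem_upperOne hg).le_one 0 1)).trans_eq (mul_one _)
  intro i j
  rw [Matrix.sub_apply, Nat.cast_one]
  fin_cases i <;> fin_cases j <;> first
    | simpa using h0 | simpa using h1 | simpa using h2 | simpa using h01

theorem pow_mem_congr_succ {n : ℕ} (hn : 1 ≤ n) {g : GLv v} (hg : g ∈ CO.locCongr v n) :
    g ^ q ∈ CO.locCongr v (n + 1) := by
  have key : ∀ j : ℕ, CO.SmallM v (n + 1)
      ((g ^ j).val - 1 - (j : v.adicCompletion L) • (g.val - 1)) := by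
    intro j
    induction j with
    | zero => intro a b; simp
    | succ j ih =>
      have hj := ((CO.locCongr v n).pow_mem hg j).1
      rw [show (g ^ (j + 1)).val - 1 - ((j + 1 : ℕ) : v.adicCompletion L) • (g.val - 1) =
        ((g ^ j).val - 1) * (g.val - 1) + ((g ^ j).val - 1 - (j : v.adicCompletion L) • (g.val - 1))
        by rw [pow_succ, Units.val_mul, Nat.cast_succ, add_smul, one_smul]; noncomm_ring]
      exact ((hj.mul hg.1).anti (by omega)).add ih
  refine CO.mem_locCongr_of (CO.locCongr_anti (Nat.zero_le n) ((CO.locCongr v n).pow_mem hg q)) ?_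
  intro i j
  rw [show ((g ^ q).val - 1) i j = ((g ^ q).val - 1 - (q : v.adicCompletion L) • (g.val - 1)) i j +
    (q : v.adicCompletion L) * (g.val - 1) i j by simp]
  refine (Valuation.map_add _ _ _).trans (max_le (key q i j) ?_)
  rw [map_mul, show (-((n + 1 : ℕ) : ℤ)) = (-1) + -(n : ℤ) by push_cast; ring, exp_add]
  exact mul_le_mul' hq (hg.1 i j)

theorem pow_pow_mem {g : GLv v} (hg : g ∈ upperOne v) : ∀ n, g ^ q ^ n ∈ CO.locCongr v n
  | 0 => by rw [pow_zero, pow_one]; exact mem_locCongr_zero_of_upperOne hg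
  | n + 1 => by
    rcases Nat.eq_zero_or_pos n with rfl | hn
    · rw [zero_add, pow_one]; exact pow_mem_congr_one hq hg
    · rw [pow_succ, pow_mul]; exact pow_mem_congr_succ hq hn (pow_pow_mem hg n)

omit hq in
/-- An inverse of three modulo `q ^ n`. -/
theorem exists_third (hq3 : ¬ 3 ∣ q) (n : ℕ) : ∃ m r : ℕ, 3 * m = 1 + r * q ^ n := by
  have h : ¬ 3 ∣ q ^ n := fun h => hq3 (Nat.prime_three.dvd_of_dvd_pow h)
  rcases (show q ^ n % 3 = 1 ∨ q ^ n % 3 = 2 by omega) with h1 | h1
  · exact ⟨(2 * q ^ n + 1) / 3, 2, by omega⟩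
  · exact ⟨(q ^ n + 1) / 3, 1, by omega⟩

variable (hq3 : ¬ 3 ∣ q)
include hq3

/-- The limit of the powers of exponent tending to one third. -/
theorem exists_power_limit {u : GLv v} (hu : u ∈ upperOne v) (m r : ℕ → ℕ)
    (hm : ∀ n, 3 * m n = 1 + r n * q ^ n) :
    ∃ c ∈ upperOne v, ∀ n, CO.SmallM v n (c.val - (u ^ m n).val) := by
  have hcop : ∀ n, Int.gcd (3 : ℤ) ((q ^ n : ℕ) : ℤ) = 1 := fun n =>
    (Nat.prime_three.coprime_iff_not_dvd.mpr fun h => hq3 (Nat.prime_three.dvd_of_dvd_pow h))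
  have hstep : ∀ n, (u ^ m n)⁻¹ * u ^ m (n + 1) ∈ CO.locCongr v n := by
    intro n
    obtain ⟨k, hk⟩ : ((q ^ n : ℕ) : ℤ) ∣ (m (n + 1) : ℤ) - (m n : ℤ) := by
      refine Int.dvd_of_dvd_mul_right_of_gcd_one (b := 3)
        ⟨(r (n + 1) : ℤ) * q - r n, ?_⟩ (by rw [Int.gcd_comm]; exact hcop n)
      have h1 := hm (n + 1)
      have h2 := hm n
      rw [pow_succ] at h1
      push_cast
      zify at h1 h2
      linear_combination h1 - h2
    have e : (u ^ m n)⁻¹ * u ^ m (n + 1) = (u ^ q ^ n) ^ k := by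
      rw [← zpow_natCast u (q ^ n), ← zpow_mul, ← hk, ← zpow_natCast, ← zpow_natCast,
        sub_eq_neg_add, zpow_add, zpow_neg]
    rw [e]
    exact zpow_mem (pow_pow_mem hq hu n) k
  have hcl : ∀ i j, ∀ n, Valued.v ((u ^ m (n + 1)).val i j - (u ^ m n).val i j) ≤ exp (-(n : ℤ)) :=
    fun i j n => by
      have h := valued_sub_of_congr (hstep n)
        (smallM_of_mem_upperOne ((upperOne v).pow_mem hu (m n))) i j
      rwa [mul_inv_cancel_left] at h
  have hl0 : ∀ i j, ∃ l, ∀ n, Valued.v (l - (u ^ m n).val i j) ≤ exp (-(n : ℤ)) := fun i j =>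
    exists_limit_of_steps (a := fun n => (u ^ m n).val i j) (hcl i j)
  choose l hl using hl0
  set C : M₂v := Matrix.of l
  have hC : ∀ n, CO.SmallM v n (C - (u ^ m n).val) := fun n i j => hl i j n
  have hC0 : CO.SmallM v 0 C := by
    simpa only [sub_add_cancel] using (hC 0).add (smallM_of_mem_upperOne ((upperOne v).pow_mem hu (m 0)))
  have h1 : ∀ i j, Valued.v (C i j - (u ^ m 1).val i j) ≤ exp (-1 : ℤ) := fun i j => by
    simpa using hC 1 i j
  obtain ⟨hs, e0, e1, e2⟩ := (upperOne v).pow_mem hu (m 1)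
  have hdet : Valued.v (C.det - 1) ≤ exp (-1 : ℤ) := by
    have hC00 : Valued.v (C 0 0 - 1) ≤ exp (-1 : ℤ) := by
      rw [show C 0 0 - 1 = (C 0 0 - (u ^ m 1).val 0 0) + ((u ^ m 1).val 0 0 - 1) by ring]
      exact (Valuation.map_add _ _ _).trans (max_le (h1 0 0) e0)
    have hC11 : Valued.v (C 1 1 - 1) ≤ exp (-1 : ℤ) := by
      rw [show C 1 1 - 1 = (C 1 1 - (u ^ m 1).val 1 1) + ((u ^ m 1).val 1 1 - 1) by ring]
      exact (Valuation.map_add _ _ _).trans (max_le (h1 1 1) e1)
    have hC10 : Valued.v (C 1 0) ≤ exp (-1 : ℤ) := by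
      rw [show C 1 0 = (C 1 0 - (u ^ m 1).val 1 0) + (u ^ m 1).val 1 0 by ring]
      exact (Valuation.map_add _ _ _).trans (max_le (h1 1 0) e2)
    rw [Matrix.det_fin_two, show C 0 0 * C 1 1 - C 0 1 * C 1 0 - 1 =
      (C 0 0 - 1) * C 1 1 + ((C 1 1 - 1) - C 0 1 * C 1 0) by ring]
    refine (Valuation.map_add _ _ _).trans (max_le ?_ ((Valuation.map_sub _ _ _).trans
      (max_le hC11 ?_))) <;> rw [map_mul]
    · exact (mul_le_mul' hC00 (hC0.le_one 1 1)).trans_eq (mul_one _)
    · exact (mul_le_mul' (hC0.le_one 0 1) hC10).trans_eq (one_mul _)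
  have hdne : C.det ≠ 0 := fun h0 => by
    rw [h0, zero_sub, Valuation.map_neg, map_one, ← exp_zero, exp_le_exp] at hdet
    omega
  set c := Matrix.GeneralLinearGroup.mkOfDetNeZero C hdne
  have hc : c.val = C := rfl
  refine ⟨c, ⟨hc ▸ hC0, ?_, ?_, ?_⟩, fun n => hc ▸ hC n⟩
  · rw [hc, show C 0 0 - 1 = (C 0 0 - (u ^ m 1).val 0 0) + ((u ^ m 1).val 0 0 - 1) by ring]
    exact (Valuation.map_add _ _ _).trans (max_le (h1 0 0) e0)
  · rw [hc, show C 1 1 - 1 = (C 1 1 - (u ^ m 1).val 1 1) + ((u ^ m 1).val 1 1 - 1) by ring]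
    exact (Valuation.map_add _ _ _).trans (max_le (h1 1 1) e1)
  · rw [hc, show C 1 0 = (C 1 0 - (u ^ m 1).val 1 0) + (u ^ m 1).val 1 0 by ring]
    exact (Valuation.map_add _ _ _).trans (max_le (h1 1 0) e2)

omit hq3 in
/-- The limit is a cube root. -/
theorem cube_power_limit {u c : GLv v} (hu : u ∈ upperOne v) (hcU : c ∈ upperOne v) (m r : ℕ → ℕ)
    (hm : ∀ n, 3 * m n = 1 + r n * q ^ n) (hC : ∀ n, CO.SmallM v n (c.val - (u ^ m n).val)) :
    c * c * c = u := by
  refine Units.ext (Matrix.ext fun i j => eq_of_small fun n => ?_)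
  have hC0 := smallM_of_mem_upperOne hcU
  set C := c.val
  set P := (u ^ m n).val
  have hP : CO.SmallM v 0 P := smallM_of_mem_upperOne ((upperOne v).pow_mem hu (m n))
  have e3 : u ^ m n * u ^ m n * u ^ m n = u * (u ^ q ^ n) ^ r n := by
    rw [← pow_add, ← pow_add, ← pow_mul, ← pow_succ']
    congr 1
    have := hm n
    rw [mul_comm (q ^ n)]
    omega
  have hA : CO.SmallM v n (C * C * C - P * P * P) := by
    rw [show C * C * C - P * P * P = (C - P) * C * C + P * (C - P) * C + P * P * (C - P) by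
      noncomm_ring]
    refine (CO.SmallM.add ?_ ?_).add ?_
    · simpa only [Nat.add_zero, Nat.zero_add] using ((hC n).mul hC0).mul hC0
    · simpa only [Nat.add_zero, Nat.zero_add] using (hP.mul (hC n)).mul hC0
    · simpa only [Nat.add_zero, Nat.zero_add] using (hP.mul hP).mul (hC n)
  have hB := valued_sub_of_congr ((CO.locCongr v n).pow_mem (pow_pow_mem hq hu n) (r n))
    (smallM_of_mem_upperOne hu) i j
  rw [← e3] at hB
  rw [Units.val_mul, Units.val_mul,
    show (C * C * C) i j - u.val i j = (C * C * C - P * P * P) i j +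
      ((u ^ m n * u ^ m n * u ^ m n).val i j - u.val i j) by
        rw [Matrix.sub_apply, Units.val_mul, Units.val_mul]; ring]
  exact (Valuation.map_add _ _ _).trans (max_le (hA i j) hB)

omit hq hq3 in
/-- The limit commutes with what commutes with the element. -/
theorem commute_power_limit {u c : GLv v} (m : ℕ → ℕ)
    (hC : ∀ n, CO.SmallM v n (c.val - (u ^ m n).val)) {h : GLv v} (hh : h * u = u * h) :
    h * c = c * h := by
  refine Units.ext (Matrix.ext fun i j => eq_of_small fun n => ?_)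
  obtain ⟨N, hN, -⟩ : ∃ N : ℕ, (∀ a b, Valued.v (h.val a b) ≤ exp (N : ℤ)) ∧ True := by
    let f : Fin 2 × Fin 2 → ℕ := fun p => (log (Valued.v (h.val p.1 p.2))).toNat
    refine ⟨Finset.univ.sup f, fun a b => ?_, trivial⟩
    rcases eq_or_ne (Valued.v (h.val a b)) 0 with h0 | h0
    · rw [h0]; exact zero_le
    · rw [← exp_log h0, exp_le_exp]
      have := Finset.le_sup (f := f) (Finset.mem_univ (a, b))
      have hf : f (a, b) = (log (Valued.v (h.val a b))).toNat := rfl
      omega
  have hcomm : h * u ^ m (n + N) = u ^ m (n + N) * h := (Commute.pow_right hh (m (n + N))).eq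
  have hcomm' := congrArg Units.val hcomm
  rw [Units.val_mul, Units.val_mul] at hcomm'
  rw [Units.val_mul, Units.val_mul, show (h.val * c.val) i j - (c.val * h.val) i j =
    (h.val * (c.val - (u ^ m (n + N)).val)) i j - ((c.val - (u ^ m (n + N)).val) * h.val) i j by
      rw [Matrix.mul_sub, Matrix.sub_mul, Matrix.sub_apply, Matrix.sub_apply, hcomm']; ring]
  have hb : ∀ a b a' b', Valued.v (h.val a b * (c.val - (u ^ m (n + N)).val) a' b') ≤
      exp (-(n : ℤ)) := fun a b a' b' => by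
    rw [map_mul, show (-(n : ℤ)) = (N : ℤ) + -((n + N : ℕ) : ℤ) by push_cast; ring, exp_add]
    exact mul_le_mul' (hN a b) (hC (n + N) a' b')
  simp only [Matrix.mul_apply, Fin.sum_univ_two]
  refine (Valuation.map_sub _ _ _).trans (max_le ((Valuation.map_add _ _ _).trans
    (max_le (hb _ _ _ _) (hb _ _ _ _))) ((Valuation.map_add _ _ _).trans (max_le ?_ ?_))) <;>
    · rw [mul_comm]; exact hb _ _ _ _

/-- Cube roots exist and commute with everything commuting with the element. -/
theorem exists_cubeRoot {u : GLv v} (hu : u ∈ upperOne v) :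
    ∃ c ∈ upperOne v, c * c * c = u ∧ ∀ h : GLv v, h * u = u * h → h * c = c * h := by
  choose m r hm using exists_third hq3
  obtain ⟨c, hc, hC⟩ := exists_power_limit hq hq3 hu m r hm
  exact ⟨c, hc, cube_power_limit hq hu hc m r hm hC, fun h hh => commute_power_limit m hC hh⟩

/-- Cube roots are unique. -/
theorem cubeRoot_unique {c d : GLv v} (hc : c ∈ upperOne v) (hd : d ∈ upperOne v)
    (h : c * c * c = d * d * d) : c = d := by
  refine Units.ext (Matrix.ext fun i j => eq_of_small fun n => ?_)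
  obtain ⟨m, r, hm⟩ := exists_third hq3 n
  have e : ∀ g : GLv v, (g * g * g) ^ m = g * (g ^ q ^ n) ^ r := fun g => by
    rw [show g * g * g = g ^ 3 by rw [pow_succ, sq], ← pow_mul, ← pow_mul, ← pow_succ']
    congr 1
    rw [hm, mul_comm (q ^ n)]
    omega
  have hc' := valued_sub_of_congr ((CO.locCongr v n).pow_mem (pow_pow_mem hq hc n) r)
    (smallM_of_mem_upperOne hc) i j
  have hd' := valued_sub_of_congr ((CO.locCongr v n).pow_mem (pow_pow_mem hq hd n) r)
    (smallM_of_mem_upperOne hd) i j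
  rw [← e, h] at hc'
  rw [← e] at hd'
  rw [show c.val i j - d.val i j = (((d * d * d) ^ m).val i j - d.val i j) -
    (((d * d * d) ^ m).val i j - c.val i j) by ring]
  exact (Valuation.map_sub _ _ _).trans (max_le hd' hc')

end FermatAgent.LT
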