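import Mathlib
import Fermat.Agent.LT.Descent.Geom.Local.ProRoot
import Fermat.Agent.LT.Descent.Geom.Local.LevelKer
import Fermat.Agent.LT.Descent.Classes.Matrix2

set_option autoImplicit false

/-!
# The unipotent level group at a place of exact level

The residual class of the upper right entry, the kernel of the residual projection, and the
properties of the image in `PGL₂` relative to an automorphism of order three.
-/

noncomputable section

open NumberField IsDedekindDomain WithZero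
open scoped Matrix MatrixGroups

namespace FermatAgent.LT

variable {L : Type*} [Field L] [NumberField L] {v : HeightOneSpectrum (𝓞 L)}

local notation "Lv" => HeightOneSpectrum.adicCompletion L v

open Classical in
/-- The residual class of the upper right entry. -/
def resOne (g : GLv v) : 𝓞 L ⧸ v.asIdeal :=
  if h : ∃ o : 𝓞 L, Valued.v (g.val 0 1 - loc v (o : L)) ≤ exp (-1 : ℤ) then
    Ideal.Quotient.mk _ h.choose
  else 0

theorem mk_eq_of_valued_sub {o o' : 𝓞 L}
    (h : Valued.v (loc v (o : L) - loc v (o' : L)) ≤ exp (-1 : ℤ)) :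
    Ideal.Quotient.mk v.asIdeal o = Ideal.Quotient.mk v.asIdeal o' := by
  rw [← map_sub, valued_loc, RingOfIntegers.coe_eq_algebraMap, RingOfIntegers.coe_eq_algebraMap,
    ← map_sub, HeightOneSpectrum.valuation_of_algebraMap] at h
  refine Ideal.Quotient.eq.mpr ?_
  have := (v.intValuation_le_pow_iff_mem (o - o') 1).mp h
  rwa [pow_one] at this

theorem resOne_eq {g : GLv v} {o : 𝓞 L}
    (h : Valued.v (g.val 0 1 - loc v (o : L)) ≤ exp (-1 : ℤ)) :
    resOne g = Ideal.Quotient.mk _ o := by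
  have h' : ∃ o : 𝓞 L, Valued.v (g.val 0 1 - loc v (o : L)) ≤ exp (-1 : ℤ) := ⟨o, h⟩
  rw [resOne, dif_pos h']
  refine mk_eq_of_valued_sub ?_
  rw [show loc v (h'.choose : L) - loc v (o : L) =
    (g.val 0 1 - loc v (o : L)) - (g.val 0 1 - loc v (h'.choose : L)) by ring]
  exact (Valuation.map_sub _ _ _).trans (max_le h h'.choose_spec)

theorem exists_resOne {g : GLv v} (hg : g ∈ upperOne v) :
    ∃ o : 𝓞 L, Valued.v (g.val 0 1 - loc v (o : L)) ≤ exp (-1 : ℤ) := by
  obtain ⟨o, ho⟩ := exists_int_close v ((smallM_of_mem_upperOne hg).le_one 0 1) 1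
  exact ⟨o, by exact_mod_cast ho⟩

theorem resOne_mul {a b : GLv v} (ha : a ∈ upperOne v) (hb : b ∈ upperOne v) :
    resOne (a * b) = resOne a + resOne b := by
  obtain ⟨o, ho⟩ := exists_resOne ha
  obtain ⟨o', ho'⟩ := exists_resOne hb
  rw [resOne_eq ho, resOne_eq ho', ← map_add]
  refine resOne_eq ?_
  rw [Units.val_mul, Matrix.mul_apply, Fin.sum_univ_two,
    show ((o + o' : 𝓞 L) : L) = (o : L) + (o' : L) by simp, map_add,
    show a.val 0 0 * b.val 0 1 + a.val 0 1 * b.val 1 1 - (loc v (o : L) + loc v (o' : L)) =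
      (a.val 0 0 - 1) * b.val 0 1 + (a.val 0 1 * (b.val 1 1 - 1) +
        ((a.val 0 1 - loc v (o : L)) + (b.val 0 1 - loc v (o' : L)))) by ring]
  refine (Valuation.map_add _ _ _).trans (max_le ?_ ((Valuation.map_add _ _ _).trans (max_le ?_
    ((Valuation.map_add _ _ _).trans (max_le ho ho'))))) <;> rw [map_mul]
  · exact (mul_le_mul' ha.2.1 ((smallM_of_mem_upperOne hb).le_one 0 1)).trans_eq (mul_one _)
  · exact (mul_le_mul' ((smallM_of_mem_upperOne ha).le_one 0 1) hb.2.2.1).trans_eq (one_mul _)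

theorem center_apply {z : GLv v} (hz : z ∈ Subgroup.center (GLv v)) :
    ∃ c : Lv, c ≠ 0 ∧ z.val = Matrix.scalar (Fin 2) c := by
  obtain ⟨c, hc⟩ := Matrix.GeneralLinearGroup.mem_center_iff_val_mem_range_scalar.mp hz
  refine ⟨c, fun h => z.ne_zero ?_, hc.symm⟩
  rw [← hc, h, map_zero]

theorem resOne_center {z : GLv v} (hz : z ∈ Subgroup.center (GLv v)) : resOne z = 0 := by
  obtain ⟨c, -, hc⟩ := center_apply hz
  rw [← map_zero (Ideal.Quotient.mk v.asIdeal)]
  refine resOne_eq ?_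
  simp [hc]

/-- Representatives of the same projective class have the same residue. -/
theorem resOne_eq_of_mk {a b : GLv v} (ha : a ∈ upperOne v) (hb : b ∈ upperOne v)
    (h : Matrix.ProjGenLinGroup.mk a = Matrix.ProjGenLinGroup.mk b) : resOne a = resOne b := by
  have hz : a⁻¹ * b ∈ Subgroup.center (GLv v) := by
    rw [← Matrix.ProjGenLinGroup.mk_eq_one, map_mul, map_inv, h, inv_mul_cancel]
  have := resOne_mul ha ((upperOne v).mul_mem ((upperOne v).inv_mem ha) hb)
  rwa [mul_inv_cancel_left, resOne_center hz, add_zero, eq_comm] at this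

/-- The image of the unipotent level group in `PGL₂`. -/
def pUpper (v : HeightOneSpectrum (𝓞 L)) : Subgroup PGL(2, v.adicCompletion L) :=
  (upperOne v).map Matrix.ProjGenLinGroup.mk

variable {𝔫 : Ideal (𝓞 L)}

/-- Projectively equal matrices give the same coset. -/
theorem mk_eq_of_pgl {a b : GLv v}
    (h : Matrix.ProjGenLinGroup.mk a = Matrix.ProjGenLinGroup.mk b) :
    (a : LCos 𝔫 v) = (b : LCos 𝔫 v) := by
  rw [QuotientGroup.eq]
  refine Subgroup.mem_sup_right ?_
  rw [← Matrix.ProjGenLinGroup.mk_eq_one, map_mul, map_inv, h, inv_mul_cancel]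

section Level

variable (h1 : 𝔫 ≤ v.asIdeal) (h2 : ¬ 𝔫 ≤ v.asIdeal ^ 2)
include h1 h2

/-- The congruence group sits in the unipotent level group without residue. -/
theorem upperOne_of_locCongr {k : GLv v} (hk : k ∈ locCongr 𝔫 v) :
    k ∈ upperOne v ∧ resOne k = 0 := by
  rw [mem_locCongr_iff h1 h2] at hk
  have e0 : exp (-1 : ℤ) ≤ (1 : ℤᵐ⁰) := by rw [← exp_zero, exp_le_exp]; norm_num
  have h00 := hk 0 0; have h11 := hk 1 1; have h10 := hk 1 0; have h01 := hk 0 1
  simp only [Matrix.one_apply, if_true, show (0 : Fin 2) ≠ 1 by decide,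
    show (1 : Fin 2) ≠ 0 by decide, if_false, sub_zero] at h00 h11 h10 h01
  refine ⟨⟨CO.smallM_of_le_one fun i j => ?_, h00, h11, h10⟩, ?_⟩
  · have h := (Valuation.map_add Valued.v _ _).trans (max_le ((hk i j).trans e0)
      (show Valued.v ((1 : Matrix (Fin 2) (Fin 2) Lv) i j) ≤ 1 by
        rw [Matrix.one_apply]; split_ifs <;> simp))
    rwa [sub_add_cancel] at h
  · rw [← map_zero (Ideal.Quotient.mk v.asIdeal)]
    exact resOne_eq (by simpa using h01)

theorem pUpper_of_locLevel {k : GLv v} (hk : k ∈ locLevel 𝔫 v) :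
    Matrix.ProjGenLinGroup.mk k ∈ pUpper v := by
  obtain ⟨a, ha, z, hz, rfl⟩ := Subgroup.mem_sup_of_normal_right.mp hk
  exact ⟨a, (upperOne_of_locCongr h1 h2 ha).1, by
    rw [map_mul, Matrix.ProjGenLinGroup.mk_eq_one.mpr hz, mul_one]⟩

/-- An element of the unipotent level group is a translation modulo the congruence group. -/
theorem transLoc_inv_mul_mem {u : GLv v} (hu : u ∈ upperOne v) {o : 𝓞 L}
    (ho : Valued.v (u.val 0 1 - loc v (o : L)) ≤ exp (-1 : ℤ)) :
    (transLoc v o)⁻¹ * u ∈ locCongr 𝔫 v := by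
  rw [mem_locCongr_iff h1 h2]
  have hoi : Valued.v (loc v (o : L)) ≤ 1 := by
    rw [valued_loc, RingOfIntegers.coe_eq_algebraMap, HeightOneSpectrum.valuation_of_algebraMap]
    exact v.intValuation_le_one o
  intro i j
  rw [transLoc, upperTri_one_inv, Units.val_mul, Matrix.mul_apply, Fin.sum_univ_two]
  fin_cases i <;> fin_cases j <;> simp [upperTri]
  · rw [show u.val 0 0 + -(loc v (o : L) * u.val 1 0) - 1 =
      (u.val 0 0 - 1) - loc v (o : L) * u.val 1 0 by ring]
    refine (Valuation.map_sub _ _ _).trans (max_le hu.2.1 ?_)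
    rw [map_mul]
    exact (mul_le_mul' hoi hu.2.2.2).trans_eq (one_mul _)
  · rw [show u.val 0 1 + -(loc v (o : L) * u.val 1 1) =
      (u.val 0 1 - loc v (o : L)) - loc v (o : L) * (u.val 1 1 - 1) by ring]
    refine (Valuation.map_sub _ _ _).trans (max_le ho ?_)
    rw [map_mul]
    exact (mul_le_mul' hoi hu.2.2.1).trans_eq (one_mul _)
  · exact hu.2.2.2
  · exact hu.2.2.1

omit h1 h2 in
theorem transLoc_mem_upperOne (o : 𝓞 L) :
    transLoc v o ∈ upperOne v ∧ resOne (transLoc v o) = Ideal.Quotient.mk _ o := by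
  have hoi : Valued.v (loc v (o : L)) ≤ 1 := by
    rw [valued_loc, RingOfIntegers.coe_eq_algebraMap, HeightOneSpectrum.valuation_of_algebraMap]
    exact v.intValuation_le_one o
  refine ⟨⟨CO.smallM_of_le_one fun i j => ?_, ?_, ?_, ?_⟩, resOne_eq ?_⟩
  · fin_cases i <;> fin_cases j <;> simp [transLoc, upperTri, hoi]
  all_goals simp [transLoc, upperTri]

/-- The kernel of the residual projection inside the unipotent level group. -/
theorem lKer_locPsi_upperOne (ψ : AddChar (𝓞 L ⧸ v.asIdeal) ℂ) {g h u : GLv v}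
    (hu : u ∈ upperOne v)
    (hgh : Matrix.ProjGenLinGroup.mk (g⁻¹ * h) = Matrix.ProjGenLinGroup.mk u) :
    lKer (locPsi 𝔫 v ψ) (g : LCos 𝔫 v) (h : LCos 𝔫 v) =
      (Nat.card (𝓞 L ⧸ v.asIdeal) : ℂ)⁻¹ * (ψ (resOne u))⁻¹ := by
  obtain ⟨o, ho⟩ := exists_resOne hu
  rw [resOne_eq ho]
  refine lKer_locPsi_of_mem h1 h2 ψ ?_
  have hz : u⁻¹ * (g⁻¹ * h) ∈ Subgroup.center (GLv v) := by
    rw [← Matrix.ProjGenLinGroup.mk_eq_one, map_mul, map_inv, hgh, inv_mul_cancel]
  rw [show (transLoc v o)⁻¹ * (g⁻¹ * h) = (transLoc v o)⁻¹ * u * (u⁻¹ * (g⁻¹ * h)) by group]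
  exact mul_mem (Subgroup.mem_sup_left (transLoc_inv_mul_mem h1 h2 hu ho))
    (Subgroup.mem_sup_right hz)

/-- The kernel of the residual projection outside the unipotent level group. -/
theorem lKer_locPsi_outside (ψ : AddChar (𝓞 L ⧸ v.asIdeal) ℂ) {g h : GLv v}
    (hgh : Matrix.ProjGenLinGroup.mk (g⁻¹ * h) ∉ pUpper v) :
    lKer (locPsi 𝔫 v ψ) (g : LCos 𝔫 v) (h : LCos 𝔫 v) = 0 := by
  refine lKer_locPsi_eq_zero ψ fun o ho => hgh ?_
  rw [show g⁻¹ * h = transLoc v o * ((transLoc v o)⁻¹ * (g⁻¹ * h)) by group, map_mul]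
  exact mul_mem ⟨_, (transLoc_mem_upperOne o).1, rfl⟩ (pUpper_of_locLevel h1 h2 ho)

end Level

/-! ### The group conditions -/

variable {q : ℕ} (hq : Valued.v (q : v.adicCompletion L) ≤ exp (-1 : ℤ)) (hq3 : ¬ 3 ∣ q)
include hq hq3

/-- Central elements of the unipotent level group have central cube roots. -/
theorem exists_central_cubeRoot {z : GLv v} (hz : z ∈ Subgroup.center (GLv v))
    (hzU : z ∈ upperOne v) :
    ∃ c ∈ upperOne v, c ∈ Subgroup.center (GLv v) ∧ c * c * c = z := by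
  obtain ⟨c, hc, hc3, hcomm⟩ := exists_cubeRoot hq hq3 hzU
  exact ⟨c, hc, Subgroup.mem_center_iff.mpr fun h => hcomm h (Subgroup.mem_center_iff.mp hz h),
    hc3⟩

theorem pUpper_root : ∀ u ∈ pUpper v, ∃ c ∈ pUpper v, c * c * c = u := by
  rintro _ ⟨u, hu, rfl⟩
  obtain ⟨c, hc, hc3, -⟩ := exists_cubeRoot hq hq3 hu
  exact ⟨_, ⟨c, hc, rfl⟩, by rw [← map_mul, ← map_mul, hc3]⟩

theorem pUpper_unique : ∀ c ∈ pUpper v, ∀ d ∈ pUpper v, c * c * c = d * d * d → c = d := by
  rintro _ ⟨c, hc, rfl⟩ _ ⟨d, hd, rfl⟩ h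
  rw [← map_mul, ← map_mul, ← map_mul, ← map_mul] at h
  have hz : (d * d * d)⁻¹ * (c * c * c) ∈ Subgroup.center (GLv v) := by
    rw [← Matrix.ProjGenLinGroup.mk_eq_one, map_mul, map_inv, h, inv_mul_cancel]
  have hcU := (upperOne v).mul_mem ((upperOne v).mul_mem hc hc) hc
  have hdU := (upperOne v).mul_mem ((upperOne v).mul_mem hd hd) hd
  obtain ⟨r, hrU, hrz, hr3⟩ := exists_central_cubeRoot hq hq3 hz
    ((upperOne v).mul_mem ((upperOne v).inv_mem hdU) hcU)
  have hcr := Subgroup.mem_center_iff.mp hrz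
  have e : c = d * r := by
    refine cubeRoot_unique hq hq3 hc ((upperOne v).mul_mem hd hrU) ?_
    calc c * c * c = d * d * d * ((d * d * d)⁻¹ * (c * c * c)) := by group
      _ = d * d * d * (r * r * r) := by rw [hr3]
      _ = d * r * (d * r) * (d * r) := by
        rw [← pow_three', ← pow_three', ← pow_three', (show Commute d r from hcr d).mul_pow]
  rw [e, map_mul, Matrix.ProjGenLinGroup.mk_eq_one.mpr hrz, mul_one]

variable (s : v.adicCompletion L ≃+* v.adicCompletion L) (hs : ∀ x, Valued.v (s x) = Valued.v x)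
include hs

omit hq hq3 in
theorem map_mem_upperOne {g : GLv v} (hg : g ∈ upperOne v) :
    Matrix.GeneralLinearGroup.map s.toRingHom g ∈ upperOne v := by
  obtain ⟨h0, h00, h11, h10⟩ := hg
  refine ⟨CO.smallM_of_le_one fun i j => ?_, ?_, ?_, ?_⟩
  · show Valued.v (s (g.val i j)) ≤ 1
    rw [hs]; exact h0.le_one i j
  · show Valued.v (s (g.val 0 0) - 1) ≤ _
    rw [← map_one s, ← map_sub, hs]; exact h00
  · show Valued.v (s (g.val 1 1) - 1) ≤ _
    rw [← map_one s, ← map_sub, hs]; exact h11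
  · show Valued.v (s (g.val 1 0)) ≤ _
    rw [hs]; exact h10

omit hq hq3 in
theorem pUpper_stable : ∀ u ∈ pUpper v, Classes.pGal s u ∈ pUpper v := by
  rintro _ ⟨u, hu, rfl⟩
  exact ⟨_, map_mem_upperOne s hs hu, (Classes.pGal_mk s u).symm⟩

variable (hs3 : ∀ x, s (s (s x)) = x) (h3 : Valued.v (3 : v.adicCompletion L) = 1)
include hs3 h3 hq hq3

/-- Norm-one elements are coboundaries. -/
theorem pUpper_h1 : ∀ w ∈ pUpper v, TF.nm (Classes.pGal s) w = 1 →
    ∃ a ∈ pUpper v, w = a * (Classes.pGal s a)⁻¹ := by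
  rintro _ ⟨w, hw, rfl⟩ hn
  set G := Matrix.GeneralLinearGroup.map (n := Fin 2) s.toRingHom
  have hG3 : ∀ g, G (G (G g)) = g := fun g => Matrix.GeneralLinearGroup.ext fun i j => hs3 _
  have hGU : ∀ g ∈ upperOne v, G g ∈ upperOne v := fun g hg => map_mem_upperOne s hs hg
  rw [TF.nm, Classes.pGal_mk, Classes.pGal_mk, ← map_mul, ← map_mul,
    Matrix.ProjGenLinGroup.mk_eq_one] at hn
  set z := w * G w * G (G w)
  obtain ⟨r, hrU, hrz, hr3⟩ := exists_central_cubeRoot hq hq3 hn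
    ((upperOne v).mul_mem ((upperOne v).mul_mem hw (hGU _ hw)) (hGU _ (hGU _ hw)))
  have hGz : G z = z := by
    calc G z = G w * G (G w) * w := by simp only [z, map_mul, hG3]
      _ = w⁻¹ * (z * w) := by simp only [z]; group
      _ = w⁻¹ * (w * z) := by rw [Subgroup.mem_center_iff.mp hn w]
      _ = z := by group
  have hGr : G r = r := cubeRoot_unique hq hq3 (hGU _ hrU) hrU
    (by rw [← map_mul, ← map_mul, hr3, hGz])
  have hcr := Subgroup.mem_center_iff.mp hrz
  set w₁ := w * r⁻¹ with hw₁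
  have hw₁U : w₁ ∈ upperOne v := (upperOne v).mul_mem hw ((upperOne v).inv_mem hrU)
  have hN : w₁ * G w₁ * G (G w₁) = 1 := by
    have hi : ∀ g, g * r⁻¹ = r⁻¹ * g := Subgroup.mem_center_iff.mp (inv_mem hrz)
    calc w₁ * G w₁ * G (G w₁) = w * r⁻¹ * (G w * r⁻¹) * (G (G w) * r⁻¹) := by
          simp only [hw₁, map_mul, map_inv, hGr]
      _ = w * (r⁻¹ * G w) * (r⁻¹ * G (G w)) * r⁻¹ := by group
      _ = w * (G w * r⁻¹) * (G (G w) * r⁻¹) * r⁻¹ := by rw [← hi, ← hi]
      _ = w * G w * (r⁻¹ * G (G w)) * r⁻¹ * r⁻¹ := by group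
      _ = w * G w * (G (G w) * r⁻¹) * r⁻¹ * r⁻¹ := by rw [← hi]
      _ = z * (r * r * r)⁻¹ := by simp only [z]; group
      _ = 1 := by rw [hr3, mul_inv_cancel]
  -- the average
  set A := w₁.val
  set B := (w₁ * G w₁).val
  set V : Matrix (Fin 2) (Fin 2) Lv := (3 : Lv)⁻¹ • (1 + A + B)
  have hBU : w₁ * G w₁ ∈ upperOne v := (upperOne v).mul_mem hw₁U (hGU _ hw₁U)
  have h3i : ∀ x : Lv, Valued.v ((3 : Lv)⁻¹ * x) = Valued.v x := fun x => by
    rw [map_mul, map_inv₀, h3, inv_one, one_mul]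
  have h30 : (3 : Lv) ≠ 0 := fun h => by rw [h, map_zero] at h3; exact zero_ne_one h3
  have hV : ∀ i j, V i j = (3 : Lv)⁻¹ * ((1 : Matrix (Fin 2) (Fin 2) Lv) i j + A i j + B i j) :=
    fun i j => rfl
  have hV0 : Valued.v (V 0 0 - 1) ≤ exp (-1 : ℤ) := by
    rw [hV, Matrix.one_apply_eq, show (3 : Lv)⁻¹ * (1 + A 0 0 + B 0 0) - 1 =
      (3 : Lv)⁻¹ * ((A 0 0 - 1) + (B 0 0 - 1)) by field_simp; ring, h3i]
    exact (Valuation.map_add _ _ _).trans (max_le hw₁U.2.1 hBU.2.1)
  have hV1 : Valued.v (V 1 1 - 1) ≤ exp (-1 : ℤ) := by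
    rw [hV, Matrix.one_apply_eq, show (3 : Lv)⁻¹ * (1 + A 1 1 + B 1 1) - 1 =
      (3 : Lv)⁻¹ * ((A 1 1 - 1) + (B 1 1 - 1)) by field_simp; ring, h3i]
    exact (Valuation.map_add _ _ _).trans (max_le hw₁U.2.2.1 hBU.2.2.1)
  have hV2 : Valued.v (V 1 0) ≤ exp (-1 : ℤ) := by
    rw [hV, h3i, Matrix.one_apply_ne (by decide), zero_add]
    exact (Valuation.map_add _ _ _).trans (max_le hw₁U.2.2.2 hBU.2.2.2)
  have hVs : CO.SmallM v 0 V := CO.smallM_of_le_one fun i j => by
    rw [hV, h3i]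
    refine (Valuation.map_add _ _ _).trans (max_le ((Valuation.map_add _ _ _).trans (max_le ?_
      (hw₁U.1.le_one i j))) (hBU.1.le_one i j))
    rw [Matrix.one_apply]; split_ifs <;> simp
  have hd : V.det ≠ 0 := by
    intro h0
    have hlt : Valued.v ((V 0 0 - 1) * V 1 1 + ((V 1 1 - 1) - V 0 1 * V 1 0)) < 1 := by
      refine lt_of_le_of_lt (b := exp (-1 : ℤ)) ?_ (by rw [← exp_zero, exp_lt_exp]; norm_num)
      refine (Valuation.map_add _ _ _).trans (max_le ?_ ((Valuation.map_sub _ _ _).trans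
        (max_le hV1 ?_))) <;> rw [map_mul]
      · exact (mul_le_mul' hV0 (hVs.le_one 1 1)).trans_eq (mul_one _)
      · exact (mul_le_mul' (hVs.le_one 0 1) hV2).trans_eq (one_mul _)
    rw [show (V 0 0 - 1) * V 1 1 + ((V 1 1 - 1) - V 0 1 * V 1 0) = V.det - 1 by
      rw [Matrix.det_fin_two]; ring, h0, zero_sub, Valuation.map_neg, map_one] at hlt
    exact lt_irrefl _ hlt
  set a := Matrix.GeneralLinearGroup.mkOfDetNeZero V hd
  have haU : a ∈ upperOne v := ⟨hVs, hV0, hV1, hV2⟩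
  have key : w₁ * G a = a := by
    refine Units.ext ?_
    have hm : ∀ M : Matrix (Fin 2) (Fin 2) Lv, M.map s = s.toRingHom.mapMatrix M := fun M => rfl
    show A * (V.map s) = V
    have e1 : V.map s = (3 : Lv)⁻¹ • (1 + (G w₁).val + (G w₁ * G (G w₁)).val) := by
      refine Matrix.ext fun i j => ?_
      rw [Matrix.map_apply, hV, map_mul, map_inv₀, map_ofNat, map_add, map_add,
        show s ((1 : Matrix (Fin 2) (Fin 2) Lv) i j) = (1 : Matrix (Fin 2) (Fin 2) Lv) i j by
          rw [Matrix.one_apply]; split_ifs <;> simp,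
        show s (B i j) = (G (w₁ * G w₁)).val i j from rfl, map_mul]
      rfl
    rw [e1, Matrix.mul_smul, Matrix.mul_add, Matrix.mul_add, Matrix.mul_one,
      show A * (G w₁).val = B from rfl,
      show A * (G w₁ * G (G w₁)).val = 1 by
        rw [← Units.val_mul, ← mul_assoc, hN, Units.val_one]]
    show _ = (3 : Lv)⁻¹ • (1 + A + B)
    abel_nf
  refine ⟨_, ⟨a, haU, rfl⟩, ?_⟩
  rw [Classes.pGal_mk, ← map_inv, ← map_mul, show a * (G a)⁻¹ = w₁ from
    mul_inv_eq_iff_eq_mul.mpr key.symm, hw₁, map_mul,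
    Matrix.ProjGenLinGroup.mk_eq_one.mpr (inv_mem hrz), mul_one]

end FermatAgent.LT
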