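import Mathlib
import Fermat.Agent.LT.Descent.Geom.Local.Places
import Fermat.Agent.LT.Descent.Geom.Local.InertBridge
import Fermat.Agent.LT.Descent.Geom.Local.TameGroup
import Fermat.Agent.LT.Descent.Geom.Local.TameAlgebra

set_option autoImplicit false

/-!
# The completions at a totally ramified place

The automorphism of the completion, the descent of its fixed points, and the comparison of the
unipotent level groups of `K` and of `F`.
-/

noncomputable section

open NumberField IsDedekindDomain WithZero Filter Topology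
open scoped MatrixGroups

namespace FermatAgent.LT

variable {S : Setup} {σ : S.F ≃+* S.F} (hσ : S.IsGalGen σ) {v : HeightOneSpectrum (𝓞 S.K)}
  (w : S.OverK v) (hfix : galPlace σ w.1 = w.1)

include hσ hfix in
theorem exists_fixLoc_ne : ∃ x, fixLoc hfix hσ.cube x ≠ x := by
  obtain ⟨z, hz⟩ : ∃ z, σ z ≠ z := by
    by_contra! h
    exact hσ.1 (RingEquiv.ext h)
  refine ⟨loc w.1 z, ?_⟩
  rw [fixLoc_apply, fixLocHom_loc]
  exact fun h => hz ((loc w.1).injective h)

include hσ hfix in
theorem valued_fixLoc (x : w.1.adicCompletion S.F) :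
    Valued.v (fixLoc hfix hσ.cube x) = Valued.v x :=
  valued_fixLocHom hfix x

theorem natCast_ne_zero_completion {L : Type*} [Field L] [NumberField L]
    (u : HeightOneSpectrum (𝓞 L)) {n : ℕ} (hn : n ≠ 0) :
    (n : u.adicCompletion L) ≠ 0 := by
  rw [← map_natCast (loc u)]
  exact (map_ne_zero _).mpr (Nat.cast_ne_zero.mpr hn)

theorem tame_natCast {L : IntermediateField ℚ (AlgebraicClosure ℚ)} [NumberField L]
    {u : HeightOneSpectrum (𝓞 L)} (hm : (S.m : 𝓞 L) ∈ u.asIdeal) :
    Valued.v (S.m : u.adicCompletion L) ≤ exp (-1 : ℤ) ∧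
      Valued.v (3 : u.adicCompletion L) = 1 := by
  refine ⟨?_, ?_⟩
  · rw [← map_natCast (loc u), valued_loc, ← map_natCast (algebraMap (𝓞 L) L),
      HeightOneSpectrum.valuation_of_algebraMap]
    exact (u.intValuation_le_pow_iff_mem _ 1).mpr (by rwa [pow_one])
  · rw [← map_ofNat (loc u), valued_loc, ← map_ofNat (algebraMap (𝓞 L) L),
      HeightOneSpectrum.valuation_of_algebraMap, HeightOneSpectrum.intValuation_eq_one_iff]
    intro h3
    refine u.isPrime.ne_top ((Ideal.eq_top_iff_one _).mpr ?_)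
    obtain ⟨a, b, hab⟩ : IsCoprime (3 : ℤ) (S.m : ℤ) := by
      rw [Int.isCoprime_iff_gcd_eq_one]
      exact (Nat.prime_three.coprime_iff_not_dvd.mpr S.three_not_dvd)
    have h := congrArg (fun z : ℤ => (z : 𝓞 L)) hab
    push_cast at h
    rw [← h]
    exact add_mem (Ideal.mul_mem_left _ _ h3) (Ideal.mul_mem_left _ _ hm)

include hσ hfix in
/-- The fixed elements of the completion come from `K`. -/
theorem exists_inclOver_of_fixed {x : w.1.adicCompletion S.F}
    (hx : fixLoc hfix hσ.cube x = x) : ∃ y, S.inclOver w y = x := by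
  set f : v.adicCompletion S.K →+* w.1.adicCompletion S.F := S.inclOver w
  set e := S.ramAt w.1
  have he : e ≠ 0 := fun h => by
    obtain ⟨k, hk⟩ := ramAt_odd hσ w.1
    rw [show S.ramAt w.1 = 0 from h] at hk
    omega
  have hv' : ∀ y, Valued.v (f y) = Valued.v y ^ e := valued_inclOver_pow w
  -- the range is closed
  have hclosed : IsClosed (Set.range f) := by
    have hcomap : Filter.comap f (𝓝 0) = 𝓝 0 := by
      refine le_antisymm ?_ ((map_zero f ▸ (S.continuous_inclOver _).tendsto 0).le_comap)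
      intro s hs
      rw [Valued.mem_nhds_zero] at hs
      obtain ⟨γ, hγ⟩ := hs
      obtain ⟨a, b, ha, hb, hab⟩ := Valuation.restrict_exists_div_eq
        (Valued.v (R := v.adicCompletion S.K)) γ
      have hne : Valued.v.restrict (f (a / b)) ≠ 0 := by
        rw [ne_eq, Valuation.restrict_eq_zero_iff, hv', map_div₀]
        exact pow_ne_zero _ (div_ne_zero ha.ne' hb.ne')
      refine mem_comap.mpr ⟨_, Valued.mem_nhds_zero.mpr ⟨Units.mk0 _ hne, subset_rfl⟩,
        fun y hy => hγ ?_⟩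
      simp only [Set.mem_preimage, Set.mem_ofPred_eq, Units.val_mk0, Valuation.restrict_lt_iff,
        hv', pow_lt_pow_iff_left₀ zero_le zero_le he] at hy
      rw [Set.mem_ofPred_eq, ← hab, ← map_div₀, Valuation.restrict_lt_iff]
      exact hy
    have hind : IsUniformInducing f := ⟨by
      rw [uniformity_eq_comap_nhds_zero (v.adicCompletion S.K),
        uniformity_eq_comap_nhds_zero (w.1.adicCompletion S.F), ← hcomap, comap_comap, comap_comap]
      congr 1
      funext p
      simp [Function.comp_apply]⟩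
    exact hind.isComplete_range.isClosed
  -- averaging
  let g : w.1.adicCompletion S.F → w.1.adicCompletion S.F := fun y =>
    (y + fixLocHom hfix y + fixLocHom hfix (fixLocHom hfix y)) / 3
  have hgc : Continuous g :=
    ((continuous_id.add (continuous_fixLocHom hfix)).add
      ((continuous_fixLocHom hfix).comp (continuous_fixLocHom hfix))).div_const _
  have hrange : Set.range (loc w.1 : S.F → w.1.adicCompletion S.F) ⊆ g ⁻¹' Set.range f := by
    rintro _ ⟨z, rfl⟩
    obtain ⟨y, hy⟩ := hσ.exists_of_fixed (x := (z + σ z + σ (σ z)) / 3) (by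
      rw [map_div₀, map_add, map_add, map_ofNat, hσ.cube]; ring)
    refine ⟨loc v y, ?_⟩
    show f (loc v y) = g (loc w.1 z)
    rw [show f (loc v y) = loc w.1 (S.inclKF y) from S.inclOver_loc _ y, hy]
    simp only [g, fixLocHom_loc, map_div₀, map_add, map_ofNat]
  have hmem : x ∈ g ⁻¹' Set.range f :=
    (closure_minimal hrange (hclosed.preimage hgc))
      (HeightOneSpectrum.denseRange_algebraMap (K := S.F) w.1 x)
  have h3 : (3 : w.1.adicCompletion S.F) ≠ 0 := by
    rw [← map_ofNat (loc w.1) 3]; simp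
  have hgx : g x = x := by
    rw [fixLoc_apply] at hx
    simp only [g, hx]
    field_simp
    ring
  obtain ⟨y, hy⟩ := hmem
  exact ⟨y, hy.trans hgx⟩

include hσ hfix in
theorem exists_inclGL_of_fixed {g : GLv w.1}
    (hg : Matrix.GeneralLinearGroup.map (fixLoc hfix hσ.cube).toRingHom g = g) :
    ∃ g₀, inclGL w g₀ = g := by
  choose A hA using fun i j => exists_inclOver_of_fixed hσ w hfix (x := g.val i j)
    (congrArg (fun N : GLv w.1 => N.val i j) hg)
  have e : (Matrix.of A).map (S.inclOver w) = g.val := Matrix.ext fun i j => hA i j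
  have hdet : (Matrix.of A).det ≠ 0 := fun h0 => g.det_ne_zero (by
    rw [← e, ← RingHom.mapMatrix_apply, ← RingHom.map_det, h0, map_zero])
  exact ⟨Matrix.GeneralLinearGroup.mkOfDetNeZero _ hdet,
    Matrix.GeneralLinearGroup.ext fun i j => hA i j⟩

include hσ hfix in
/-- A fixed projective class over the completion comes from `K`. -/
theorem exists_inclGL_of_pgl {x : PGL(2, w.1.adicCompletion S.F)}
    (hx : Classes.pGal (fixLoc hfix hσ.cube) x = x) :
    ∃ g, Matrix.ProjGenLinGroup.mk (inclGL w g) = x := by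
  obtain ⟨B, hB, rfl⟩ := Cyc.exists_fixed_lift _ (fun y => fixLocHom_cube hfix hσ.cube y)
    (exists_fixLoc_ne hσ w hfix) hx
  obtain ⟨g, hg⟩ := exists_inclGL_of_fixed hσ w hfix hB
  exact ⟨g, by rw [hg]⟩

variable (he : S.ramAt w.1 = 3)
include he

theorem valued_incl_le_neg_one (x : v.adicCompletion S.K) :
    Valued.v (S.inclOver w x) ≤ exp (-1 : ℤ) ↔ Valued.v x ≤ exp (-1 : ℤ) := by
  rw [valued_inclOver_pow, he]
  rcases eq_or_ne (Valued.v x) 0 with h | h
  · simp [h]
  rw [← exp_log h, ← exp_nsmul, exp_le_exp, exp_le_exp, nsmul_eq_mul]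
  push_cast
  omega

theorem valued_incl_le_one (x : v.adicCompletion S.K) :
    Valued.v (S.inclOver w x) ≤ 1 ↔ Valued.v x ≤ 1 := by
  rw [valued_inclOver_pow, he]
  exact pow_le_one_iff (by norm_num)

theorem inclGL_mem_upperOne_iff (u : GLv v) : inclGL w u ∈ upperOne w.1 ↔ u ∈ upperOne v := by
  have hval : ∀ i j, (inclGL w u).val i j = S.inclOver w (u.val i j) := fun _ _ => rfl
  constructor
  · rintro ⟨h0, h00, h11, h10⟩
    refine ⟨CO.smallM_of_le_one fun i j => (valued_incl_le_one w he _).mp (h0.le_one i j),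
      (valued_incl_le_neg_one w he _).mp ?_, (valued_incl_le_neg_one w he _).mp ?_,
      (valued_incl_le_neg_one w he _).mp h10⟩
    · rw [map_sub, map_one]; exact h00
    · rw [map_sub, map_one]; exact h11
  · rintro ⟨h0, h00, h11, h10⟩
    refine ⟨CO.smallM_of_le_one fun i j => ?_, ?_, ?_, ?_⟩
    · rw [hval]; exact (valued_incl_le_one w he _).mpr (h0.le_one i j)
    · rw [hval, ← map_one (S.inclOver w), ← map_sub]; exact (valued_incl_le_neg_one w he _).mpr h00
    · rw [hval, ← map_one (S.inclOver w), ← map_sub]; exact (valued_incl_le_neg_one w he _).mpr h11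
    · rw [hval]; exact (valued_incl_le_neg_one w he _).mpr h10

/-- A class of `K` in the unipotent level group of `F` is one of `K`. -/
theorem pUpper_of_inclGL {g : GLv v}
    (hg : Matrix.ProjGenLinGroup.mk (inclGL w g) ∈ pUpper w.1) :
    Matrix.ProjGenLinGroup.mk g ∈ pUpper v := by
  obtain ⟨u, hu, hug⟩ := hg
  obtain ⟨c, hc⟩ := Classes.mk_eq_mk_iff_smul.mp hug
  have hc0 : c ≠ 0 := fun h => (inclGL w g).ne_zero (by rw [← hc, h, zero_smul])
  have h1 : exp (-1 : ℤ) < (1 : ℤᵐ⁰) := by rw [← exp_zero, exp_lt_exp]; norm_num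
  have hu00 : Valued.v (u.val 0 0) = 1 := by
    refine (Valuation.map_eq_of_sub_lt _ ?_).trans (map_one Valued.v)
    rw [map_one]; exact hu.2.1.trans_lt h1
  have hent : ∀ i j, S.inclOver w (g.val i j) = c * u.val i j := fun i j =>
    (congrFun (congrFun hc i) j).symm
  have hg0 : g.val 0 0 ≠ 0 := fun h => by
    have := hent 0 0
    rw [h, map_zero, eq_comm, mul_eq_zero] at this
    rcases this with h' | h'
    · exact hc0 h'
    · rw [h', map_zero] at hu00; exact zero_ne_one hu00
  set k := g * Matrix.GeneralLinearGroup.scalar (Fin 2) (Units.mk0 _ hg0)⁻¹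
  have hk : ∀ i j, k.val i j = (g.val 0 0)⁻¹ * g.val i j := fun i j => by
    rw [Classes.coe_mul_scalar, Units.val_inv_eq_inv_val]
    rfl
  refine ⟨k, (inclGL_mem_upperOne_iff w he k).mp ?_, by
    rw [map_mul, Matrix.ProjGenLinGroup.mk_scalar, mul_one]⟩
  have hq : ∀ i j, (inclGL w k).val i j = (u.val 0 0)⁻¹ * u.val i j := fun i j => by
    show S.inclOver w (k.val i j) = _
    rw [hk, map_mul, map_inv₀, hent, hent]
    field_simp
  have hsub : ∀ x, Valued.v ((u.val 0 0)⁻¹ * x) = Valued.v x := fun x => by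
    rw [map_mul, map_inv₀, hu00, inv_one, one_mul]
  have hu0 : u.val 0 0 ≠ 0 := fun h => by rw [h, map_zero] at hu00; exact zero_ne_one hu00
  refine ⟨CO.smallM_of_le_one fun i j => ?_, ?_, ?_, ?_⟩
  · rw [hq, hsub]; exact hu.1.le_one i j
  · rw [hq, inv_mul_cancel₀ hu0, sub_self, map_zero]; exact zero_le
  · rw [hq, show (u.val 0 0)⁻¹ * u.val 1 1 - 1 =
      (u.val 0 0)⁻¹ * ((u.val 1 1 - 1) - (u.val 0 0 - 1)) by field_simp; ring, hsub]
    exact (Valuation.map_sub _ _ _).trans (max_le hu.2.2.1 hu.2.1)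
  · rw [hq, hsub]; exact hu.2.2.2

/-- Residues of `K` in those of `F`. -/
theorem resOne_inclGL {u : GLv v} {b : 𝓞 S.K}
    (hb : Valued.v (u.val 0 1 - loc v (b : S.K)) ≤ exp (-1 : ℤ)) :
    resOne (inclGL w u) = Ideal.Quotient.mk w.1.asIdeal (S.inclInt b) := by
  refine resOne_eq ?_
  rw [S.inclInt_apply, ← S.inclOver_loc w, show (inclGL w u).val 0 1 =
    S.inclOver w (u.val 0 1) from rfl, ← map_sub]
  exact (valued_incl_le_neg_one w he _).mpr hb

omit he

include hσ hfix in
/-- The automorphism is trivial on residues. -/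
theorem resOne_fixLoc (hres : ∀ o : 𝓞 S.F, ∃ b : 𝓞 S.K, o - S.inclInt b ∈ w.1.asIdeal)
    {u : GLv w.1} (hu : u ∈ upperOne w.1) :
    resOne (Matrix.GeneralLinearGroup.map (fixLoc hfix hσ.cube).toRingHom u) = resOne u := by
  obtain ⟨o, ho⟩ := exists_resOne hu
  obtain ⟨b, hb⟩ := hres o
  have hbo : Ideal.Quotient.mk w.1.asIdeal o = Ideal.Quotient.mk w.1.asIdeal (S.inclInt b) :=
    Ideal.Quotient.eq.mpr hb
  have hob : Valued.v (loc w.1 (o : S.F) - loc w.1 ((S.inclInt b : 𝓞 S.F) : S.F)) ≤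
      exp (-1 : ℤ) := by
    rw [← map_sub, valued_loc, RingOfIntegers.coe_eq_algebraMap, RingOfIntegers.coe_eq_algebraMap,
      ← map_sub, HeightOneSpectrum.valuation_of_algebraMap]
    exact (w.1.intValuation_le_pow_iff_mem _ 1).mpr (by rwa [pow_one])
  rw [resOne_eq ho, hbo]
  refine resOne_eq ?_
  set s := fixLoc hfix hσ.cube
  have hsb : s (loc w.1 ((S.inclInt b : 𝓞 S.F) : S.F)) = loc w.1 ((S.inclInt b : 𝓞 S.F) : S.F) := by
    rw [fixLoc_apply, fixLocHom_loc, S.inclInt_apply, hσ.2]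
  show Valued.v (s (u.val 0 1) - _) ≤ _
  rw [← hsb, ← map_sub, valued_fixLoc hσ w hfix,
    show u.val 0 1 - loc w.1 ((S.inclInt b : 𝓞 S.F) : S.F) = (u.val 0 1 - loc w.1 (o : S.F)) +
      (loc w.1 (o : S.F) - loc w.1 ((S.inclInt b : 𝓞 S.F) : S.F)) by ring]
  exact (Valuation.map_add _ _ _).trans (max_le ho hob)

include hσ in
/-- The data of a tame place. -/
theorem tame_over (hv : (S.m : 𝓞 S.K) ∈ v.asIdeal) :
    (S.m : 𝓞 S.F) ∈ w.1.asIdeal ∧ galPlace σ w.1 = w.1 ∧ S.ramAt w.1 = 3 ∧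
      (∀ o : 𝓞 S.F, ∃ b : 𝓞 S.K, o - S.inclInt b ∈ w.1.asIdeal) ∧
      ∀ w' : S.OverK v, w' = w := by
  have hm : (S.m : 𝓞 S.F) ∈ w.1.asIdeal := by
    have : S.inclInt (S.m : 𝓞 S.K) ∈ w.1.asIdeal := by
      have h := hv
      rw [← w.2] at h
      exact h
    rwa [map_natCast] at this
  obtain ⟨hf, he⟩ := galPlace_eq_of_tame hσ hm
  refine ⟨hm, hf, he, fun o => S.surjective_residue w.1 (by
    push_cast; exact Ideal.mul_mem_left _ _ hm) o, fun w' => Subtype.ext ?_⟩
  exact eq_of_galPlace_fixed hσ hf (w'.2.trans w.2.symm)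

/-- The character of `F` at a tame place. -/
theorem psiF_inclInt (Ψ : S.PsiData) (hv : (S.m : 𝓞 S.K) ∈ v.asIdeal)
    (hm : (S.m : 𝓞 S.F) ∈ w.1.asIdeal) (b : 𝓞 S.K) :
    S.psiF Ψ w.1 (Ideal.Quotient.mk w.1.asIdeal (S.inclInt b)) =
      Ψ v (Ideal.Quotient.mk v.asIdeal b) ^ 3 := by
  obtain ⟨w, rfl⟩ := w
  have h3 : (3 : 𝓞 S.K) ∉ (S.underK w).asIdeal := fun h => by
    have h1 := (tame_natCast (S := S) hv).2
    rw [← map_ofNat (loc (S.underK w)), valued_loc, ← map_ofNat (algebraMap (𝓞 S.K) S.K),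
      HeightOneSpectrum.valuation_of_algebraMap, HeightOneSpectrum.intValuation_eq_one_iff] at h1
    exact h1 h
  have hw : ((3 * S.m : ℕ) : 𝓞 S.F) ∈ w.asIdeal := by
    push_cast; exact Ideal.mul_mem_left _ _ hm
  rw [Setup.psiF, dif_pos hw]
  simp only [Setup.psiTriple, if_neg h3]
  refine (AddChar.compAddMonoidHom_apply _ _ _).trans ((AddChar.pow_apply _ _ _).trans ?_)
  congr 1
  refine congrArg (Ψ (S.underK w)) ?_
  exact (RingEquiv.symm_apply_eq _).mpr rfl

end FermatAgent.LT
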