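import Mathlib
import Fermat.Agent.LT.Descent.Geom.Local.TameField
import Fermat.Agent.LT.Descent.Geom.Local.InertPlace
import Fermat.Agent.LT.Descent.Geom.Local.Generalities
import Fermat.Agent.LT.Descent.Geom.Local.OpBdd

set_option autoImplicit false
set_option synthInstance.maxHeartbeats 100000

/-!
# The local operators and their kernels at a tame place
-/

noncomputable section

open NumberField IsDedekindDomain WithZero
open scoped MatrixGroups

namespace FermatAgent.LT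

local notation "Pm" => Matrix.ProjGenLinGroup.mk

variable {S : Setup} {σ : S.F ≃+* S.F} (hσ : S.IsGalGen σ) {v : HeightOneSpectrum (𝓞 S.K)}
  (hv : (S.m : 𝓞 S.K) ∈ v.asIdeal) (w : S.OverK v)

include hv in
theorem level_tame_K : S.levelIdeal S.K ≤ v.asIdeal ∧ ¬ S.levelIdeal S.K ≤ v.asIdeal ^ 2 :=
  S.badPlaces_level S.K v ((S.mem_badPlaces_iff S.K v).mpr (by
    push_cast; exact Ideal.mul_mem_left _ _ hv))

include hσ hv in
theorem level_tame_F : S.levelIdeal S.F ≤ w.1.asIdeal ∧ ¬ S.levelIdeal S.F ≤ w.1.asIdeal ^ 2 :=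
  S.badPlaces_level S.F w.1 ((S.mem_badPlaces_iff S.F w.1).mpr (by
    push_cast; exact Ideal.mul_mem_left _ _ (tame_over hσ w hv).1))

include hv in
theorem three_not_mem_tame : (3 : 𝓞 S.K) ∉ v.asIdeal := fun h => by
  have h1 := (tame_natCast (S := S) hv).2
  rw [← map_ofNat (loc v), valued_loc, ← map_ofNat (algebraMap (𝓞 S.K) S.K),
    HeightOneSpectrum.valuation_of_algebraMap, HeightOneSpectrum.intValuation_eq_one_iff] at h1
  exact h1 h

variable (Ψ : S.PsiData) (l : List (HeightOneSpectrum (𝓞 S.F)))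
  (hl : ∀ u ∈ l, ((3 * S.m : ℕ) : 𝓞 S.F) ∉ u.asIdeal)

include hσ hv hl in
theorem opK_tame : S.opK Ψ l v = locPsi (S.levelIdeal S.K) v (Ψ v) := by
  classical
  have hfil : l.filter (fun u => decide (S.underK u = v)) = [] := by
    refine List.filter_eq_nil_iff.mpr fun u hu h => hl u hu ?_
    push_cast
    exact Ideal.mul_mem_left _ _ (tame_over hσ (⟨u, of_decide_eq_true h⟩ : S.OverK v) hv).1
  rw [Setup.opK, hfil, List.map_nil, List.prod_nil, mul_one, locLevelOp,
    if_pos ((S.mem_badPlaces_iff S.K v).mpr (by push_cast; exact Ideal.mul_mem_left _ _ hv)),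
    if_neg (three_not_mem_tame hv)]

include hσ hv hl in
theorem opF_tame : S.opF Ψ l w.1 = locPsi (S.levelIdeal S.F) w.1 (S.psiF Ψ w.1) := by
  classical
  have hm := (tame_over hσ w hv).1
  have h3 : (3 : 𝓞 S.F) ∉ w.1.asIdeal := fun h => galPlace_ne_of_three hσ h
    (tame_over hσ w hv).2.1
  have hc : l.count w.1 = 0 := List.count_eq_zero.mpr fun h => hl _ h (by
    push_cast; exact Ideal.mul_mem_left _ _ hm)
  rw [Setup.opF, hc, pow_zero, mul_one, locLevelOp,
    if_pos ((S.mem_badPlaces_iff S.F w.1).mpr (by push_cast; exact Ideal.mul_mem_left _ _ hm)),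
    if_neg h3]

include hσ hv in
theorem natCard_residue_tame :
    Nat.card (𝓞 S.F ⧸ w.1.asIdeal) = Nat.card (𝓞 S.K ⧸ v.asIdeal) := by
  obtain ⟨w, rfl⟩ := w
  have hres := (tame_over hσ (⟨w, rfl⟩ : S.OverK (S.underK w)) hv).2.2.2.1
  refine (Nat.card_eq_of_bijective (Ideal.quotientMap w.asIdeal S.inclInt le_rfl)
    ⟨Ideal.quotientMap_injective' (H := le_rfl) le_rfl, fun o => ?_⟩).symm
  obtain ⟨o, rfl⟩ := Ideal.Quotient.mk_surjective o
  obtain ⟨b, hb⟩ := hres o
  exact ⟨Ideal.Quotient.mk _ b, (Ideal.Quotient.eq.mpr hb).symm⟩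

variable {t : GL (Fin 2) S.K}

include hσ hv hl in
theorem bK_tame_mk (g : GLv v) :
    S.bK Ψ l t v (g : LCos (S.levelIdeal S.K) v) =
      lKer (locPsi (S.levelIdeal S.K) v (Ψ v)) (g : LCos (S.levelIdeal S.K) v)
        ((locMat v t * g : GLv v) : LCos (S.levelIdeal S.K) v) := by
  rw [S.bK_eq, opK_tame hσ hv Ψ l hl]

/-- The cosets where the kernel of `K` is supported. -/
def tameSuppK (v : HeightOneSpectrum (𝓞 S.K)) (t : GL (Fin 2) S.K) :
    Set (LCos (S.levelIdeal S.K) v) :=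
  {y | Pm (y.out⁻¹ * (locMat v t * y.out)) ∈ pUpper v}

include hv in
theorem mem_tameSuppK {g : GLv v} : (g : LCos (S.levelIdeal S.K) v) ∈ tameSuppK v t ↔
    Pm (g⁻¹ * (locMat v t * g)) ∈ pUpper v := by
  obtain ⟨h1, h2⟩ := level_tame_K hv
  set a := (g : LCos (S.levelIdeal S.K) v).out
  have hk : g⁻¹ * a ∈ locLevel (S.levelIdeal S.K) v :=
    QuotientGroup.eq.mp (QuotientGroup.out_eq' (g : LCos (S.levelIdeal S.K) v)).symm
  have hp := pUpper_of_locLevel h1 h2 hk
  have e : Pm (a⁻¹ * (locMat v t * a)) =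
      (Pm (g⁻¹ * a))⁻¹ * Pm (g⁻¹ * (locMat v t * g)) * Pm (g⁻¹ * a) := by
    simp only [← map_inv, ← map_mul]
    congr 1
    group
  show Pm (a⁻¹ * (locMat v t * a)) ∈ pUpper v ↔ _
  rw [e, Subgroup.mul_mem_cancel_right _ hp, Subgroup.mul_mem_cancel_left _ (inv_mem hp)]

include hσ hv hl in
theorem bK_eq_of_not_mem {y : LCos (S.levelIdeal S.K) v} (hy : y ∉ tameSuppK v t) :
    S.bK Ψ l t v y = 0 := by
  obtain ⟨g, rfl⟩ := QuotientGroup.mk_surjective y
  rw [bK_tame_mk hσ hv Ψ l hl]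
  exact lKer_locPsi_outside (level_tame_K hv).1 (level_tame_K hv).2 _
    fun h => hy ((mem_tameSuppK hv).mpr h)

include hσ hv hl in
theorem bK_smul_tame {h : GLv v} (hh : h ∈ torusAt v t) (y : LCos (S.levelIdeal S.K) v) :
    S.bK Ψ l t v (h • y) = S.bK Ψ l t v y := by
  obtain ⟨h1, h2⟩ := level_tame_K hv
  obtain ⟨g, rfl⟩ := QuotientGroup.mk_surjective y
  have hc : h * locMat v t = locMat v t * h := Subgroup.mem_centralizer_singleton_iff.mp hh
  have e : (h * g)⁻¹ * (locMat v t * (h * g)) = g⁻¹ * (locMat v t * g) := by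
    rw [← mul_assoc (locMat v t), ← hc]; group
  rw [show h • (g : LCos (S.levelIdeal S.K) v) = ((h * g : GLv v) : LCos (S.levelIdeal S.K) v)
    from rfl, bK_tame_mk hσ hv Ψ l hl, bK_tame_mk hσ hv Ψ l hl]
  by_cases hu : Pm (g⁻¹ * (locMat v t * g)) ∈ pUpper v
  · obtain ⟨u, huU, hue⟩ := hu
    rw [lKer_locPsi_upperOne h1 h2 _ huU (by rw [e, hue]),
      lKer_locPsi_upperOne h1 h2 _ huU hue.symm]
  · rw [lKer_locPsi_outside h1 h2 _ (by rw [e]; exact hu),
      lKer_locPsi_outside h1 h2 _ hu]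

/-! ### Above -/

include hσ hv in
theorem subsingleton_tame : Subsingleton (S.OverK v) :=
  ⟨fun a b => (tame_over hσ b hv).2.2.2.2 a⟩

include hσ hv in
theorem inclGL_mem_locLevel_iff {g : GLv v} :
    inclGL w g ∈ locLevel (S.levelIdeal S.F) w.1 ↔ g ∈ locLevel (S.levelIdeal S.K) v := by
  obtain ⟨hm, hfix, he, -, -⟩ := tame_over hσ w hv
  obtain ⟨h1, h2⟩ := level_tame_K hv
  obtain ⟨k1, k2⟩ := level_tame_F hσ hv w
  constructor
  · intro hg
    obtain ⟨u, hu, hug⟩ := pUpper_of_inclGL w he (pUpper_of_locLevel k1 k2 hg)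
    obtain ⟨k, hk, z, hz, e⟩ := Subgroup.mem_sup_of_normal_right.mp hg
    obtain ⟨hkU, hk0⟩ := upperOne_of_locCongr k1 k2 hk
    have hr : resOne (inclGL w u) = 0 := by
      rw [← hk0]
      refine resOne_eq_of_mk ((inclGL_mem_upperOne_iff w he u).mpr hu) hkU ?_
      have : Pm (inclGL w g) = Pm k := by
        rw [← e, map_mul, Matrix.ProjGenLinGroup.mk_eq_one.mpr hz, mul_one]
      rw [← this]
      exact congrArg (Matrix.ProjGenLinGroup.map (S.inclOver w)) hug
    obtain ⟨b, hb⟩ := exists_resOne hu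
    rw [resOne_inclGL w he hb, Ideal.Quotient.eq_zero_iff_mem] at hr
    have hbv : b ∈ v.asIdeal := by rw [← w.2]; exact hr
    have hu' : u ∈ locCongr (S.levelIdeal S.K) v := by
      have h0 := transLoc_inv_mul_mem h1 h2 hu (o := 0) (by
        rw [show u.val 0 1 - loc v ((0 : 𝓞 S.K) : S.K) =
          (u.val 0 1 - loc v (b : S.K)) + loc v (b : S.K) by simp]
        refine (Valuation.map_add _ _ _).trans (max_le hb ?_)
        rw [valued_loc, RingOfIntegers.coe_eq_algebraMap,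
          HeightOneSpectrum.valuation_of_algebraMap]
        exact (v.intValuation_le_pow_iff_mem b 1).mpr (by rwa [pow_one]))
      rwa [show transLoc v (0 : 𝓞 S.K) = 1 from Matrix.GeneralLinearGroup.ext fun i j => by
        fin_cases i <;> fin_cases j <;> simp [transLoc, upperTri], inv_one, one_mul] at h0
    rw [← mul_inv_cancel_left u g]
    refine mul_mem (Subgroup.mem_sup_left hu') (Subgroup.mem_sup_right ?_)
    rw [← Matrix.ProjGenLinGroup.mk_eq_one, map_mul, map_inv, hug, inv_mul_cancel]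
  · intro hg
    obtain ⟨k, hk, z, hz, rfl⟩ := Subgroup.mem_sup_of_normal_right.mp hg
    rw [map_mul]
    refine mul_mem (Subgroup.mem_sup_left ?_)
      (Subgroup.mem_sup_right (Matrix.GeneralLinearGroup.map_center_le _ hz))
    rw [mem_locCongr_iff h1 h2] at hk
    rw [mem_locCongr_iff k1 k2]
    intro i j
    have e1 : (1 : Matrix (Fin 2) (Fin 2) (w.1.adicCompletion S.F)) i j =
        S.inclOver w ((1 : Matrix (Fin 2) (Fin 2) (v.adicCompletion S.K)) i j) := by
      rw [Matrix.one_apply, Matrix.one_apply]; split_ifs <;> simp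
    rw [show (inclGL w k).val i j = S.inclOver w (k.val i j) from rfl, e1, ← map_sub]
    exact (valued_incl_le_neg_one w he _).mpr (hk i j)

/-- The automorphism of the local group. -/
abbrev gTame (hfix : galPlace σ w.1 = w.1) : GLv w.1 →* GLv w.1 :=
  Matrix.GeneralLinearGroup.map (fixLoc hfix hσ.cube).toRingHom

include hv in
theorem gTame_mem_locLevel (hfix : galPlace σ w.1 = w.1) {g : GLv w.1}
    (hg : g ∈ locLevel (S.levelIdeal S.F) w.1) :
    gTame hσ w hfix g ∈ locLevel (S.levelIdeal S.F) w.1 := by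
  obtain ⟨k1, k2⟩ := level_tame_F hσ hv w
  obtain ⟨k, hk, z, hz, rfl⟩ := Subgroup.mem_sup_of_normal_right.mp hg
  rw [map_mul]
  refine mul_mem (Subgroup.mem_sup_left ?_)
    (Subgroup.mem_sup_right (Matrix.GeneralLinearGroup.map_center_le _ hz))
  rw [mem_locCongr_iff k1 k2] at hk ⊢
  intro i j
  have e1 : (1 : Matrix (Fin 2) (Fin 2) (w.1.adicCompletion S.F)) i j =
      fixLoc hfix hσ.cube ((1 : Matrix (Fin 2) (Fin 2) (w.1.adicCompletion S.F)) i j) := by
    rw [Matrix.one_apply]; split_ifs <;> simp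
  rw [show (gTame hσ w hfix k).val i j = fixLoc hfix hσ.cube (k.val i j) from rfl, e1, ← map_sub,
    valued_fixLoc hσ w hfix]
  exact hk i j

include hσ hv hl in
open Classical in
theorem bF_tame_mk (hfix : galPlace σ w.1 = w.1) (δ : GL (Fin 2) S.F) {x : S.XF v} {a : GLv w.1}
    (hxa : x w = (a : LCos (S.levelIdeal S.F) w.1)) :
    S.bF Ψ l hσ δ v x = lKer (locPsi (S.levelIdeal S.F) w.1 (S.psiF Ψ w.1))
      (a : LCos (S.levelIdeal S.F) w.1)
      ((locMat w.1 δ * gTame hσ w hfix a : GLv w.1) : LCos (S.levelIdeal S.F) w.1) := by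
  have hsub := subsingleton_tame hσ hv
  rw [Setup.bF, finprod_eq_single _ w (fun w' hw' => absurd (Subsingleton.elim w' w) hw'),
    opF_tame hσ hv w Ψ l hl, hxa]
  have e : galLCos σ w.1 (x (S.nextOver v hσ w)) =
      ((gTame hσ w hfix a : GLv w.1) : LCos (S.levelIdeal S.F) w.1) := by
    show ((Matrix.GeneralLinearGroup.map (galLoc σ w.1) (x (S.nextOver v hσ w)).out : GLv w.1) :
      LCos (S.levelIdeal S.F) w.1) = _
    rw [← out_cast x (Subsingleton.elim (S.nextOver v hσ w) w)]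
    show ((gTame hσ w hfix (x w).out : GLv w.1) : LCos (S.levelIdeal S.F) w.1) = _
    rw [QuotientGroup.eq, ← map_inv, ← map_mul]
    refine gTame_mem_locLevel hσ hv w hfix (QuotientGroup.eq.mp ?_)
    rw [QuotientGroup.out_eq', hxa]
  rw [e]
  rfl

/-- The cosets where the twisted kernel is supported. -/
def tameSuppF (hfix : galPlace σ w.1 = w.1) (δ : GL (Fin 2) S.F) : Set (S.XF v) :=
  {x | Pm ((x w).out⁻¹ * (locMat w.1 δ * gTame hσ w hfix (x w).out)) ∈ pUpper w.1}

include hσ hv hl in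
theorem bF_eq_of_not_mem (hfix : galPlace σ w.1 = w.1) (δ : GL (Fin 2) S.F) {x : S.XF v}
    (hx : x ∉ tameSuppF hσ w hfix δ) : S.bF Ψ l hσ δ v x = 0 := by
  rw [bF_tame_mk hσ hv w Ψ l hl hfix δ (QuotientGroup.out_eq' (x w)).symm]
  exact lKer_locPsi_outside (level_tame_F hσ hv w).1 (level_tame_F hσ hv w).2 _ hx

include hσ hv hl in
/-- Related representatives have the same kernel. -/
theorem bF_eq_bK_tame (hfix : galPlace σ w.1 = w.1) (δ : GL (Fin 2) S.F) {x : S.XF v}
    {a : GLv w.1} (hxa : x w = (a : LCos (S.levelIdeal S.F) w.1)) {g : GLv v}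
    {u : GLv v} (hu : u ∈ upperOne v) (hgu : Pm (g⁻¹ * (locMat v t * g)) = Pm u)
    {c : GLv w.1} (hc : c ∈ upperOne w.1)
    (hac : Pm (a⁻¹ * (locMat w.1 δ * gTame hσ w hfix a)) = Pm c)
    (hN : Pm (c * gTame hσ w hfix c * gTame hσ w hfix (gTame hσ w hfix c)) =
      Pm (inclGL w u)) :
    S.bF Ψ l hσ δ v x = S.bK Ψ l t v (g : LCos (S.levelIdeal S.K) v) := by
  obtain ⟨hm, -, he, hres, -⟩ := tame_over hσ w hv
  obtain ⟨h1, h2⟩ := level_tame_K hv
  obtain ⟨k1, k2⟩ := level_tame_F hσ hv w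
  rw [bF_tame_mk hσ hv w Ψ l hl hfix δ hxa, bK_tame_mk hσ hv Ψ l hl,
    lKer_locPsi_upperOne h1 h2 _ hu hgu, lKer_locPsi_upperOne k1 k2 _ hc hac,
    natCard_residue_tame hσ hv w]
  congr 2
  have hG : ∀ z ∈ upperOne w.1, gTame hσ w hfix z ∈ upperOne w.1 := fun z hz =>
    map_mem_upperOne _ (valued_fixLoc hσ w hfix) hz
  obtain ⟨o, ho⟩ := exists_resOne hc
  obtain ⟨b, hb⟩ := hres o
  have hcb : resOne c = Ideal.Quotient.mk w.1.asIdeal (S.inclInt b) :=
    (resOne_eq ho).trans (Ideal.Quotient.eq.mpr hb)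
  obtain ⟨b', hb'⟩ := exists_resOne hu
  have h := resOne_eq_of_mk
    ((upperOne w.1).mul_mem ((upperOne w.1).mul_mem hc (hG _ hc)) (hG _ (hG _ hc)))
    ((inclGL_mem_upperOne_iff w he u).mpr hu) hN
  rw [resOne_mul ((upperOne w.1).mul_mem hc (hG _ hc)) (hG _ (hG _ hc)),
    resOne_mul hc (hG _ hc), resOne_fixLoc hσ w hfix hres (hG _ hc),
    resOne_fixLoc hσ w hfix hres hc, hcb, resOne_inclGL w he hb', ← map_add, ← map_add,
    ← map_add, ← map_add, Ideal.Quotient.eq, ← map_sub] at h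
  have hbv : b + b + b - b' ∈ v.asIdeal := by rw [← w.2]; exact h
  rw [hcb, psiF_inclInt w Ψ hv hm, resOne_eq hb', ← Ideal.Quotient.eq.mpr hbv,
    map_add (Ideal.Quotient.mk v.asIdeal), map_add (Ideal.Quotient.mk v.asIdeal),
    AddChar.map_add_eq_mul, AddChar.map_add_eq_mul]
  ring

include hσ hv hl in
/-- The eigenvalue ratio is congruent to one on the support of the kernel. -/
theorem valuation_ratio_lt_one {y : LCos (S.levelIdeal S.K) v} (hy : S.bK Ψ l t v y ≠ 0) :
    v.valuation S.K ((t : Matrix (Fin 2) (Fin 2) S.K).trace ^ 2 /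
      (t : Matrix (Fin 2) (Fin 2) S.K).det - 4) < 1 := by
  have hmem : y ∈ tameSuppK v t := by
    by_contra h
    exact hy (bK_eq_of_not_mem hσ hv Ψ l hl h)
  obtain ⟨u, hu, hue⟩ := hmem
  obtain ⟨hs, h00, h11, h10⟩ := hu
  set f := loc v
  set T := u.val.trace
  set D := u.val.det
  have hT : Valued.v (T - 2) ≤ exp (-1 : ℤ) := by
    rw [show T - 2 = (u.val 0 0 - 1) + (u.val 1 1 - 1) by
      simp only [T, Matrix.trace_fin_two]; ring]
    exact (Valuation.map_add _ _ _).trans (max_le h00 h11)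
  have hD : Valued.v (D - 1) ≤ exp (-1 : ℤ) := by
    rw [show D - 1 = (u.val 0 0 - 1) * u.val 1 1 + ((u.val 1 1 - 1) - u.val 0 1 * u.val 1 0) by
      simp only [D, Matrix.det_fin_two]; ring]
    refine (Valuation.map_add _ _ _).trans (max_le ?_ ((Valuation.map_sub _ _ _).trans
      (max_le h11 ?_))) <;> rw [map_mul]
    · exact (mul_le_mul' h00 (hs.le_one 1 1)).trans_eq (mul_one _)
    · exact (mul_le_mul' (hs.le_one 0 1) h10).trans_eq (one_mul _)
  have h1 : exp (-1 : ℤ) < (1 : ℤᵐ⁰) := by rw [← exp_zero, exp_lt_exp]; norm_num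
  have hD1 : Valued.v D = 1 := by
    refine (Valuation.map_eq_of_sub_lt _ ?_).trans (map_one Valued.v)
    rw [map_one]; exact hD.trans_lt h1
  have hD0 : D ≠ 0 := fun h => by rw [h, map_zero] at hD1; exact zero_ne_one hD1
  have hT1 : Valued.v (T + 2) ≤ 1 := by
    rw [show T + 2 = u.val 0 0 + (u.val 1 1 + (1 + 1)) by
      simp only [T, Matrix.trace_fin_two]; ring]
    exact (Valuation.map_add _ _ _).trans (max_le (hs.le_one 0 0) ((Valuation.map_add _ _ _).trans
      (max_le (hs.le_one 1 1) ((Valuation.map_add _ _ _).trans (by simp)))))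
  have hr : T ^ 2 / D = f ((t : Matrix (Fin 2) (Fin 2) S.K).trace ^ 2 /
      (t : Matrix (Fin 2) (Fin 2) S.K).det) := by
    show Classes.ratioGL u = _
    rw [← Classes.pRatio_mk, hue, Classes.pRatio_mk, Classes.ratioGL]
    have e1 : ((y.out⁻¹ * (locMat v t * y.out) : GLv v) : Matrix (Fin 2) (Fin 2) _).trace =
        (locMat v t).val.trace := by
      rw [← mul_assoc, Units.val_mul, Units.val_mul, Matrix.trace_units_conj']
    have e2 : ((y.out⁻¹ * (locMat v t * y.out) : GLv v) : Matrix (Fin 2) (Fin 2) _).det =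
        (locMat v t).val.det := by
      rw [← mul_assoc, Units.val_mul, Units.val_mul, Matrix.det_units_conj']
    rw [e1, e2, map_div₀, map_pow]
    congr 1
    · simp [f, locMat, Matrix.trace_fin_two]
    · simp [f, locMat, Matrix.det_fin_two]
  rw [← valued_loc, map_sub, map_ofNat, ← hr,
    show T ^ 2 / D - 4 = D⁻¹ * ((T - 2) * (T + 2) - 4 * (D - 1)) by field_simp; ring, map_mul,
    map_inv₀, hD1, inv_one, one_mul]
  refine lt_of_le_of_lt ((Valuation.map_sub _ _ _).trans (max_le ?_ ?_)) h1 <;> rw [map_mul]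
  · exact (mul_le_mul' hT hT1).trans_eq (mul_one _)
  · refine (mul_le_mul' ?_ hD).trans_eq (one_mul _)
    rw [← map_ofNat f 4, valued_loc, ← map_ofNat (algebraMap (𝓞 S.K) S.K),
      HeightOneSpectrum.valuation_of_algebraMap]
    exact v.intValuation_le_one _

end FermatAgent.LT
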