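import Mathlib
import Fermat.Agent.LT.Descent.Geom.Local.TamePlace
import Fermat.Agent.LT.TF.Local.Abstract

set_option autoImplicit false
set_option synthInstance.maxHeartbeats 100000

/-!
# The correspondence of the supports at a tame place
-/

noncomputable section

open NumberField IsDedekindDomain WithZero
open scoped MatrixGroups

namespace FermatAgent.LT

open Inert (IsFundSet)

local notation "Pm" => Matrix.ProjGenLinGroup.mk

/-- The part of a fundamental set in a stable set. -/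
theorem Inert.IsFundSet.inter_stable {G α : Type*} [Group G] [MulAction G α] {T U : Subgroup G}
    {P Ω : Set α} (h : IsFundSet T U Set.univ Ω) (hUT : U ≤ T)
    (hP : ∀ g ∈ T, ∀ x ∈ P, g • x ∈ P) : IsFundSet T U P (Ω ∩ P) where
  subset := Set.inter_subset_right
  stable u hu x hx := ⟨h.stable u hu x hx.1, hP u (hUT hu) x hx.2⟩
  cover x hx := by
    obtain ⟨g, hg, hgx⟩ := h.cover x (Set.mem_univ x)
    exact ⟨g, hg, hgx, hP g hg x hx⟩
  unique x hx g hg hgx := h.unique x hx.1 g hg hgx.1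

/-- Fundamental sets are carried along equivariant bijections. -/
theorem Inert.IsFundSet.image_bijOn {G α β : Type*} [Group G] [MulAction G α] [MulAction G β]
    {T U : Subgroup G} {P Ω : Set α} {Q : Set β} (h : IsFundSet T U P Ω) (hUT : U ≤ T)
    (hP : ∀ g ∈ T, ∀ x ∈ P, g • x ∈ P) {Φ : α → β} (hΦ : Set.BijOn Φ P Q)
    (heq : ∀ g ∈ T, ∀ x ∈ P, Φ (g • x) = g • Φ x) : IsFundSet T U Q (Φ '' Ω) where
  subset := by
    rintro _ ⟨x, hx, rfl⟩
    exact hΦ.mapsTo (h.subset hx)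
  stable := by
    rintro u hu _ ⟨x, hx, rfl⟩
    exact ⟨u • x, h.stable u hu x hx, heq u (hUT hu) x (h.subset hx)⟩
  cover y hy := by
    obtain ⟨x, hx, rfl⟩ := hΦ.surjOn hy
    obtain ⟨g, hg, hgx⟩ := h.cover x hx
    exact ⟨g, hg, g • x, hgx, heq g hg x hx⟩
  unique := by
    rintro _ ⟨x, hx, rfl⟩ g hg ⟨z, hz, e⟩
    rw [← heq g hg x (h.subset hx)] at e
    have hz' := hΦ.injOn (h.subset hz) (hP g hg x (h.subset hx)) e
    obtain ⟨u, hu, hux⟩ := h.unique x hx g hg (hz' ▸ hz)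
    exact ⟨u, hu, by
      rw [← heq g hg x (h.subset hx), hux, heq u (hUT hu) x (h.subset hx)]⟩

variable {S : Setup} {σ : S.F ≃+* S.F} (hσ : S.IsGalGen σ) {v : HeightOneSpectrum (𝓞 S.K)}
  (hv : (S.m : 𝓞 S.K) ∈ v.asIdeal) (w : S.OverK v)

theorem transLoc_inclGL (b : 𝓞 S.K) : inclGL w (transLoc v b) = transLoc w.1 (S.inclInt b) := by
  refine Matrix.GeneralLinearGroup.ext fun i j => ?_
  show S.inclOver w ((transLoc v b).val i j) = _
  fin_cases i <;> fin_cases j <;> simp [transLoc, upperTri, S.inclOver_loc, S.inclInt_apply]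

variable (hfix : galPlace σ w.1 = w.1)

theorem gTame_three (g : GLv w.1) :
    gTame hσ w hfix (gTame hσ w hfix (gTame hσ w hfix g)) = g :=
  Matrix.GeneralLinearGroup.ext fun _ _ => fixLocHom_cube hfix hσ.cube _

theorem gTame_inclGL (g : GLv v) : gTame hσ w hfix (inclGL w g) = inclGL w g :=
  Matrix.GeneralLinearGroup.ext fun _ _ => fixLoc_inclOver hσ hfix hσ.cube w.2 _

theorem gTame_locMat (g : GL (Fin 2) S.F) : gTame hσ w hfix (locMat w.1 g) =
    locMat w.1 (Matrix.GeneralLinearGroup.map σ.toRingHom g) :=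
  Matrix.GeneralLinearGroup.ext fun _ _ => fixLocHom_loc hfix _

/-- The automorphism of the projective group at the place. -/
abbrev pTame : MulAut PGL(2, w.1.adicCompletion S.F) := Classes.pGal (fixLoc hfix hσ.cube)

theorem pTame_mk (g : GLv w.1) : pTame hσ w hfix (Pm g) = Pm (gTame hσ w hfix g) :=
  Classes.pGal_mk _ g

theorem pTame_three (x : PGL(2, w.1.adicCompletion S.F)) :
    pTame hσ w hfix (pTame hσ w hfix (pTame hσ w hfix x)) = x := by
  induction x using Matrix.ProjGenLinGroup.induction_on with | mk g => ?_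
  rw [pTame_mk, pTame_mk, pTame_mk, gTame_three hσ w hfix g]

/-- The class of a matrix modulo the unipotent level group. -/
def tcls (a : GLv w.1) : PGL(2, w.1.adicCompletion S.F) ⧸ pUpper w.1 := QuotientGroup.mk (Pm a)

theorem tcls_mul (z a : GLv w.1) : tcls w (z * a) = Pm z • tcls w a := by
  rw [tcls, map_mul]
  rfl

include hσ hv in
theorem tcls_eq {a a' : GLv w.1}
    (h : (a : LCos (S.levelIdeal S.F) w.1) = (a' : LCos (S.levelIdeal S.F) w.1)) :
    tcls w a = tcls w a' := by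
  obtain ⟨k1, k2⟩ := level_tame_F hσ hv w
  refine QuotientGroup.eq.mpr ?_
  rw [← map_inv, ← map_mul]
  exact pUpper_of_locLevel k1 k2 (QuotientGroup.eq.mp h)

variable {t : GL (Fin 2) S.K}

theorem conj_inclGL {g u : GLv v} (hgu : Pm (g⁻¹ * (locMat v t * g)) = Pm u) :
    (Pm (inclGL w g))⁻¹ * Pm (inclGL w (locMat v t)) * Pm (inclGL w g) = Pm (inclGL w u) := by
  have h := congrArg (Matrix.ProjGenLinGroup.map (S.inclOver w)) hgu
  rw [← map_inv, ← map_mul, ← map_mul, ← map_inv, ← map_mul, ← map_mul, mul_assoc]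
  exact h

include hσ hv in
theorem tcls_mem_plainSet {g : GLv v}
    (hg : (g : LCos (S.levelIdeal S.K) v) ∈ tameSuppK v t) :
    tcls w (inclGL w g) ∈
      TF.plainSet (pTame hσ w hfix) (pUpper w.1) (Pm (inclGL w (locMat v t))) := by
  obtain ⟨u, hu, hgu⟩ := (mem_tameSuppK hv).mp hg
  refine ⟨Pm (inclGL w g), by rw [pTame_mk, gTame_inclGL], rfl, ?_⟩
  rw [conj_inclGL w hgu.symm]
  exact ⟨_, (inclGL_mem_upperOne_iff w (tame_over hσ w hv).2.2.1 u).mpr hu, rfl⟩

theorem tcls_mem_twistedSet_iff (δ : GL (Fin 2) S.F) (a : GLv w.1) :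
    tcls w a ∈ TF.twistedSet (pTame hσ w hfix) (pUpper w.1) (Pm (locMat w.1 δ)) ↔
      Pm (a⁻¹ * (locMat w.1 δ * gTame hσ w hfix a)) ∈ pUpper w.1 := by
  have e1 : (Pm a)⁻¹ * Pm (locMat w.1 δ) * pTame hσ w hfix (Pm a) =
      Pm (a⁻¹ * (locMat w.1 δ * gTame hσ w hfix a)) := by
    rw [pTame_mk, ← map_inv, ← map_mul, ← map_mul, mul_assoc]
  refine ⟨fun ⟨x, hx, hxU⟩ => ?_, fun hh => ⟨Pm a, rfl, by rw [e1]; exact hh⟩⟩
  rw [← e1]
  exact TF.twisted_mem_iff (pTame hσ w hfix)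
    (pUpper_stable _ (valued_fixLoc hσ w hfix)) hx hxU

include hσ hv in
/-- The elements of the torus moving fixed classes to twisted ones. -/
theorem exists_tame_twist {δ : GL (Fin 2) S.F} (h : S.IsNormPair σ t δ) :
    TF.nm (pTame hσ w hfix) (Pm (locMat w.1 δ)) = Pm (inclGL w (locMat v t)) ∧
      (∀ a b, a ∈ Classes.torus (Pm (inclGL w (locMat v t))) →
        b ∈ Classes.torus (Pm (inclGL w (locMat v t))) → a * b = b * a) ∧
      ∃ Z : PGL(2, w.1.adicCompletion S.F) ⧸ pUpper w.1 → PGL(2, w.1.adicCompletion S.F),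
        (∀ q ∈ TF.plainSet (pTame hσ w hfix) (pUpper w.1) (Pm (inclGL w (locMat v t))),
          Z q ∈ Classes.torus (Pm (inclGL w (locMat v t)))) ∧
        Set.BijOn (fun q => Z q • q)
          (TF.plainSet (pTame hσ w hfix) (pUpper w.1) (Pm (inclGL w (locMat v t))))
          (TF.twistedSet (pTame hσ w hfix) (pUpper w.1) (Pm (locMat w.1 δ))) ∧
        ∀ z ∈ Classes.torus (Pm (inclGL w (locMat v t))), pTame hσ w hfix z = z →
          ∀ q ∈ TF.plainSet (pTame hσ w hfix) (pUpper w.1) (Pm (inclGL w (locMat v t))),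
            Z (z • q) = Z q := by
  obtain ⟨hm, -, -, -, -⟩ := tame_over hσ w hv
  obtain ⟨hq, h3⟩ := tame_natCast (S := S) hm
  have hs := valued_fixLoc hσ w hfix
  have hs3 : ∀ x, fixLoc hfix hσ.cube (fixLoc hfix hσ.cube (fixLoc hfix hσ.cube x)) = x :=
    fun x => fixLocHom_cube hfix hσ.cube x
  have hreg : Classes.IsReg (Pm (inclGL w (locMat v t))) :=
    Classes.isReg_mk.mpr (regular_inclGL w h.regular)
  have h2 : (2 : w.1.adicCompletion S.F) ≠ 0 := by
    exact_mod_cast natCast_ne_zero_completion w.1 (n := 2) (by norm_num)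
  have hT := Cyc.isTorus_of_fixed (fixLoc hfix hσ.cube) hs3 (exists_fixLoc_ne hσ w hfix) hreg
    (gTame_inclGL hσ w hfix _) h2
  have hγ : inclGL w (locMat v t) =
      locMat w.1 (Matrix.GeneralLinearGroup.map S.inclKF.toRingHom t) := inclGL_locMat w t
  have hnm : TF.nm (pTame hσ w hfix) (Pm (locMat w.1 δ)) = Pm (inclGL w (locMat v t)) := by
    rw [TF.nm, pTame_mk, pTame_mk, ← map_mul, ← map_mul, gTame_locMat, gTame_locMat, ← map_mul,
      ← map_mul, h.norm, hγ]
  have hcom : locMat w.1 δ * inclGL w (locMat v t) = inclGL w (locMat v t) * locMat w.1 δ := by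
    rw [hγ, ← map_mul, ← map_mul, h.commute hσ hσ.cube]
  have hδT : Pm (locMat w.1 δ) ∈ Classes.torus (Pm (inclGL w (locMat v t))) :=
    Classes.mem_torus_mk.mpr ⟨_, by simpa only [Units.val_mul] using congrArg Units.val hcom, rfl⟩
  have hcent : ∀ x, x * x * x = TF.nm (pTame hσ w hfix) (Pm (locMat w.1 δ)) →
      x ∈ Classes.torus (Pm (inclGL w (locMat v t))) := by
    intro x hx
    rw [hnm] at hx
    induction x using Matrix.ProjGenLinGroup.induction_on with | mk X => ?_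
    rw [← map_mul, ← map_mul, Classes.mk_eq_mk_iff_smul] at hx
    obtain ⟨c, hc⟩ := hx
    refine Classes.mem_torus_mk.mpr ⟨X, ?_, rfl⟩
    rw [← hc, Matrix.mul_smul, Matrix.smul_mul, Units.val_mul, Units.val_mul]
    simp only [Matrix.mul_assoc]
  obtain ⟨Z, hZT, hbij, hZinv⟩ := TF.exists_bijOn_of_cubeRoot (pTame_three hσ w hfix)
    (pUpper_stable _ hs) (pUpper_root hq S.three_not_dvd) (pUpper_unique hq S.three_not_dvd)
    (pUpper_h1 hq S.three_not_dvd _ hs hs3 h3) hT hδT hcent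
  rw [hnm] at hbij hZT hZinv
  exact ⟨hnm, fun a b ha hb => hT.comm a ha b hb, Z, hZT, hbij, hZinv⟩

/-- The coset of `F` attached to a coset of `K`. -/
def tameRep (Z : PGL(2, w.1.adicCompletion S.F) ⧸ pUpper w.1 → PGL(2, w.1.adicCompletion S.F))
    (y : LCos (S.levelIdeal S.K) v) : LCos (S.levelIdeal S.F) w.1 :=
  ((Classes.lift₂ (Z (tcls w (inclGL w y.out))) * inclGL w y.out : GLv w.1) :
    LCos (S.levelIdeal S.F) w.1)

variable (Z : PGL(2, w.1.adicCompletion S.F) ⧸ pUpper w.1 → PGL(2, w.1.adicCompletion S.F))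

include hσ hv in
theorem tameRep_mk (g : GLv v) : tameRep w Z (g : LCos (S.levelIdeal S.K) v) =
    ((Classes.lift₂ (Z (tcls w (inclGL w g))) * inclGL w g : GLv w.1) :
      LCos (S.levelIdeal S.F) w.1) := by
  set a := (g : LCos (S.levelIdeal S.K) v).out
  have hk : (inclGL w a)⁻¹ * inclGL w g ∈ locLevel (S.levelIdeal S.F) w.1 := by
    rw [← map_inv, ← map_mul, inclGL_mem_locLevel_iff hσ hv w]
    exact QuotientGroup.eq.mp (QuotientGroup.out_eq' _)
  have hc : tcls w (inclGL w a) = tcls w (inclGL w g) :=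
    tcls_eq hσ hv w (QuotientGroup.eq.mpr hk)
  show ((Classes.lift₂ (Z (tcls w (inclGL w a))) * inclGL w a : GLv w.1) :
    LCos (S.levelIdeal S.F) w.1) = _
  rw [hc, QuotientGroup.eq, mul_inv_rev, mul_assoc, inv_mul_cancel_left]
  exact hk

/-- The class of the attached coset. -/
theorem tcls_lift_mul (a : GLv w.1) :
    tcls w (Classes.lift₂ (Z (tcls w a)) * a) = Z (tcls w a) • tcls w a := by
  rw [tcls_mul, Classes.mk_lift₂]

variable {δ : GL (Fin 2) S.F}
  (hnm : TF.nm (pTame hσ w hfix) (Pm (locMat w.1 δ)) = Pm (inclGL w (locMat v t)))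
  (hbij : Set.BijOn (fun q => Z q • q)
    (TF.plainSet (pTame hσ w hfix) (pUpper w.1) (Pm (inclGL w (locMat v t))))
    (TF.twistedSet (pTame hσ w hfix) (pUpper w.1) (Pm (locMat w.1 δ))))

include hσ hv hbij in
theorem tameRep_mem {x : S.XF v} {y : LCos (S.levelIdeal S.K) v} (hy : y ∈ tameSuppK v t)
    (hx : x w = tameRep w Z y) : x ∈ tameSuppF hσ w hfix δ := by
  obtain ⟨g, rfl⟩ := QuotientGroup.mk_surjective y
  refine (tcls_mem_twistedSet_iff hσ w hfix δ _).mp ?_
  rw [tcls_eq hσ hv w ((QuotientGroup.out_eq' _).trans (hx.trans (tameRep_mk hσ hv w Z g))),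
    tcls_lift_mul]
  exact hbij.mapsTo (tcls_mem_plainSet hσ hv w hfix hy)

variable (Ψ : S.PsiData) (l : List (HeightOneSpectrum (𝓞 S.F)))
  (hl : ∀ u ∈ l, ((3 * S.m : ℕ) : 𝓞 S.F) ∉ u.asIdeal)
  (hZT : ∀ q ∈ TF.plainSet (pTame hσ w hfix) (pUpper w.1) (Pm (inclGL w (locMat v t))),
    Z q ∈ Classes.torus (Pm (inclGL w (locMat v t))))

include hσ hv hl hnm hbij hZT in
/-- The kernels agree on attached cosets. -/
theorem bF_tameRep {x : S.XF v} {y : LCos (S.levelIdeal S.K) v} (hy : y ∈ tameSuppK v t)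
    (hx : x w = tameRep w Z y) : S.bF Ψ l hσ δ v x = S.bK Ψ l t v y := by
  obtain ⟨g, rfl⟩ := QuotientGroup.mk_surjective y
  obtain ⟨u, hu, hgu⟩ := (mem_tameSuppK hv).mp hy
  set q := tcls w (inclGL w g)
  have hq' := tcls_mem_plainSet hσ hv w hfix hy
  set a := Classes.lift₂ (Z q) * inclGL w g
  set D := locMat w.1 δ
  set G := gTame hσ w hfix
  set P := pTame hσ w hfix
  set γ := Pm (inclGL w (locMat v t))
  have hc0 : Pm (a⁻¹ * (D * G a)) ∈ pUpper w.1 := by
    refine (tcls_mem_twistedSet_iff hσ w hfix δ a).mp ?_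
    rw [tcls_lift_mul]
    exact hbij.mapsTo hq'
  obtain ⟨c, hc, hac⟩ := hc0
  refine bF_eq_bK_tame hσ hv w Ψ l hl hfix δ (hx.trans (tameRep_mk hσ hv w Z g)) hu hgu.symm hc
    hac.symm ?_
  have hnc : TF.nm P ((Pm a)⁻¹ * Pm D * P (Pm a)) = (Pm a)⁻¹ * γ * Pm a := by
    rw [TF.nm_conj (pTame_three hσ w hfix), hnm]
  have hZc : γ * Z q = Z q * γ :=
    (Subgroup.mem_centralizer_singleton_iff.mp
      (Classes.torus_le_centralizer (hZT q hq'))).symm
  calc Pm (c * G c * G (G c)) = TF.nm P (Pm c) := by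
        rw [TF.nm, pTame_mk, pTame_mk, ← map_mul, ← map_mul]
    _ = (Pm a)⁻¹ * γ * Pm a := by
        rw [← hnc]
        congr 1
        rw [hac, pTame_mk, ← map_inv, ← map_mul, ← map_mul, mul_assoc]
    _ = (Pm (inclGL w g))⁻¹ * ((Z q)⁻¹ * (γ * Z q)) * Pm (inclGL w g) := by
        simp only [a, map_mul, Classes.mk_lift₂]
        group
    _ = _ := by rw [hZc, inv_mul_cancel_left, conj_inclGL w hgu.symm]

include hσ hv hZT in
/-- The correspondence is equivariant. -/
theorem tameRep_smul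
    (hcomm : ∀ a b, a ∈ Classes.torus (Pm (inclGL w (locMat v t))) →
      b ∈ Classes.torus (Pm (inclGL w (locMat v t))) → a * b = b * a)
    (hZinv : ∀ z ∈ Classes.torus (Pm (inclGL w (locMat v t))), pTame hσ w hfix z = z →
      ∀ q ∈ TF.plainSet (pTame hσ w hfix) (pUpper w.1) (Pm (inclGL w (locMat v t))),
        Z (z • q) = Z q)
    {g : GLv v} (hg : g ∈ torusAt v t) {y : LCos (S.levelIdeal S.K) v}
    (hy : y ∈ tameSuppK v t) : tameRep w Z (g • y) = inclGL w g • tameRep w Z y := by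
  obtain ⟨y, rfl⟩ := QuotientGroup.mk_surjective y
  have hq' := tcls_mem_plainSet hσ hv w hfix hy
  have hcg : inclGL w g * inclGL w (locMat v t) = inclGL w (locMat v t) * inclGL w g := by
    rw [← map_mul, ← map_mul, Subgroup.mem_centralizer_singleton_iff.mp hg]
  have hg' : Pm (inclGL w g) ∈ Classes.torus (Pm (inclGL w (locMat v t))) :=
    Classes.mem_torus_mk.mpr
      ⟨inclGL w g, by simpa only [Units.val_mul] using congrArg Units.val hcg, rfl⟩
  rw [show g • (y : LCos (S.levelIdeal S.K) v) = ((g * y : GLv v) : LCos (S.levelIdeal S.K) v)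
    from rfl, tameRep_mk hσ hv, tameRep_mk hσ hv, MulAction.Quotient.smul_coe, smul_eq_mul]
  refine mk_eq_of_pgl ?_
  rw [map_mul (inclGL w) g y, tcls_mul,
    hZinv _ hg' (by rw [pTame_mk, gTame_inclGL]) _ hq', map_mul, map_mul, map_mul, map_mul,
    Classes.mk_lift₂, ← mul_assoc, ← mul_assoc, hcomm _ _ (hZT _ hq') hg']

include hσ hv hbij in
theorem tameRep_injOn : Set.InjOn (tameRep w Z) (tameSuppK v t) := by
  intro y hy y' hy' h1
  obtain ⟨g, rfl⟩ := QuotientGroup.mk_surjective y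
  obtain ⟨g', rfl⟩ := QuotientGroup.mk_surjective y'
  rw [tameRep_mk hσ hv, tameRep_mk hσ hv] at h1
  have h2 := tcls_eq hσ hv w h1
  rw [tcls_lift_mul, tcls_lift_mul] at h2
  have hqq := hbij.injOn (tcls_mem_plainSet hσ hv w hfix hy)
    (tcls_mem_plainSet hσ hv w hfix hy') h2
  rw [hqq, QuotientGroup.eq, mul_inv_rev, mul_assoc, inv_mul_cancel_left, ← map_inv, ← map_mul,
    inclGL_mem_locLevel_iff hσ hv w] at h1
  exact QuotientGroup.eq.mpr h1

include hσ hv hbij in
theorem exists_tameRep_eq {x : S.XF v} (hx : x ∈ tameSuppF hσ w hfix δ) :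
    ∃ y ∈ tameSuppK v t, tameRep w Z y = x w := by
  obtain ⟨hm, -, he, hres, -⟩ := tame_over hσ w hv
  obtain ⟨k1, k2⟩ := level_tame_F hσ hv w
  set a := (x w).out
  obtain ⟨q, hq', hqa⟩ := hbij.surjOn ((tcls_mem_twistedSet_iff hσ w hfix δ a).mpr hx)
  obtain ⟨y0, hy0, rfl, hy0U⟩ := hq'
  obtain ⟨g, rfl⟩ := exists_inclGL_of_pgl hσ w hfix hy0
  change Z (tcls w (inclGL w g)) • tcls w (inclGL w g) = tcls w a at hqa
  have hmem : (Z (tcls w (inclGL w g)) * Pm (inclGL w g))⁻¹ * Pm a ∈ pUpper w.1 :=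
    QuotientGroup.eq.mp hqa
  obtain ⟨u, hu, hua⟩ := hmem
  obtain ⟨o, ho⟩ := exists_resOne hu
  obtain ⟨b, hb⟩ := hres o
  have hub : Valued.v (u.val 0 1 - loc w.1 ((S.inclInt b : 𝓞 S.F) : S.F)) ≤ exp (-1 : ℤ) := by
    rw [show u.val 0 1 - loc w.1 ((S.inclInt b : 𝓞 S.F) : S.F) = (u.val 0 1 - loc w.1 (o : S.F)) +
      (loc w.1 (o : S.F) - loc w.1 ((S.inclInt b : 𝓞 S.F) : S.F)) by ring]
    refine (Valuation.map_add _ _ _).trans (max_le ho ?_)
    rw [← map_sub, valued_loc, RingOfIntegers.coe_eq_algebraMap, RingOfIntegers.coe_eq_algebraMap,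
      ← map_sub, HeightOneSpectrum.valuation_of_algebraMap]
    exact (w.1.intValuation_le_pow_iff_mem _ 1).mpr (by rwa [pow_one])
  have htr : Pm (transLoc w.1 (S.inclInt b)) ∈ pUpper w.1 :=
    ⟨_, (transLoc_mem_upperOne (S.inclInt b)).1, rfl⟩
  have hi : inclGL w (g * transLoc v b) = inclGL w g * transLoc w.1 (S.inclInt b) := by
    rw [map_mul, transLoc_inclGL w b]
  have hq1 : tcls w (inclGL w (g * transLoc v b)) = tcls w (inclGL w g) := by
    refine QuotientGroup.eq.mpr ?_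
    rw [hi, map_mul, mul_inv_rev, mul_assoc, inv_mul_cancel, mul_one]
    exact inv_mem htr
  refine ⟨((g * transLoc v b : GLv v) : LCos (S.levelIdeal S.K) v),
    (mem_tameSuppK hv).mpr (pUpper_of_inclGL w he ?_), ?_⟩
  · simp only [map_mul, map_inv, transLoc_inclGL, mul_inv_rev]
    convert mul_mem (mul_mem (inv_mem htr) hy0U) htr using 1
    group
  · rw [tameRep_mk hσ hv, hq1, ← QuotientGroup.out_eq' (x w), hi]
    have hk : (transLoc w.1 (S.inclInt b))⁻¹ * u ∈ locLevel (S.levelIdeal S.F) w.1 :=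
      Subgroup.mem_sup_left (transLoc_inv_mul_mem k1 k2 hu hub)
    rw [← QuotientGroup.mk_mul_of_mem
      (Classes.lift₂ (Z (tcls w (inclGL w g))) * (inclGL w g * transLoc w.1 (S.inclInt b))) hk,
      mul_assoc, mul_assoc, mul_inv_cancel_left]
    refine mk_eq_of_pgl ?_
    rw [map_mul, map_mul, Classes.mk_lift₂, hua, ← mul_assoc, mul_inv_cancel_left]

end FermatAgent.LT
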