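import Mathlib
import Fermat.Agent.LT.Descent.Geom.Local.TameMatch

set_option autoImplicit false
set_option synthInstance.maxHeartbeats 100000

/-!
# Matching and vanishing at a tame place
-/

noncomputable section

open NumberField IsDedekindDomain WithZero
open scoped MatrixGroups

namespace FermatAgent.LT

open Inert (IsFundSet)

variable {S : Setup} {σ : S.F ≃+* S.F} (hσ : S.IsGalGen σ) {v : HeightOneSpectrum (𝓞 S.K)}
  (hv : (S.m : 𝓞 S.K) ∈ v.asIdeal)
  (Ψ : S.PsiData) (l : List (HeightOneSpectrum (𝓞 S.F)))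
  (hl : ∀ u ∈ l, ((3 * S.m : ℕ) : 𝓞 S.F) ∉ u.asIdeal)

/-- The coset family with a given component at the only place. -/
def xfOf (w : S.OverK v) [Subsingleton (S.OverK v)] (q : LCos (S.levelIdeal S.F) w.1) : S.XF v :=
  fun u => (Subsingleton.elim w u) ▸ q

theorem xfOf_apply (w : S.OverK v) [Subsingleton (S.OverK v)]
    (q : LCos (S.levelIdeal S.F) w.1) : xfOf w q w = q := rfl

theorem xf_ext (w : S.OverK v) [Subsingleton (S.OverK v)] {x x' : S.XF v} (h : x w = x' w) :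
    x = x' := funext fun u => by obtain rfl := Subsingleton.elim w u; exact h

include hσ hv hl in
/-- The orbital sums of `F` and of `K` agree at a tame place. -/
theorem local_matching_tame {t : GL (Fin 2) S.K} {δ : GL (Fin 2) S.F}
    (h : S.IsNormPair σ t δ) {ΩF : Set (S.XF v)} {ΩK : Set (LCos (S.levelIdeal S.K) v)}
    (hF : IsFundSet (torusAt v t) (torusU v t) Set.univ ΩF)
    (hK : IsFundSet (torusAt v t) (torusU v t) Set.univ ΩK) :
    (ΩF ∩ Function.support (S.bF Ψ l hσ δ v)).Finite ∧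
      ∑ᶠ x ∈ ΩF, S.bF Ψ l hσ δ v x = ∑ᶠ y ∈ ΩK, S.bK Ψ l t v y := by
  obtain ⟨w⟩ := S.exists_overK v
  have hsub := subsingleton_tame hσ hv
  have hfix := (tame_over hσ w hv).2.1
  obtain ⟨hnm, hcomm, Z, hZT, hbij, hZinv⟩ := exists_tame_twist hσ hv w hfix h
  set Φ : LCos (S.levelIdeal S.K) v → S.XF v := fun y => xfOf w (tameRep w Z y)
  have hΦw : ∀ y, Φ y w = tameRep w Z y := fun y => xfOf_apply w _
  have hval : ∀ y ∈ tameSuppK v t, Φ y ∈ tameSuppF hσ w hfix δ ∧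
      S.bF Ψ l hσ δ v (Φ y) = S.bK Ψ l t v y := fun y hy =>
    ⟨tameRep_mem hσ hv w hfix Z hbij hy (hΦw y),
      bF_tameRep hσ hv w hfix Z hnm hbij Ψ l hl hZT hy (hΦw y)⟩
  have hinj : Set.InjOn Φ (tameSuppK v t) := fun y hy y' hy' e =>
    tameRep_injOn hσ hv w hfix Z hbij hy hy' (by rw [← hΦw, ← hΦw, e])
  have hsurj : Set.SurjOn Φ (tameSuppK v t) (tameSuppF hσ w hfix δ) := fun x hx => by
    obtain ⟨y, hy, e⟩ := exists_tameRep_eq hσ hv w hfix Z hbij hx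
    exact ⟨y, hy, xf_ext w ((hΦw y).trans e)⟩
  have hPK : ∀ g ∈ torusAt v t, ∀ y ∈ tameSuppK v t, g • y ∈ tameSuppK v t := by
    intro g hg y hy
    obtain ⟨y, rfl⟩ := QuotientGroup.mk_surjective y
    refine (mem_tameSuppK (g := g * y) hv).mpr ?_
    have hc : g * locMat v t = locMat v t * g := Subgroup.mem_centralizer_singleton_iff.mp hg
    rw [show (g * y)⁻¹ * (locMat v t * (g * y)) = y⁻¹ * (locMat v t * y) by
      rw [← mul_assoc (locMat v t), ← hc]; group]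
    exact (mem_tameSuppK hv).mp hy
  have heq : ∀ g ∈ torusAt v t, ∀ y ∈ tameSuppK v t, Φ (g • y) = g • Φ y := fun g hg y hy =>
    xf_ext w (by
      rw [XF_smul_apply, hΦw, hΦw]
      exact tameRep_smul hσ hv w hfix Z hZT hcomm hZinv hg hy)
  have hbijΦ : Set.BijOn Φ (tameSuppK v t) (tameSuppF hσ w hfix δ) :=
    ⟨fun y hy => (hval y hy).1, hinj, hsurj⟩
  have hUT : torusU v t ≤ torusAt v t := (torusU_le' h.regular).1
  have hPF : ∀ g ∈ torusAt v t, ∀ x ∈ tameSuppF hσ w hfix δ,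
      g • x ∈ tameSuppF hσ w hfix δ ∧ S.bF Ψ l hσ δ v (g • x) = S.bF Ψ l hσ δ v x := by
    intro g hg x hx
    obtain ⟨y, hy, rfl⟩ := hsurj hx
    rw [← heq g hg y hy]
    refine ⟨(hval _ (hPK g hg y hy)).1, ?_⟩
    rw [(hval _ (hPK g hg y hy)).2, (hval y hy).2, bK_smul_tame hσ hv Ψ l hl hg]
  have hK' := hK.inter_stable hUT hPK
  have hF' := hF.inter_stable hUT fun g hg x hx => (hPF g hg x hx).1
  have hΦΩ := hK'.image_bijOn hUT hPK hbijΦ heq
  obtain ⟨hfin, hsum⟩ := hΦΩ.finsum_eq hUT (torusAt_comm' h.regular) hF'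
    (Φ := S.bF Ψ l hσ δ v) fun g hg x hx => (hPF g hg x hx).2
  have hsuppF : ∀ x, S.bF Ψ l hσ δ v x ≠ 0 → x ∈ tameSuppF hσ w hfix δ := fun x hx => by
    by_contra hne
    exact hx (bF_eq_of_not_mem hσ hv w Ψ l hl hfix δ hne)
  refine ⟨(hfin ?_).subset fun x hx => ⟨⟨hx.1, hsuppF x hx.2⟩, hx.2⟩, ?_⟩
  · refine ((finite_supp_bK' h.regular Ψ l hK).image Φ).subset ?_
    rintro _ ⟨⟨y, hy, rfl⟩, hne⟩
    refine ⟨y, ⟨hy.1, ?_⟩, rfl⟩
    rw [Function.mem_support] at hne ⊢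
    rwa [(hval y hy.2).2] at hne
  · rw [finsum_mem_inter_support_eq' (S.bF Ψ l hσ δ v) ΩF (ΩF ∩ tameSuppF hσ w hfix δ)
      fun x hx => ⟨fun h' => ⟨h', hsuppF x hx⟩, fun h' => h'.1⟩, ← hsum,
      finsum_mem_image fun y hy y' hy' => hinj hy.2 hy'.2,
      finsum_mem_congr rfl fun y hy => (hval y hy.2).2]
    refine finsum_mem_inter_support_eq' _ _ _ fun y hy => ⟨fun h' => h'.1, fun h' => ⟨h', ?_⟩⟩
    by_contra hne
    exact hy (bK_eq_of_not_mem hσ hv Ψ l hl hne)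

include hv hl in
/-- At the tame places the eigenvalue ratio must be congruent to one. -/
theorem bK_eq_zero_of_tame {t : GL (Fin 2) S.K}
    (hr : ¬ v.valuation S.K ((t : Matrix (Fin 2) (Fin 2) S.K).trace ^ 2 /
        (t : Matrix (Fin 2) (Fin 2) S.K).det - 4) < 1)
    (y : LCos (S.levelIdeal S.K) v) : S.bK Ψ l t v y = 0 := by
  obtain ⟨σ, hσ⟩ := S.exists_isGalGen
  by_contra hy
  exact hr (valuation_ratio_lt_one hσ hv Ψ l hl hy)

end FermatAgent.LT
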