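import Mathlib
import Fermat.Agent.LT.Descent.Geom.Lift
import Fermat.Agent.LT.Descent.Geom.Factor
import Fermat.Agent.LT.Descent.Geom.Local.LevelKer
import Fermat.Agent.LT.Descent.Kernel.CosetOp.LevelOp

set_option autoImplicit false

/-!
# The level operator over `3` under conjugated translations

A translation conjugated by an integral matrix multiplies the level operator by a value of the
character at a nonzero residue.
-/

noncomputable section

open NumberField IsDedekindDomain WithZero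
open scoped MatrixGroups

namespace FermatAgent.LT

/-- Conjugated translations over `𝔽₃` are four group elements times translations. -/
theorem conj_unipotent_decomp : ∀ a b c d : ZMod 3, a * d - b * c ≠ 0 →
    ∃ n ∈ [((1 : ZMod 3), (0 : ZMod 3), (0 : ZMod 3), (1 : ZMod 3)),
      (-1, 0, 0, -1), (0, -1, 1, 0), (0, 1, -1, 0), (1, 1, 1, -1), (-1, -1, -1, 1), (1, -1, -1, -1),
      (-1, 1, 1, 1)],
    ∃ s ∈ [(1 : ZMod 3), -1],
      ((a * d - b * c) * (d * a + (d - b) * c), (a * d - b * c) * (d * b + (d - b) * d),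
        (a * d - b * c) * (-c * a + (a - c) * c), (a * d - b * c) * (-c * b + (a - c) * d)) =
      (n.1, n.1 * s + n.2.1, n.2.2.1, n.2.2.1 * s + n.2.2.2) := by
  decide +kernel

variable {L : Type*} [Field L] [NumberField L] {𝔫 : Ideal (𝓞 L)} {v : HeightOneSpectrum (𝓞 L)}
  {ψ : ∀ v : HeightOneSpectrum (𝓞 L), AddChar (𝓞 L ⧸ v.asIdeal) ℂ}

namespace CO

theorem GoodAt.locR_conj_unipotent (h : GoodAt 𝔫 v) (h3 : (3 : 𝓞 L) ∈ v.asIdeal)
    {k : GL (Fin 2) (v.adicCompletion L)} (hk : k ∈ locCongr v 0) :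
    ∃ s : ZMod 3, (s = 1 ∨ s = -1) ∧ locR 𝔫 v (k⁻¹ * tMat v 1 * k) * levFac 𝔫 ψ v =
      ψ v (Ideal.Quotient.mk v.asIdeal ((s.valMinAbs : ℤ) : 𝓞 L)) • levFac 𝔫 ψ v := by
  obtain ⟨hl, hb⟩ := And.intro h.lvl_le h.ne_bot
  obtain ⟨A, hA, eA⟩ := exists_phi hb hl h3 (h.card h3) hk
  set a := A 0 0
  set b := A 0 1
  set c := A 1 0
  set d := A 1 1
  have hdet : a * d - b * c ≠ 0 := by rwa [← Matrix.det_fin_two]
  set A' : Matrix (Fin 2) (Fin 2) (ZMod 3) :=
    (a * d - b * c) • !![d, -b; -c, a] with hA'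
  have hsq : (a * d - b * c) * (a * d - b * c) = 1 := by
    revert hdet
    generalize a * d - b * c = x
    revert x
    decide
  have hA'A : A' * A = 1 := by
    simp only [a, b, c, d] at hsq
    refine Matrix.ext fun i j => ?_
    fin_cases i <;> fin_cases j <;>
      simp [hA', Matrix.mul_apply, Fin.sum_univ_two, a, b, c, d] <;>
      first | linear_combination hsq | ring
  have hA'0 : A'.det ≠ 0 := fun h0 => by
    have := congrArg Matrix.det hA'A
    rw [Matrix.det_mul, h0, zero_mul, Matrix.det_one] at this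
    exact zero_ne_one this
  have einv : locR 𝔫 v k⁻¹ = phi 𝔫 v A' := by
    calc locR 𝔫 v k⁻¹ = phi 𝔫 v (A' * A) * locR 𝔫 v k⁻¹ := by
          rw [hA'A, phi_one hb hl h3, one_mul]
      _ = phi 𝔫 v A' * (locR 𝔫 v k * locR 𝔫 v k⁻¹) := by
          rw [← mul_assoc, eA, phi_mul hb hl h3 hA'0 hA]
      _ = _ := by rw [locR_mul hb hk (inv_mem hk), mul_inv_cancel, locR_one hb, mul_one]
  have hN : (!![1, (1 : ZMod 3); 0, 1] : Matrix (Fin 2) (Fin 2) (ZMod 3)).det ≠ 0 := by decide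
  have et : locR 𝔫 v (tMat v 1) = phi 𝔫 v !![1, 1; 0, 1] := by
    rw [← tau_eq_phi hb hl h3, locR_tMat hb hl, valMinAbs_one_three]
    simp
  have e1 : locR 𝔫 v (k⁻¹ * tMat v 1 * k) = phi 𝔫 v (A' * !![1, 1; 0, 1] * A) := by
    rw [← locR_mul hb (mul_mem (inv_mem hk) (tMat_mem 1)) hk,
      ← locR_mul hb (inv_mem hk) (tMat_mem 1), einv, et, eA, phi_mul hb hl h3 hA'0 hN,
      phi_mul hb hl h3 (by rw [Matrix.det_mul]; exact mul_ne_zero hA'0 hN) hA]
  obtain ⟨n, hn, s, hs, hns⟩ := conj_unipotent_decomp a b c d hdet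
  simp only [Prod.mk.injEq] at hns
  set N : Matrix (Fin 2) (Fin 2) (ZMod 3) := !![n.1, n.2.1; n.2.2.1, n.2.2.2] with hNdef
  have hs' : s = 1 ∨ s = -1 := by simpa using hs
  have hX : (!![1, s; 0, 1] : Matrix (Fin 2) (Fin 2) (ZMod 3)).det ≠ 0 := by
    simp [Matrix.det_fin_two]
  have eM : A' * !![1, 1; 0, 1] * A = N * !![1, s; 0, 1] := by
    refine Matrix.ext fun i j => ?_
    obtain ⟨q0, q1, q2, q3⟩ := hns
    fin_cases i <;> fin_cases j <;>
      simp [hA', hNdef, Matrix.mul_apply, Fin.sum_univ_two, a, b, c, d] at q0 q1 q2 q3 ⊢ <;>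
      first
        | linear_combination q0 | linear_combination q1 | linear_combination q2
        | linear_combination q3
  have hN0 : N.det ≠ 0 := fun h0 => by
    have := congrArg Matrix.det eM
    rw [Matrix.det_mul, Matrix.det_mul, Matrix.det_mul, h0, zero_mul] at this
    exact mul_ne_zero (mul_ne_zero hA'0 hN) hA this
  have hn' : phi 𝔫 v N = 1 ∨ phi 𝔫 v N = phi 𝔫 v mI ∨ phi 𝔫 v N = phi 𝔫 v mJ ∨
      phi 𝔫 v N = phi 𝔫 v mK := by
    have hneg : ∀ B : Matrix (Fin 2) (Fin 2) (ZMod 3), B.det ≠ 0 → (N = B ∨ N = -B) →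
        phi 𝔫 v N = phi 𝔫 v B := fun B hB hh => by
      rcases hh with e | e
      · rw [e]
      · rw [e, phi_neg hb hl h3 hB]
    simp only [List.mem_cons, List.not_mem_nil, or_false] at hn
    rcases hn with rfl | rfl | rfl | rfl | rfl | rfl | rfl | rfl
    · exact Or.inl (by rw [hneg 1 (by decide) (Or.inl (by rw [hNdef]; decide)), phi_one hb hl h3])
    · exact Or.inl (by rw [hneg 1 (by decide) (Or.inr (by rw [hNdef]; decide)), phi_one hb hl h3])
    · exact Or.inr (Or.inl (hneg mI (by decide) (Or.inl (by rw [hNdef]; decide))))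
    · exact Or.inr (Or.inl (hneg mI (by decide) (Or.inr (by rw [hNdef]; decide))))
    · exact Or.inr (Or.inr (Or.inl (hneg mJ (by decide) (Or.inl (by rw [hNdef]; decide)))))
    · exact Or.inr (Or.inr (Or.inl (hneg mJ (by decide) (Or.inr (by rw [hNdef]; decide)))))
    · exact Or.inr (Or.inr (Or.inr (hneg mK (by decide) (Or.inl (by rw [hNdef]; decide)))))
    · exact Or.inr (Or.inr (Or.inr (hneg mK (by decide) (Or.inr (by rw [hNdef]; decide)))))
  refine ⟨s, hs', ?_⟩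
  rw [e1, eM, ← phi_mul hb hl h3 hN0 hX, mul_assoc, ← tau_eq_phi hb hl h3, h.tau_mul_levFac,
    mul_smul_comm]
  congr 1
  have hv4 : phi 𝔫 v N * v4Op 𝔫 v = v4Op 𝔫 v := by
    rw [v4Op_eq hb]
    exact mul_kleinProj (isKlein_phi hb hl h3) hn'
  rw [levFac, if_pos h3, ← mul_assoc, hv4]

end CO

/-- A conjugated translation multiplies the local kernel over `3` by a nontrivial cube root of
unity. -/
theorem lKer_v4Psi_conj (h𝔫 : 𝔫 ≠ ⊥) (h1 : 𝔫 ≤ v.asIdeal) (h2 : ¬ 𝔫 ≤ v.asIdeal ^ 2)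
    (h3 : (3 : 𝓞 L) ∈ v.asIdeal) (hcard : Nat.card (𝓞 L ⧸ v.asIdeal) = 3) (hψ : ψ v ≠ 1)
    {k : GLv v} (hk : k ∈ CO.locCongr v 0) :
    ∃ ω : ℂ, ω ≠ 1 ∧ ω ^ 3 = 1 ∧ ∀ (g : GLv v) (b : LCos 𝔫 v),
      lKer (locV4 𝔫 v * locPsi 𝔫 v (ψ v))
          ((g * (k⁻¹ * transLoc v 1 * k) : GLv v) : LCos 𝔫 v) b =
        ω * lKer (locV4 𝔫 v * locPsi 𝔫 v (ψ v)) (g : LCos 𝔫 v) b := by
  classical
  have hgood : CO.GoodAt 𝔫 v :=
    ⟨h𝔫, h1, (CO.lvl_eq_one h𝔫 h1 h2).le, fun _ => hcard⟩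
  obtain ⟨s, hs, hop⟩ := hgood.locR_conj_unipotent (ψ := ψ) h3 hk
  set ω := ψ v (Ideal.Quotient.mk v.asIdeal ((s.valMinAbs : ℤ) : 𝓞 L))
  refine ⟨ω, fun hω => hψ ?_, ?_, ?_⟩
  · have hone : ψ v (Ideal.Quotient.mk v.asIdeal 1) = 1 := by
      rcases hs with rfl | rfl
      · simpa [ω, CO.valMinAbs_one_three] using hω
      · have h' : ψ v (-(Ideal.Quotient.mk v.asIdeal 1)) = 1 := by
          simpa [ω, show (-1 : ZMod 3).valMinAbs = -1 from rfl] using hω
        rw [← neg_neg (Ideal.Quotient.mk v.asIdeal 1), AddChar.map_neg_eq_inv, h', inv_one]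
    refine DFunLike.ext _ _ fun x => ?_
    obtain ⟨y, rfl⟩ := Ideal.Quotient.mk_surjective x
    obtain ⟨r, hr⟩ := CO.exists_residue h3 hcard y
    rw [← hr, AddChar.one_apply, map_intCast, ← zsmul_one, AddChar.map_zsmul_eq_zpow, ← map_one
      (Ideal.Quotient.mk v.asIdeal), hone, one_zpow]
  · have h0 : (3 : ℕ) • Ideal.Quotient.mk v.asIdeal ((s.valMinAbs : ℤ) : 𝓞 L) = 0 := by
      rw [← map_nsmul, Ideal.Quotient.eq_zero_iff_mem, nsmul_eq_mul, Nat.cast_ofNat]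
      exact Ideal.mul_mem_right _ _ h3
    show ω ^ 3 = 1
    rw [← AddChar.map_nsmul_eq_pow, h0, AddChar.map_zero_eq_one]
  intro g b
  set M := k⁻¹ * transLoc v 1 * k
  have hMc : M ∈ CO.locCongr v 0 := mul_mem (mul_mem (inv_mem hk) (CO.tMat_mem 1)) hk
  have hMint : M ∈ locInt v := mem_locInt_of_entries _
    (fun i j => (CO.smallM_of_mem hMc).le_one i j) (CO.valued_det_eq_one hMc)
  set A := locV4 𝔫 v * locPsi 𝔫 v (ψ v)
  have eA : CO.levFac 𝔫 ψ v = liftAt v A := by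
    rw [CO.levFac, if_pos h3, liftAt_mul h𝔫, v4Op_eq_liftAt h𝔫 h3, psiOp_eq_liftAt h𝔫]
  have eR : CO.locR 𝔫 v M = liftAt v (locSum 𝔫 v (fun _ : Unit => (1 : ℂ)) fun _ => M) :=
    eq_liftAt_locSum h𝔫 _ _ fun f x => by
      rw [finsum_unique, one_mul]
      exact rightOp_atPlace_apply h𝔫 hMint f x
  change CO.locR 𝔫 v M * _ = _ at hop
  rw [eA, eR, ← liftAt_mul h𝔫, ← map_smul] at hop
  have hl := congrFun (LinearMap.congr_fun (liftAt_injective v hop) (Pi.single b 1))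
    (g : LCos 𝔫 v)
  rw [Module.End.mul_apply, locSum_mk _ (fun _ => hMint), finsum_unique, one_mul,
    LinearMap.smul_apply, Pi.smul_apply, smul_eq_mul] at hl
  exact hl

end FermatAgent.LT
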