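import Mathlib
import Fermat.Agent.LT.Descent.Geom.Local.SplitBridge
import Fermat.Agent.LT.Descent.Geom.Local.ThreeKernel
import Fermat.Agent.LT.Descent.Geom.Local.TameGroup
import Fermat.Agent.LT.Descent.Geom.Local.OpBdd
import Fermat.Agent.LT.Descent.Geom.Local.Torus

set_option autoImplicit false
set_option synthInstance.maxHeartbeats 100000

/-!
# Vanishing of the orbital sums of split elements over `3`

In the coordinates `n(x) k` a translation of `x` multiplies the kernel by a nontrivial cube root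
of unity.
-/

noncomputable section

open NumberField IsDedekindDomain WithZero
open scoped MatrixGroups

namespace FermatAgent.LT

open Inert (IsFundSet)

variable {L : Type*} [Field L] [NumberField L] {v : HeightOneSpectrum (𝓞 L)}

local notation "M₂v" => Matrix (Fin 2) (Fin 2) (v.adicCompletion L)

/-- The upper unipotent matrix with entry `x`. -/
def uniMat (v : HeightOneSpectrum (𝓞 L)) (x : v.adicCompletion L) : GLv v := upperTri 1 x 1

theorem uniMat_val (x : v.adicCompletion L) : (uniMat v x).val = !![1, x; 0, 1] := by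
  refine Matrix.ext fun i j => ?_
  fin_cases i <;> fin_cases j <;> simp [uniMat, upperTri]

theorem uniMat_mul (x y : v.adicCompletion L) :
    uniMat v x * uniMat v y = uniMat v (x + y) := upperTri_one_mul x y

theorem uniMat_inv (x : v.adicCompletion L) : (uniMat v x)⁻¹ = uniMat v (-x) := upperTri_one_inv x

/-- The Iwasawa decomposition at a place. -/
theorem exists_upper_mul_integral (g : GLv v) :
    ∃ b : GLv v, ∃ k ∈ CO.locCongr v 0, g = b * k ∧ b.val 1 0 = 0 := by
  set c := g.val 1 0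
  set d := g.val 1 1
  rcases le_total (Valued.v c) (Valued.v d) with h | h
  · have hd : d ≠ 0 := fun h0 => by
      rw [h0, map_zero, le_zero_iff, Valuation.zero_iff] at h
      exact g.det_ne_zero (by
        rw [Matrix.det_fin_two, show g.val 1 0 = 0 from h, show g.val 1 1 = 0 from h0]; ring)
    have hr : Valued.v (c / d) ≤ 1 := by rw [map_div₀]; exact div_le_one_of_le₀ h zero_le
    set k := Matrix.GeneralLinearGroup.mkOfDetNeZero (!![1, 0; c / d, 1] : M₂v)
      (by simp [Matrix.det_fin_two])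
    refine ⟨g * k⁻¹, k, CO.mem_locCongr_zero_of_det (CO.smallM_of_le_one fun i j => ?_) ?_,
      (inv_mul_cancel_right g k).symm, ?_⟩
    · fin_cases i <;> fin_cases j <;>
        simp [k, Matrix.GeneralLinearGroup.mkOfDetNeZero, hr, -map_div₀]
    · simp [k, Matrix.GeneralLinearGroup.mkOfDetNeZero, Matrix.det_fin_two]
    · rw [Units.val_mul, CO.inv_val_fin_two]
      simp [k, Matrix.GeneralLinearGroup.mkOfDetNeZero, Matrix.mul_apply, Fin.sum_univ_two,
        Matrix.det_fin_two, c, d]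
      have hd' : g.val 1 1 ≠ 0 := hd
      field_simp
      ring
  · have hc : c ≠ 0 := fun h0 => by
      rw [h0, map_zero, le_zero_iff, Valuation.zero_iff] at h
      exact g.det_ne_zero (by
        rw [Matrix.det_fin_two, show g.val 1 1 = 0 from h, show g.val 1 0 = 0 from h0]; ring)
    have hr : Valued.v (d / c) ≤ 1 := by rw [map_div₀]; exact div_le_one_of_le₀ h zero_le
    set k := Matrix.GeneralLinearGroup.mkOfDetNeZero (!![0, -1; 1, d / c] : M₂v)
      (by simp [Matrix.det_fin_two])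
    refine ⟨g * k⁻¹, k, CO.mem_locCongr_zero_of_det (CO.smallM_of_le_one fun i j => ?_) ?_,
      (inv_mul_cancel_right g k).symm, ?_⟩
    · fin_cases i <;> fin_cases j <;>
        simp [k, Matrix.GeneralLinearGroup.mkOfDetNeZero, hr, -map_div₀]
    · simp [k, Matrix.GeneralLinearGroup.mkOfDetNeZero, Matrix.det_fin_two]
    · rw [Units.val_mul, CO.inv_val_fin_two]
      simp [k, Matrix.GeneralLinearGroup.mkOfDetNeZero, Matrix.mul_apply, Fin.sum_univ_two,
        Matrix.det_fin_two, c, d]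
      have hc' : g.val 1 0 ≠ 0 := hc
      field_simp
      ring

variable {𝔫 : Ideal (𝓞 L)}

theorem exists_of_mem_locLevel {g : GLv v} (hg : g ∈ locLevel 𝔫 v) :
    ∃ c : v.adicCompletion L, c ≠ 0 ∧ ∃ k : GLv v, k ∈ CO.locCongr v 0 ∧ g.val = c • k.val := by
  obtain ⟨k, hk, z, hz, rfl⟩ := Subgroup.mem_sup_of_normal_right.mp hg
  obtain ⟨c, hc0, hc⟩ := exists_scalar_of_mem_center hz
  refine ⟨c, hc0, k, ?_, by rw [Units.val_mul, hc, Matrix.mul_smul, mul_one]⟩
  obtain ⟨b, -, rfl⟩ := Subgroup.mem_map.mp hk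
  refine CO.mem_locCongr_zero.mpr ⟨CO.smallM_of_le_one fun i j => (b.val i j).2, ?_⟩
  rw [← map_inv]
  exact CO.smallM_of_le_one fun i j => (b⁻¹.val i j).2

/-- The representatives `n(x) k`. -/
def borelSet (𝔫 : Ideal (𝓞 L)) (v : HeightOneSpectrum (𝓞 L)) : Set (LCos 𝔫 v) :=
  {y | ∃ x : v.adicCompletion L, ∃ k ∈ CO.locCongr v 0,
    ((uniMat v x * k : GLv v) : LCos 𝔫 v) = y}

variable {S : Setup} {u : HeightOneSpectrum (𝓞 S.K)} {t : GL (Fin 2) S.K} {a : S.K}
  (ha : (t : Matrix (Fin 2) (Fin 2) S.K) = Matrix.diagonal ![a, 1])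

include ha in
theorem locMat_val : (locMat u t).val = !![loc u a, 0; 0, 1] := by
  refine Matrix.ext fun i j => ?_
  show loc u ((t : Matrix (Fin 2) (Fin 2) S.K) i j) = _
  rw [ha]
  fin_cases i <;> fin_cases j <;> simp

variable (ht : (t : Matrix (Fin 2) (Fin 2) S.K).trace ^ 2 ≠
  4 * (t : Matrix (Fin 2) (Fin 2) S.K).det)

include ha ht in
theorem ne_one_of_regular : a ≠ 1 := by
  rintro rfl
  apply ht
  rw [ha]
  simp
  norm_num

include ha ht in
theorem diag_of_mem_torusAt {g : GLv u} (hg : g ∈ torusAt u t) :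
    g.val 0 1 = 0 ∧ g.val 1 0 = 0 ∧ g.val 0 0 ≠ 0 ∧ g.val 1 1 ≠ 0 := by
  have h := congrArg Units.val (Subgroup.mem_centralizer_singleton_iff.mp hg)
  rw [Units.val_mul, Units.val_mul, locMat_val ha] at h
  have h01 := congrFun (congrFun h 0) 1
  have h10 := congrFun (congrFun h 1) 0
  simp [Matrix.mul_apply, Fin.sum_univ_two] at h01 h10
  have ha1 : loc u a ≠ 1 := fun e => ne_one_of_regular ha ht
    ((loc u).injective (e.trans (map_one _).symm))
  have e01 : g.val 0 1 = 0 := by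
    have : (1 - loc u a) * g.val 0 1 = 0 := by linear_combination h01
    exact (mul_eq_zero.mp this).resolve_left (sub_ne_zero.mpr (Ne.symm ha1))
  have e10 : g.val 1 0 = 0 := by
    have : (1 - loc u a) * g.val 1 0 = 0 := by linear_combination -h10
    exact (mul_eq_zero.mp this).resolve_left (sub_ne_zero.mpr (Ne.symm ha1))
  have hd := g.det_ne_zero
  rw [Matrix.det_fin_two, e01, zero_mul, sub_zero] at hd
  exact ⟨e01, e10, left_ne_zero_of_mul hd, right_ne_zero_of_mul hd⟩

include ha ht in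
theorem valued_eq_of_mem_torusU {g : GLv u} (hg : g ∈ torusU u t) :
    Valued.v (g.val 0 0) = Valued.v (g.val 1 1) := by
  suffices h : g ∈ torusAt u t ∧ Valued.v (g.val 0 0) = Valued.v (g.val 1 1) from h.2
  induction hg using Subgroup.closure_induction with
  | mem g hg =>
    refine ⟨hg.1, ?_⟩
    obtain ⟨e01, e10, h0, h1⟩ := diag_of_mem_torusAt ha ht hg.1
    obtain ⟨c, hcd, hct⟩ := hg.2
    rw [Matrix.det_fin_two, e01, zero_mul, sub_zero, map_mul, map_mul, map_pow] at hcd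
    rw [Matrix.trace_fin_two, map_mul] at hct
    by_contra hne
    rw [Valuation.map_add_of_distinct_val _ hne] at hct
    set A := Valued.v c * Valued.v (g.val 0 0)
    set B := Valued.v c * Valued.v (g.val 1 1)
    have hA : A ≤ 1 := (mul_le_mul' le_rfl (le_max_left _ _)).trans hct
    have hB : B ≤ 1 := (mul_le_mul' le_rfl (le_max_right _ _)).trans hct
    have hAB : A * B = 1 := by rw [← hcd]; simp only [A, B]; rw [sq, mul_mul_mul_comm]
    have hA1 : A = 1 := le_antisymm hA (by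
      calc (1 : ℤᵐ⁰) = A * B := hAB.symm
        _ ≤ A * 1 := mul_le_mul' le_rfl hB
        _ = A := mul_one A)
    have hB1 : B = 1 := le_antisymm hB (by
      calc (1 : ℤᵐ⁰) = A * B := hAB.symm
        _ ≤ 1 * B := mul_le_mul' hA le_rfl
        _ = B := one_mul B)
    have hc : Valued.v c ≠ 0 := fun h => by
      simp only [A, h, zero_mul] at hA1
      exact zero_ne_one hA1
    exact hne (mul_left_cancel₀ hc (hA1.trans hB1.symm))
  | one => exact ⟨one_mem _, by simp⟩
  | mul x y _ _ hx hy =>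
    refine ⟨mul_mem hx.1 hy.1, ?_⟩
    obtain ⟨x01, x10, -, -⟩ := diag_of_mem_torusAt ha ht hx.1
    rw [Units.val_mul, Matrix.mul_apply, Matrix.mul_apply, Fin.sum_univ_two, Fin.sum_univ_two,
      x01, x10]
    simp [hx.2, hy.2]
  | inv x _ hx =>
    refine ⟨inv_mem hx.1, ?_⟩
    obtain ⟨x01, x10, -, -⟩ := diag_of_mem_torusAt ha ht hx.1
    rw [CO.inv_val_fin_two]
    simp [hx.2]

variable (v' : HeightOneSpectrum (𝓞 S.K))

include ha ht in
theorem mem_torusU_of_valued {g : GLv u} (hg : g ∈ torusAt u t)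
    (h : Valued.v (g.val 0 0) = Valued.v (g.val 1 1)) : g ∈ torusU u t := by
  obtain ⟨e01, e10, h0, h1⟩ := diag_of_mem_torusAt ha ht hg
  have hv0 : Valued.v (g.val 1 1) ≠ 0 := (Valuation.ne_zero_iff _).mpr h1
  refine Subgroup.subset_closure ⟨hg, (g.val 1 1)⁻¹, ?_, ?_⟩
  · rw [Matrix.det_fin_two, e01, zero_mul, sub_zero, map_mul, map_mul, map_pow, map_inv₀, h,
      ← sq, ← mul_pow, inv_mul_cancel₀ hv0, one_pow]
  · rw [Matrix.trace_fin_two, map_mul, map_inv₀, inv_mul_le_one₀ (zero_lt_iff.mpr hv0)]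
    exact (Valuation.map_add _ _ _).trans (max_le h.le le_rfl)

include ha ht in
/-- The set of `n(x) k` is fundamental for the diagonal torus. -/
theorem isFundSet_borelSet :
    IsFundSet (torusAt u t) (torusU u t) Set.univ (borelSet (S.levelIdeal S.K) u) where
  subset := Set.subset_univ _
  stable := by
    rintro g hg _ ⟨x, k, hk, rfl⟩
    have hgT := (torusU_le' ht).1 hg
    obtain ⟨e01, e10, h0, h1⟩ := diag_of_mem_torusAt ha ht hgT
    have hval := valued_eq_of_mem_torusU ha ht hg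
    have hv0 : Valued.v (g.val 1 1) ≠ 0 := (Valuation.ne_zero_iff _).mpr h1
    set r := g.val 0 0 / g.val 1 1
    have hr1 : Valued.v r = 1 := by rw [map_div₀, hval, div_self hv0]
    have hr0 : r ≠ 0 := div_ne_zero h0 h1
    set D := Matrix.GeneralLinearGroup.mkOfDetNeZero (!![r, 0; 0, 1] : Matrix (Fin 2) (Fin 2) _)
      (by simp [Matrix.det_fin_two, hr0])
    have hD : D ∈ CO.locCongr u 0 := CO.mem_locCongr_zero_of_det (CO.smallM_of_le_one fun i j => by
      fin_cases i <;> fin_cases j <;> simp [D, Matrix.GeneralLinearGroup.mkOfDetNeZero, hr1]) (by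
      simp [D, Matrix.GeneralLinearGroup.mkOfDetNeZero, Matrix.det_fin_two, hr1])
    refine ⟨r * x, D * k, mul_mem hD hk, ?_⟩
    rw [MulAction.Quotient.smul_coe, smul_eq_mul]
    refine mk_eq_of_pgl (Classes.mk_eq_mk_iff_smul.mpr ⟨g.val 1 1, ?_⟩)
    rw [← mul_assoc g, ← mul_assoc (uniMat u (r * x)), Units.val_mul, Units.val_mul _ k,
      ← Matrix.smul_mul]
    congr 1
    rw [Units.val_mul, Units.val_mul, uniMat_val, uniMat_val]
    refine Matrix.ext fun i j => ?_
    fin_cases i <;> fin_cases j <;>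
      simp [D, r, Matrix.GeneralLinearGroup.mkOfDetNeZero, Matrix.mul_apply, Fin.sum_univ_two,
        e01, e10] <;> field_simp
  cover := by
    rintro y -
    obtain ⟨g, rfl⟩ := QuotientGroup.mk_surjective y
    obtain ⟨b, k, hk, rfl, hb⟩ := exists_upper_mul_integral g
    have hd := b.det_ne_zero
    rw [Matrix.det_fin_two, hb, mul_zero, sub_zero] at hd
    have h0 := left_ne_zero_of_mul hd
    have h1 := right_ne_zero_of_mul hd
    set s := Matrix.GeneralLinearGroup.mkOfDetNeZero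
      (!![(b.val 0 0)⁻¹, 0; 0, (b.val 1 1)⁻¹] : Matrix (Fin 2) (Fin 2) _)
      (by simp [Matrix.det_fin_two, h0, h1])
    refine ⟨s, ?_, b.val 0 1 / b.val 0 0, k, hk, ?_⟩
    · refine Subgroup.mem_centralizer_singleton_iff.mpr (Units.ext ?_)
      rw [Units.val_mul, Units.val_mul, locMat_val ha]
      refine Matrix.ext fun i j => ?_
      fin_cases i <;> fin_cases j <;>
        simp [s, Matrix.GeneralLinearGroup.mkOfDetNeZero, Matrix.mul_apply, Fin.sum_univ_two,
          mul_comm]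
    · rw [MulAction.Quotient.smul_coe, smul_eq_mul, ← mul_assoc]
      congr 2
      refine Units.ext ?_
      rw [Units.val_mul, uniMat_val]
      refine Matrix.ext fun i j => ?_
      fin_cases i <;> fin_cases j <;>
        simp [s, Matrix.GeneralLinearGroup.mkOfDetNeZero, Matrix.mul_apply, Fin.sum_univ_two, hb,
          h0, h1, div_eq_inv_mul]
  unique := by
    rintro _ ⟨x, k, hk, rfl⟩ g hg ⟨x', k', hk', e⟩
    obtain ⟨e01, e10, h0, h1⟩ := diag_of_mem_torusAt ha ht hg
    refine ⟨g, mem_torusU_of_valued ha ht hg ?_, rfl⟩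
    rw [MulAction.Quotient.smul_coe, smul_eq_mul, QuotientGroup.eq] at e
    obtain ⟨c, hc, m, hm, hcm⟩ := exists_of_mem_locLevel e
    set M := k' * m * k⁻¹
    have hM : M ∈ CO.locCongr u 0 := mul_mem (mul_mem hk' hm) (inv_mem hk)
    have e1 : ((uniMat u x')⁻¹ * g * uniMat u x).val = c • M.val := by
      rw [show (uniMat u x')⁻¹ * g * uniMat u x =
        k' * ((uniMat u x' * k')⁻¹ * (g * (uniMat u x * k))) * k⁻¹ by group,
        Units.val_mul, Units.val_mul, hcm, Matrix.mul_smul, Matrix.smul_mul, ← Units.val_mul,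
        ← Units.val_mul]
    rw [uniMat_inv, Units.val_mul, Units.val_mul, uniMat_val, uniMat_val] at e1
    have q00 := congrFun (congrFun e1 0) 0
    have q11 := congrFun (congrFun e1 1) 1
    have q10 := congrFun (congrFun e1 1) 0
    simp [Matrix.mul_apply, Matrix.vecMul, dotProduct, Fin.sum_univ_two, e01, e10, hc] at q00 q11 q10
    have hdet : Valued.v (M.val 0 0) * Valued.v (M.val 1 1) = 1 := by
      have := CO.valued_det_eq_one hM
      rwa [Matrix.det_fin_two, q10, mul_zero, sub_zero, map_mul] at this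
    have hA := (CO.smallM_of_mem hM).le_one 0 0
    have hB := (CO.smallM_of_mem hM).le_one 1 1
    have hA1 : Valued.v (M.val 0 0) = 1 := le_antisymm hA (by
      calc (1 : ℤᵐ⁰) = Valued.v (M.val 0 0) * Valued.v (M.val 1 1) := hdet.symm
        _ ≤ Valued.v (M.val 0 0) * 1 := mul_le_mul' le_rfl hB
        _ = _ := mul_one _)
    rw [q00, q11, map_mul, map_mul, hA1, show Valued.v (M.val 1 1) = 1 by
      rwa [hA1, one_mul] at hdet]

variable (Ψ : S.PsiData) (l : List (HeightOneSpectrum (𝓞 S.F)))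
  (hl : ∀ w ∈ l, ((3 * S.m : ℕ) : 𝓞 S.F) ∉ w.asIdeal)

include hl in
theorem opK_three (hu : (3 : 𝓞 S.K) ∈ u.asIdeal) :
    S.opK Ψ l u = locV4 (S.levelIdeal S.K) u * locPsi (S.levelIdeal S.K) u (Ψ u) := by
  classical
  have hbad : ((3 * S.m : ℕ) : 𝓞 S.K) ∈ u.asIdeal := by
    push_cast; exact Ideal.mul_mem_right _ _ hu
  have hfil : l.filter (fun w => decide (S.underK w = u)) = [] := by
    refine List.filter_eq_nil_iff.mpr fun w hw h => hl w hw ?_
    have h' : S.inclInt ((3 * S.m : ℕ) : 𝓞 S.K) ∈ w.asIdeal := by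
      have h0 := hbad
      rw [← of_decide_eq_true h] at h0
      exact h0
    rwa [map_natCast] at h'
  rw [Setup.opK, hfil, List.map_nil, List.prod_nil, mul_one, locLevelOp,
    if_pos ((S.mem_badPlaces_iff S.K u).mpr hbad), if_pos hu]

include hl in
theorem lKer_opK_three_smul (hu : (3 : 𝓞 S.K) ∈ u.asIdeal) (g : GLv u)
    (b c : LCos (S.levelIdeal S.K) u) :
    lKer (S.opK Ψ l u) (g • b) (g • c) = lKer (S.opK Ψ l u) b c := by
  rw [opK_three Ψ l hl hu, lKer_v4Psi_smul (Ψ u) hu]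

include hl in
theorem bK_three_smul (hu : (3 : 𝓞 S.K) ∈ u.asIdeal) {g : GLv u} (hg : g ∈ torusAt u t)
    (y : LCos (S.levelIdeal S.K) u) : S.bK Ψ l t u (g • y) = S.bK Ψ l t u y := by
  have e : locMat u t * g = g * locMat u t :=
    (Subgroup.mem_centralizer_singleton_iff.mp hg).symm
  rw [Setup.bK, Setup.bK, ← mul_smul, e, mul_smul, lKer_opK_three_smul Ψ l hl hu]

include ha ht hl in
/-- The orbital sum vanishes. -/
theorem sum_bK_three_eq_zero (hΨ : Ψ.Nontriv) (hu : (3 : 𝓞 S.K) ∈ u.asIdeal)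
    {ΩK : Set (LCos (S.levelIdeal S.K) u)}
    (hK : IsFundSet (torusAt u t) (torusU u t) Set.univ ΩK) :
    ∑ᶠ y ∈ ΩK, S.bK Ψ l t u y = 0 := by
  classical
  have hbad : ((3 * S.m : ℕ) : 𝓞 S.K) ∈ u.asIdeal := by
    push_cast; exact Ideal.mul_mem_right _ _ hu
  have hs := (S.mem_badPlaces_iff S.K u).mpr hbad
  obtain ⟨hl1, hl2⟩ := S.badPlaces_level S.K u hs
  have hcard := S.card_residue_three_K u hs hu
  have ha1 : loc u a - 1 ≠ 0 := fun e => ne_one_of_regular ha ht
    ((loc u).injective ((sub_eq_zero.mp e).trans (map_one _).symm))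
  set e₀ := (loc u a - 1)⁻¹
  set R := uniMat u e₀
  set Ω := borelSet (S.levelIdeal S.K) u
  set f := fun y => S.bK Ψ l t u y
  have hΩ := isFundSet_borelSet (u := u) ha ht
  rw [(hK.finsum_eq (torusU_le' ht).1 (torusAt_comm' ht) hΩ
    (Φ := f) fun g hg y _ => bK_three_smul Ψ l hl hu hg y).2]
  -- a translation multiplies the kernel by a nontrivial cube root of unity
  have key : ∀ x : u.adicCompletion S.K, ∀ k ∈ CO.locCongr u 0, ∃ ω : ℂ, ω ≠ 1 ∧ ω ^ 3 = 1 ∧
      ∀ x', f ((uniMat u (e₀ + x') * k : GLv u) : LCos (S.levelIdeal S.K) u) =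
        ω * f ((uniMat u x' * k : GLv u) : LCos (S.levelIdeal S.K) u) := by
    intro x k hk
    obtain ⟨ω, hω1, hω3, hω⟩ := lKer_v4Psi_conj (ψ := Ψ) (S.levelIdeal_ne_bot S.K) hl1 hl2 hu hcard
      (hΨ u hbad) hk
    obtain ⟨hω2, hω2'⟩ : ω ^ 2 ≠ 1 ∧ (ω ^ 2) ^ 3 = 1 :=
      ⟨fun h => hω1 (by rw [← hω3, pow_succ, h, one_mul]), by rw [← pow_mul, mul_comm, pow_mul, hω3, one_pow]⟩
    refine ⟨ω ^ 2, hω2, hω2', fun x' => ?_⟩
    set g := uniMat u x' * k
    set y₀ : LCos (S.levelIdeal S.K) u := (g : LCos (S.levelIdeal S.K) u)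
    set b := locMat u t
    have hb : R⁻¹ * b * R = uniMat u 1 * b := by
      refine Units.ext ?_
      rw [uniMat_inv, Units.val_mul, Units.val_mul, Units.val_mul, uniMat_val, uniMat_val,
        uniMat_val, locMat_val ha]
      refine Matrix.ext fun i j => ?_
      fin_cases i <;> fin_cases j <;> simp [Matrix.mul_apply, Fin.sum_univ_two]
      rw [show loc u a * e₀ + -e₀ = (loc u a - 1) * e₀ by ring, mul_inv_cancel₀ ha1]
    have e1 : ((uniMat u (e₀ + x') * k : GLv u) : LCos (S.levelIdeal S.K) u) = R • y₀ := by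
      rw [show R • y₀ = ((R * g : GLv u) : LCos (S.levelIdeal S.K) u) from rfl, ← mul_assoc,
        uniMat_mul]
    have e2 : ((uniMat u 1)⁻¹ * g : GLv u) * (k⁻¹ * transLoc u 1 * k) = g := by
      have hc : ∀ x y, uniMat u x * uniMat u y = uniMat u y * uniMat u x := fun x y => by
        rw [uniMat_mul, uniMat_mul, add_comm]
      have ht1 : transLoc u 1 = uniMat u 1 := by simp [transLoc, uniMat]
      rw [ht1, show (uniMat u 1)⁻¹ * g * (k⁻¹ * uniMat u 1 * k) =
        (uniMat u 1)⁻¹ * (uniMat u x' * uniMat u 1) * k by simp only [g]; group, hc, inv_mul_cancel_left]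
    have hA := opK_three Ψ l hl hu
    rw [e1]
    show lKer (S.opK Ψ l u) (R • y₀) (b • R • y₀) = ω ^ 2 * lKer (S.opK Ψ l u) y₀ (b • y₀)
    rw [← lKer_opK_three_smul Ψ l hl hu R⁻¹ (R • y₀), inv_smul_smul, smul_smul, smul_smul,
      hb, ← smul_smul, ← lKer_opK_three_smul Ψ l hl hu (uniMat u 1)⁻¹ y₀, inv_smul_smul, hA,
      show (uniMat u 1)⁻¹ • y₀ =
        (((uniMat u 1)⁻¹ * g : GLv u) : LCos (S.levelIdeal S.K) u) from rfl]
    have := hω ((uniMat u 1)⁻¹ * g) (b • y₀)
    rw [e2] at this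
    simp only [g, y₀] at this ⊢
    rw [this, ← mul_assoc (ω ^ 2), ← pow_succ, hω3, one_mul]
  have hmem : ∀ y ∈ Ω, R • y ∈ Ω := by
    rintro _ ⟨x, k, hk, rfl⟩
    exact ⟨e₀ + x, k, hk, by rw [MulAction.Quotient.smul_coe, smul_eq_mul, ← mul_assoc, uniMat_mul]⟩
  have hinv : ∀ y ∈ Ω, R⁻¹ • y ∈ Ω := by
    rintro _ ⟨x, k, hk, rfl⟩
    exact ⟨-e₀ + x, k, hk, by
      rw [MulAction.Quotient.smul_coe, smul_eq_mul, ← mul_assoc, uniMat_inv, uniMat_mul]⟩
  have hbij : Set.BijOn (fun y => R • y) Ω Ω :=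
    ⟨hmem, (MulAction.injective R).injOn,
      fun y hy => ⟨R⁻¹ • y, hinv y hy, smul_inv_smul R y⟩⟩
  have hshift : ∀ F : LCos (S.levelIdeal S.K) u → ℂ,
      ∑ᶠ y ∈ Ω, F y = ∑ᶠ y ∈ Ω, F (R • y) := fun F =>
    (finsum_mem_eq_of_bijOn _ hbij fun y _ => rfl).symm
  have hrel : ∀ y ∈ Ω, (∃ ω : ℂ, f (R • y) = ω * f y ∧ f (R • R • y) = ω * (ω * f y) ∧
      ω ≠ 1 ∧ ω ^ 3 = 1) := by
    rintro _ ⟨x, k, hk, rfl⟩
    obtain ⟨ω, hω1, hω3, hω⟩ := key x k hk
    refine ⟨ω, ?_, ?_, hω1, hω3⟩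
    · rw [MulAction.Quotient.smul_coe, smul_eq_mul, ← mul_assoc, uniMat_mul, hω]
    · rw [MulAction.Quotient.smul_coe, MulAction.Quotient.smul_coe, smul_eq_mul, smul_eq_mul,
        ← mul_assoc R (uniMat u x), uniMat_mul, ← mul_assoc, uniMat_mul, hω, hω]
  have hfin : (Ω ∩ Function.support f).Finite := finite_supp_bK' ht Ψ l hΩ
  have hsub : ∀ F : LCos (S.levelIdeal S.K) u → ℂ, (∀ y ∈ Ω, f y = 0 → F y = 0) →
      (Ω ∩ Function.support F).Finite := fun F hF =>
    hfin.subset fun y hy => ⟨hy.1, fun h => hy.2 (hF y hy.1 h)⟩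
  have hf1 := hsub (fun y => f (R • y)) fun y hy h => by
    obtain ⟨ω, h1, -, -, -⟩ := hrel y hy
    show f (R • y) = 0
    rw [h1, h, mul_zero]
  have hf2 := hsub (fun y => f (R • R • y)) fun y hy h => by
    obtain ⟨ω, -, h2, -, -⟩ := hrel y hy
    show f (R • R • y) = 0
    rw [h2, h, mul_zero, mul_zero]
  have htotal : ∑ᶠ y ∈ Ω, (f y + f (R • y) + f (R • R • y)) = 0 := by
    refine finsum_mem_eq_zero_of_forall_eq_zero fun y hy => ?_
    obtain ⟨ω, h1, h2, hω1, hω3⟩ := hrel y hy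
    rw [h1, h2]
    have : ω ^ 2 + ω + 1 = 0 := by
      have h0 : (ω - 1) * (ω ^ 2 + ω + 1) = 0 := by linear_combination hω3
      exact (mul_eq_zero.mp h0).resolve_left (sub_ne_zero.mpr hω1)
    linear_combination (f y) * this
  have hf01 := hsub (fun y => f y + f (R • y)) fun y hy h => by
    obtain ⟨ω, h1, -, -, -⟩ := hrel y hy
    show f y + f (R • y) = 0
    rw [h1, h, mul_zero, add_zero]
  rw [finsum_mem_add_distrib' hf01 hf2, finsum_mem_add_distrib' hfin hf1,
    ← hshift fun y => f (R • y), ← hshift f] at htotal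
  have h3 : (3 : ℂ) * ∑ᶠ y ∈ Ω, f y = 0 := by linear_combination htotal
  exact (mul_eq_zero.mp h3).resolve_left (by norm_num)

end FermatAgent.LT
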