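import Mathlib
import Fermat.Agent.LT.Descent.Geom.LocalSetup
import Fermat.Agent.LT.Descent.Geom.Local.Generalities
import Fermat.Agent.LT.Descent.Geom.Local.AlmostAll
import Fermat.Agent.LT.Descent.Geom.Local.OpBdd
import Fermat.Agent.LT.Descent.Geom.Local.InertPlace
import Fermat.Agent.LT.Descent.Geom.Local.SplitPlace
import Fermat.Agent.LT.Descent.Geom.Local.TameSum
import Fermat.Agent.LT.Descent.Geom.Local.ThreeSum

set_option autoImplicit false

/-!
# The orbital sums at a place of `K`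
-/

noncomputable section

open NumberField IsDedekindDomain WithZero Filter
open scoped MatrixGroups

namespace FermatAgent.LT

open Inert (IsFundSet)

variable {S : Setup} {σ : S.F ≃+* S.F} (hσ : S.IsGalGen σ) {t : GL (Fin 2) S.K}
  (ht : (t : Matrix (Fin 2) (Fin 2) S.K).trace ^ 2 ≠ 4 * (t : Matrix (Fin 2) (Fin 2) S.K).det)

/-! ### Generalities -/

include ht in
theorem torusU_le (v : HeightOneSpectrum (𝓞 S.K)) : torusU v t ≤ torusAt v t ∧
    ∀ g ∈ torusU v t, IsUnitElt v g :=
  torusU_le' ht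

-- the unused hypotheses keep the uniform signature of the section
set_option linter.unusedSectionVars false in
include ht in
theorem stabilizer_le_torusU (v : HeightOneSpectrum (𝓞 S.K)) (y : LCos (S.levelIdeal S.K) v)
    (x : S.XF v) : ∀ g ∈ torusAt v t, (g • y = y ∨ g • x = x) → g ∈ torusU v t := by
  obtain ⟨σ, hσ⟩ := S.exists_isGalGen
  rintro g hg (h | h)
  · exact mem_torusU_of_smul_eq hg h
  · exact mem_torusU_of_smul_eq_F hσ hg h

include ht in
theorem finite_torusU_orbit (v : HeightOneSpectrum (𝓞 S.K)) (y : LCos (S.levelIdeal S.K) v)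
    (x : S.XF v) : ((fun g => g • y) '' (torusU v t : Set (GLv v))).Finite ∧
      ((fun g => g • x) '' (torusU v t : Set (GLv v))).Finite :=
  ⟨finite_torusU_orbit' ht y, finite_torusU_orbit_F ht x⟩

include ht in
/-- Almost all places see a single orbit point. -/
theorem eventually_single_orbit :
    ∀ᶠ v in cofinite, (∀ g ∈ torusU v t, g ∈ locLevel (S.levelIdeal S.K) v) ∧
      ∀ y : LCos (S.levelIdeal S.K) v, locMat v t • y = y → ∃ g ∈ torusAt v t,
        g • ((1 : GLv v) : LCos (S.levelIdeal S.K) v) = y :=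
  eventually_single_orbit' ht

variable (Ψ : S.PsiData) (hΨ : Ψ.Nontriv) (l : List (HeightOneSpectrum (𝓞 S.F)))
  (hl : ∀ w ∈ l, ((3 * S.m : ℕ) : 𝓞 S.F) ∉ w.asIdeal)

include ht in
theorem finite_supp_bK (v : HeightOneSpectrum (𝓞 S.K)) {ΩK : Set (LCos (S.levelIdeal S.K) v)}
    (hK : IsFundSet (torusAt v t) (torusU v t) Set.univ ΩK) :
    (ΩK ∩ Function.support (S.bK Ψ l t v)).Finite :=
  finite_supp_bK' ht Ψ l hK

/-! ### Matching -/

-- the unused hypotheses keep the uniform signature of the section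
set_option linter.unusedSectionVars false in
include hΨ hl in
/-- The orbital sums of `F` and of `K` agree. -/
theorem local_matching {δ : GL (Fin 2) S.F} (h : S.IsNormPair σ t δ)
    (v : HeightOneSpectrum (𝓞 S.K)) {ΩF : Set (S.XF v)} {ΩK : Set (LCos (S.levelIdeal S.K) v)}
    (hF : IsFundSet (torusAt v t) (torusU v t) Set.univ ΩF)
    (hK : IsFundSet (torusAt v t) (torusU v t) Set.univ ΩK) :
    (ΩF ∩ Function.support (S.bF Ψ l hσ δ v)).Finite ∧
      ∑ᶠ x ∈ ΩF, S.bF Ψ l hσ δ v x = ∑ᶠ y ∈ ΩK, S.bK Ψ l t v y := by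
  rcases moved_or_fixed hσ v with hmv | ⟨hin, -⟩
  · exact local_matching_split hσ Ψ l hl h hmv hF hK
  by_cases hv : ((3 * S.m : ℕ) : 𝓞 S.K) ∈ v.asIdeal
  · push_cast at hv
    rcases v.isPrime.mem_or_mem hv with h3 | hm
    · obtain ⟨w⟩ := S.exists_overK v
      refine absurd (hin w) (galPlace_ne_of_three hσ ?_)
      have h' : S.inclInt (3 : 𝓞 S.K) ∈ w.1.asIdeal := by
        have h3' := h3
        rw [← w.2] at h3'
        exact h3'
      rwa [map_ofNat] at h'
    · exact local_matching_tame hσ hm Ψ l hl h hF hK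
  · exact local_matching_inert hσ Ψ l hv hin h hF hK

-- the unused hypotheses keep the uniform signature of the section
set_option linter.unusedSectionVars false in
include hΨ hl in
/-- At a split place a slot may carry an invariant weight. -/
theorem local_matching_slot {δ : GL (Fin 2) S.F} (h : S.IsNormPair σ t δ)
    (v : HeightOneSpectrum (𝓞 S.K)) (w : S.OverK v) (hw : galPlace σ w.1 ≠ w.1)
    (f : LCos (S.levelIdeal S.F) w.1 → ℂ)
    (hf : ∀ g ∈ torusAt v t, ∀ x : S.XF v, f ((g • x) w) = f (x w))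
    {ΩF : Set (S.XF v)} {ΩK : Set (LCos (S.levelIdeal S.K) v)}
    (hF : IsFundSet (torusAt v t) (torusU v t) Set.univ ΩF)
    (hK : IsFundSet (torusAt v t) (torusU v t) Set.univ ΩK) :
    ∑ᶠ x ∈ ΩF, S.bF Ψ l hσ δ v x * f (x w) =
      ∑ᶠ y ∈ ΩK, S.bK Ψ l t v y * f (S.inclLCos w y) :=
  (split_matching_weight hσ Ψ l hl h w hw f hf hF hK).2

/-! ### Vanishing -/

-- the unused hypotheses keep the uniform signature of the section
set_option linter.unusedSectionVars false in
include hΨ hl in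
/-- At the places dividing `m` the eigenvalue ratio must be congruent to one. -/
theorem bK_eq_zero_tame {v : HeightOneSpectrum (𝓞 S.K)} (hv : (S.m : 𝓞 S.K) ∈ v.asIdeal)
    (hr : ¬ v.valuation S.K ((t : Matrix (Fin 2) (Fin 2) S.K).trace ^ 2 /
        (t : Matrix (Fin 2) (Fin 2) S.K).det - 4) < 1)
    (y : LCos (S.levelIdeal S.K) v) : S.bK Ψ l t v y = 0 :=
  bK_eq_zero_of_tame hv Ψ l hl hr y

-- the unused hypotheses keep the uniform signature of the section
set_option linter.unusedSectionVars false in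
include hσ hΨ hl ht in
/-- At inert places the eigenvalue ratio must have valuation divisible by three. -/
theorem sum_bK_eq_zero_inert {v : HeightOneSpectrum (𝓞 S.K)}
    (hv : ((3 * S.m : ℕ) : 𝓞 S.K) ∉ v.asIdeal) (hin : ∀ w : S.OverK v, galPlace σ w.1 = w.1)
    {k : ℤ} (hk : ¬ (3 : ℤ) ∣ k) (hk0 : 0 < k)
    (hr : v.valuation S.K ((t : Matrix (Fin 2) (Fin 2) S.K).trace ^ 2 /
        (t : Matrix (Fin 2) (Fin 2) S.K).det) = exp k)
    {ΩK : Set (LCos (S.levelIdeal S.K) v)}
    (hK : IsFundSet (torusAt v t) (torusU v t) Set.univ ΩK) :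
    ∑ᶠ y ∈ ΩK, S.bK Ψ l t v y = 0 :=
  (sum_bK_eq_zero_good_inert hσ Ψ l hv hin ht hk hk0 hr hK).2

include hΨ hl ht in
/-- Over `3` the orbital sums of split elements vanish. -/
theorem sum_bK_eq_zero_three {v : HeightOneSpectrum (𝓞 S.K)} (hv : (3 : 𝓞 S.K) ∈ v.asIdeal)
    {a : S.K} (ha : (t : Matrix (Fin 2) (Fin 2) S.K) = Matrix.diagonal ![a, 1])
    {ΩK : Set (LCos (S.levelIdeal S.K) v)}
    (hK : IsFundSet (torusAt v t) (torusU v t) Set.univ ΩK) :
    ∑ᶠ y ∈ ΩK, S.bK Ψ l t v y = 0 :=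
  sum_bK_three_eq_zero ha ht Ψ l hl hΨ hv hK

end FermatAgent.LT
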